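import Mathlib

set_option autoImplicit false

open scoped MatrixGroups ModularForm Manifold Topology
open UpperHalfPlane ModularForm Filter PeriodPair EisensteinSeries

namespace Fermat.Agent.S20lib
namespace JInj

/-- The differential equation of `℘`, written for the regular parts `R = ℘[L - 0]`, `D = ℘'[L - 0]`,
valid near `0` (including at `0`). -/
theorem ode_regular (L : PeriodPair) :
    ∀ᶠ z in 𝓝 (0 : ℂ), (℘'[L - (0 : ℂ)] z * z ^ 3 - 2) ^ 2 =
      4 * (℘[L - (0 : ℂ)] z * z ^ 2 + 1) ^ 3 - L.g₂ * (℘[L - (0 : ℂ)] z * z ^ 6 + z ^ 4)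
        - L.g₃ * z ^ 6 := by
  filter_upwards [L.compl_lattice_sdiff_singleton_mem_nhds 0] with z hz
  by_cases hz0 : z = 0
  · subst hz0
    norm_num
  have hz' : z ∉ L.lattice := by simp_all
  have h := L.derivWeierstrassP_sq z hz'
  have h1 : ℘[L - (0 : ℂ)] z = ℘[L] z + (1 / (0 : ℂ) ^ 2 - 1 / (z - 0) ^ 2) := by
    have := L.weierstrassPExcept_def (0 : L.lattice) z
    simpa using this
  have h2 : ℘'[L - (0 : ℂ)] z = ℘'[L] z + 2 / (z - 0) ^ 3 := by
    have := L.derivWeierstrassPExcept_def (0 : L.lattice) z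
    simpa using this
  have e1 : ℘[L] z = ℘[L - (0 : ℂ)] z + 1 / z ^ 2 := by
    rw [h1]; simp
  have e2 : ℘'[L] z = ℘'[L - (0 : ℂ)] z - 2 / z ^ 3 := by
    rw [h2]; simp
  rw [e1, e2] at h
  have hz3 : z ^ 3 ≠ 0 := pow_ne_zero _ hz0
  have hz2 : z ^ 2 ≠ 0 := pow_ne_zero _ hz0
  have key : (℘'[L - (0 : ℂ)] z * z ^ 3 - 2) ^ 2 = (℘'[L - (0 : ℂ)] z - 2 / z ^ 3) ^ 2 * z ^ 6 := by
    field_simp
  rw [key, h]
  field_simp

theorem natCast_mul_pow_pred_mul (n : ℕ) (z : ℂ) : (n : ℂ) * z ^ (n - 1) * z = n * z ^ n := by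
  cases n with
  | zero => simp
  | succ m => simp [pow_succ, mul_assoc]

/-- Two lattices with the same `g₂`, `g₃` have the same regular part of `℘` near `0`. -/
theorem regular_part_eventuallyEq (L L' : PeriodPair) (h2 : L.g₂ = L'.g₂) (h3 : L.g₃ = L'.g₃) :
    ℘[L - (0 : ℂ)] =ᶠ[𝓝 0] ℘[L' - (0 : ℂ)] := by
  have hR₁ : AnalyticAt ℂ ℘[L - (0 : ℂ)] 0 := L.analyticAt_weierstrassPExcept 0
  have hR₂ : AnalyticAt ℂ ℘[L' - (0 : ℂ)] 0 := L'.analyticAt_weierstrassPExcept 0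
  have hD₁ : AnalyticAt ℂ ℘'[L - (0 : ℂ)] 0 := L.analyticAt_derivWeierstrassPExcept 0
  have hD₂ : AnalyticAt ℂ ℘'[L' - (0 : ℂ)] 0 := L'.analyticAt_derivWeierstrassPExcept 0
  set d : ℂ → ℂ := fun z => ℘[L - (0 : ℂ)] z - ℘[L' - (0 : ℂ)] z with hd_def
  have hd : AnalyticAt ℂ d 0 := hR₁.sub hR₂
  by_contra hne
  have hne' : ¬ (∀ᶠ z in 𝓝 (0 : ℂ), d z = 0) := by
    intro h
    apply hne
    filter_upwards [h] with z hz
    exact sub_eq_zero.mp hz
  obtain ⟨n, e, he_an, he_ne, he_eq⟩ := hd.exists_eventuallyEq_pow_smul_nonzero_iff.mpr hne'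
  -- derivative of `d`
  have hderiv_d : ∀ᶠ z in 𝓝 (0 : ℂ), deriv d z = ℘'[L - (0 : ℂ)] z - ℘'[L' - (0 : ℂ)] z := by
    filter_upwards [L.compl_lattice_sdiff_singleton_mem_nhds 0,
      L'.compl_lattice_sdiff_singleton_mem_nhds 0] with z hz hz'
    have d1 : DifferentiableAt ℂ ℘[L - (0 : ℂ)] z :=
      (L.differentiableOn_weierstrassPExcept 0).differentiableAt
        (L.isOpen_compl_lattice_sdiff.mem_nhds hz)
    have d2 : DifferentiableAt ℂ ℘[L' - (0 : ℂ)] z :=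
      (L'.differentiableOn_weierstrassPExcept 0).differentiableAt
        (L'.isOpen_compl_lattice_sdiff.mem_nhds hz')
    rw [hd_def, deriv_fun_sub d1 d2, L.eqOn_deriv_weierstrassPExcept_derivWeierstrassPExcept 0 hz,
      L'.eqOn_deriv_weierstrassPExcept_derivWeierstrassPExcept 0 hz']
  have he_eq' : ∀ᶠ z in 𝓝 (0 : ℂ), d z = z ^ n * e z := by
    filter_upwards [he_eq] with z hz
    simpa using hz
  have hderiv_e : ∀ᶠ z in 𝓝 (0 : ℂ), z * deriv d z = n * z ^ n * e z + z ^ (n + 1) * deriv e z := by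
    have hdd : deriv d =ᶠ[𝓝 0] deriv (fun z => z ^ n * e z) :=
      (show d =ᶠ[𝓝 0] fun z => z ^ n * e z from he_eq').deriv
    filter_upwards [hdd, he_an.eventually_analyticAt] with z hz hez
    rw [hz]
    have hed : DifferentiableAt ℂ e z := hez.differentiableAt
    have hpd : DifferentiableAt ℂ (fun z : ℂ => z ^ n) z := by fun_prop
    rw [deriv_fun_mul hpd hed]
    have : deriv (fun z : ℂ => z ^ n) z = n * z ^ (n - 1) := by simp
    rw [this]
    have := natCast_mul_pow_pred_mul n z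
    linear_combination e z * this
  -- the key relation
  set Φ : ℂ → ℂ := fun z => -4 * (n * e z + z * deriv e z) - 12 * e z
      - z ^ 2 * (-z * (℘'[L - (0 : ℂ)] z + ℘'[L' - (0 : ℂ)] z) * (n * e z + z * deriv e z)
        + (4 * z ^ 2 * (℘[L - (0 : ℂ)] z ^ 2 + ℘[L - (0 : ℂ)] z * ℘[L' - (0 : ℂ)] z
            + ℘[L' - (0 : ℂ)] z ^ 2)
          + 12 * (℘[L - (0 : ℂ)] z + ℘[L' - (0 : ℂ)] z) - L.g₂ * z ^ 2) * e z) with hΦ_def
  have hΦ : ∀ᶠ z in 𝓝 (0 : ℂ), z ^ (n + 2) * Φ z = 0 := by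
    filter_upwards [ode_regular L, ode_regular L', hderiv_d, he_eq', hderiv_e] with z E1 E2 hdz hez hdez
    rw [← h2, ← h3] at E2
    have hdz' : ℘'[L - (0 : ℂ)] z = ℘'[L' - (0 : ℂ)] z + deriv d z := by rw [hdz]; ring
    have hez' : ℘[L - (0 : ℂ)] z = ℘[L' - (0 : ℂ)] z + d z := by rw [hd_def]; ring
    -- from E1 - E2
    have key : -4 * z ^ 2 * (z * deriv d z) - 12 * z ^ 2 * d z
        = z ^ 5 * (-(℘'[L - (0 : ℂ)] z + ℘'[L' - (0 : ℂ)] z)) * (z * deriv d z)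
          + (4 * z ^ 6 * (℘[L - (0 : ℂ)] z ^ 2 + ℘[L - (0 : ℂ)] z * ℘[L' - (0 : ℂ)] z
              + ℘[L' - (0 : ℂ)] z ^ 2)
            + 12 * z ^ 4 * (℘[L - (0 : ℂ)] z + ℘[L' - (0 : ℂ)] z) - L.g₂ * z ^ 6) * d z := by
      rw [hdz', hez']
      rw [hdz', hez'] at E1
      linear_combination E1 - E2
    rw [hdez, hez] at key
    rw [hΦ_def]
    simp only
    linear_combination key
  have hcont : ContinuousAt Φ 0 := by
    have c1 : ContinuousAt e 0 := he_an.continuousAt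
    have c2 : ContinuousAt (deriv e) 0 := he_an.deriv.continuousAt
    have c3 := hR₁.continuousAt
    have c4 := hR₂.continuousAt
    have c5 := hD₁.continuousAt
    have c6 := hD₂.continuousAt
    rw [hΦ_def]
    fun_prop
  have hΦ0 : Φ 0 ≠ 0 := by
    have : Φ 0 = -(4 * n + 12) * e 0 := by
      rw [hΦ_def]; simp; ring
    rw [this]
    refine mul_ne_zero ?_ he_ne
    have : (4 * (n : ℂ) + 12) ≠ 0 := by
      have : (4 * (n : ℂ) + 12) = ((4 * n + 12 : ℕ) : ℂ) := by push_cast; ring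
      rw [this]
      exact_mod_cast (by omega : 4 * n + 12 ≠ 0)
    exact neg_ne_zero.mpr this
  have hev := (hcont.eventually_ne hΦ0).and hΦ
  have hev' : ∀ᶠ z in 𝓝[≠] (0 : ℂ), z = 0 := by
    refine (hev.filter_mono nhdsWithin_le_nhds).mono fun z hz => ?_
    rcases mul_eq_zero.mp hz.2 with h | h
    · exact pow_eq_zero_iff (by omega) |>.mp h
    · exact absurd h hz.1
  obtain ⟨z, hz0, hz1⟩ := (hev'.and self_mem_nhdsWithin).exists
  exact hz1 hz0

theorem weierstrassP_eq_regular_add (L : PeriodPair) (z : ℂ) :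
    ℘[L] z = ℘[L - (0 : ℂ)] z + 1 / z ^ 2 := by
  have := L.weierstrassPExcept_def (0 : L.lattice) z
  simp only [ZeroMemClass.coe_zero, sub_zero] at this
  rw [this]
  simp

theorem lattice_countable (L : PeriodPair) : (L.lattice : Set ℂ).Countable := by
  have : Countable L.lattice := inferInstance
  exact Set.countable_coe_iff.mp this

/-- One inclusion of lattices, from equality of `g₂` and `g₃`. -/
theorem lattice_le_of_g_eq (L L' : PeriodPair) (h2 : L.g₂ = L'.g₂) (h3 : L.g₃ = L'.g₃) :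
    (L.lattice : Set ℂ) ⊆ (L'.lattice : Set ℂ) := by
  -- `℘[L] = ℘[L']` near `0`
  have hP : ℘[L] =ᶠ[𝓝 0] ℘[L'] := by
    filter_upwards [regular_part_eventuallyEq L L' h2 h3] with z hz
    rw [weierstrassP_eq_regular_add, weierstrassP_eq_regular_add, hz]
  set U : Set ℂ := ((L.lattice : Set ℂ) ∪ (L'.lattice : Set ℂ))ᶜ with hU
  have hUconn : IsPreconnected U := by
    have hc : ((L.lattice : Set ℂ) ∪ (L'.lattice : Set ℂ)).Countable :=
      (lattice_countable L).union (lattice_countable L')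
    have hrank : 1 < Module.rank ℝ ℂ := by
      rw [Complex.rank_real_complex]
      norm_num
    exact (hc.isConnected_compl_of_one_lt_rank hrank).isPreconnected
  have hUL : U ⊆ (L.lattice : Set ℂ)ᶜ := fun z hz hzL => hz (Or.inl hzL)
  have hUL' : U ⊆ (L'.lattice : Set ℂ)ᶜ := fun z hz hzL => hz (Or.inr hzL)
  have hf : AnalyticOnNhd ℂ ℘[L] U := L.analyticOnNhd_weierstrassP.mono hUL
  have hg : AnalyticOnNhd ℂ ℘[L'] U := L'.analyticOnNhd_weierstrassP.mono hUL'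
  -- a small nonzero point
  have hnhds : ∀ᶠ z in 𝓝 (0 : ℂ), (℘[L] z = ℘[L'] z) ∧ z ∈ ((L.lattice : Set ℂ) \ {0})ᶜ ∧
      z ∈ ((L'.lattice : Set ℂ) \ {0})ᶜ :=
    hP.and (Filter.Eventually.and (L.compl_lattice_sdiff_singleton_mem_nhds 0)
      (L'.compl_lattice_sdiff_singleton_mem_nhds 0))
  obtain ⟨r, hr, hball⟩ := Metric.eventually_nhds_iff_ball.mp hnhds
  set z₀ : ℂ := ((r / 2 : ℝ) : ℂ) with hz₀
  have hz₀ne : z₀ ≠ 0 := by
    rw [hz₀]
    exact_mod_cast (by positivity : (r / 2 : ℝ) ≠ 0)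
  have hz₀ball : z₀ ∈ Metric.ball (0 : ℂ) r := by
    rw [Metric.mem_ball, dist_zero_right, hz₀, Complex.norm_real, Real.norm_eq_abs,
      abs_of_pos (by positivity)]
    linarith
  have hz₀U : z₀ ∈ U := by
    obtain ⟨-, h1, h2⟩ := hball z₀ hz₀ball
    intro h
    rcases h with h | h
    · exact h1 ⟨h, hz₀ne⟩
    · exact h2 ⟨h, hz₀ne⟩
  have hfg : ℘[L] =ᶠ[𝓝 z₀] ℘[L'] := by
    have : Metric.ball (0 : ℂ) r ∈ 𝓝 z₀ := Metric.isOpen_ball.mem_nhds hz₀ball
    filter_upwards [this] with z hz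
    exact (hball z hz).1
  have hEq : Set.EqOn ℘[L] ℘[L'] U := hf.eqOn_of_preconnected_of_eventuallyEq hg hUconn hz₀U hfg
  -- now the poles
  intro l hl
  by_contra hl'
  have hnear : ∀ᶠ z in 𝓝[≠] l, z ∈ U := by
    have h1 : ∀ᶠ z in 𝓝 l, z ∈ ((L.lattice : Set ℂ) \ {l})ᶜ :=
      L.compl_lattice_sdiff_singleton_mem_nhds l
    have h2 : ∀ᶠ z in 𝓝 l, z ∈ (L'.lattice : Set ℂ)ᶜ :=
      L'.isClosed_lattice.isOpen_compl.mem_nhds hl'
    have h3 : ∀ᶠ z in 𝓝[≠] l, z ≠ l := self_mem_nhdsWithin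
    filter_upwards [h1.filter_mono nhdsWithin_le_nhds, h2.filter_mono nhdsWithin_le_nhds, h3]
      with z hz1 hz2 hz3
    intro h
    rcases h with h | h
    · exact hz1 ⟨h, hz3⟩
    · exact hz2 h
  have hcongr : ℘[L] =ᶠ[𝓝[≠] l] ℘[L'] := hnear.mono fun z hz => hEq hz
  have ho := meromorphicOrderAt_congr hcongr
  rw [L.order_weierstrassP l hl] at ho
  have hnn : 0 ≤ meromorphicOrderAt ℘[L'] l :=
    (L'.analyticOnNhd_weierstrassP l hl').meromorphicOrderAt_nonneg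
  rw [← ho] at hnn
  exact absurd hnn (by decide)

theorem lattice_eq_of_g_eq (L L' : PeriodPair) (h2 : L.g₂ = L'.g₂) (h3 : L.g₃ = L'.g₃) :
    L.lattice = L'.lattice :=
  SetLike.coe_injective <| Set.Subset.antisymm (lattice_le_of_g_eq L L' h2 h3)
    (lattice_le_of_g_eq L' L h2.symm h3.symm)

theorem indep_mul (c : ℂ) (hc : c ≠ 0) (τ : ℍ) : LinearIndependent ℝ ![c * (τ : ℂ), c] := by
  rw [LinearIndependent.pair_iff]
  intro s t h
  have h1 : c * ((s : ℂ) * τ + t) = 0 := by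
    simp only [Complex.real_smul] at h
    linear_combination h
  have h2 : (s : ℂ) * τ + t = 0 := (mul_eq_zero.mp h1).resolve_left hc
  have him := congrArg Complex.im h2
  simp at him
  have hs : s = 0 := by
    rcases him with h | h
    · exact h
    · exact absurd h τ.im_ne_zero
  subst hs
  simp at h2
  exact ⟨rfl, by exact_mod_cast h2⟩

/-- The period pair `(c τ, c)`. -/
noncomputable def pair (c : ℂ) (hc : c ≠ 0) (τ : ℍ) : PeriodPair :=
  ⟨c * (τ : ℂ), c, indep_mul c hc τ⟩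

theorem G_pair (c : ℂ) (hc : c ≠ 0) (τ : ℍ) {k : ℕ} (hk : 3 ≤ k) :
    (pair c hc τ).G k = (c ^ k)⁻¹ * (2 * riemannZeta k * E hk τ) := by
  have h1 : (pair c hc τ).G k
      = ∑' x : ℤ × ℤ, (((x.1 : ℂ) * (c * τ) + x.2 * c) ^ k)⁻¹ := by
    rw [PeriodPair.G, ← (pair c hc τ).latticeEquivProd.symm.toEquiv.tsum_eq]
    refine tsum_congr fun x => ?_
    simp only [LinearEquiv.coe_toEquiv]
    rw [(pair c hc τ).latticeEquiv_symm_apply]
    rfl
  have h2 : ∑' x : ℤ × ℤ, (((x.1 : ℂ) * (c * τ) + x.2 * c) ^ k)⁻¹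
      = ∑' v : Fin 2 → ℤ, (c ^ k)⁻¹ * eisSummand k v τ := by
    rw [← (finTwoArrowEquiv ℤ).symm.tsum_eq]
    refine tsum_congr fun x => ?_
    simp only [eisSummand, finTwoArrowEquiv_symm_apply, Matrix.cons_val_zero, Matrix.cons_val_one,
      zpow_neg, zpow_natCast]
    rw [← mul_inv, ← mul_pow]
    congr 2
    ring
  have h3 := tsum_eisSummand_eq_riemannZeta_mul_eisensteinSeries hk τ
  have h4 : E hk τ = (1 / 2 : ℂ) * eisensteinSeries (N := 1) 0 k τ := rfl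
  rw [h1, h2, tsum_mul_left, h3, h4]
  ring

theorem int_indep (z : ℍ) (p q : ℤ) (h : (p : ℂ) * z + q = 0) : p = 0 ∧ q = 0 := by
  have him := congrArg Complex.im h
  simp at him
  have hp : p = 0 := by
    rcases him with h | h
    · exact_mod_cast h
    · exact absurd h z.im_ne_zero
  subst hp
  simp at h
  exact ⟨rfl, by exact_mod_cast h⟩

/-- If `ℤ z + ℤ = c (ℤ w + ℤ)` then `w` is in the `SL(2,ℤ)`-orbit of `z`. -/
theorem exists_smul_of_lattice_eq' (z w : ℍ) (c : ℂ) (hc : c ≠ 0)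
    (h1 : ∃ a b : ℤ, (a : ℂ) * z + b = c * w) (h2 : ∃ c' d : ℤ, (c' : ℂ) * z + d = c)
    (h3 : ∃ a' b' : ℤ, (a' : ℂ) * (c * w) + b' * c = z)
    (h4 : ∃ c'' d' : ℤ, (c'' : ℂ) * (c * w) + d' * c = 1) :
    ∃ g : SL(2, ℤ), g • z = w := by
  obtain ⟨a, b, hab⟩ := h1
  obtain ⟨c', d, hcd⟩ := h2
  obtain ⟨a', b', hab'⟩ := h3
  obtain ⟨c'', d', hcd'⟩ := h4
  -- the product of the two integer matrices is the identity
  have e1 : ((a' * a + b' * c' - 1 : ℤ) : ℂ) * z + ((a' * b + b' * d : ℤ) : ℂ) = 0 := by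
    push_cast
    rw [← hab, ← hcd] at hab'
    linear_combination hab'
  have e2 : ((c'' * a + d' * c' : ℤ) : ℂ) * z + ((c'' * b + d' * d - 1 : ℤ) : ℂ) = 0 := by
    push_cast
    rw [← hab, ← hcd] at hcd'
    linear_combination hcd'
  obtain ⟨r1, r2⟩ := int_indep z _ _ e1
  obtain ⟨r3, r4⟩ := int_indep z _ _ e2
  have r1' : a' * a + b' * c' = 1 := by omega
  have r4' : c'' * b + d' * d = 1 := by omega
  have hdet : (a * d - b * c') * (a' * d' - b' * c'') = 1 := by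
    have h0 : (a * d - b * c') * (a' * d' - b' * c'')
        = (a' * a + b' * c') * (c'' * b + d' * d) - (a' * b + b' * d) * (c'' * a + d' * c') := by
      ring
    rw [h0, r1', r4', r2, r3]; norm_num
  -- sign of the determinant
  have hden : (c' : ℂ) * z + d ≠ 0 := by rw [hcd]; exact hc
  have hw : (w : ℂ) * ((c' : ℂ) * z + d) = a * z + b := by
    rw [hab, hcd]; ring
  have him : w.im * Complex.normSq ((c' : ℂ) * z + d) = ((a * d - b * c' : ℤ) : ℝ) * z.im := by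
    have h5 : (w : ℂ) * (((c' : ℂ) * z + d) * (starRingEnd ℂ) ((c' : ℂ) * z + d))
        = ((a : ℂ) * z + b) * (starRingEnd ℂ) ((c' : ℂ) * z + d) := by
      rw [← mul_assoc, hw]
    rw [Complex.mul_conj] at h5
    have h6 := congrArg Complex.im h5
    simp only [Complex.mul_im, Complex.ofReal_re, Complex.ofReal_im, mul_zero, add_zero,
      Complex.add_re, Complex.add_im, Complex.mul_re, Complex.intCast_re, Complex.intCast_im,
      zero_mul, sub_zero, Complex.conj_re, Complex.conj_im, UpperHalfPlane.coe_im,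
      UpperHalfPlane.coe_re] at h6
    push_cast
    linear_combination h6
  have hpos : (0 : ℝ) < ((a * d - b * c' : ℤ) : ℝ) := by
    have h7 : 0 < w.im * Complex.normSq ((c' : ℂ) * z + d) :=
      mul_pos w.im_pos (Complex.normSq_pos.mpr hden)
    rw [him] at h7
    exact (pos_iff_pos_of_mul_pos h7).mpr z.im_pos
  have hpos' : 0 < a * d - b * c' := by exact_mod_cast hpos
  have hone : a * d - b * c' = 1 := by
    rcases Int.eq_one_or_neg_one_of_mul_eq_one hdet with h | h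
    · exact h
    · omega
  refine ⟨(⟨!![a, b; c', d], by rw [Matrix.det_fin_two_of]; exact hone⟩ : SL(2, ℤ)), ?_⟩
  apply UpperHalfPlane.ext
  rw [coe_specialLinearGroup_apply]
  simp only [Matrix.of_apply, Matrix.cons_val', Matrix.cons_val_zero,
    Matrix.cons_val_one, Matrix.cons_val_fin_one, algebraMap_int_eq, eq_intCast,
    Complex.ofReal_intCast]
  rw [div_eq_iff hden]
  exact hw.symm

/-- Pure algebra: equal `j`-invariants give a weighted scaling. -/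
theorem exists_scaling (a b a' b' : ℂ) (hΔ : a ^ 3 - b ^ 2 ≠ 0) (hΔ' : a' ^ 3 - b' ^ 2 ≠ 0)
    (h : a ^ 3 * (a' ^ 3 - b' ^ 2) = a' ^ 3 * (a ^ 3 - b ^ 2)) :
    ∃ μ : ℂ, μ ≠ 0 ∧ a' = μ ^ 4 * a ∧ b' = μ ^ 6 * b := by
  have h0 : a ^ 3 * b' ^ 2 = a' ^ 3 * b ^ 2 := by linear_combination -h
  by_cases ha : a = 0
  · subst ha
    have hb : b ≠ 0 := by
      rintro rfl; exact hΔ (by ring)
    have ha' : a' = 0 := by
      have : a' ^ 3 * b ^ 2 = 0 := by rw [← h0]; ring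
      rcases mul_eq_zero.mp this with h1 | h1
      · exact pow_eq_zero_iff (by norm_num) |>.mp h1
      · exact absurd (pow_eq_zero_iff (by norm_num) |>.mp h1) hb
    subst ha'
    have hb' : b' ≠ 0 := by
      rintro rfl; exact hΔ' (by ring)
    obtain ⟨μ, hμ⟩ := IsAlgClosed.exists_pow_nat_eq (b' / b) (n := 6) (by norm_num)
    refine ⟨μ, ?_, by ring, ?_⟩
    · rintro rfl
      rw [zero_pow (by norm_num)] at hμ
      exact div_ne_zero hb' hb hμ.symm
    · rw [hμ]; field_simp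
  by_cases hb : b = 0
  · subst hb
    have hb' : b' = 0 := by
      have : a ^ 3 * b' ^ 2 = 0 := by rw [h0]; ring
      rcases mul_eq_zero.mp this with h1 | h1
      · exact absurd (pow_eq_zero_iff (by norm_num) |>.mp h1) ha
      · exact pow_eq_zero_iff (by norm_num) |>.mp h1
    subst hb'
    have ha' : a' ≠ 0 := by
      rintro rfl; exact hΔ' (by ring)
    obtain ⟨μ, hμ⟩ := IsAlgClosed.exists_pow_nat_eq (a' / a) (n := 4) (by norm_num)
    refine ⟨μ, ?_, ?_, by ring⟩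
    · rintro rfl
      rw [zero_pow (by norm_num)] at hμ
      exact div_ne_zero ha' ha hμ.symm
    · rw [hμ]; field_simp
  have ha' : a' ≠ 0 := by
    rintro rfl
    have : a ^ 3 * b' ^ 2 = 0 := by rw [h0]; ring
    rcases mul_eq_zero.mp this with h1 | h1
    · exact absurd (pow_eq_zero_iff (by norm_num) |>.mp h1) ha
    · have hb' : b' = 0 := pow_eq_zero_iff (by norm_num) |>.mp h1
      subst hb'
      exact hΔ' (by ring)
  have hb' : b' ≠ 0 := by
    rintro rfl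
    have : a' ^ 3 * b ^ 2 = 0 := by rw [← h0]; ring
    rcases mul_eq_zero.mp this with h1 | h1
    · exact absurd (pow_eq_zero_iff (by norm_num) |>.mp h1) ha'
    · exact absurd (pow_eq_zero_iff (by norm_num) |>.mp h1) hb
  obtain ⟨μ, hμ⟩ := IsAlgClosed.exists_pow_nat_eq ((b' / b) / (a' / a)) (n := 2) (by norm_num)
  have hμ' : μ ^ 2 * (a' * b) = b' * a := by
    rw [hμ]; field_simp
  have e4 : μ ^ 4 * a = a' := by
    have h1 : (μ ^ 4 * a - a') * (a' ^ 2 * b ^ 2) = 0 := by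
      have : μ ^ 4 * (a' * b) ^ 2 = (b' * a) ^ 2 := by
        rw [← hμ']; ring
      linear_combination a * this + h0
    have h2 : a' ^ 2 * b ^ 2 ≠ 0 := mul_ne_zero (pow_ne_zero _ ha') (pow_ne_zero _ hb)
    exact sub_eq_zero.mp ((mul_eq_zero.mp h1).resolve_right h2)
  have e6 : μ ^ 6 * b = b' := by
    have h1 : (μ ^ 6 * b - b') * (a' ^ 3 * b ^ 2) = 0 := by
      have : μ ^ 6 * (a' * b) ^ 3 = (b' * a) ^ 3 := by
        rw [← hμ']; ring
      linear_combination this + b' * h0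
    have h2 : a' ^ 3 * b ^ 2 ≠ 0 := mul_ne_zero (pow_ne_zero _ ha') (pow_ne_zero _ hb)
    exact sub_eq_zero.mp ((mul_eq_zero.mp h1).resolve_right h2)
  refine ⟨μ, ?_, e4.symm, e6.symm⟩
  rintro rfl
  rw [zero_pow (by norm_num), zero_mul] at e4
  exact ha' e4.symm

theorem exists_smul_of_lattice_eq (z w : ℍ) (c : ℂ) (hc : c ≠ 0)
    (h : (pair 1 one_ne_zero z).lattice = (pair c hc w).lattice) :
    ∃ g : SL(2, ℤ), g • z = w := by
  have hz : (z : ℂ) ∈ (pair c hc w).lattice := by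
    rw [← h]
    have := (pair 1 one_ne_zero z).ω₁_mem_lattice
    simpa [pair] using this
  have h1' : (1 : ℂ) ∈ (pair c hc w).lattice := by
    rw [← h]; exact (pair 1 one_ne_zero z).ω₂_mem_lattice
  have hcw : c * w ∈ (pair 1 one_ne_zero z).lattice := by
    rw [h]; exact (pair c hc w).ω₁_mem_lattice
  have hcc : c ∈ (pair 1 one_ne_zero z).lattice := by
    rw [h]; exact (pair c hc w).ω₂_mem_lattice
  rw [PeriodPair.mem_lattice] at hz h1' hcw hcc
  refine exists_smul_of_lattice_eq' z w c hc ?_ ?_ ?_ ?_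
  · obtain ⟨m, n, hmn⟩ := hcw
    exact ⟨m, n, by simpa [pair] using hmn⟩
  · obtain ⟨m, n, hmn⟩ := hcc
    exact ⟨m, n, by simpa [pair] using hmn⟩
  · obtain ⟨m, n, hmn⟩ := hz
    exact ⟨m, n, by simpa [pair] using hmn⟩
  · obtain ⟨m, n, hmn⟩ := h1'
    exact ⟨m, n, by simpa [pair] using hmn⟩

end JInj

open JInj in
/-- **Part J**: the `j`-invariant separates `SL(2,ℤ)`-orbits. -/
theorem j_injective (z w : ℍ) (h : E₄ z ^ 3 * discriminant w = E₄ w ^ 3 * discriminant z) :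
    ∃ g : SL(2, ℤ), g • z = w := by
  have hz := discriminant_eq_E₄_cube_sub_E₆_sq z
  have hw := discriminant_eq_E₄_cube_sub_E₆_sq w
  have hΔz : E₄ z ^ 3 - E₆ z ^ 2 ≠ 0 := by
    intro h0
    rw [h0, zero_div] at hz
    exact discriminant_ne_zero z hz
  have hΔw : E₄ w ^ 3 - E₆ w ^ 2 ≠ 0 := by
    intro h0
    rw [h0, zero_div] at hw
    exact discriminant_ne_zero w hw
  have h' : E₄ z ^ 3 * (E₄ w ^ 3 - E₆ w ^ 2) = E₄ w ^ 3 * (E₄ z ^ 3 - E₆ z ^ 2) := by
    rw [hz, hw] at h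
    linear_combination 1728 * h
  obtain ⟨μ, hμ, h4, h6⟩ := exists_scaling _ _ _ _ hΔz hΔw h'
  apply exists_smul_of_lattice_eq z w μ hμ
  apply lattice_eq_of_g_eq
  · rw [PeriodPair.g₂, PeriodPair.g₂, G_pair 1 one_ne_zero z (by norm_num : 3 ≤ 4),
      G_pair μ hμ w (by norm_num : 3 ≤ 4)]
    change 60 * ((1 ^ 4)⁻¹ * (2 * riemannZeta (4 : ℕ) * E₄ z))
      = 60 * ((μ ^ 4)⁻¹ * (2 * riemannZeta (4 : ℕ) * E₄ w))
    rw [h4]
    field_simp
  · rw [PeriodPair.g₃, PeriodPair.g₃, G_pair 1 one_ne_zero z (by norm_num : 3 ≤ 6),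
      G_pair μ hμ w (by norm_num : 3 ≤ 6)]
    change 140 * ((1 ^ 6)⁻¹ * (2 * riemannZeta (6 : ℕ) * E₆ z))
      = 140 * ((μ ^ 6)⁻¹ * (2 * riemannZeta (6 : ℕ) * E₆ w))
    rw [h6]
    field_simp

end Fermat.Agent.S20lib
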