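import Mathlib

set_option autoImplicit false

open scoped MatrixGroups ModularForm Manifold Topology
open UpperHalfPlane ModularForm Filter

namespace Fermat.Agent.S20lib

/-- Cauchy estimate: the derivative of a holomorphic function on `ℍ` that is bounded at `i∞`
tends to zero at `i∞`. -/
theorem isZeroAtImInfty_deriv_of_isBoundedAtImInfty {f : ℍ → ℂ} (hf : MDiff f)
    (hb : IsBoundedAtImInfty f) :
    IsZeroAtImInfty (fun z : ℍ => deriv (f ∘ ofComplex) (z : ℂ)) := by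
  rw [isBoundedAtImInfty_iff] at hb
  obtain ⟨M, A, hMA⟩ := hb
  rw [isZeroAtImInfty_iff]
  intro ε hε
  have hM' : (0 : ℝ) ≤ max M 0 := le_max_right _ _
  have hR : 0 < max M 0 / ε + 1 := by positivity
  refine ⟨max A 0 + (max M 0 / ε + 1) + 1, fun z hz => ?_⟩
  have hdiff : DifferentiableOn ℂ (f ∘ ofComplex) upperHalfPlaneSet :=
    UpperHalfPlane.mdifferentiable_iff.mp hf
  have him : ∀ w ∈ Metric.closedBall (z : ℂ) (max M 0 / ε + 1), max A 0 + 1 ≤ w.im := by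
    intro w hw
    have h1 : |w.im - (z : ℂ).im| ≤ max M 0 / ε + 1 := by
      have := Complex.abs_im_le_norm (w - z)
      rw [Complex.sub_im] at this
      exact this.trans (by simpa [dist_eq_norm] using hw)
    have h2 := (abs_le.mp h1).1
    have h3 : (z : ℂ).im = z.im := rfl
    rw [h3] at h2
    linarith
  have hsub : Metric.closedBall (z : ℂ) (max M 0 / ε + 1) ⊆ upperHalfPlaneSet := by
    intro w hw
    have := him w hw
    have h0 : (0 : ℝ) ≤ max A 0 := le_max_right _ _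
    show 0 < w.im
    linarith
  have hdc : DiffContOnCl ℂ (f ∘ ofComplex) (Metric.ball (z : ℂ) (max M 0 / ε + 1)) :=
    hdiff.diffContOnCl_ball hsub
  have hbound : ∀ w ∈ Metric.sphere (z : ℂ) (max M 0 / ε + 1),
      ‖(f ∘ ofComplex) w‖ ≤ max M 0 := by
    intro w hw
    have hw' : w ∈ Metric.closedBall (z : ℂ) (max M 0 / ε + 1) := Metric.sphere_subset_closedBall hw
    have h1 := him w hw'
    have hwpos : 0 < w.im := hsub hw'
    have h2 : (f ∘ ofComplex) w = f ⟨w, hwpos⟩ := by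
      simp [Function.comp_apply, ofComplex_apply_of_im_pos hwpos]
    rw [h2]
    refine (hMA ⟨w, hwpos⟩ ?_).trans (le_max_left _ _)
    have h0 : A ≤ max A 0 := le_max_left _ _
    show A ≤ w.im
    linarith
  have key := Complex.norm_deriv_le_of_forall_mem_sphere_norm_le hR hdc hbound
  refine key.trans ?_
  rw [div_le_iff₀ hR]
  have : max M 0 / ε * ε = max M 0 := by field_simp
  nlinarith [this, hε.le]

open Derivative Complex in
/-- The bracket `2 E₄ E₆' - 3 E₄' E₆` in terms of Serre derivatives. -/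
theorem bracket_eq_serre (z : ℍ) :
    2 * E₄ z * deriv (⇑E₆ ∘ ofComplex) z - 3 * deriv (⇑E₄ ∘ ofComplex) z * E₆ z
      = 2 * Real.pi * Complex.I *
        ((2 : ℂ) * ((⇑E₄ * serreDerivative (6 : ℤ) ⇑E₆) z)
          - 3 * ((serreDerivative (4 : ℤ) ⇑E₄ * ⇑E₆) z)) := by
  have hpi : (2 * (Real.pi : ℂ) * Complex.I) ≠ 0 := by
    simp [Real.pi_ne_zero, Complex.I_ne_zero]
  simp only [Pi.mul_apply, serreDerivative_apply, normalizedDerivOfComplex]
  field_simp
  push_cast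
  ring

open Derivative in
/-- The function `W = 2 E₄ ∂₆E₆ - 3 ∂₄E₄ E₆`. -/
noncomputable def bracketW : ℍ → ℂ :=
  (2 : ℂ) • (⇑E₄ * serreDerivative (6 : ℤ) ⇑E₆) - (3 : ℂ) • (serreDerivative (4 : ℤ) ⇑E₄ * ⇑E₆)

open Derivative in
theorem bracketW_slash (γ : SL(2, ℤ)) : bracketW ∣[(12 : ℤ)] γ = bracketW := by
  have h4 : (⇑E₄) ∣[(4 : ℤ)] γ = ⇑E₄ := E₄.slash_action_eq' _ ⟨γ, rfl⟩
  have h6 : (⇑E₆) ∣[(6 : ℤ)] γ = ⇑E₆ := E₆.slash_action_eq' _ ⟨γ, rfl⟩
  have hd4 : serreDerivative (4 : ℤ) ⇑E₄ ∣[(6 : ℤ)] γ = serreDerivative (4 : ℤ) ⇑E₄ := by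
    have := serreDerivative_slash_invariant (k := 4) (F := ⇑E₄) E₄.holo' (γ := γ) h4
    simpa using this
  have hd6 : serreDerivative (6 : ℤ) ⇑E₆ ∣[(8 : ℤ)] γ = serreDerivative (6 : ℤ) ⇑E₆ := by
    have := serreDerivative_slash_invariant (k := 6) (F := ⇑E₆) E₆.holo' (γ := γ) h6
    simpa using this
  have e1 : (⇑E₄ * serreDerivative (6 : ℤ) ⇑E₆) ∣[(12 : ℤ)] γ
      = ⇑E₄ * serreDerivative (6 : ℤ) ⇑E₆ := by
    have := mul_slash_SL2 4 8 γ ⇑E₄ (serreDerivative (6 : ℤ) ⇑E₆)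
    rw [h4, hd6] at this
    simpa using this
  have e2 : (serreDerivative (4 : ℤ) ⇑E₄ * ⇑E₆) ∣[(12 : ℤ)] γ
      = serreDerivative (4 : ℤ) ⇑E₄ * ⇑E₆ := by
    have := mul_slash_SL2 6 6 γ (serreDerivative (4 : ℤ) ⇑E₄) ⇑E₆
    rw [h6, hd4] at this
    simpa using this
  unfold bracketW
  rw [sub_eq_add_neg, SlashAction.add_slash, SlashAction.neg_slash, SL_smul_slash, SL_smul_slash,
    e1, e2, ← sub_eq_add_neg]

open Derivative in
theorem bracketW_mdiff : MDiff bracketW := by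
  unfold bracketW
  have h4 : MDiff (⇑E₄) := E₄.holo'
  have h6 : MDiff (⇑E₆) := E₆.holo'
  have hd4 : MDiff (serreDerivative (4 : ℤ) ⇑E₄) := serreDerivative_mdifferentiable _ h4
  have hd6 : MDiff (serreDerivative (6 : ℤ) ⇑E₆) := serreDerivative_mdifferentiable _ h6
  exact ((h4.mul hd6).const_smul (2 : ℂ)).sub ((hd4.mul h6).const_smul (3 : ℂ))

theorem bracketW_apply (z : ℍ) :
    2 * E₄ z * deriv (⇑E₆ ∘ ofComplex) z - 3 * deriv (⇑E₄ ∘ ofComplex) z * E₆ z
      = 2 * Real.pi * Complex.I * bracketW z := by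
  rw [bracket_eq_serre]
  simp [bracketW]

theorem E₄_isBoundedAtImInfty : IsBoundedAtImInfty (⇑E₄) :=
  ModularFormClass.bdd_at_infty E₄

theorem E₆_isBoundedAtImInfty : IsBoundedAtImInfty (⇑E₆) :=
  ModularFormClass.bdd_at_infty E₆

theorem bracketW_isZeroAtImInfty : IsZeroAtImInfty bracketW := by
  have h4 := isZeroAtImInfty_deriv_of_isBoundedAtImInfty E₄.holo' E₄_isBoundedAtImInfty
  have h6 := isZeroAtImInfty_deriv_of_isBoundedAtImInfty E₆.holo' E₆_isBoundedAtImInfty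
  have hpi : (2 * (Real.pi : ℂ) * Complex.I) ≠ 0 := by
    simp [Real.pi_ne_zero, Complex.I_ne_zero]
  have hW : bracketW = fun z : ℍ => (2 * (Real.pi : ℂ) * Complex.I)⁻¹ *
      (2 * E₄ z * deriv (⇑E₆ ∘ ofComplex) z - 3 * deriv (⇑E₄ ∘ ofComplex) z * E₆ z) := by
    funext z
    rw [bracketW_apply]
    field_simp
  rw [hW]
  have t1 : ZeroAtFilter atImInfty (⇑E₄ * fun z : ℍ => deriv (⇑E₆ ∘ ofComplex) (z : ℂ)) :=
    BoundedAtFilter.mul_zeroAtFilter E₄_isBoundedAtImInfty h6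
  have t2 : ZeroAtFilter atImInfty ((fun z : ℍ => deriv (⇑E₄ ∘ ofComplex) (z : ℂ)) * ⇑E₆) :=
    ZeroAtFilter.mul_boundedAtFilter h4 E₆_isBoundedAtImInfty
  have t3 := ((t1.smul (2 : ℂ)).add ((t2.smul (3 : ℂ)).neg)).smul ((2 * (Real.pi : ℂ) * Complex.I)⁻¹)
  have t4 : Tendsto ((2 * (Real.pi : ℂ) * Complex.I)⁻¹ •
      ((2 : ℂ) • (⇑E₄ * fun z : ℍ => deriv (⇑E₆ ∘ ofComplex) (z : ℂ))
        + -((3 : ℂ) • ((fun z : ℍ => deriv (⇑E₄ ∘ ofComplex) (z : ℂ)) * ⇑E₆)))) atImInfty (𝓝 0) := t3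
  refine t4.congr fun z => ?_
  simp only [Pi.smul_apply, Pi.add_apply, Pi.neg_apply, Pi.mul_apply, smul_eq_mul]
  ring

/-- `W` as a cusp form of weight 12 and level one. -/
noncomputable def bracketCuspForm : CuspForm 𝒮ℒ 12 where
  toFun := bracketW
  slash_action_eq' A hA := by
    obtain ⟨A, rfl⟩ := hA
    exact bracketW_slash A
  holo' := bracketW_mdiff
  zero_at_cusps' hc := by
    rw [Subgroup.IsArithmetic.isCusp_iff_isCusp_SL2Z] at hc
    rw [OnePoint.isZeroAt_iff_forall_SL2Z hc]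
    intro γ _
    rw [bracketW_slash]
    exact bracketW_isZeroAtImInfty

theorem bracket_eq_const_mul_discriminant : ∃ c : ℂ, ∀ z : ℍ,
    2 * E₄ z * deriv (⇑E₆ ∘ ofComplex) z - 3 * deriv (⇑E₄ ∘ ofComplex) z * E₆ z
      = c * discriminant z := by
  obtain ⟨c, hc⟩ := CuspForm.exists_smul_discriminant_of_weight_eq_twelve bracketCuspForm
  refine ⟨2 * Real.pi * Complex.I * c, fun z => ?_⟩
  rw [bracketW_apply]
  have := congrArg (fun f : CuspForm 𝒮ℒ 12 => f z) hc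
  simp only [smul_apply, smul_eq_mul] at this
  have h2 : bracketCuspForm z = bracketW z := rfl
  rw [h2] at this
  rw [← this]
  simp [mul_assoc]

/-- If the bracket vanished identically, `E₄³` would be a constant multiple of `Δ`. -/
theorem E₄_cube_eq_const_mul_discriminant_of_bracket_eq_zero
    (h0 : ∀ z : ℍ,
      2 * E₄ z * deriv (⇑E₆ ∘ ofComplex) z - 3 * deriv (⇑E₄ ∘ ofComplex) z * E₆ z = 0) :
    ∃ a : ℂ, ∀ z : ℍ, E₄ z ^ 3 = a * discriminant z := by
  set f : ℂ → ℂ := ⇑E₄ ∘ ofComplex with hf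
  set g : ℂ → ℂ := ⇑E₆ ∘ ofComplex with hg
  have hfd : DifferentiableOn ℂ f upperHalfPlaneSet := UpperHalfPlane.mdifferentiable_iff.mp E₄.holo'
  have hgd : DifferentiableOn ℂ g upperHalfPlaneSet := UpperHalfPlane.mdifferentiable_iff.mp E₆.holo'
  have hopen : IsOpen upperHalfPlaneSet := isOpen_upperHalfPlaneSet
  have hφ : ∀ w ∈ upperHalfPlaneSet, f w ^ 3 - g w ^ 2 ≠ 0 := by
    intro w hw
    have h1 := discriminant_eq_E₄_cube_sub_E₆_sq ⟨w, hw⟩
    have h2 := discriminant_ne_zero ⟨w, hw⟩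
    have h3 : f w = E₄ ⟨w, hw⟩ := by simp [hf, ofComplex_apply_of_im_pos hw]
    have h4 : g w = E₆ ⟨w, hw⟩ := by simp [hg, ofComplex_apply_of_im_pos hw]
    rw [h3, h4]
    intro h5
    rw [h5, zero_div] at h1
    exact h2 h1
  set ψ : ℂ → ℂ := fun w => f w ^ 3 / (f w ^ 3 - g w ^ 2) with hψ
  have hderiv : ∀ w ∈ upperHalfPlaneSet, HasDerivAt ψ 0 w := by
    intro w hw
    have hf' : HasDerivAt f (deriv f w) w := (hfd.differentiableAt (hopen.mem_nhds hw)).hasDerivAt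
    have hg' : HasDerivAt g (deriv g w) w := (hgd.differentiableAt (hopen.mem_nhds hw)).hasDerivAt
    have hnum : HasDerivAt (fun w => f w ^ 3) (3 * f w ^ 2 * deriv f w) w := by
      have := hf'.fun_pow 3
      simpa using this
    have hden : HasDerivAt (fun w => f w ^ 3 - g w ^ 2)
        (3 * f w ^ 2 * deriv f w - 2 * g w * deriv g w) w := by
      have := hnum.fun_sub (hg'.fun_pow 2)
      simpa using this
    have hq := hnum.fun_div hden (hφ w hw)
    have hB := h0 ⟨w, hw⟩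
    have h3 : E₄ ⟨w, hw⟩ = f w := by simp [hf, ofComplex_apply_of_im_pos hw]
    have h4 : E₆ ⟨w, hw⟩ = g w := by simp [hg, ofComplex_apply_of_im_pos hw]
    have hcoe : ((⟨w, hw⟩ : ℍ) : ℂ) = w := rfl
    rw [h3, h4, hcoe] at hB
    have hzero : (3 * f w ^ 2 * deriv f w * (f w ^ 3 - g w ^ 2) -
        f w ^ 3 * (3 * f w ^ 2 * deriv f w - 2 * g w * deriv g w)) / (f w ^ 3 - g w ^ 2) ^ 2 = 0 := by
      have : 3 * f w ^ 2 * deriv f w * (f w ^ 3 - g w ^ 2) -
          f w ^ 3 * (3 * f w ^ 2 * deriv f w - 2 * g w * deriv g w)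
          = f w ^ 2 * g w * (2 * f w * deriv g w - 3 * deriv f w * g w) := by ring
      rw [this, hB, mul_zero, zero_div]
    rw [hzero] at hq
    exact hq
  have hψd : DifferentiableOn ℂ ψ upperHalfPlaneSet := fun w hw =>
    (hderiv w hw).differentiableAt.differentiableWithinAt
  have hψ' : upperHalfPlaneSet.EqOn (deriv ψ) 0 := fun w hw => (hderiv w hw).deriv
  have hconn : IsPreconnected upperHalfPlaneSet := (convex_halfSpace_im_gt 0).isPreconnected
  have hI : (Complex.I : ℂ) ∈ upperHalfPlaneSet := by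
    show 0 < Complex.I.im
    simp
  refine ⟨ψ Complex.I * 1728, fun z => ?_⟩
  have hz : (z : ℂ) ∈ upperHalfPlaneSet := z.im_pos
  have hconst := hopen.is_const_of_deriv_eq_zero hconn hψd hψ' hz hI
  have h1 := discriminant_eq_E₄_cube_sub_E₆_sq z
  have h3 : f z = E₄ z := by simp [hf]
  have h4 : g z = E₆ z := by simp [hg]
  have hne := hφ z hz
  rw [h3, h4] at hne
  rw [← hconst, hψ]
  simp only [h3, h4]
  rw [h1]
  field_simp

theorem bracket_E₄_E₆ : ∃ c : ℂ, c ≠ 0 ∧ ∀ z : ℍ,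
    2 * E₄ z * deriv (⇑E₆ ∘ ofComplex) z - 3 * deriv (⇑E₄ ∘ ofComplex) z * E₆ z
      = c * discriminant z := by
  obtain ⟨c, hc⟩ := bracket_eq_const_mul_discriminant
  refine ⟨c, ?_, hc⟩
  rintro rfl
  obtain ⟨a, ha⟩ := E₄_cube_eq_const_mul_discriminant_of_bracket_eq_zero
    (fun z => by rw [hc z, zero_mul])
  -- `E₄ ^ 3 → 0` at `i∞`, hence `E₄ → 0`, contradicting `a₀(E₄) = 1`.
  have hΔ : Tendsto discriminant atImInfty (𝓝 0) := discriminant_isZeroAtImInfty
  have h3 : Tendsto (fun z : ℍ => E₄ z ^ 3) atImInfty (𝓝 0) := by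
    have := hΔ.const_mul a
    rw [mul_zero] at this
    exact this.congr fun z => (ha z).symm
  have h1 : Tendsto (fun z : ℍ => ‖E₄ z‖ ^ 3) atImInfty (𝓝 0) := by
    have := h3.norm
    simpa using this
  have h2 : Tendsto (fun z : ℍ => ‖E₄ z‖) atImInfty (𝓝 0) := by
    have hc : Continuous fun x : ℝ => x ^ ((1 : ℝ) / 3) := Real.continuous_rpow_const (by norm_num)
    have := (hc.tendsto 0).comp h1
    rw [Real.zero_rpow (by norm_num)] at this
    refine this.congr fun z => ?_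
    simp only [Function.comp_apply]
    rw [← Real.rpow_natCast, ← Real.rpow_mul (norm_nonneg _)]
    norm_num
  have hzero : IsZeroAtImInfty (⇑E₄) := tendsto_zero_iff_norm_tendsto_zero.mpr h2
  have hval := hzero.valueAtInfty_eq_zero
  have hcoeff := EisensteinSeries.E_qExpansion_coeff_zero (k := 4) (by norm_num) (by decide)
  rw [UpperHalfPlane.qExpansion_coeff_zero one_pos
    (ModularFormClass.analyticAt_cuspFunction_zero E₄ one_pos one_mem_strictPeriods_SL)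
    (SlashInvariantFormClass.periodic_comp_ofComplex E₄ one_mem_strictPeriods_SL)] at hcoeff
  rw [hval] at hcoeff
  exact zero_ne_one hcoeff

end Fermat.Agent.S20lib
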