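import Mathlib

/-!
# S20 library: function-level modular forms

Predicates `IsMF Γ k f` / `IsCF Γ k f` on functions `ℍ → ℂ` for subgroups `Γ ≤ SL(2,ℤ)`,
bridges to Mathlib's bundled `ModularForm` / `CuspForm`, closure properties.
-/

set_option autoImplicit false
open scoped MatrixGroups ModularForm Manifold Topology
open UpperHalfPlane ModularForm Filter

namespace Fermat.Agent.S20lib

/-- `f` is a modular form of weight `k` for `Γ ≤ SL(2,ℤ)` (function-level predicate). -/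
structure IsMF (Γ : Subgroup SL(2, ℤ)) (k : ℤ) (f : ℍ → ℂ) : Prop where
  holo : MDiff f
  inv : ∀ γ ∈ Γ, f ∣[k] γ = f
  bdd : ∀ g : SL(2, ℤ), IsBoundedAtImInfty (f ∣[k] g)

/-- `f` is a cusp form of weight `k` for `Γ ≤ SL(2,ℤ)` (function-level predicate). -/
structure IsCF (Γ : Subgroup SL(2, ℤ)) (k : ℤ) (f : ℍ → ℂ) : Prop where
  holo : MDiff f
  inv : ∀ γ ∈ Γ, f ∣[k] γ = f
  zero : ∀ g : SL(2, ℤ), IsZeroAtImInfty (f ∣[k] g)

variable {Γ : Subgroup SL(2, ℤ)} {k k' : ℤ} {f f' : ℍ → ℂ}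

lemma IsCF.isMF (h : IsCF Γ k f) : IsMF Γ k f :=
  ⟨h.holo, h.inv, fun g => (h.zero g).isBoundedAtImInfty⟩

lemma IsMF.mono {Γ' : Subgroup SL(2, ℤ)} (hle : Γ' ≤ Γ) (h : IsMF Γ k f) : IsMF Γ' k f :=
  ⟨h.holo, fun γ hγ => h.inv γ (hle hγ), h.bdd⟩

lemma isMF_zero : IsMF Γ k 0 :=
  ⟨mdifferentiable_const, fun γ _ => SlashAction.zero_slash _ _, fun g => by
    rw [SlashAction.zero_slash]; exact zero_form_isBoundedAtImInfty⟩

lemma IsMF.add (h : IsMF Γ k f) (h' : IsMF Γ k f') : IsMF Γ k (f + f') :=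
  ⟨h.holo.add h'.holo, fun γ hγ => by rw [SlashAction.add_slash, h.inv γ hγ, h'.inv γ hγ],
    fun g => by rw [SlashAction.add_slash]; exact (h.bdd g).add (h'.bdd g)⟩

lemma IsMF.smul (c : ℂ) (h : IsMF Γ k f) : IsMF Γ k (c • f) :=
  ⟨h.holo.const_smul c, fun γ hγ => by rw [SL_smul_slash, h.inv γ hγ],
    fun g => by rw [SL_smul_slash]; exact (h.bdd g).const_smul_left c⟩

lemma IsMF.neg (h : IsMF Γ k f) : IsMF Γ k (-f) := by
  simpa using h.smul (-1)

lemma IsMF.sub (h : IsMF Γ k f) (h' : IsMF Γ k f') : IsMF Γ k (f - f') := by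
  simpa [sub_eq_add_neg] using h.add h'.neg

lemma IsMF.mul (h : IsMF Γ k f) (h' : IsMF Γ k' f') : IsMF Γ (k + k') (f * f') :=
  ⟨h.holo.mul h'.holo, fun γ hγ => by rw [mul_slash_SL2, h.inv γ hγ, h'.inv γ hγ],
    fun g => by rw [mul_slash_SL2]; exact (h.bdd g).mul (h'.bdd g)⟩

lemma IsMF.congr_weight (hk : k = k') (h : IsMF Γ k f) : IsMF Γ k' f := hk ▸ h

lemma isMF_sum {ι : Type*} (s : Finset ι) (F : ι → ℍ → ℂ) (h : ∀ i ∈ s, IsMF Γ k (F i)) :
    IsMF Γ k (∑ i ∈ s, F i) := by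
  classical
  induction s using Finset.induction_on with
  | empty => simpa using isMF_zero
  | insert a s ha ih =>
    rw [Finset.sum_insert ha]
    exact (h a (Finset.mem_insert_self a s)).add
      (ih fun i hi => h i (Finset.mem_insert_of_mem hi))

lemma isCF_zero : IsCF Γ k 0 :=
  ⟨mdifferentiable_const, fun γ _ => SlashAction.zero_slash _ _, fun g => by
    rw [SlashAction.zero_slash]; exact tendsto_const_nhds⟩

lemma IsCF.add (h : IsCF Γ k f) (h' : IsCF Γ k f') : IsCF Γ k (f + f') :=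
  ⟨h.holo.add h'.holo, fun γ hγ => by rw [SlashAction.add_slash, h.inv γ hγ, h'.inv γ hγ],
    fun g => by rw [SlashAction.add_slash]; exact (h.zero g).add (h'.zero g)⟩

lemma IsCF.smul (c : ℂ) (h : IsCF Γ k f) : IsCF Γ k (c • f) :=
  ⟨h.holo.const_smul c, fun γ hγ => by rw [SL_smul_slash, h.inv γ hγ],
    fun g => by rw [SL_smul_slash]; exact (h.zero g).smul c⟩

/-- The slash translate of a modular form for `Γ` by any `g ∈ SL(2,ℤ)` is holomorphic. -/
lemma IsMF.holo_slash (h : IsMF Γ k f) (g : SL(2, ℤ)) : MDiff (f ∣[k] g) :=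
  h.holo.slash k _

/-- Translates of a level one form are the form itself. -/
lemma IsMF.slash_top (h : IsMF ⊤ k f) (g : SL(2, ℤ)) : f ∣[k] g = f := h.inv g trivial

/-- the submodule of modular forms -/
def Mk (Γ : Subgroup SL(2, ℤ)) (k : ℤ) : Submodule ℂ (ℍ → ℂ) where
  carrier := {f | IsMF Γ k f}
  add_mem' := fun h h' => h.add h'
  zero_mem' := isMF_zero
  smul_mem' := fun c _ h => h.smul c

/-- the submodule of cusp forms -/
def Sk (Γ : Subgroup SL(2, ℤ)) (k : ℤ) : Submodule ℂ (ℍ → ℂ) where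
  carrier := {f | IsCF Γ k f}
  add_mem' := fun h h' => h.add h'
  zero_mem' := isCF_zero
  smul_mem' := fun c _ h => h.smul c

@[simp] lemma mem_Mk : f ∈ Mk Γ k ↔ IsMF Γ k f := Iff.rfl
@[simp] lemma mem_Sk : f ∈ Sk Γ k ↔ IsCF Γ k f := Iff.rfl

section bridge

variable [Γ.FiniteIndex]

lemma isCusp_iff_exists (c : OnePoint ℝ) :
    IsCusp c (Γ : Subgroup (GL (Fin 2) ℝ)) ↔
      ∃ g : SL(2, ℤ), c = Matrix.SpecialLinearGroup.mapGL ℝ g • (OnePoint.infty : OnePoint ℝ) := by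
  rw [Subgroup.IsArithmetic.isCusp_iff_isCusp_SL2Z, isCusp_SL2Z_iff']

/-- bundle a function-level modular form -/
def IsMF.toModularForm (h : IsMF Γ k f) : ModularForm (Γ : Subgroup (GL (Fin 2) ℝ)) k where
  toFun := f
  slash_action_eq' := by
    rintro _ ⟨γ, hγ, rfl⟩
    exact h.inv γ hγ
  holo' := h.holo
  bdd_at_cusps' := by
    intro c hc
    have hc' : IsCusp c 𝒮ℒ := (Subgroup.IsArithmetic.isCusp_iff_isCusp_SL2Z _).mp hc
    rw [OnePoint.isBoundedAt_iff_forall_SL2Z hc']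
    intro γ _
    exact h.bdd γ

@[simp] lemma IsMF.coe_toModularForm (h : IsMF Γ k f) : ⇑h.toModularForm = f := rfl

/-- bundle a function-level cusp form -/
def IsCF.toCuspForm (h : IsCF Γ k f) : CuspForm (Γ : Subgroup (GL (Fin 2) ℝ)) k where
  toFun := f
  slash_action_eq' := by
    rintro _ ⟨γ, hγ, rfl⟩
    exact h.inv γ hγ
  holo' := h.holo
  zero_at_cusps' := by
    intro c hc
    have hc' : IsCusp c 𝒮ℒ := (Subgroup.IsArithmetic.isCusp_iff_isCusp_SL2Z _).mp hc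
    rw [OnePoint.isZeroAt_iff_forall_SL2Z hc']
    intro γ _
    exact h.zero γ

@[simp] lemma IsCF.coe_toCuspForm (h : IsCF Γ k f) : ⇑h.toCuspForm = f := rfl

lemma isMF_of_modularForm (F : ModularForm (Γ : Subgroup (GL (Fin 2) ℝ)) k) : IsMF Γ k ⇑F where
  holo := F.holo'
  inv := fun γ hγ => F.slash_action_eq' _ ⟨γ, hγ, rfl⟩
  bdd := fun g => by
    have hc : IsCusp (Matrix.SpecialLinearGroup.mapGL ℝ g • (OnePoint.infty : OnePoint ℝ))
        (Γ : Subgroup (GL (Fin 2) ℝ)) := (isCusp_iff_exists _).mpr ⟨g, rfl⟩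
    exact F.bdd_at_cusps' hc _ rfl

lemma isCF_of_cuspForm (F : CuspForm (Γ : Subgroup (GL (Fin 2) ℝ)) k) : IsCF Γ k ⇑F where
  holo := F.holo'
  inv := fun γ hγ => F.slash_action_eq' _ ⟨γ, hγ, rfl⟩
  zero := fun g => by
    have hc : IsCusp (Matrix.SpecialLinearGroup.mapGL ℝ g • (OnePoint.infty : OnePoint ℝ))
        (Γ : Subgroup (GL (Fin 2) ℝ)) := (isCusp_iff_exists _).mpr ⟨g, rfl⟩
    exact F.zero_at_cusps' hc _ rfl

/-- The linear equivalence between Mathlib cusp forms and the function-level subspace. -/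
noncomputable def cuspFormEquiv (Γ : Subgroup SL(2, ℤ)) [Γ.FiniteIndex] (k : ℤ) :
    CuspForm (Γ : Subgroup (GL (Fin 2) ℝ)) k ≃ₗ[ℂ] Sk Γ k where
  toFun F := ⟨⇑F, isCF_of_cuspForm F⟩
  map_add' _ _ := rfl
  map_smul' _ _ := rfl
  invFun f := f.2.toCuspForm
  left_inv F := by ext; rfl
  right_inv f := by ext; rfl

/-- The linear equivalence between Mathlib modular forms and the function-level subspace. -/
noncomputable def modularFormEquiv (Γ : Subgroup SL(2, ℤ)) [Γ.FiniteIndex] (k : ℤ) :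
    ModularForm (Γ : Subgroup (GL (Fin 2) ℝ)) k ≃ₗ[ℂ] Mk Γ k where
  toFun F := ⟨⇑F, isMF_of_modularForm F⟩
  map_add' _ _ := rfl
  map_smul' _ _ := rfl
  invFun f := f.2.toModularForm
  left_inv F := by ext; rfl
  right_inv f := by ext; rfl

end bridge

section levelOne

/-- bundle a level one function-level form as a Mathlib level-one form -/
def IsMF.toLevelOne (h : IsMF ⊤ k f) : ModularForm 𝒮ℒ k where
  toFun := f
  slash_action_eq' := by
    rintro _ ⟨γ, rfl⟩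
    exact h.inv γ trivial
  holo' := h.holo
  bdd_at_cusps' := by
    intro c hc
    rw [OnePoint.isBoundedAt_iff_forall_SL2Z hc]
    intro γ _
    exact h.bdd γ

@[simp] lemma IsMF.coe_toLevelOne (h : IsMF ⊤ k f) : ⇑h.toLevelOne = f := rfl

lemma isMF_top_of_levelOne (F : ModularForm 𝒮ℒ k) : IsMF ⊤ k ⇑F where
  holo := F.holo'
  inv := fun γ _ => F.slash_action_eq' _ ⟨γ, rfl⟩
  bdd := fun g => by
    have hc : IsCusp (Matrix.SpecialLinearGroup.mapGL ℝ g • (OnePoint.infty : OnePoint ℝ)) 𝒮ℒ :=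
      isCusp_SL2Z_iff'.mpr ⟨g, rfl⟩
    exact F.bdd_at_cusps' hc _ rfl

/-- bundle a level one function-level cusp form -/
def IsCF.toLevelOne (h : IsCF ⊤ k f) : CuspForm 𝒮ℒ k where
  toFun := f
  slash_action_eq' := by
    rintro _ ⟨γ, rfl⟩
    exact h.inv γ trivial
  holo' := h.holo
  zero_at_cusps' := by
    intro c hc
    rw [OnePoint.isZeroAt_iff_forall_SL2Z hc]
    intro γ _
    exact h.zero γ

@[simp] lemma IsCF.coe_toLevelOne (h : IsCF ⊤ k f) : ⇑h.toLevelOne = f := rfl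

lemma isCF_top_of_levelOne (F : CuspForm 𝒮ℒ k) : IsCF ⊤ k ⇑F where
  holo := F.holo'
  inv := fun γ _ => F.slash_action_eq' _ ⟨γ, rfl⟩
  zero := fun g => by
    have hc : IsCusp (Matrix.SpecialLinearGroup.mapGL ℝ g • (OnePoint.infty : OnePoint ℝ)) 𝒮ℒ :=
      isCusp_SL2Z_iff'.mpr ⟨g, rfl⟩
    exact F.zero_at_cusps' hc _ rfl

lemma isMF_E₄ : IsMF ⊤ 4 ⇑E₄ := isMF_top_of_levelOne E₄
lemma isMF_E₆ : IsMF ⊤ 6 ⇑E₆ := isMF_top_of_levelOne E₆
lemma isCF_discriminant : IsCF ⊤ 12 discriminant := isCF_top_of_levelOne CuspForm.discriminant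

/-- a level one form is a form for every `Γ` -/
lemma IsMF.of_top (h : IsMF ⊤ k f) : IsMF Γ k f := h.mono le_top

end levelOne

end Fermat.Agent.S20lib
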