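import Mathlib
import Fermat.Agent.S20_Basic

/-!
# S20 library: division of holomorphic functions and saturation
-/

set_option autoImplicit false
open scoped MatrixGroups ModularForm Manifold Topology
open UpperHalfPlane ModularForm Filter

namespace Fermat.Agent.S20lib

/-- Division lemma on an open subset of `ℂ`: if `H` has only simple zeros on `U` and `F` vanishes
at every zero of `H`, then `F = H * G` with `G` holomorphic on `U`. -/
theorem exists_differentiableOn_div {U : Set ℂ} (hU : IsOpen U) {F H : ℂ → ℂ}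
    (hF : DifferentiableOn ℂ F U) (hH : DifferentiableOn ℂ H U)
    (hz : ∀ z ∈ U, H z = 0 → F z = 0 ∧ deriv H z ≠ 0) :
    ∃ G : ℂ → ℂ, DifferentiableOn ℂ G U ∧ ∀ z ∈ U, F z = H z * G z := by
  classical
  refine ⟨fun z => if H z = 0 then deriv F z / deriv H z else F z / H z, ?_, ?_⟩
  · intro z₀ hz₀
    apply DifferentiableAt.differentiableWithinAt
    have hUn : U ∈ 𝓝 z₀ := hU.mem_nhds hz₀
    by_cases h0 : H z₀ = 0
    · obtain ⟨hF0, hH'⟩ := hz z₀ hz₀ h0
      have hF₁ : DifferentiableOn ℂ (dslope F z₀) U := (Complex.differentiableOn_dslope hUn).mpr hF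
      have hH₁ : DifferentiableOn ℂ (dslope H z₀) U := (Complex.differentiableOn_dslope hUn).mpr hH
      have hH₁0 : dslope H z₀ z₀ ≠ 0 := by rwa [dslope_same]
      have hH₁c : ContinuousAt (dslope H z₀) z₀ := (hH₁.differentiableAt hUn).continuousAt
      have hne : ∀ᶠ z in 𝓝 z₀, dslope H z₀ z ≠ 0 := hH₁c.eventually_ne hH₁0
      have heq : (fun z => if H z = 0 then deriv F z / deriv H z else F z / H z)
          =ᶠ[𝓝 z₀] fun z => dslope F z₀ z / dslope H z₀ z := by
        filter_upwards [hne, hUn] with z hz1 hzU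
        by_cases hzz : z = z₀
        · subst hzz
          simp [h0, dslope_same]
        · have hsub : z - z₀ ≠ 0 := sub_ne_zero.mpr hzz
          have e1 : (z - z₀) * dslope H z₀ z = H z := by
            have := sub_smul_dslope H z₀ z
            simpa [h0] using this
          have e2 : (z - z₀) * dslope F z₀ z = F z := by
            have := sub_smul_dslope F z₀ z
            simpa [hF0] using this
          have hHz : H z ≠ 0 := by rw [← e1]; exact mul_ne_zero hsub hz1
          simp only [hHz, if_false]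
          rw [← e1, ← e2]
          field_simp
      refine DifferentiableAt.congr_of_eventuallyEq ?_ heq
      exact (hF₁.differentiableAt hUn).div (hH₁.differentiableAt hUn) hH₁0
    · have hHc : ContinuousAt H z₀ := (hH.differentiableAt hUn).continuousAt
      have hne : ∀ᶠ z in 𝓝 z₀, H z ≠ 0 := hHc.eventually_ne h0
      have heq : (fun z => if H z = 0 then deriv F z / deriv H z else F z / H z)
          =ᶠ[𝓝 z₀] fun z => F z / H z := by
        filter_upwards [hne] with z hz1
        simp [hz1]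
      refine DifferentiableAt.congr_of_eventuallyEq ?_ heq
      exact (hF.differentiableAt hUn).div (hH.differentiableAt hUn) h0
  · intro z hzU
    by_cases h0 : H z = 0
    · simp [h0, (hz z hzU h0).1]
    · simp only [h0, if_false]
      field_simp

/-- Division lemma on `ℍ`. -/
theorem exists_mdiff_div {f h : ℍ → ℂ} (hf : MDiff f) (hh : MDiff h)
    (hz : ∀ z : ℍ, h z = 0 → f z = 0 ∧ deriv (h ∘ ofComplex) z ≠ 0) :
    ∃ g : ℍ → ℂ, MDiff g ∧ f = h * g := by
  rw [UpperHalfPlane.mdifferentiable_iff] at hf hh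
  obtain ⟨G, hG, hGeq⟩ := exists_differentiableOn_div isOpen_upperHalfPlaneSet hf hh
    (fun z hzU h0 => by
      have hz' := hz ⟨z, hzU⟩ (by simpa [Function.comp, ofComplex_apply_of_im_pos hzU] using h0)
      refine ⟨?_, hz'.2⟩
      simpa [Function.comp, ofComplex_apply_of_im_pos hzU] using hz'.1)
  refine ⟨fun z => G z, ?_, ?_⟩
  · rw [UpperHalfPlane.mdifferentiable_iff]
    refine hG.congr fun z hzU => ?_
    simp [Function.comp, ofComplex_apply_of_im_pos hzU]
  · funext z
    have := hGeq z z.2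
    simpa [Function.comp] using this

end Fermat.Agent.S20lib

namespace Fermat.Agent.S20lib

/-- If `h` has only simple zeros and `h * u = 0` then `u = 0`. -/
lemma eq_zero_of_mul_eq_zero_of_simple {h u : ℍ → ℂ} (hh : MDiff h) (hu : MDiff u)
    (hsimple : ∀ z : ℍ, h z = 0 → deriv (h ∘ ofComplex) z ≠ 0) (hmul : h * u = 0) : u = 0 := by
  funext z
  by_contra hne
  have hmz : ∀ w : ℍ, h w * u w = 0 := fun w => by simpa using congrFun hmul w
  have hz0 : h z = 0 := by
    rcases mul_eq_zero.mp (hmz z) with h1 | h1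
    · exact h1
    · exact absurd h1 hne
  have hucont : ContinuousAt (u ∘ ofComplex) (z : ℂ) := by
    rw [UpperHalfPlane.mdifferentiable_iff] at hu
    exact (hu.differentiableAt (isOpen_upperHalfPlaneSet.mem_nhds z.2)).continuousAt
  have hune : ∀ᶠ w in 𝓝 (z : ℂ), (u ∘ ofComplex) w ≠ 0 := by
    apply hucont.eventually_ne
    simpa [Function.comp] using hne
  have hheq : (h ∘ ofComplex) =ᶠ[𝓝 (z : ℂ)] fun _ => (0 : ℂ) := by
    filter_upwards [hune] with w hw
    rcases mul_eq_zero.mp (hmz (ofComplex w)) with h1 | h1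
    · exact h1
    · exact absurd h1 hw
  have := hheq.deriv_eq
  rw [deriv_const] at this
  exact hsimple z hz0 this

/-- General saturation: division of a modular form for `Γ` by a level one form with simple
zeros, at which the form vanishes, bounded below near `i∞`. -/
theorem sat_general {Γ : Subgroup SL(2, ℤ)} {k kh : ℤ} {f h : ℍ → ℂ} (hf : IsMF Γ k f)
    (hh : IsMF ⊤ kh h)
    (hsimple : ∀ z : ℍ, h z = 0 → deriv (h ∘ ofComplex) z ≠ 0)
    (hvan : ∀ z : ℍ, h z = 0 → f z = 0)
    (hinf : ∃ c : ℝ, 0 < c ∧ ∀ᶠ z in atImInfty, c ≤ ‖h z‖) :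
    ∃ f' : ℍ → ℂ, IsMF Γ (k - kh) f' ∧ f = h * f' := by
  obtain ⟨g, hg, hfg⟩ := exists_mdiff_div hf.holo hh.holo
    (fun z h0 => ⟨hvan z h0, hsimple z h0⟩)
  have key : ∀ γ : SL(2, ℤ), h * (g ∣[k - kh] γ) = f ∣[k] γ := by
    intro γ
    have h1 : (h * g) ∣[kh + (k - kh)] γ = h ∣[kh] γ * g ∣[k - kh] γ := mul_slash_SL2 _ _ _ _ _
    rw [hh.inv γ trivial] at h1
    rw [← h1, ← hfg]
    congr 1
    ring
  refine ⟨g, ⟨hg, ?_, ?_⟩, hfg⟩
  · intro γ hγ
    have h2 : h * (g ∣[k - kh] γ - g) = 0 := by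
      rw [mul_sub, key γ, hf.inv γ hγ, ← hfg, sub_self]
    have := eq_zero_of_mul_eq_zero_of_simple hh.holo ((hg.slash _ _).sub hg) hsimple h2
    exact sub_eq_zero.mp this
  · intro γ
    obtain ⟨c, hc, hev⟩ := hinf
    have hb := hf.bdd γ
    rw [IsBoundedAtImInfty, BoundedAtFilter, Asymptotics.isBigO_iff] at hb ⊢
    obtain ⟨C, hC⟩ := hb
    refine ⟨C / c, ?_⟩
    filter_upwards [hC, hev] with z hz1 hz2
    have e : h z * (g ∣[k - kh] γ) z = (f ∣[k] γ) z := by
      simpa using congrFun (key γ) z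
    have hn : ‖h z‖ * ‖(g ∣[k - kh] γ) z‖ = ‖(f ∣[k] γ) z‖ := by rw [← norm_mul, e]
    simp only [Pi.one_apply, norm_one, mul_one] at hz1 ⊢
    have hpos : 0 < ‖h z‖ := lt_of_lt_of_le hc hz2
    have hCnn : 0 ≤ C := le_trans (norm_nonneg _) hz1
    calc ‖(g ∣[k - kh] γ) z‖ = ‖(f ∣[k] γ) z‖ / ‖h z‖ := by
          rw [← hn]; field_simp
      _ ≤ C / ‖h z‖ := by gcongr
      _ ≤ C / c := by gcongr

/-- Saturation at `i∞`: a modular form all of whose translates decay like `exp (-2π y)` is
divisible by `Δ`. -/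
theorem sat_infty {Γ : Subgroup SL(2, ℤ)} {k : ℤ} {f : ℍ → ℂ} (hf : IsMF Γ k f)
    (hdecay : ∀ g : SL(2, ℤ),
      (f ∣[k] g) =O[atImInfty] fun τ : ℍ => Real.exp (-2 * Real.pi * τ.im)) :
    ∃ f' : ℍ → ℂ, IsMF Γ (k - 12) f' ∧ f = discriminant * f' := by
  have hΔ : IsCF ⊤ 12 discriminant := isCF_discriminant
  refine ⟨f / discriminant, ⟨?_, ?_, ?_⟩, ?_⟩
  · exact hf.holo.div hΔ.holo discriminant_ne_zero
  · intro γ hγ
    rw [div_slash_SL2, hf.inv γ hγ, hΔ.inv γ trivial]
  · intro γ
    rw [div_slash_SL2, hΔ.inv γ trivial]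
    have h1 : (f ∣[k] γ) =O[atImInfty] discriminant :=
      (hdecay γ).trans exp_isBigO_discriminant
    exact (Asymptotics.div_isBoundedUnder_of_isBigO h1).isBigO_one ℝ
  · funext z
    simp only [Pi.mul_apply, Pi.div_apply]
    field_simp [discriminant_ne_zero z]

end Fermat.Agent.S20lib
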