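import Mathlib
import Fermat.Agent.S20_Basic
import Fermat.Agent.S20_Div
import Fermat.Agent.S20_Bracket
import Fermat.Agent.S20_JInj

/-!
# S20 library: level one facts (values at `i∞`, elliptic points, zeros of `E₄`, `E₆`)
-/

set_option autoImplicit false
open scoped MatrixGroups ModularForm Manifold Topology
open UpperHalfPlane ModularForm Filter

namespace Fermat.Agent.S20lib

/-- `T ^ n` acts on `ℍ` by translation by `n`. -/
lemma coe_T_zpow_smul (n : ℤ) (z : ℍ) : ((ModularGroup.T ^ n • z : ℍ) : ℂ) = z + n :=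
  ModularGroup.coe_T_zpow_smul_eq z

lemma denom_T_zpow (n : ℤ) (z : ℍ) : denom (ModularGroup.T ^ n : SL(2, ℤ)) z = 1 := by
  simp [denom, ModularGroup.coe_T_zpow, -map_zpow]

/-- A function invariant under `T ^ n` is `n`-periodic. -/
lemma periodic_of_slash_T_zpow {f : ℍ → ℂ} {k : ℤ} (n : ℤ)
    (h : f ∣[k] (ModularGroup.T ^ n) = f) : Function.Periodic (f ∘ ofComplex) (n : ℝ) := by
  intro w
  by_cases hw : 0 < w.im
  · have hw' : 0 < (w + (n : ℝ)).im := by simpa using hw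
    simp only [Function.comp_apply, ofComplex_apply_of_im_pos hw, ofComplex_apply_of_im_pos hw']
    have h1 := congrFun h ⟨w, hw⟩
    rw [SL_slash_apply, denom_T_zpow, one_zpow, mul_one] at h1
    rw [← h1]
    congr 1
    ext
    rw [coe_T_zpow_smul]
    simp
  · have hw0 : w.im ≤ 0 := not_lt.mp hw
    have hw' : (w + ((n : ℝ) : ℂ)).im ≤ 0 := by simpa using hw0
    simp only [Function.comp_apply]
    rw [ofComplex_apply_of_im_nonpos hw0, ofComplex_apply_of_im_nonpos hw']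

lemma periodic_one_of_slash_T {f : ℍ → ℂ} {k : ℤ}
    (h : f ∣[k] ModularGroup.T = f) : Function.Periodic (f ∘ ofComplex) (1 : ℝ) := by
  have := periodic_of_slash_T_zpow (f := f) (k := k) 1 (by simpa using h)
  simpa using this

/-- A periodic holomorphic function bounded at `i∞` tends to its value at infinity. -/
lemma tendsto_valueAtInfty {f : ℍ → ℂ} {h : ℝ} (hh : 0 < h)
    (hper : Function.Periodic (f ∘ ofComplex) h) (hhol : MDiff f)
    (hbdd : IsBoundedAtImInfty f) : Tendsto f atImInfty (𝓝 (valueAtInfty f)) := by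
  have han := analyticAt_cuspFunction_zero hh hper hhol hbdd
  have h0 := cuspFunction_apply_zero hh han hper
  have : (cuspFunction h f ∘ fun τ : ℍ ↦ Function.Periodic.qParam h τ : ℍ → ℂ) = f := by
    funext τ
    simpa using eq_cuspFunction τ hh.ne' hper
  rw [← h0]
  have h2 := han.continuousAt.tendsto.comp (qParam_tendsto_atImInfty hh)
  rwa [this] at h2

variable {k : ℤ} {a : ℍ → ℂ}

lemma IsMF.periodic_top (h : IsMF ⊤ k a) : Function.Periodic (a ∘ ofComplex) (1 : ℝ) :=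
  periodic_one_of_slash_T (h.inv _ trivial)

lemma IsMF.bdd_one {Γ : Subgroup SL(2, ℤ)} {f : ℍ → ℂ} (h : IsMF Γ k f) :
    IsBoundedAtImInfty f := by
  simpa using h.bdd 1

lemma IsCF.zero_one {Γ : Subgroup SL(2, ℤ)} {f : ℍ → ℂ} (h : IsCF Γ k f) :
    IsZeroAtImInfty f := by
  simpa using h.zero 1

lemma IsMF.tendsto_top (h : IsMF ⊤ k a) : Tendsto a atImInfty (𝓝 (valueAtInfty a)) :=
  tendsto_valueAtInfty one_pos h.periodic_top h.holo h.bdd_one

/-- `a - a(∞) = O(exp(-2π y))` for level one forms. -/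
lemma IsMF.exp_decay_top (h : IsMF ⊤ k a) :
    (fun τ ↦ a τ - valueAtInfty a) =O[atImInfty] fun τ : ℍ ↦ Real.exp (-2 * Real.pi * τ.im) := by
  simpa using exp_decay_sub_atImInfty one_pos h.periodic_top h.holo h.bdd_one

lemma valueAtInfty_E₄ : valueAtInfty ⇑E₄ = 1 := by
  have h := isMF_E₄
  rw [← qExpansion_coeff_zero one_pos
    (analyticAt_cuspFunction_zero one_pos h.periodic_top h.holo h.bdd_one) h.periodic_top]
  exact EisensteinSeries.E_qExpansion_coeff_zero _ ⟨2, rfl⟩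

lemma valueAtInfty_E₆ : valueAtInfty ⇑E₆ = 1 := by
  have h := isMF_E₆
  rw [← qExpansion_coeff_zero one_pos
    (analyticAt_cuspFunction_zero one_pos h.periodic_top h.holo h.bdd_one) h.periodic_top]
  exact EisensteinSeries.E_qExpansion_coeff_zero _ ⟨3, rfl⟩

lemma tendsto_E₄ : Tendsto ⇑E₄ atImInfty (𝓝 1) := valueAtInfty_E₄ ▸ isMF_E₄.tendsto_top
lemma tendsto_E₆ : Tendsto ⇑E₆ atImInfty (𝓝 1) := valueAtInfty_E₆ ▸ isMF_E₆.tendsto_top

/-- A function with a nonzero limit at `i∞` is eventually bounded below. -/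
lemma eventually_le_norm_of_tendsto {f : ℍ → ℂ} {c : ℂ} (hc : c ≠ 0)
    (h : Tendsto f atImInfty (𝓝 c)) : ∃ r : ℝ, 0 < r ∧ ∀ᶠ z in atImInfty, r ≤ ‖f z‖ := by
  refine ⟨‖c‖ / 2, by positivity, ?_⟩
  have h2 : Tendsto (fun z => ‖f z‖) atImInfty (𝓝 ‖c‖) := h.norm
  have : ∀ᶠ z in atImInfty, ‖c‖ / 2 < ‖f z‖ :=
    h2.eventually (lt_mem_nhds (by linarith [norm_pos_iff.mpr hc]))
  exact this.mono fun z hz => hz.le

/-! ### level one vanishing results -/

lemma IsMF.eq_zero_of_neg_top (h : IsMF ⊤ k a) (hk : k < 0) : a = 0 :=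
  ModularFormClass.levelOne_neg_weight_eq_zero hk h.toLevelOne

lemma IsMF.eq_const_top (h : IsMF ⊤ 0 a) : ∃ c : ℂ, a = Function.const ℍ c :=
  ModularFormClass.levelOne_weight_zero_const h.toLevelOne

lemma IsMF.eq_zero_of_two_top (h : IsMF ⊤ 2 a) : a = 0 := by
  have := rank_zero_iff_forall_zero.mp levelOne_weight_two_rank_zero h.toLevelOne
  simpa using congrArg (fun F : ModularForm 𝒮ℒ 2 => (⇑F : ℍ → ℂ)) this

lemma IsMF.eq_zero_of_odd_top (h : IsMF ⊤ k a) (hk : Odd k) : a = 0 := by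
  have := levelOne_odd_weight_eq_zero hk h.toLevelOne
  simpa using congrArg (fun F : ModularForm 𝒮ℒ k => (⇑F : ℍ → ℂ)) this

lemma IsCF.eq_zero_of_lt_twelve_top (h : IsCF ⊤ k a) (hk : k < 12) : a = 0 := by
  have := rank_zero_iff_forall_zero.mp (CuspForm.rank_eq_zero_of_weight_lt_twelve hk) h.toLevelOne
  simpa using congrArg (fun F : CuspForm 𝒮ℒ k => (⇑F : ℍ → ℂ)) this

lemma IsCF.eq_smul_discriminant_top (h : IsCF ⊤ 12 a) : ∃ c : ℂ, a = c • discriminant := by
  obtain ⟨c, hc⟩ := CuspForm.exists_smul_discriminant_of_weight_eq_twelve h.toLevelOne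
  refine ⟨c, ?_⟩
  have := congrArg (fun F : CuspForm 𝒮ℒ 12 => (⇑F : ℍ → ℂ)) hc
  simpa using this.symm

/-! ### general level vanishing results -/

section general
variable {Γ : Subgroup SL(2, ℤ)} [Γ.FiniteIndex] {f : ℍ → ℂ}

lemma IsMF.eq_zero_of_neg (h : IsMF Γ k f) (hk : k < 0) : f = 0 := by
  have := ModularForm.isZero_of_neg_weight hk h.toModularForm
  simpa using congrArg (fun F : ModularForm (Γ : Subgroup (GL (Fin 2) ℝ)) k => (⇑F : ℍ → ℂ)) this

lemma IsMF.eq_const (h : IsMF Γ 0 f) : ∃ c : ℂ, f = Function.const ℍ c :=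
  ModularForm.eq_const_of_weight_zero h.toModularForm

lemma IsCF.eq_zero_of_nonpos (h : IsCF Γ k f) (hk : k ≤ 0) : f = 0 := by
  rcases hk.lt_or_eq with hk | rfl
  · exact h.isMF.eq_zero_of_neg hk
  · obtain ⟨c, hc⟩ := h.isMF.eq_const
    have h0 : Tendsto f atImInfty (𝓝 0) := h.zero_one
    rw [hc] at h0
    have : c = 0 := tendsto_nhds_unique tendsto_const_nhds h0
    rw [hc, this]
    rfl

lemma IsMF.eq_zero_of_odd (h : IsMF Γ k f) (hΓ : -1 ∈ Γ) (hk : Odd k) : f = 0 := by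
  have hmem : (-1 : GL (Fin 2) ℝ) ∈ (Γ : Subgroup (GL (Fin 2) ℝ)) := by
    refine ⟨-1, hΓ, ?_⟩
    ext i j
    simp
  have := ModularForm.eq_zero_of_neg_one_mem hmem hk h.toModularForm
  simpa using congrArg (fun F : ModularForm (Γ : Subgroup (GL (Fin 2) ℝ)) k => (⇑F : ℍ → ℂ)) this

end general

end Fermat.Agent.S20lib
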