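import Mathlib
import Fermat.Agent.S20_LevelOne

/-!
# S20 library: elliptic points, zeros of `E₄`, `E₆`, `hpt z₀`, and saturation at points
-/

set_option autoImplicit false
open scoped MatrixGroups ModularForm Manifold Topology
open UpperHalfPlane ModularForm Filter

namespace Fermat.Agent.S20lib

/-- differentiability of a holomorphic function on `ℍ` composed with `ofComplex`. -/
lemma differentiableAt_comp_ofComplex {f : ℍ → ℂ} (hf : MDiff f) (z : ℍ) :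
    DifferentiableAt ℂ (f ∘ ofComplex) (z : ℂ) := by
  rw [UpperHalfPlane.mdifferentiable_iff] at hf
  exact hf.differentiableAt (isOpen_upperHalfPlaneSet.mem_nhds z.2)

/-- value of a translate at a point -/
lemma slash_apply_eq_zero_iff {f : ℍ → ℂ} {k : ℤ} (g : SL(2, ℤ)) (z : ℍ) :
    (f ∣[k] g) z = 0 ↔ f (g • z) = 0 := by
  rw [SL_slash_apply]
  constructor
  · intro h
    rcases mul_eq_zero.mp h with h | h
    · exact h
    · exact absurd h (zpow_ne_zero _ (denom_ne_zero g z))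
  · intro h
    rw [h, zero_mul]

/-! ### the elliptic point `i` -/

lemma S_smul_I : ModularGroup.S • UpperHalfPlane.I = UpperHalfPlane.I := by
  rw [modular_S_smul]
  ext
  simp [Complex.inv_I]

lemma E₆_I : E₆ UpperHalfPlane.I = 0 := by
  have h := congrFun (isMF_E₆.inv ModularGroup.S trivial) UpperHalfPlane.I
  rw [SL_slash_apply, S_smul_I] at h
  have hd : denom (ModularGroup.S : SL(2, ℤ)) (UpperHalfPlane.I : ℍ) = Complex.I := by
    simpa using ModularGroup.denom_S UpperHalfPlane.I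
  rw [hd] at h
  have hI : (Complex.I : ℂ) ^ (-6 : ℤ) = -1 := by
    rw [zpow_neg, show (6 : ℤ) = ((6 : ℕ) : ℤ) from rfl, zpow_natCast]
    have : Complex.I ^ 6 = -1 := by
      calc Complex.I ^ 6 = (Complex.I ^ 2) ^ 3 := by ring
        _ = -1 := by rw [Complex.I_sq]; norm_num
    rw [this]; norm_num
  rw [hI] at h
  have : (2 : ℂ) * E₆ UpperHalfPlane.I = 0 := by linear_combination -h
  simpa using this

lemma E₄_cube_sub_E₆_sq_ne_zero (z : ℍ) : E₄ z ^ 3 - E₆ z ^ 2 ≠ 0 := by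
  have h := discriminant_ne_zero z
  rw [discriminant_eq_E₄_cube_sub_E₆_sq] at h
  intro h0
  exact h (by rw [h0]; simp)

lemma E₄_ne_zero_of_E₆_eq_zero {z : ℍ} (h : E₆ z = 0) : E₄ z ≠ 0 := by
  intro h4
  exact E₄_cube_sub_E₆_sq_ne_zero z (by rw [h, h4]; ring)

lemma E₆_ne_zero_of_E₄_eq_zero {z : ℍ} (h : E₄ z = 0) : E₆ z ≠ 0 := by
  intro h6
  exact E₄_cube_sub_E₆_sq_ne_zero z (by rw [h, h6]; ring)

lemma E₄_I_ne_zero : E₄ UpperHalfPlane.I ≠ 0 := E₄_ne_zero_of_E₆_eq_zero E₆_I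

/-! ### the elliptic point `ρ` -/

/-- the elliptic point `ρ = (-1 + i √3)/2` -/
noncomputable def ellRho : ℍ := ⟨⟨-1 / 2, Real.sqrt 3 / 2⟩, by
  simp only
  positivity⟩

lemma coe_ellRho : (ellRho : ℂ) = ⟨-1 / 2, Real.sqrt 3 / 2⟩ := rfl

lemma ellRho_sq_add : (ellRho : ℂ) ^ 2 + (ellRho : ℂ) + 1 = 0 := by
  rw [coe_ellRho]
  have h3 : Real.sqrt 3 * Real.sqrt 3 = 3 := Real.mul_self_sqrt (by norm_num)
  apply Complex.ext
  · simp only [pow_two, Complex.add_re, Complex.mul_re, Complex.one_re, Complex.zero_re]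
    nlinarith
  · simp only [pow_two, Complex.add_im, Complex.mul_im, Complex.one_im, Complex.zero_im]
    try ring_nf

lemma ST_smul_ellRho : (ModularGroup.S * ModularGroup.T) • ellRho = ellRho := by
  rw [mul_smul, modular_T_smul, modular_S_smul]
  ext
  simp only [coe_vadd, Complex.ofReal_one]
  have h := ellRho_sq_add
  have hne : (1 + (ellRho : ℂ)) ≠ 0 := by
    intro h0
    have : (ellRho : ℂ) = -1 := by linear_combination h0
    have him := congrArg Complex.im this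
    rw [coe_ellRho] at him
    simp at him
  have hne' : -(1 + (ellRho : ℂ)) ≠ 0 := neg_ne_zero.mpr hne
  rw [inv_eq_iff_eq_inv, eq_comm, inv_eq_iff_eq_inv]
  field_simp
  linear_combination h

lemma denom_ST_ellRho :
    denom ((ModularGroup.S * ModularGroup.T : SL(2, ℤ)) : GL (Fin 2) ℝ) (ellRho : ℂ)
      = (ellRho : ℂ) + 1 := by
  simp [denom, ModularGroup.coe_S, ModularGroup.coe_T, Matrix.mul_apply, Fin.sum_univ_two]

/-- `ζ = ρ + 1` is a primitive sixth root of unity: `ζ² = ρ`, `ζ³ = -1`. -/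
lemma ellRho_add_one_sq : ((ellRho : ℂ) + 1) ^ 2 = (ellRho : ℂ) := by
  linear_combination ellRho_sq_add

lemma ellRho_cube : (ellRho : ℂ) ^ 3 = 1 := by
  linear_combination ((ellRho : ℂ) - 1) * ellRho_sq_add

lemma ellRho_ne_one : (ellRho : ℂ) ≠ 1 := by
  intro h
  have := ellRho_sq_add
  rw [h] at this
  norm_num at this

lemma ellRho_ne_zero : (ellRho : ℂ) ≠ 0 := ne_zero ellRho

lemma E₄_ellRho : E₄ ellRho = 0 := by
  have h := congrFun (isMF_E₄.inv (ModularGroup.S * ModularGroup.T) trivial) ellRho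
  rw [SL_slash_apply, ST_smul_ellRho, denom_ST_ellRho] at h
  have hz : ((ellRho : ℂ) + 1) ^ (-4 : ℤ) = (ellRho : ℂ) := by
    rw [zpow_neg, show (4 : ℤ) = ((4 : ℕ) : ℤ) from rfl, zpow_natCast]
    have : ((ellRho : ℂ) + 1) ^ 4 = (ellRho : ℂ) ^ 2 := by
      calc ((ellRho : ℂ) + 1) ^ 4 = (((ellRho : ℂ) + 1) ^ 2) ^ 2 := by ring
        _ = _ := by rw [ellRho_add_one_sq]
    rw [this]
    have h3 := ellRho_cube
    field_simp [ellRho_ne_zero]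
    linear_combination -h3
  rw [hz] at h
  have h2 : E₄ ellRho * ((ellRho : ℂ) - 1) = 0 := by linear_combination h
  rcases mul_eq_zero.mp h2 with h | h
  · exact h
  · exact absurd (sub_eq_zero.mp h) ellRho_ne_one

lemma E₆_ellRho_ne_zero : E₆ ellRho ≠ 0 := E₆_ne_zero_of_E₄_eq_zero E₄_ellRho

/-! ### simple zeros (from the bracket identity) -/

lemma deriv_E₄_ne_zero {z : ℍ} (h : E₄ z = 0) : deriv (⇑E₄ ∘ ofComplex) z ≠ 0 := by
  obtain ⟨c, hc, hb⟩ := bracket_E₄_E₆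
  have := hb z
  rw [h] at this
  intro h0
  rw [h0] at this
  have h1 : c * discriminant z = 0 := by rw [← this]; ring
  rcases mul_eq_zero.mp h1 with h1 | h1
  · exact hc h1
  · exact discriminant_ne_zero z h1

lemma deriv_E₆_ne_zero {z : ℍ} (h : E₆ z = 0) : deriv (⇑E₆ ∘ ofComplex) z ≠ 0 := by
  obtain ⟨c, hc, hb⟩ := bracket_E₄_E₆
  have := hb z
  rw [h] at this
  intro h0
  rw [h0] at this
  have h1 : c * discriminant z = 0 := by rw [← this]; ring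
  rcases mul_eq_zero.mp h1 with h1 | h1
  · exact hc h1
  · exact discriminant_ne_zero z h1

/-- the level one form of weight 12 vanishing exactly on the orbit of `z₀` -/
noncomputable def hpt (z₀ : ℍ) : ℍ → ℂ :=
  fun z => E₄ z₀ ^ 3 * E₆ z ^ 2 - E₆ z₀ ^ 2 * E₄ z ^ 3

lemma hpt_eq (z₀ : ℍ) : hpt z₀ = (E₄ z₀ ^ 3) • (⇑E₆ * ⇑E₆) - (E₆ z₀ ^ 2) • (⇑E₄ * (⇑E₄ * ⇑E₄)) := by
  funext z
  simp [hpt]
  ring

lemma isMF_hpt (z₀ : ℍ) : IsMF ⊤ 12 (hpt z₀) := by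
  rw [hpt_eq]
  refine IsMF.sub ?_ ?_
  · exact ((isMF_E₆.mul isMF_E₆).congr_weight (by norm_num)).smul _
  · exact ((isMF_E₄.mul (isMF_E₄.mul isMF_E₄)).congr_weight (by norm_num)).smul _

lemma hpt_self (z₀ : ℍ) : hpt z₀ z₀ = 0 := by
  simp [hpt]; ring

lemma tendsto_hpt (z₀ : ℍ) :
    Tendsto (hpt z₀) atImInfty (𝓝 (E₄ z₀ ^ 3 - E₆ z₀ ^ 2)) := by
  have h1 := ((tendsto_E₆.pow 2).const_mul (E₄ z₀ ^ 3)).sub ((tendsto_E₄.pow 3).const_mul (E₆ z₀ ^ 2))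
  simp only [one_pow, mul_one] at h1
  exact h1

lemma hpt_eq_zero_iff (z₀ z : ℍ) :
    hpt z₀ z = 0 ↔ E₄ z₀ ^ 3 * discriminant z = E₄ z ^ 3 * discriminant z₀ := by
  rw [discriminant_eq_E₄_cube_sub_E₆_sq, discriminant_eq_E₄_cube_sub_E₆_sq, hpt]
  constructor
  · intro h
    linear_combination (-1 / 1728 : ℂ) * h
  · intro h
    linear_combination (-1728 : ℂ) * h

lemma deriv_hpt (z₀ z : ℍ) : deriv (hpt z₀ ∘ ofComplex) z =
    E₄ z₀ ^ 3 * (2 * E₆ z * deriv (⇑E₆ ∘ ofComplex) z)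
      - E₆ z₀ ^ 2 * (3 * E₄ z ^ 2 * deriv (⇑E₄ ∘ ofComplex) z) := by
  have h4 := differentiableAt_comp_ofComplex isMF_E₄.holo z
  have h6 := differentiableAt_comp_ofComplex isMF_E₆.holo z
  have e : hpt z₀ ∘ ofComplex = fun w => E₄ z₀ ^ 3 * ((⇑E₆ ∘ ofComplex) w) ^ 2
      - E₆ z₀ ^ 2 * ((⇑E₄ ∘ ofComplex) w) ^ 3 := by
    funext w
    simp [hpt]
  rw [e]
  have d6 := h6.hasDerivAt
  have d4 := h4.hasDerivAt
  have := (((d6.pow 2).const_mul (E₄ z₀ ^ 3)).sub ((d4.pow 3).const_mul (E₆ z₀ ^ 2))).deriv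
  have e2 : (fun w => E₄ z₀ ^ 3 * (⇑E₆ ∘ ofComplex) w ^ 2 - E₆ z₀ ^ 2 * (⇑E₄ ∘ ofComplex) w ^ 3)
      = ((fun y => E₄ z₀ ^ 3 * ((⇑E₆ ∘ ofComplex) ^ 2) y)
          - fun y => E₆ z₀ ^ 2 * ((⇑E₄ ∘ ofComplex) ^ 3) y) := by
    funext w; simp
  rw [e2, this]
  simp

lemma deriv_hpt_ne_zero {z₀ z : ℍ} (h4 : E₄ z₀ ≠ 0) (h6 : E₆ z₀ ≠ 0) (hz : hpt z₀ z = 0) :
    deriv (hpt z₀ ∘ ofComplex) z ≠ 0 := by
  obtain ⟨c, hc, hb⟩ := bracket_E₄_E₆
  have hb := hb z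
  have hz' : E₄ z₀ ^ 3 * E₆ z ^ 2 = E₆ z₀ ^ 2 * E₄ z ^ 3 := by
    have := hz
    simp only [hpt] at this
    linear_combination this
  have h4z : E₄ z ≠ 0 := by
    intro h0
    rw [h0] at hz'
    have : E₄ z₀ ^ 3 * E₆ z ^ 2 = 0 := by rw [hz']; ring
    rcases mul_eq_zero.mp this with h | h
    · exact h4 (pow_eq_zero_iff (by norm_num) |>.mp h)
    · exact E₆_ne_zero_of_E₄_eq_zero h0 (pow_eq_zero_iff (by norm_num) |>.mp h)
  have h6z : E₆ z ≠ 0 := by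
    intro h0
    rw [h0] at hz'
    have : E₆ z₀ ^ 2 * E₄ z ^ 3 = 0 := by rw [← hz']; ring
    rcases mul_eq_zero.mp this with h | h
    · exact h6 (pow_eq_zero_iff (by norm_num) |>.mp h)
    · exact h4z (pow_eq_zero_iff (by norm_num) |>.mp h)
  intro hd
  rw [deriv_hpt] at hd
  have key : E₄ z₀ ^ 3 * E₆ z ^ 2 * (c * discriminant z) = 0 := by
    rw [← hb]
    have e1 : E₄ z₀ ^ 3 * E₆ z ^ 2 *
        (2 * E₄ z * deriv (⇑E₆ ∘ ofComplex) ↑z - 3 * deriv (⇑E₄ ∘ ofComplex) ↑z * E₆ z)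
        = E₄ z * E₆ z * (E₄ z₀ ^ 3 * (2 * E₆ z * deriv (⇑E₆ ∘ ofComplex) ↑z))
          - E₆ z * deriv (⇑E₄ ∘ ofComplex) ↑z * 3 * (E₄ z₀ ^ 3 * E₆ z ^ 2) := by ring
    rw [e1, hz']
    linear_combination E₄ z * E₆ z * hd
  have hne : E₄ z₀ ^ 3 * E₆ z ^ 2 * (c * discriminant z) ≠ 0 :=
    mul_ne_zero (mul_ne_zero (pow_ne_zero _ h4) (pow_ne_zero _ h6z))
      (mul_ne_zero hc (discriminant_ne_zero z))
  exact hne key

/-! ### location of zeros (from injectivity of `j`) -/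

lemma exists_smul_of_hpt_eq_zero {z₀ z : ℍ} (hz : hpt z₀ z = 0) : ∃ g : SL(2, ℤ), g • z₀ = z :=
  j_injective z₀ z ((hpt_eq_zero_iff z₀ z).mp hz)

lemma exists_smul_I_of_E₆_eq_zero {z : ℍ} (hz : E₆ z = 0) :
    ∃ g : SL(2, ℤ), g • UpperHalfPlane.I = z := by
  apply j_injective
  rw [discriminant_eq_E₄_cube_sub_E₆_sq, discriminant_eq_E₄_cube_sub_E₆_sq, hz, E₆_I]
  ring

lemma exists_smul_ellRho_of_E₄_eq_zero {z : ℍ} (hz : E₄ z = 0) :
    ∃ g : SL(2, ℤ), g • ellRho = z := by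
  apply j_injective
  rw [hz, E₄_ellRho]
  ring

/-! ### saturation at points -/

variable {Γ : Subgroup SL(2, ℤ)} {k : ℤ} {f : ℍ → ℂ}

/-- Saturation at `i`. -/
theorem sat_I (hf : IsMF Γ k f) (hvan : ∀ g : SL(2, ℤ), (f ∣[k] g) UpperHalfPlane.I = 0) :
    ∃ f' : ℍ → ℂ, IsMF Γ (k - 6) f' ∧ f = ⇑E₆ * f' := by
  refine sat_general hf isMF_E₆ (fun z hz => deriv_E₆_ne_zero hz) ?_
    (eventually_le_norm_of_tendsto one_ne_zero tendsto_E₆)
  intro z hz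
  obtain ⟨g, rfl⟩ := exists_smul_I_of_E₆_eq_zero hz
  exact (slash_apply_eq_zero_iff g _).mp (hvan g)

/-- Saturation at `ρ`. -/
theorem sat_rho (hf : IsMF Γ k f) (hvan : ∀ g : SL(2, ℤ), (f ∣[k] g) ellRho = 0) :
    ∃ f' : ℍ → ℂ, IsMF Γ (k - 4) f' ∧ f = ⇑E₄ * f' := by
  refine sat_general hf isMF_E₄ (fun z hz => deriv_E₄_ne_zero hz) ?_
    (eventually_le_norm_of_tendsto one_ne_zero tendsto_E₄)
  intro z hz
  obtain ⟨g, rfl⟩ := exists_smul_ellRho_of_E₄_eq_zero hz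
  exact (slash_apply_eq_zero_iff g _).mp (hvan g)

/-- Saturation at a non-elliptic point. -/
theorem sat_pt {z₀ : ℍ} (h4 : E₄ z₀ ≠ 0) (h6 : E₆ z₀ ≠ 0) (hf : IsMF Γ k f)
    (hvan : ∀ g : SL(2, ℤ), (f ∣[k] g) z₀ = 0) :
    ∃ f' : ℍ → ℂ, IsMF Γ (k - 12) f' ∧ f = hpt z₀ * f' := by
  refine sat_general hf (isMF_hpt z₀) (fun z hz => deriv_hpt_ne_zero h4 h6 hz) ?_
    (eventually_le_norm_of_tendsto (E₄_cube_sub_E₆_sq_ne_zero z₀) (tendsto_hpt z₀))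
  intro z hz
  obtain ⟨g, rfl⟩ := exists_smul_of_hpt_eq_zero hz
  exact (slash_apply_eq_zero_iff g _).mp (hvan g)

end Fermat.Agent.S20lib
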