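import Mathlib
import Fermat.Agent.S20_Ell

/-!
# S20 library: minimal generating systems of `M_*(Γ)` over `M_*(SL(2,ℤ))`
-/

set_option autoImplicit false
open scoped MatrixGroups ModularForm Manifold Topology
open UpperHalfPlane ModularForm Filter

namespace Fermat.Agent.S20lib

/-- constants are level one forms of weight `0` -/
lemma isMF_const (Γ : Subgroup SL(2, ℤ)) (c : ℂ) : IsMF Γ 0 (Function.const ℍ c) where
  holo := mdifferentiable_const
  inv := fun γ _ => is_invariant_const γ c
  bdd := fun g => by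
    rw [is_invariant_const]
    exact Filter.const_boundedAtFilter _ _

/-- the decomposable part `E₄ M_{k-4} + E₆ M_{k-6}` of `M_k(Γ)` -/
def IsDecomp (Γ : Subgroup SL(2, ℤ)) (k : ℤ) (f : ℍ → ℂ) : Prop :=
  ∃ u v : ℍ → ℂ, IsMF Γ (k - 4) u ∧ IsMF Γ (k - 6) v ∧ f = ⇑E₄ * u + ⇑E₆ * v

lemma IsDecomp.isMF {Γ : Subgroup SL(2, ℤ)} {k : ℤ} {f : ℍ → ℂ} (h : IsDecomp Γ k f) :
    IsMF Γ k f := by
  obtain ⟨u, v, hu, hv, rfl⟩ := h
  exact ((isMF_E₄.of_top.mul hu).congr_weight (by ring)).add
    ((isMF_E₆.of_top.mul hv).congr_weight (by ring))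

/-- the submodule of decomposable forms -/
def Wk (Γ : Subgroup SL(2, ℤ)) (k : ℤ) : Submodule ℂ (ℍ → ℂ) where
  carrier := {f | IsDecomp Γ k f}
  add_mem' := by
    rintro _ _ ⟨u, v, hu, hv, rfl⟩ ⟨u', v', hu', hv', rfl⟩
    exact ⟨u + u', v + v', hu.add hu', hv.add hv', by ring⟩
  zero_mem' := ⟨0, 0, isMF_zero, isMF_zero, by simp⟩
  smul_mem' := by
    rintro c _ ⟨u, v, hu, hv, rfl⟩
    refine ⟨c • u, c • v, hu.smul c, hv.smul c, ?_⟩
    funext z
    simp only [Pi.smul_apply, Pi.add_apply, Pi.mul_apply, smul_eq_mul]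
    ring

lemma Wk_le_Mk (Γ : Subgroup SL(2, ℤ)) (k : ℤ) : Wk Γ k ≤ Mk Γ k := fun _ h => h.isMF

/-- A minimal generating system of `⊕_{k ≤ B} M_k(Γ)` over the level one forms. -/
structure GenSys (Γ : Subgroup SL(2, ℤ)) (B : ℤ) where
  /-- index set -/
  J : Type
  /-- finiteness -/
  fin : Fintype J
  /-- decidable equality -/
  dec : DecidableEq J
  /-- weights -/
  wt : J → ℤ
  /-- the generators -/
  F : J → ℍ → ℂ
  isMF : ∀ j, IsMF Γ (wt j) (F j)
  wt_nonneg : ∀ j, 0 ≤ wt j
  wt_le : ∀ j, wt j ≤ B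
  gen : ∀ k : ℤ, k ≤ B → ∀ f : ℍ → ℂ, IsMF Γ k f →
    ∃ a : J → ℍ → ℂ, (∀ j, IsMF ⊤ (k - wt j) (a j)) ∧ f = ∑ j, a j * F j
  min : ∀ (c : J → ℂ) (k : ℤ),
    IsDecomp Γ k (∑ j, (if wt j = k then c j else 0) • F j) → ∀ j, wt j = k → c j = 0

attribute [instance] GenSys.fin GenSys.dec

variable {Γ : Subgroup SL(2, ℤ)}

/-- The empty generating system, valid below weight `0`. -/
noncomputable def GenSys.empty [Γ.FiniteIndex] : GenSys Γ (-1) where
  J := Empty
  fin := inferInstance
  dec := inferInstance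
  wt := fun j => j.elim
  F := fun j => j.elim
  isMF := fun j => j.elim
  wt_nonneg := fun j => j.elim
  wt_le := fun j => j.elim
  gen := fun k hk f hf => ⟨fun j => j.elim, fun j => j.elim, by
    simp only [Finset.univ_eq_empty, Finset.sum_empty]
    exact hf.eq_zero_of_neg (by omega)⟩
  min := fun _ _ _ j => j.elim

/-- Extension step: from bound `B - 1` to bound `B`. -/
theorem GenSys.exists_succ [Γ.FiniteIndex] (hfd : ∀ k, Module.Finite ℂ (Mk Γ k)) {B : ℤ}
    (G : GenSys Γ (B - 1)) : Nonempty (GenSys Γ B) := by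
  classical
  have hfdB := hfd B
  -- complement of `W_B` inside `M_B`
  let p : Submodule ℂ (Mk Γ B) := (Wk Γ B).comap (Mk Γ B).subtype
  obtain ⟨q, hq⟩ := Submodule.exists_isCompl p
  have hfree : Module.Free ℂ q := Module.Free.of_divisionRing ℂ q
  let n := Module.finrank ℂ q
  let b : Module.Basis (Fin n) ℂ q := Module.finBasis ℂ q
  let bf : Fin n → ℍ → ℂ := fun i => ((b i : q) : Mk Γ B)
  have hbf : ∀ i, IsMF Γ B (bf i) := fun i => ((b i : q) : Mk Γ B).2
  refine ⟨{
    J := G.J ⊕ Fin n
    fin := inferInstance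
    dec := inferInstance
    wt := Sum.elim G.wt (fun _ => B)
    F := Sum.elim G.F bf
    isMF := ?_
    wt_nonneg := ?_
    wt_le := ?_
    gen := ?_
    min := ?_ }⟩
  · rintro (j | i)
    · exact G.isMF j
    · exact hbf i
  · rintro (j | i)
    · exact G.wt_nonneg j
    · simp only [Sum.elim_inr]
      by_contra hneg
      rw [not_le] at hneg
      have h0 := (hbf i).eq_zero_of_neg hneg
      have : (b i : q) = 0 := by
        apply Subtype.ext; apply Subtype.ext
        exact h0
      exact b.ne_zero i this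
  · rintro (j | i)
    · have := G.wt_le j
      simp only [Sum.elim_inl]
      omega
    · simp
  · intro k hk f hf
    rcases hk.lt_or_eq with hlt | rfl
    · obtain ⟨a, ha, hfa⟩ := G.gen k (by omega) f hf
      refine ⟨Sum.elim a (fun _ => 0), ?_, ?_⟩
      · rintro (j | i)
        · exact ha j
        · exact isMF_zero
      · rw [Fintype.sum_sum_type]
        simp [hfa]
    · -- weight exactly `k`
      let fM : Mk Γ k := ⟨f, hf⟩
      have hsup : fM ∈ p ⊔ q := by rw [hq.sup_eq_top]; trivial
      obtain ⟨x, hx, y, hy, hxy⟩ := Submodule.mem_sup.mp hsup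
      obtain ⟨u, v, hu, hv, hxuv⟩ : IsDecomp Γ k (x : ℍ → ℂ) := hx
      obtain ⟨au, hau, huu⟩ := G.gen (k - 4) (by omega) u hu
      obtain ⟨av, hav, hvv⟩ := G.gen (k - 6) (by omega) v hv
      have hyrep := b.sum_repr ⟨y, hy⟩
      refine ⟨Sum.elim (fun j => ⇑E₄ * au j + ⇑E₆ * av j)
        (fun i => Function.const ℍ (b.repr ⟨y, hy⟩ i)), ?_, ?_⟩
      · rintro (j | i)
        · simp only [Sum.elim_inl]
          exact ((isMF_E₄.mul (hau j)).congr_weight (by ring)).add
            ((isMF_E₆.mul (hav j)).congr_weight (by ring))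
        · simp only [Sum.elim_inr, sub_self]
          exact isMF_const _ _
      · rw [Fintype.sum_sum_type]
        have h1 : f = (x : ℍ → ℂ) + (y : ℍ → ℂ) := by
          have := congrArg (fun t : Mk Γ k => (t : ℍ → ℂ)) hxy
          simpa [fM] using this.symm
        have h2 : (y : ℍ → ℂ) = ∑ i, Function.const ℍ (b.repr ⟨y, hy⟩ i) * bf i := by
          have := congrArg (fun t : q => ((t : Mk Γ k) : ℍ → ℂ)) hyrep
          simp only [Submodule.coe_sum, Submodule.coe_smul] at this
          rw [← this]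
          refine Finset.sum_congr rfl fun i _ => ?_
          funext z
          simp [bf]
        simp only [Sum.elim_inl, Sum.elim_inr]
        rw [h1, hxuv, huu, hvv, ← h2]
        simp only [add_mul, Finset.sum_add_distrib, Finset.mul_sum, mul_assoc]
  · intro c k hdec
    rcases eq_or_ne k B with rfl | hkB
    · -- only new generators have weight `k`
      have hold : ∀ j : G.J, G.wt j ≠ k := fun j => by have := G.wt_le j; omega
      have hsum : (∑ j : G.J ⊕ Fin n, (if Sum.elim G.wt (fun _ => k) j = k then c j else 0) •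
          Sum.elim G.F bf j) = ∑ i, c (Sum.inr i) • bf i := by
        rw [Fintype.sum_sum_type]
        simp [hold]
      rw [hsum] at hdec
      -- the element lies in `p ⊓ q = ⊥`
      let y : q := ∑ i, c (Sum.inr i) • b i
      have hy : ((y : Mk Γ k) : ℍ → ℂ) = ∑ i, c (Sum.inr i) • bf i := by
        simp [y, bf]
      have hyp : (y : Mk Γ k) ∈ p := by
        show ((y : Mk Γ k) : ℍ → ℂ) ∈ Wk Γ k
        rw [hy]; exact hdec
      have hy0 : (y : Mk Γ k) ∈ p ⊓ q := ⟨hyp, y.2⟩
      rw [hq.inf_eq_bot] at hy0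
      have hy0' : y = 0 := by
        apply Subtype.ext
        simpa using hy0
      have hrep := b.repr_sum_self (fun i => c (Sum.inr i))
      have hy0'' : (∑ i, c (Sum.inr i) • b i) = 0 := hy0'
      rw [hy0''] at hrep
      rintro (j | i) hj
      · exact absurd hj (hold j)
      · have := congrFun hrep i
        simpa using this.symm
    · -- only old generators have weight `k`
      have hsum : (∑ j : G.J ⊕ Fin n, (if Sum.elim G.wt (fun _ => B) j = k then c j else 0) •
          Sum.elim G.F bf j) = ∑ j, (if G.wt j = k then c (Sum.inl j) else 0) • G.F j := by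
        rw [Fintype.sum_sum_type]
        simp only [Sum.elim_inl, Sum.elim_inr, Ne.symm hkB, if_false, zero_smul,
          Finset.sum_const_zero, add_zero]
        first
          | rfl
          | (refine Finset.sum_congr rfl fun j _ => ?_
             congr 1)
      rw [hsum] at hdec
      have := G.min (fun j => c (Sum.inl j)) k hdec
      rintro (j | i) hj
      · exact this j hj
      · simp only [Sum.elim_inr] at hj
        exact absurd hj.symm hkB

/-- Minimal generating systems exist for every bound. -/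
theorem GenSys.exists_nat [Γ.FiniteIndex] (hfd : ∀ k, Module.Finite ℂ (Mk Γ k)) (n : ℕ) :
    Nonempty (GenSys Γ ((n : ℤ) - 1)) := by
  induction n with
  | zero => exact ⟨by simpa using (GenSys.empty : GenSys Γ (-1))⟩
  | succ n ih =>
    obtain ⟨G⟩ := ih
    have : ((n + 1 : ℕ) : ℤ) - 1 - 1 = (n : ℤ) - 1 := by push_cast; ring
    exact GenSys.exists_succ hfd (this ▸ G)

theorem GenSys.exists_ge [Γ.FiniteIndex] (hfd : ∀ k, Module.Finite ℂ (Mk Γ k)) (B : ℕ) :
    Nonempty (GenSys Γ B) := by
  have := GenSys.exists_nat hfd (B + 1)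
  simpa using this

end Fermat.Agent.S20lib
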