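/-
S23 library: shared definitions (helper25).
`BddRat` = power series over ℂ whose coefficients are rational with bounded denominator.
-/
import Mathlib

set_option autoImplicit false

namespace Fermat.Agent.S23lib

/-- Power series with rational coefficients of bounded denominator:
`M • φ` has integer coefficients for some positive integer `M`. -/
def BddRat : Set (PowerSeries ℂ) :=
  {φ | ∃ M : ℕ, 0 < M ∧ ∀ n : ℕ, ∃ m : ℤ, (M : ℂ) * PowerSeries.coeff n φ = (m : ℂ)}

end Fermat.Agent.S23lib
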