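/-
S23 library, piece P2 (helper28): bounded denominators.

`bddRat_of_integral`: a power series with rational coefficients which is a quotient `E / D` of
elements of the ℂ-algebra generated by bounded-denominator series and which is a root of a monic
polynomial with coefficients in that algebra has bounded denominators itself.
Proof: project the data to rational data with `ℚ`-linear functionals `ℂ → ℚ`, clear denominators,
and use that `ℤ⟦X⟧` is a UFD, hence integrally closed.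
-/
import Mathlib
import Fermat.Agent.S23_Defs

set_option autoImplicit false

namespace Fermat.Agent.S23lib

open PowerSeries

/-- The coefficient embedding `ℤ⟦X⟧ → ℂ⟦X⟧`. -/
noncomputable abbrev bddIotaZ : PowerSeries ℤ →+* PowerSeries ℂ :=
  PowerSeries.map (Int.castRingHom ℂ)

theorem bddIotaZ_injective : Function.Injective bddIotaZ := by
  intro a b h
  ext n
  have := congrArg (PowerSeries.coeff n) h
  simpa using this

theorem bddIotaZ_C_nat (M : ℕ) : bddIotaZ (PowerSeries.C (M : ℤ)) = PowerSeries.C (M : ℂ) := by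
  simp [bddIotaZ]

/-- Series with rational coefficients. -/
def BddRatCoeff (ψ : PowerSeries ℂ) : Prop := ∀ n, ∃ r : ℚ, PowerSeries.coeff n ψ = (r : ℂ)

theorem bddRatCoeff_one : BddRatCoeff 1 := by
  intro n
  by_cases h : n = 0
  · exact ⟨1, by simp [h]⟩
  · exact ⟨0, by simp [PowerSeries.coeff_one, h]⟩

theorem BddRatCoeff.mul {ψ₁ ψ₂ : PowerSeries ℂ} (h₁ : BddRatCoeff ψ₁) (h₂ : BddRatCoeff ψ₂) :
    BddRatCoeff (ψ₁ * ψ₂) := by
  intro n
  choose r₁ hr₁ using h₁
  choose r₂ hr₂ using h₂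
  refine ⟨∑ p ∈ Finset.HasAntidiagonal.antidiagonal n, r₁ p.1 * r₂ p.2, ?_⟩
  rw [PowerSeries.coeff_mul]
  push_cast
  exact Finset.sum_congr rfl fun p _ => by rw [hr₁, hr₂]

theorem BddRatCoeff.pow {ψ : PowerSeries ℂ} (h : BddRatCoeff ψ) (k : ℕ) : BddRatCoeff (ψ ^ k) := by
  induction k with
  | zero => simpa using bddRatCoeff_one
  | succ k ih => rw [pow_succ]; exact ih.mul h

theorem mem_bddRat_iff (φ : PowerSeries ℂ) :
    φ ∈ BddRat ↔ ∃ M : ℕ, 0 < M ∧ ∃ g : PowerSeries ℤ, bddIotaZ g = PowerSeries.C (M : ℂ) * φ := by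
  constructor
  · rintro ⟨M, hM, h⟩
    choose m hm using h
    refine ⟨M, hM, PowerSeries.mk m, ?_⟩
    ext n
    rw [PowerSeries.coeff_C_mul, hm, PowerSeries.coeff_map, PowerSeries.coeff_mk]
    simp
  · rintro ⟨M, hM, g, hg⟩
    refine ⟨M, hM, fun n => ⟨PowerSeries.coeff n g, ?_⟩⟩
    have := congrArg (PowerSeries.coeff n) hg
    rw [PowerSeries.coeff_C_mul, PowerSeries.coeff_map] at this
    rw [← this]
    simp

theorem BddRat.bddRatCoeff {φ : PowerSeries ℂ} (h : φ ∈ BddRat) : BddRatCoeff φ := by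
  obtain ⟨M, hM, h⟩ := h
  intro n
  obtain ⟨m, hm⟩ := h n
  refine ⟨(m : ℚ) / (M : ℚ), ?_⟩
  have hM' : (M : ℂ) ≠ 0 := by exact_mod_cast hM.ne'
  push_cast
  field_simp
  rw [← hm]; ring

theorem bddRat_zero : (0 : PowerSeries ℂ) ∈ BddRat :=
  ⟨1, one_pos, fun n => ⟨0, by simp⟩⟩

theorem bddRat_one : (1 : PowerSeries ℂ) ∈ BddRat := by
  rw [mem_bddRat_iff]
  exact ⟨1, one_pos, 1, by simp⟩

theorem bddRat_mul {φ₁ φ₂ : PowerSeries ℂ} (h₁ : φ₁ ∈ BddRat) (h₂ : φ₂ ∈ BddRat) :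
    φ₁ * φ₂ ∈ BddRat := by
  rw [mem_bddRat_iff] at h₁ h₂ ⊢
  obtain ⟨M₁, hM₁, g₁, hg₁⟩ := h₁
  obtain ⟨M₂, hM₂, g₂, hg₂⟩ := h₂
  refine ⟨M₁ * M₂, Nat.mul_pos hM₁ hM₂, g₁ * g₂, ?_⟩
  rw [map_mul, hg₁, hg₂]
  push_cast
  rw [map_mul]
  ring

theorem bddRat_add {φ₁ φ₂ : PowerSeries ℂ} (h₁ : φ₁ ∈ BddRat) (h₂ : φ₂ ∈ BddRat) :
    φ₁ + φ₂ ∈ BddRat := by
  rw [mem_bddRat_iff] at h₁ h₂ ⊢
  obtain ⟨M₁, hM₁, g₁, hg₁⟩ := h₁
  obtain ⟨M₂, hM₂, g₂, hg₂⟩ := h₂
  refine ⟨M₁ * M₂, Nat.mul_pos hM₁ hM₂,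
    PowerSeries.C (M₂ : ℤ) * g₁ + PowerSeries.C (M₁ : ℤ) * g₂, ?_⟩
  rw [map_add, map_mul, map_mul, hg₁, hg₂, bddIotaZ_C_nat, bddIotaZ_C_nat]
  push_cast
  rw [map_mul]
  ring

theorem bddRat_C_rat (r : ℚ) : PowerSeries.C (r : ℂ) ∈ BddRat := by
  refine ⟨r.den, r.den_pos, fun n => ?_⟩
  by_cases h : n = 0
  · subst h
    refine ⟨r.num, ?_⟩
    simp only [PowerSeries.coeff_zero_C]
    have := Rat.den_mul_eq_num r
    exact_mod_cast congrArg (fun q : ℚ => (q : ℂ)) this
  · exact ⟨0, by simp [PowerSeries.coeff_C, h]⟩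

/-- `BddRat` as a submonoid. -/
def bddRatSubmonoid : Submonoid (PowerSeries ℂ) where
  carrier := BddRat
  mul_mem' := bddRat_mul
  one_mem' := bddRat_one

theorem adjoin_bddRat_eq_span :
    Subalgebra.toSubmodule (Algebra.adjoin ℂ BddRat) = Submodule.span ℂ BddRat := by
  rw [Algebra.adjoin_eq_span]
  congr 1
  exact congrArg SetLike.coe (Submonoid.closure_eq bddRatSubmonoid)

/-- Coefficientwise application of a `ℚ`-linear functional. -/
noncomputable def bddProj (π : ℂ →ₗ[ℚ] ℚ) (F : PowerSeries ℂ) : PowerSeries ℂ :=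
  PowerSeries.mk fun n => ((π (PowerSeries.coeff n F) : ℚ) : ℂ)

@[simp] theorem coeff_bddProj (π : ℂ →ₗ[ℚ] ℚ) (F : PowerSeries ℂ) (n : ℕ) :
    PowerSeries.coeff n (bddProj π F) = ((π (PowerSeries.coeff n F) : ℚ) : ℂ) := by
  simp [bddProj]

theorem bddProj_add (π : ℂ →ₗ[ℚ] ℚ) (F G : PowerSeries ℂ) :
    bddProj π (F + G) = bddProj π F + bddProj π G := by
  ext n; simp

theorem bddProj_zero (π : ℂ →ₗ[ℚ] ℚ) : bddProj π 0 = 0 := by
  ext n; simp

theorem bddProj_sum (π : ℂ →ₗ[ℚ] ℚ) {ι : Type*} (s : Finset ι) (F : ι → PowerSeries ℂ) :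
    bddProj π (∑ i ∈ s, F i) = ∑ i ∈ s, bddProj π (F i) := by
  classical
  induction s using Finset.induction_on with
  | empty => simp [bddProj_zero]
  | insert a s ha ih => rw [Finset.sum_insert ha, Finset.sum_insert ha, bddProj_add, ih]

theorem bddProj_mul_of_bddRatCoeff (π : ℂ →ₗ[ℚ] ℚ) {ψ : PowerSeries ℂ} (hψ : BddRatCoeff ψ)
    (F : PowerSeries ℂ) : bddProj π (ψ * F) = ψ * bddProj π F := by
  choose r hr using hψ
  ext n
  rw [coeff_bddProj, PowerSeries.coeff_mul, PowerSeries.coeff_mul, map_sum]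
  push_cast
  refine Finset.sum_congr rfl fun p _ => ?_
  rw [coeff_bddProj, hr]
  have : (r p.1 : ℂ) * PowerSeries.coeff p.2 F = (r p.1) • PowerSeries.coeff p.2 F := by
    rw [Rat.smul_def]
  rw [this, map_smul]
  simp

theorem bddProj_C (π : ℂ →ₗ[ℚ] ℚ) (z : ℂ) :
    bddProj π (PowerSeries.C z) = PowerSeries.C ((π z : ℚ) : ℂ) := by
  ext n
  by_cases h : n = 0
  · subst h; simp
  · simp [PowerSeries.coeff_C, h]

theorem bddProj_mem_bddRat (π : ℂ →ₗ[ℚ] ℚ) {x : PowerSeries ℂ}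
    (hx : x ∈ Algebra.adjoin ℂ BddRat) : bddProj π x ∈ BddRat := by
  have hx' : x ∈ Submodule.span ℂ BddRat := by
    rw [← adjoin_bddRat_eq_span]; exact hx
  suffices h : ∀ μ : ℂ, bddProj π (μ • x) ∈ BddRat by simpa using h 1
  clear hx
  induction hx' using Submodule.span_induction with
  | mem d hd =>
    intro μ
    have : μ • d = d * PowerSeries.C μ := by
      rw [mul_comm, ← PowerSeries.smul_eq_C_mul]
    rw [this, bddProj_mul_of_bddRatCoeff π (BddRat.bddRatCoeff hd), bddProj_C]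
    exact bddRat_mul hd (bddRat_C_rat _)
  | zero => intro μ; simpa [bddProj_zero] using bddRat_zero
  | add a b _ _ ha hb =>
    intro μ
    rw [smul_add, bddProj_add]
    exact bddRat_add (ha μ) (hb μ)
  | smul c a _ ha =>
    intro μ
    rw [smul_smul]
    exact ha _


/-- Homogenisation identity: if `t * f d = f e` then `f d ^ n * P(t)` is the image of an
element of `R`. -/
theorem bdd_homog_identity {R T : Type*} [CommRing R] [CommRing T] (f : R →+* T) (P : Polynomial R)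
    (d e : R) (t : T) (ht : t * f d = f e) :
    f d ^ P.natDegree * Polynomial.eval₂ f t P =
      f (∑ i ∈ Finset.range (P.natDegree + 1), P.coeff i * e ^ i * d ^ (P.natDegree - i)) := by
  rw [Polynomial.eval₂_eq_sum_range, Finset.mul_sum, map_sum]
  refine Finset.sum_congr rfl fun i hi => ?_
  have hi' : i ≤ P.natDegree := Nat.lt_succ_iff.mp (Finset.mem_range.mp hi)
  have h1 : f d ^ P.natDegree = f d ^ i * f d ^ (P.natDegree - i) := by
    rw [← pow_add, Nat.add_sub_cancel' hi']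
  rw [map_mul, map_mul, map_pow, map_pow, ← ht, h1, mul_pow]
  ring

/-- An element of a domain `S ⊇ R` which is a fraction of elements of `R` and integral over the
integrally closed domain `R` lies in `R`. -/
theorem bdd_mem_range_of_integral {R S : Type*} [CommRing R] [IsDomain R] [IsIntegrallyClosed R]
    [CommRing S] [IsDomain S] (ι : R →+* S) (hι : Function.Injective ι) (x : S) (d e : R)
    (hd : d ≠ 0) (hx : x * ι d = ι e) (P : Polynomial R) (hP : P.Monic)
    (hroot : Polynomial.eval₂ ι x P = 0) : ∃ r : R, ι r = x := by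
  set K := FractionRing R
  have hdK : algebraMap R K d ≠ 0 := by
    intro h
    exact hd ((IsFractionRing.injective R K) (by rw [h, map_zero]))
  set y : K := algebraMap R K e / algebraMap R K d with hy
  have hyd : y * algebraMap R K d = algebraMap R K e := by
    rw [hy, div_mul_cancel₀ _ hdK]
  have hH : (∑ i ∈ Finset.range (P.natDegree + 1),
      P.coeff i * e ^ i * d ^ (P.natDegree - i)) = 0 := by
    apply hι
    rw [← bdd_homog_identity ι P d e x hx, hroot, mul_zero, map_zero]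
  have hyroot : Polynomial.eval₂ (algebraMap R K) y P = 0 := by
    have h := bdd_homog_identity (algebraMap R K) P d e y hyd
    rw [hH, map_zero] at h
    exact (mul_eq_zero.mp h).resolve_left (pow_ne_zero _ hdK)
  have hint : IsIntegral R y := ⟨P, hP, hyroot⟩
  obtain ⟨r, hr⟩ := IsIntegrallyClosed.isIntegral_iff.mp hint
  refine ⟨r, ?_⟩
  have hrd : r * d = e := by
    apply IsFractionRing.injective R K
    rw [map_mul, hr, hyd]
  have hιd : ι d ≠ 0 := by
    intro h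
    exact hd (hι (by rw [h, map_zero]))
  apply mul_right_cancel₀ hιd
  rw [hx, ← map_mul, hrd]


/-- A finite family in `BddRat` has a common denominator. -/
theorem bddRat_common_denom {n : ℕ} (c : Fin n → PowerSeries ℂ) (hc : ∀ j, c j ∈ BddRat) :
    ∃ M : ℕ, 0 < M ∧ ∀ j, ∃ g : PowerSeries ℤ, bddIotaZ g = PowerSeries.C (M : ℂ) * c j := by
  have h := fun j => (mem_bddRat_iff (c j)).mp (hc j)
  choose Mj hMj g hg using h
  refine ⟨∏ j, Mj j, Finset.prod_pos fun j _ => hMj j, fun j => ?_⟩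
  refine ⟨PowerSeries.C ((∏ i ∈ Finset.univ.erase j, Mj i : ℕ) : ℤ) * g j, ?_⟩
  rw [map_mul, hg, bddIotaZ_C_nat, ← Finset.mul_prod_erase Finset.univ Mj (Finset.mem_univ j)]
  push_cast
  rw [map_mul]
  ring

/-- P2: bounded denominators. `φ` rational, `φ = E / D` with `D, E` in the ℂ-algebra generated by
bounded-denominator series, and `φ` a root of a monic polynomial with such coefficients. -/
theorem bddRat_of_integral (φ : PowerSeries ℂ)
    (hφ : ∀ n, ∃ r : ℚ, PowerSeries.coeff n φ = (r : ℂ))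
    (D E : PowerSeries ℂ) (hD : D ∈ Algebra.adjoin ℂ BddRat) (hE : E ∈ Algebra.adjoin ℂ BddRat)
    (hD0 : D ≠ 0) (hDE : φ * D = E)
    (n : ℕ) (c : Fin n → PowerSeries ℂ) (hc : ∀ j, c j ∈ Algebra.adjoin ℂ BddRat)
    (hint : φ ^ n + ∑ j : Fin n, c j * φ ^ (j : ℕ) = 0) :
    φ ∈ BddRat := by
  have hφ' : BddRatCoeff φ := hφ
  -- Step 1: rationalise the fraction
  obtain ⟨m, hm⟩ : ∃ m, PowerSeries.coeff m D ≠ 0 := by
    by_contra h
    push Not at h
    exact hD0 (PowerSeries.ext fun k => by simpa using h k)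
  obtain ⟨π₂, hπ₂⟩ := Module.Projective.exists_dual_eq_one ℚ hm
  have hD' : bddProj π₂ D ∈ BddRat := bddProj_mem_bddRat π₂ hD
  have hE' : bddProj π₂ E ∈ BddRat := bddProj_mem_bddRat π₂ hE
  have hD'0 : bddProj π₂ D ≠ 0 := by
    intro h
    have := congrArg (PowerSeries.coeff m) h
    rw [coeff_bddProj, hπ₂] at this
    simp at this
  have hDE' : φ * bddProj π₂ D = bddProj π₂ E := by
    rw [← bddProj_mul_of_bddRatCoeff π₂ hφ', hDE]
  -- Step 2: rationalise the integrality equation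
  obtain ⟨π₁, hπ₁⟩ := Module.Projective.exists_dual_eq_one ℚ (one_ne_zero : (1 : ℂ) ≠ 0)
  have hc' : ∀ j, bddProj π₁ (c j) ∈ BddRat := fun j => bddProj_mem_bddRat π₁ (hc j)
  have hint' : φ ^ n + ∑ j : Fin n, bddProj π₁ (c j) * φ ^ (j : ℕ) = 0 := by
    have h := congrArg (bddProj π₁) hint
    rw [bddProj_zero, bddProj_add, bddProj_sum] at h
    have h1 : bddProj π₁ (φ ^ n) = φ ^ n := by
      have := bddProj_mul_of_bddRatCoeff π₁ (hφ'.pow n) 1
      rw [mul_one] at this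
      rw [this, ← map_one (PowerSeries.C (R := ℂ)), bddProj_C, hπ₁]
      simp
    rw [h1] at h
    rw [← h]
    congr 1
    refine Finset.sum_congr rfl fun j _ => ?_
    rw [mul_comm (c j), bddProj_mul_of_bddRatCoeff π₁ (hφ'.pow _), mul_comm]
  -- Step 3: integer data
  obtain ⟨MD, hMD, gD, hgD⟩ := (mem_bddRat_iff _).mp hD'
  obtain ⟨ME, hME, gE, hgE⟩ := (mem_bddRat_iff _).mp hE'
  obtain ⟨M, hM, hγ⟩ := bddRat_common_denom (fun j => bddProj π₁ (c j)) hc'
  choose γ hγ using hγ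
  have hMC : (M : ℂ) ≠ 0 := by exact_mod_cast hM.ne'
  have hMDC : (MD : ℂ) ≠ 0 := by exact_mod_cast hMD.ne'
  have hMEC : (ME : ℂ) ≠ 0 := by exact_mod_cast hME.ne'
  -- the fraction
  set x : PowerSeries ℂ := PowerSeries.C (M : ℂ) * φ with hx
  set d₀ : PowerSeries ℤ := PowerSeries.C (ME : ℤ) * gD with hd₀
  set e₀ : PowerSeries ℤ := PowerSeries.C (M : ℤ) * (PowerSeries.C (MD : ℤ) * gE) with he₀
  have hgD0 : gD ≠ 0 := by
    intro h
    rw [h, map_zero] at hgD
    rcases mul_eq_zero.mp hgD.symm with h1 | h1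
    · exact hMDC (by simpa using congrArg (PowerSeries.coeff 0) h1)
    · exact hD'0 h1
  have hd₀0 : d₀ ≠ 0 := by
    rw [hd₀]
    refine mul_ne_zero ?_ hgD0
    intro h
    have := congrArg (PowerSeries.coeff 0) h
    simp at this
    exact hME.ne' this
  have hxd : x * bddIotaZ d₀ = bddIotaZ e₀ := by
    rw [hd₀, he₀, map_mul, map_mul, map_mul, bddIotaZ_C_nat, bddIotaZ_C_nat, bddIotaZ_C_nat,
      hgD, hgE, ← hDE', hx]
    ring
  -- the monic polynomial
  let Q : Polynomial (PowerSeries ℤ) :=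
    ∑ j : Fin n, Polynomial.C (PowerSeries.C ((M : ℤ) ^ (n - 1 - (j : ℕ))) * γ j) *
      Polynomial.X ^ (j : ℕ)
  have hQdeg : Q.degree < n := Polynomial.degree_sum_fin_lt _
  have hPmonic : (Polynomial.X ^ n + Q).Monic := Polynomial.monic_X_pow_add hQdeg
  have hroot : Polynomial.eval₂ bddIotaZ x (Polynomial.X ^ n + Q) = 0 := by
    rw [Polynomial.eval₂_add, Polynomial.eval₂_X_pow, Polynomial.eval₂_finsetSum]
    have hterm : ∀ j : Fin n,
        Polynomial.eval₂ bddIotaZ x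
          (Polynomial.C (PowerSeries.C ((M : ℤ) ^ (n - 1 - (j : ℕ))) * γ j) *
            Polynomial.X ^ (j : ℕ)) =
        PowerSeries.C ((M : ℂ) ^ n) * (bddProj π₁ (c j) * φ ^ (j : ℕ)) := by
      intro j
      rw [Polynomial.eval₂_mul, Polynomial.eval₂_C, Polynomial.eval₂_X_pow, map_mul, hγ, hx,
        mul_pow]
      have hj : (n - 1 - (j : ℕ)) + 1 + (j : ℕ) = n := by have := j.2; omega
      have hpow : (M : ℂ) ^ n = (M : ℂ) ^ (n - 1 - (j : ℕ)) * (M : ℂ) * (M : ℂ) ^ (j : ℕ) := by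
        rw [← pow_succ, ← pow_add, hj]
      have hC : bddIotaZ (PowerSeries.C ((M : ℤ) ^ (n - 1 - (j : ℕ)))) =
          PowerSeries.C ((M : ℂ) ^ (n - 1 - (j : ℕ))) := by
        simp [bddIotaZ]
      rw [hC, hpow, map_mul, map_mul, map_pow, map_pow]
      ring
    rw [Finset.sum_congr rfl fun j _ => hterm j, ← Finset.mul_sum, hx, mul_pow, ← map_pow,
      ← mul_add, hint', mul_zero]
  obtain ⟨r, hr⟩ := bdd_mem_range_of_integral bddIotaZ bddIotaZ_injective x d₀ e₀ hd₀0 hxd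
    (Polynomial.X ^ n + Q) hPmonic hroot
  exact (mem_bddRat_iff φ).mpr ⟨M, hM, r, hr⟩

end Fermat.Agent.S23lib
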