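/-
S23 library, piece P3 (helper16): every level-one modular form is a `ℂ`-combination of level-one
forms whose `q`-expansions are rational with bounded denominators.
-/
import Mathlib
import Fermat.Agent.S23_Defs
import Fermat.Agent.S23_BddDenom

set_option autoImplicit false

open UpperHalfPlane ModularForm CongruenceSubgroup ModularFormClass EisensteinSeries
open scoped MatrixGroups ModularForm Manifold

namespace Fermat.Agent.S23lib

/-- Scalar multiples by rational numbers preserve `BddRat`. -/
theorem bddRat_rat_smul (r : ℚ) {φ : PowerSeries ℂ} (h : φ ∈ BddRat) :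
    (r : ℂ) • φ ∈ BddRat := by
  have : (r : ℂ) • φ = PowerSeries.C (r : ℂ) * φ := by
    ext n
    simp
  rw [this]
  exact bddRat_mul (bddRat_C_rat r) h

theorem bddRat_neg {φ : PowerSeries ℂ} (h : φ ∈ BddRat) : -φ ∈ BddRat := by
  have := bddRat_rat_smul (-1) h
  simpa using this

theorem bddRat_sub {φ ψ : PowerSeries ℂ} (h₁ : φ ∈ BddRat) (h₂ : ψ ∈ BddRat) :
    φ - ψ ∈ BddRat := by
  rw [sub_eq_add_neg]
  exact bddRat_add h₁ (bddRat_neg h₂)

theorem bddRat_pow {φ : PowerSeries ℂ} (h : φ ∈ BddRat) (n : ℕ) : φ ^ n ∈ BddRat := by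
  induction n with
  | zero => simpa using bddRat_one
  | succ n ih => rw [pow_succ]; exact bddRat_mul ih h

/-- The `q`-expansion of the Eisenstein series `E k` lies in `BddRat`. -/
theorem qExpansion_E_mem_bddRat {k : ℕ} (hk : 3 ≤ k) (hk2 : Even k) :
    qExpansion 1 (E hk) ∈ BddRat := by
  set r : ℚ := 2 * k / bernoulli k with hr
  refine ⟨r.den, r.den_pos, fun m => ?_⟩
  rw [E_qExpansion_coeff hk hk2 m]
  by_cases hm : m = 0
  · rw [if_pos hm]
    exact ⟨r.den, by simp⟩
  · rw [if_neg hm]
    refine ⟨-(r.num * (ArithmeticFunction.sigma (k - 1) m : ℤ)), ?_⟩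
    have h1 : ((2 : ℂ) * k / bernoulli k) = (r : ℂ) := by
      rw [hr]
      push_cast
      rfl
    have h2 : ((r.den : ℚ) * r : ℚ) = r.num := Rat.den_mul_eq_num r
    have h3 : ((r.den : ℂ) * (r : ℂ)) = (r.num : ℂ) := by exact_mod_cast congrArg (fun q : ℚ => (q : ℂ)) h2
    rw [h1]
    push_cast
    linear_combination (-(ArithmeticFunction.sigma (k - 1) m : ℂ)) * h3


/-- The `q`-expansion of the discriminant lies in `BddRat`. -/
theorem qExpansion_discriminant_mem_bddRat :
    qExpansion 1 ModularForm.discriminant ∈ BddRat := by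
  set F12 : ModularForm 𝒮ℒ 12 :=
    ModularForm.mcast (by decide) (E₄.pow 3) - ModularForm.mcast (by decide) (E₆.pow 2) with hF
  have hF12 : qExpansion 1 F12 = qExpansion 1 E₄ ^ 3 - qExpansion 1 E₆ ^ 2 := by
    simp only [hF, FunLike.coe_sub, ModularForm.coe_mcast,
      ModularForm.qExpansion_sub one_pos one_mem_strictPeriods_SL,
      ModularForm.qExpansion_pow one_pos one_mem_strictPeriods_SL]
  have hΔ : (ModularForm.discriminant : ℍ → ℂ) = (((1 / 1728 : ℚ) : ℂ)) • ⇑F12 := by
    funext z
    rw [discriminant_eq_E₄_cube_sub_E₆_sq]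
    simp only [hF, Pi.smul_apply, smul_eq_mul]
    change _ = _ * (E₄ z ^ 3 - E₆ z ^ 2)
    push_cast
    ring
  rw [hΔ, ModularForm.qExpansion_smul one_pos one_mem_strictPeriods_SL, hF12]
  exact bddRat_rat_smul _ (bddRat_sub (bddRat_pow (qExpansion_E_mem_bddRat _ ⟨2, rfl⟩) 3)
    (bddRat_pow (qExpansion_E_mem_bddRat _ ⟨3, rfl⟩) 2))

/-- Multiplication by the discriminant, as a linear map on level one modular forms. -/
noncomputable def mulDiscriminantLin (k : ℤ) : ModularForm 𝒮ℒ (k - 12) →ₗ[ℂ] ModularForm 𝒮ℒ k :=
  CuspForm.toModularFormₗ ∘ₗ (CuspForm.discriminantEquiv (k := k)).symm.toLinearMap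

theorem mulDiscriminantLin_apply (k : ℤ) (H : ModularForm 𝒮ℒ (k - 12)) (z : ℍ) :
    mulDiscriminantLin k H z = ModularForm.discriminant z * H z := rfl

theorem qExpansion_mulDiscriminantLin (k : ℤ) (H : ModularForm 𝒮ℒ (k - 12)) :
    qExpansion 1 (mulDiscriminantLin k H) = qExpansion 1 ModularForm.discriminant *
      qExpansion 1 H := by
  have h1 : (⇑(mulDiscriminantLin k H) : ℍ → ℂ) = ⇑CuspForm.discriminant * ⇑H := by
    funext z
    rfl
  rw [h1, ← CuspForm.coe_discriminant]
  exact ModularForm.qExpansion_mul_coe one_pos one_mem_strictPeriods_SL _ _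

/-- P3: every level-one modular form is a ℂ-combination of level-one forms (same weight) whose
q-expansion is rational with bounded denominators. -/
theorem levelOne_mem_span_bddRat (k : ℤ) (F : ModularForm 𝒮ℒ k) :
    F ∈ Submodule.span ℂ {H : ModularForm 𝒮ℒ k | qExpansion 1 H ∈ BddRat} := by
  suffices key : ∀ (m : ℕ) (k : ℤ), k < m → ∀ F : ModularForm 𝒮ℒ k,
      F ∈ Submodule.span ℂ {H : ModularForm 𝒮ℒ k | qExpansion 1 H ∈ BddRat} from
    key (k.toNat + 1) k (by omega) F
  intro m
  induction m with
  | zero =>
    intro k hk F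
    have hk0 : k < 0 := by simpa using hk
    have hF0 : F = 0 := DFunLike.coe_injective (levelOne_neg_weight_eq_zero hk0 F)
    rw [hF0]
    exact Submodule.zero_mem _
  | succ m ih =>
    intro k hk F
    rcases lt_trichotomy k 0 with hk0 | hk0 | hk0
    · have hF0 : F = 0 := DFunLike.coe_injective (levelOne_neg_weight_eq_zero hk0 F)
      rw [hF0]
      exact Submodule.zero_mem _
    · subst hk0
      obtain ⟨c, hc⟩ := levelOne_weight_zero_const F
      have hF1 : F = c • (1 : ModularForm 𝒮ℒ 0) := by
        apply DFunLike.coe_injective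
        rw [hc]
        funext z
        simp
      rw [hF1]
      refine Submodule.smul_mem _ _ (Submodule.subset_span ?_)
      change qExpansion 1 (1 : ModularForm 𝒮ℒ 0) ∈ BddRat
      rw [ModularForm.qExpansion_one]
      exact bddRat_one
    · by_cases hodd : Odd k
      · rw [ModularForm.levelOne_odd_weight_eq_zero hodd F]
        exact Submodule.zero_mem _
      · have heven : Even k := Int.not_odd_iff_even.1 hodd
        by_cases hk2 : k = 2
        · subst hk2
          have := rank_zero_iff_forall_zero.1 ModularForm.levelOne_weight_two_rank_zero F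
          rw [this]
          exact Submodule.zero_mem _
        · obtain ⟨n, rfl⟩ : ∃ n : ℕ, k = n := Int.eq_ofNat_of_zero_le hk0.le
          have hn_even : Even n := by exact_mod_cast heven
          have hn3 : 3 ≤ n := by
            obtain ⟨t, ht⟩ := hn_even
            have h0 : 0 < n := by exact_mod_cast hk0
            have h2 : n ≠ 2 := by
              intro h
              apply hk2
              exact_mod_cast h
            omega
          set a₀ : ℂ := (qExpansion 1 F).coeff 0 with ha₀
          set G : ModularForm 𝒮ℒ (n : ℤ) := F - a₀ • E hn3 with hG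
          have hcusp' : ModularForm.IsCuspForm G :=
            ModularForm.sub_smul_isCuspForm F (E hn3) (E_qExpansion_coeff_zero hn3 hn_even)
          have hcusp : (qExpansion 1 (⇑G)).coeff 0 = 0 :=
            (ModularForm.isCuspForm_iff_coeffZero_eq_zero G).1 hcusp'
          set H : ModularForm 𝒮ℒ ((n : ℤ) - 12) :=
            CuspForm.discriminantEquiv (ModularForm.toCuspForm G hcusp) with hH
          have hHmem := ih ((n : ℤ) - 12) (by push_cast at hk ⊢; omega) H
          have hLG : mulDiscriminantLin (n : ℤ) H = G := by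
            apply DFunLike.coe_injective
            funext z
            rw [mulDiscriminantLin_apply, hH]
            exact ModularForm.discriminant_mul_discriminantEquiv_apply _ z
          have hGmem : G ∈ Submodule.span ℂ
              {H : ModularForm 𝒮ℒ (n : ℤ) | qExpansion 1 H ∈ BddRat} := by
            rw [← hLG]
            have hmap : Submodule.map (mulDiscriminantLin (n : ℤ))
                (Submodule.span ℂ {H : ModularForm 𝒮ℒ ((n : ℤ) - 12) | qExpansion 1 H ∈ BddRat}) ≤
                Submodule.span ℂ {H : ModularForm 𝒮ℒ (n : ℤ) | qExpansion 1 H ∈ BddRat} := by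
              rw [Submodule.map_span]
              refine Submodule.span_mono ?_
              rintro _ ⟨H', hH', rfl⟩
              change qExpansion 1 (mulDiscriminantLin (n : ℤ) H') ∈ BddRat
              rw [qExpansion_mulDiscriminantLin]
              exact bddRat_mul qExpansion_discriminant_mem_bddRat hH'
            exact hmap (Submodule.mem_map_of_mem hHmem)
          have hE : E hn3 ∈ Submodule.span ℂ
              {H : ModularForm 𝒮ℒ (n : ℤ) | qExpansion 1 H ∈ BddRat} :=
            Submodule.subset_span (qExpansion_E_mem_bddRat hn3 hn_even)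
          have hFeq : F = G + a₀ • E hn3 := by
            rw [hG]
            abel
          rw [hFeq]
          exact Submodule.add_mem _ hGmem (Submodule.smul_mem _ _ hE)

end Fermat.Agent.S23lib
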