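import Mathlib
import Fermat.Prelude.Def_ModularCurve_GenusNumerics

set_option autoImplicit false

namespace Fermat.Agent.S20lib

open CongruenceSubgroup
open scoped MatrixGroups

/-- Coset criterion: `g⁻¹ h ∈ Γ₀(N)` iff the first columns are proportional mod `N`. -/
lemma inv_mul_mem_Gamma0_iff (N : ℕ) (g h : SL(2, ℤ)) :
    g⁻¹ * h ∈ Gamma0 N ↔ (((g 0 0 * h 1 0 - g 1 0 * h 0 0 : ℤ)) : ZMod N) = 0 := by
  rw [Gamma0_mem]
  rw [Matrix.SpecialLinearGroup.coe_mul, Matrix.SpecialLinearGroup.coe_inv,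
    Matrix.adjugate_fin_two, Matrix.mul_apply]
  simp only [Fin.sum_univ_two, Matrix.of_apply, Matrix.cons_val_zero, Matrix.cons_val_one,
    Matrix.cons_val', Matrix.cons_val_fin_one]
  constructor
  · intro h1
    rw [← h1]
    push_cast
    ring
  · intro h1
    rw [← h1]
    push_cast
    ring

lemma quot_eq_iff (N : ℕ) (g h : SL(2, ℤ)) :
    (QuotientGroup.mk g : SL(2, ℤ) ⧸ Gamma0 N) = QuotientGroup.mk h ↔
      (((g 0 0 * h 1 0 - g 1 0 * h 0 0 : ℤ)) : ZMod N) = 0 := by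
  rw [QuotientGroup.eq, inv_mul_mem_Gamma0_iff]

lemma smul_mk (N : ℕ) (s g : SL(2, ℤ)) :
    s • (QuotientGroup.mk g : SL(2, ℤ) ⧸ Gamma0 N) = QuotientGroup.mk (s * g) :=
  rfl

/-- The determinant relation of an element of `SL(2, ℤ)`. -/
lemma det_rel (g : SL(2, ℤ)) : g 0 0 * g 1 1 - g 0 1 * g 1 0 = 1 := by
  have := g.det_coe
  rw [Matrix.det_fin_two] at this
  exact this

lemma S_mul_apply_00 (g : SL(2, ℤ)) : (ModularGroup.S * g) 0 0 = - g 1 0 := by
  show ((ModularGroup.S * g : SL(2,ℤ)) : Matrix (Fin 2) (Fin 2) ℤ) 0 0 = _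
  rw [Matrix.SpecialLinearGroup.coe_mul, ModularGroup.coe_S]
  simp [Matrix.mul_apply, Fin.sum_univ_two]

lemma S_mul_apply_10 (g : SL(2, ℤ)) : (ModularGroup.S * g) 1 0 = g 0 0 := by
  show ((ModularGroup.S * g : SL(2,ℤ)) : Matrix (Fin 2) (Fin 2) ℤ) 1 0 = _
  rw [Matrix.SpecialLinearGroup.coe_mul, ModularGroup.coe_S]
  simp [Matrix.mul_apply, Fin.sum_univ_two]

lemma ST_mul_apply_00 (g : SL(2, ℤ)) : (ModularGroup.S * ModularGroup.T * g) 0 0 = - g 1 0 := by
  show ((ModularGroup.S * ModularGroup.T * g : SL(2,ℤ)) : Matrix (Fin 2) (Fin 2) ℤ) 0 0 = _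
  rw [Matrix.SpecialLinearGroup.coe_mul, Matrix.SpecialLinearGroup.coe_mul, ModularGroup.coe_S,
    ModularGroup.coe_T]
  simp [Matrix.mul_apply, Fin.sum_univ_two]

lemma ST_mul_apply_10 (g : SL(2, ℤ)) :
    (ModularGroup.S * ModularGroup.T * g) 1 0 = g 0 0 + g 1 0 := by
  show ((ModularGroup.S * ModularGroup.T * g : SL(2,ℤ)) : Matrix (Fin 2) (Fin 2) ℤ) 1 0 = _
  rw [Matrix.SpecialLinearGroup.coe_mul, Matrix.SpecialLinearGroup.coe_mul, ModularGroup.coe_S,
    ModularGroup.coe_T]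
  simp [Matrix.mul_apply, Fin.sum_univ_two]

lemma T_zpow_mul_apply_00 (k : ℤ) (g : SL(2, ℤ)) :
    (ModularGroup.T ^ k * g) 0 0 = g 0 0 + k * g 1 0 := by
  show ((ModularGroup.T ^ k * g : SL(2,ℤ)) : Matrix (Fin 2) (Fin 2) ℤ) 0 0 = _
  rw [Matrix.SpecialLinearGroup.coe_mul, ModularGroup.coe_T_zpow]
  simp [Matrix.mul_apply, Fin.sum_univ_two]

lemma T_zpow_mul_apply_10 (k : ℤ) (g : SL(2, ℤ)) :
    (ModularGroup.T ^ k * g) 1 0 = g 1 0 := by
  show ((ModularGroup.T ^ k * g : SL(2,ℤ)) : Matrix (Fin 2) (Fin 2) ℤ) 1 0 = _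
  rw [Matrix.SpecialLinearGroup.coe_mul, ModularGroup.coe_T_zpow]
  simp [Matrix.mul_apply, Fin.sum_univ_two]

/-- The matrix `[[x, -1], [1, 0]]`. -/
def colMat (x : ℤ) : SL(2, ℤ) :=
  ⟨!![x, -1; 1, 0], by simp [Matrix.det_fin_two]⟩

@[simp] lemma colMat_00 (x : ℤ) : colMat x 0 0 = x := rfl
@[simp] lemma colMat_10 (x : ℤ) : colMat x 1 0 = 1 := rfl

lemma isUnit_of_sq_add_sq {R : Type*} [CommRing R] {a c u v : R} (h1 : u * a + v * c = 1)
    (h2 : a ^ 2 + c ^ 2 = 0) : IsUnit c := by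
  refine IsUnit.of_mul_eq_one (2 * v - v ^ 2 * c - u ^ 2 * c) ?_
  have ha : u * a = 1 - v * c := by linear_combination h1
  have : (u * a) ^ 2 = - u ^ 2 * c ^ 2 := by linear_combination u ^ 2 * h2
  rw [ha] at this
  linear_combination -this

lemma isUnit_of_sq_add_mul_add_sq {R : Type*} [CommRing R] {a c u v : R} (h1 : u * a + v * c = 1)
    (h2 : a ^ 2 + a * c + c ^ 2 = 0) : IsUnit c := by
  refine IsUnit.of_mul_eq_one (2 * v - v ^ 2 * c - u ^ 2 * (a + c)) ?_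
  have ha : u * a = 1 - v * c := by linear_combination h1
  have : (u * a) ^ 2 = - u ^ 2 * c * (a + c) := by linear_combination u ^ 2 * h2
  rw [ha] at this
  linear_combination -this

/-- Bezout relation mod `N` for the first column of `g`. -/
lemma bezout_col (N : ℕ) (g : SL(2, ℤ)) :
    ((g 1 1 : ℤ) : ZMod N) * ((g 0 0 : ℤ) : ZMod N) + (-(g 0 1 : ℤ) : ZMod N) * ((g 1 0 : ℤ) : ZMod N)
      = 1 := by
  have := congrArg (Int.cast : ℤ → ZMod N) (det_rel g)
  push_cast at this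
  linear_combination this

variable (N : ℕ) [NeZero N]

theorem card_fixed_S :
    Nat.card {q : SL(2, ℤ) ⧸ Gamma0 N // ModularGroup.S • q = q} = ModularCurve.nuTwo N := by
  symm
  unfold ModularCurve.nuTwo
  refine Nat.card_congr (Equiv.ofBijective
    (fun x : {x : ZMod N // x ^ 2 + 1 = 0} =>
      (⟨QuotientGroup.mk (colMat (x.1.cast : ℤ)), ?_⟩ :
        {q : SL(2, ℤ) ⧸ Gamma0 N // ModularGroup.S • q = q})) ⟨?_, ?_⟩)
  · rw [smul_mk, quot_eq_iff, S_mul_apply_00, S_mul_apply_10]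
    simp only [colMat_00, colMat_10]
    push_cast
    linear_combination - x.2
  · intro x y hxy
    simp only [Subtype.mk.injEq] at hxy
    rw [quot_eq_iff] at hxy
    simp only [colMat_00, colMat_10] at hxy
    push_cast at hxy
    apply Subtype.ext
    linear_combination hxy
  · rintro ⟨q, hq⟩
    induction q using QuotientGroup.induction_on with
    | H g =>
      rw [smul_mk, quot_eq_iff, S_mul_apply_00, S_mul_apply_10] at hq
      push_cast at hq
      have hsq : ((g 0 0 : ℤ) : ZMod N) ^ 2 + ((g 1 0 : ℤ) : ZMod N) ^ 2 = 0 := by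
        linear_combination - hq
      have hu := isUnit_of_sq_add_sq (bezout_col N g) hsq
      obtain ⟨u, hu⟩ := hu
      refine ⟨⟨((g 0 0 : ℤ) : ZMod N) * ↑u⁻¹, ?_⟩, ?_⟩
      · have h1 : ((g 1 0 : ℤ) : ZMod N) * ↑u⁻¹ = 1 := by rw [← hu]; exact u.mul_inv
        linear_combination (↑u⁻¹ : ZMod N) ^ 2 * hsq - (((g 1 0 : ℤ) : ZMod N) * ↑u⁻¹ + 1) * h1
      · apply Subtype.ext
        simp only
        rw [quot_eq_iff]
        simp only [colMat_00, colMat_10]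
        push_cast
        have h1 : (↑u⁻¹ : ZMod N) * ((g 1 0 : ℤ) : ZMod N) = 1 := by rw [← hu]; exact u.inv_mul
        linear_combination ((g 0 0 : ℤ) : ZMod N) * h1

theorem card_fixed_ST :
    Nat.card {q : SL(2, ℤ) ⧸ Gamma0 N // (ModularGroup.S * ModularGroup.T) • q = q}
      = ModularCurve.nuThree N := by
  symm
  unfold ModularCurve.nuThree
  refine Nat.card_congr (Equiv.ofBijective
    (fun x : {x : ZMod N // x ^ 2 + x + 1 = 0} =>
      (⟨QuotientGroup.mk (colMat (x.1.cast : ℤ)), ?_⟩ :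
        {q : SL(2, ℤ) ⧸ Gamma0 N // (ModularGroup.S * ModularGroup.T) • q = q})) ⟨?_, ?_⟩)
  · rw [smul_mk, quot_eq_iff, ST_mul_apply_00, ST_mul_apply_10]
    simp only [colMat_00, colMat_10]
    push_cast
    linear_combination - x.2
  · intro x y hxy
    simp only [Subtype.mk.injEq] at hxy
    rw [quot_eq_iff] at hxy
    simp only [colMat_00, colMat_10] at hxy
    push_cast at hxy
    apply Subtype.ext
    linear_combination hxy
  · rintro ⟨q, hq⟩
    induction q using QuotientGroup.induction_on with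
    | H g =>
      rw [smul_mk, quot_eq_iff, ST_mul_apply_00, ST_mul_apply_10] at hq
      push_cast at hq
      have hsq : ((g 0 0 : ℤ) : ZMod N) ^ 2 + ((g 0 0 : ℤ) : ZMod N) * ((g 1 0 : ℤ) : ZMod N)
          + ((g 1 0 : ℤ) : ZMod N) ^ 2 = 0 := by
        linear_combination - hq
      have hu := isUnit_of_sq_add_mul_add_sq (bezout_col N g) hsq
      obtain ⟨u, hu⟩ := hu
      refine ⟨⟨((g 0 0 : ℤ) : ZMod N) * ↑u⁻¹, ?_⟩, ?_⟩
      · have h1 : ((g 1 0 : ℤ) : ZMod N) * ↑u⁻¹ = 1 := by rw [← hu]; exact u.mul_inv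
        linear_combination (↑u⁻¹ : ZMod N) ^ 2 * hsq
          - (((g 1 0 : ℤ) : ZMod N) * ↑u⁻¹ + 1 + ((g 0 0 : ℤ) : ZMod N) * ↑u⁻¹) * h1
      · apply Subtype.ext
        simp only
        rw [quot_eq_iff]
        simp only [colMat_00, colMat_10]
        push_cast
        have h1 : (↑u⁻¹ : ZMod N) * ((g 1 0 : ℤ) : ZMod N) = 1 := by rw [← hu]; exact u.inv_mul
        linear_combination ((g 0 0 : ℤ) : ZMod N) * h1


/-! ### The index of `Γ₀(N)` -/


lemma squarefree_divisors_prime_mul_of_dvd {p N : ℕ} (hp : p.Prime) (hN : N ≠ 0) (h : p ∣ N) :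
    (p * N).divisors.filter Squarefree = N.divisors.filter Squarefree := by
  ext d
  simp only [Finset.mem_filter, Nat.mem_divisors]
  constructor
  · rintro ⟨⟨hd, -⟩, hsq⟩
    refine ⟨⟨?_, hN⟩, hsq⟩
    by_cases hpd : p ∣ d
    · obtain ⟨e, rfl⟩ := hpd
      have he : e ∣ N := Nat.dvd_of_mul_dvd_mul_left hp.pos hd
      have hcop : Nat.Coprime p e := by
        rw [Nat.Prime.coprime_iff_not_dvd hp]
        intro hpe
        obtain ⟨f, rfl⟩ := hpe
        have := hsq p ⟨f, by ring⟩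
        exact hp.not_isUnit this
      exact hcop.mul_dvd_of_dvd_of_dvd h he
    · exact ((Nat.Prime.coprime_iff_not_dvd hp).2 hpd).symm.dvd_of_dvd_mul_left hd
  · rintro ⟨⟨hd, -⟩, hsq⟩
    exact ⟨⟨hd.mul_left p, mul_ne_zero hp.ne_zero hN⟩, hsq⟩

lemma dedekindPsi_prime_mul_of_dvd {p N : ℕ} (hp : p.Prime) (hN : N ≠ 0) (h : p ∣ N) :
    ModularCurve.dedekindPsi (p * N) = p * ModularCurve.dedekindPsi N := by
  unfold ModularCurve.dedekindPsi
  rw [squarefree_divisors_prime_mul_of_dvd hp hN h, Finset.mul_sum]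
  refine Finset.sum_congr rfl fun d hd => ?_
  simp only [Finset.mem_filter, Nat.mem_divisors] at hd
  exact Nat.mul_div_assoc p hd.1.1

lemma dedekindPsi_prime_mul_of_not_dvd {p N : ℕ} (hp : p.Prime) (hN : N ≠ 0) (h : ¬ p ∣ N) :
    ModularCurve.dedekindPsi (p * N) = (p + 1) * ModularCurve.dedekindPsi N := by
  unfold ModularCurve.dedekindPsi
  have hcop : Nat.Coprime p N := (Nat.Prime.coprime_iff_not_dvd hp).2 h
  have hsplit : (p * N).divisors.filter Squarefree =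
      (N.divisors.filter Squarefree) ∪ (N.divisors.filter Squarefree).image (p * ·) := by
    ext d
    simp only [Finset.mem_filter, Nat.mem_divisors, Finset.mem_union, Finset.mem_image]
    constructor
    · rintro ⟨⟨hd, -⟩, hsq⟩
      by_cases hpd : p ∣ d
      · right
        obtain ⟨e, rfl⟩ := hpd
        have he : e ∣ N := Nat.dvd_of_mul_dvd_mul_left hp.pos hd
        exact ⟨e, ⟨⟨he, hN⟩, hsq.of_mul_right⟩, rfl⟩
      · left
        exact ⟨⟨((Nat.Prime.coprime_iff_not_dvd hp).2 hpd).symm.dvd_of_dvd_mul_left hd, hN⟩, hsq⟩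
    · rintro (⟨⟨hd, -⟩, hsq⟩ | ⟨e, ⟨⟨he, -⟩, hsq⟩, rfl⟩)
      · exact ⟨⟨hd.mul_left p, mul_ne_zero hp.ne_zero hN⟩, hsq⟩
      · refine ⟨⟨Nat.mul_dvd_mul_left p he, mul_ne_zero hp.ne_zero hN⟩, ?_⟩
        rw [Nat.squarefree_mul_iff]
        exact ⟨Nat.Coprime.coprime_dvd_right he hcop, hp.squarefree, hsq⟩
  have hdisj : Disjoint (N.divisors.filter Squarefree)
      ((N.divisors.filter Squarefree).image (p * ·)) := by
    rw [Finset.disjoint_left]
    intro d hd hd'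
    simp only [Finset.mem_filter, Nat.mem_divisors, Finset.mem_image] at hd hd'
    obtain ⟨e, -, rfl⟩ := hd'
    exact h ((dvd_mul_right p e).trans hd.1.1)
  rw [hsplit, Finset.sum_union hdisj, Finset.sum_image
    (fun x _ y _ hxy => Nat.eq_of_mul_eq_mul_left hp.pos hxy), add_mul, one_mul, Finset.mul_sum]
  congr 1
  · refine Finset.sum_congr rfl fun d hd => ?_
    simp only [Finset.mem_filter, Nat.mem_divisors] at hd
    exact Nat.mul_div_assoc p hd.1.1
  · refine Finset.sum_congr rfl fun d hd => ?_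
    exact Nat.mul_div_mul_left N d hp.pos


/-- The matrix `[[1, 0], [z, 1]]`. -/
def lowMat (z : ℤ) : SL(2, ℤ) :=
  ⟨!![1, 0; z, 1], by simp [Matrix.det_fin_two]⟩

@[simp] lemma lowMat_00 (z : ℤ) : lowMat z 0 0 = 1 := rfl
@[simp] lemma lowMat_10 (z : ℤ) : lowMat z 1 0 = z := rfl

lemma lowMat_mem_Gamma0 (N : ℕ) (t : ℤ) : lowMat ((N : ℤ) * t) ∈ Gamma0 N := by
  rw [Gamma0_mem]
  simp

lemma Gamma0_mul_le (p N : ℕ) : Gamma0 (p * N) ≤ Gamma0 N := by
  intro g hg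
  rw [Gamma0_mem, ZMod.intCast_zmod_eq_zero_iff_dvd] at hg ⊢
  exact (Dvd.intro_left _ (by push_cast; rfl)).trans hg

/-- Criterion for two elements of `Γ₀(N)` to be in the same coset of `Γ₀(pN)`. -/
lemma mk_eq_mk_iff_of_mem (p N : ℕ) (hN : N ≠ 0) (x y : Gamma0 N) (cx cy : ℤ)
    (hx : (x : SL(2, ℤ)) 1 0 = N * cx) (hy : (y : SL(2, ℤ)) 1 0 = N * cy) :
    (QuotientGroup.mk x : Gamma0 N ⧸ (Gamma0 (p * N)).subgroupOf (Gamma0 N)) = QuotientGroup.mk y ↔
      (p : ℤ) ∣ (x : SL(2, ℤ)) 0 0 * cy - cx * (y : SL(2, ℤ)) 0 0 := by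
  rw [QuotientGroup.eq, Subgroup.mem_subgroupOf]
  have : ((x⁻¹ * y : Gamma0 N) : SL(2, ℤ)) = (x : SL(2, ℤ))⁻¹ * (y : SL(2, ℤ)) := rfl
  rw [this, inv_mul_mem_Gamma0_iff, ZMod.intCast_zmod_eq_zero_iff_dvd, hx, hy]
  have h2 : (x : SL(2, ℤ)) 0 0 * (↑N * cy) - ↑N * cx * (y : SL(2, ℤ)) 0 0 =
      (N : ℤ) * ((x : SL(2, ℤ)) 0 0 * cy - cx * (y : SL(2, ℤ)) 0 0) := by ring
  rw [h2]
  push_cast
  rw [mul_comm (p : ℤ) (N : ℤ)]
  exact mul_dvd_mul_iff_left (by exact_mod_cast hN)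

lemma exists_eq_mul_of_mem_Gamma0 (N : ℕ) (x : Gamma0 N) :
    ∃ c : ℤ, (x : SL(2, ℤ)) 1 0 = N * c := by
  have := x.2
  rw [Gamma0_mem, ZMod.intCast_zmod_eq_zero_iff_dvd] at this
  exact this

/-- The element `[[1,0],[N t,1]]` of `Γ₀(N)`. -/
def lowElt (N : ℕ) (t : ℤ) : Gamma0 N := ⟨lowMat ((N : ℤ) * t), lowMat_mem_Gamma0 N t⟩

lemma relIndex_Gamma0_of_dvd {p N : ℕ} (hp : p.Prime) (hN : N ≠ 0) (h : p ∣ N) :
    (Gamma0 (p * N)).relIndex (Gamma0 N) = p := by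
  have : NeZero p := ⟨hp.ne_zero⟩
  have : Fact p.Prime := ⟨hp⟩
  have key : Nat.card (ZMod p) = Nat.card (Gamma0 N ⧸ (Gamma0 (p * N)).subgroupOf (Gamma0 N)) := by
    refine Nat.card_congr (Equiv.ofBijective
      (fun t : ZMod p => (QuotientGroup.mk (lowElt N (t.cast : ℤ)) :
        Gamma0 N ⧸ (Gamma0 (p * N)).subgroupOf (Gamma0 N))) ⟨?_, ?_⟩)
    · intro t t' htt'
      simp only at htt'
      rw [mk_eq_mk_iff_of_mem p N hN _ _ (t.cast : ℤ) (t'.cast : ℤ) rfl rfl] at htt'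
      simp only [lowElt, lowMat_00] at htt'
      rw [← ZMod.intCast_zmod_eq_zero_iff_dvd] at htt'
      push_cast at htt'
      linear_combination -htt'
    · intro q
      induction q using QuotientGroup.induction_on with
      | H x =>
        obtain ⟨c, hc⟩ := exists_eq_mul_of_mem_Gamma0 N x
        -- `a` is a unit mod `p`
        have hdet := det_rel (x : SL(2, ℤ))
        have hpa : ¬ (p : ℤ) ∣ (x : SL(2, ℤ)) 0 0 := by
          intro hpa
          have h1 : (p : ℤ) ∣ (x : SL(2, ℤ)) 1 0 := by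
            rw [hc]; exact Dvd.dvd.mul_right (by exact_mod_cast h) c
          have : (p : ℤ) ∣ 1 := by
            rw [← hdet]
            exact dvd_sub (hpa.mul_right _) (h1.mul_left _)
          exact hp.not_dvd_one (by exact_mod_cast this)
        have hane : (((x : SL(2, ℤ)) 0 0 : ℤ) : ZMod p) ≠ 0 := by
          rwa [Ne, ZMod.intCast_zmod_eq_zero_iff_dvd]
        refine ⟨(c : ZMod p) * (((x : SL(2, ℤ)) 0 0 : ℤ) : ZMod p)⁻¹, ?_⟩
        simp only
        rw [mk_eq_mk_iff_of_mem p N hN _ _ _ c rfl hc]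
        simp only [lowElt, lowMat_00]
        rw [← ZMod.intCast_zmod_eq_zero_iff_dvd]
        push_cast
        field_simp
        ring
  rw [Subgroup.relIndex, Subgroup.index, ← key, Nat.card_zmod]


/-- The matrix `[[p, -v], [N, u]]`. -/
def infMat (p N : ℕ) (u v : ℤ) (huv : u * p + v * N = 1) : SL(2, ℤ) :=
  ⟨!![(p : ℤ), -v; (N : ℤ), u], by rw [Matrix.det_fin_two]; simp; linear_combination huv⟩

@[simp] lemma infMat_00 (p N : ℕ) (u v : ℤ) (huv : u * p + v * N = 1) :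
    infMat p N u v huv 0 0 = p := rfl
@[simp] lemma infMat_10 (p N : ℕ) (u v : ℤ) (huv : u * p + v * N = 1) :
    infMat p N u v huv 1 0 = N := rfl

lemma infMat_mem_Gamma0 (p N : ℕ) (u v : ℤ) (huv : u * p + v * N = 1) :
    infMat p N u v huv ∈ Gamma0 N := by
  rw [Gamma0_mem]
  simp

lemma relIndex_Gamma0_of_not_dvd {p N : ℕ} (hp : p.Prime) (hN : N ≠ 0) (h : ¬ p ∣ N) :
    (Gamma0 (p * N)).relIndex (Gamma0 N) = p + 1 := by
  have : NeZero p := ⟨hp.ne_zero⟩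
  have : Fact p.Prime := ⟨hp⟩
  have hcop : IsCoprime (p : ℤ) (N : ℤ) := by
    rw [Int.isCoprime_iff_gcd_eq_one, Int.gcd_natCast_natCast]
    exact (Nat.Prime.coprime_iff_not_dvd hp).2 h
  obtain ⟨u, v, huv⟩ := hcop
  -- the element "at infinity"
  let γ : Gamma0 N := ⟨infMat p N u v huv, infMat_mem_Gamma0 p N u v huv⟩
  have hγ00 : (γ : SL(2, ℤ)) 0 0 = p := rfl
  have hγ10 : (γ : SL(2, ℤ)) 1 0 = N * 1 := by simp [γ]
  have key : Nat.card (Option (ZMod p)) =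
      Nat.card (Gamma0 N ⧸ (Gamma0 (p * N)).subgroupOf (Gamma0 N)) := by
    refine Nat.card_congr (Equiv.ofBijective
      (fun t : Option (ZMod p) => (QuotientGroup.mk
        (match t with
          | some t => lowElt N (t.cast : ℤ)
          | none => γ) :
        Gamma0 N ⧸ (Gamma0 (p * N)).subgroupOf (Gamma0 N))) ⟨?_, ?_⟩)
    · rintro (_ | t) (_ | t') htt'
      · rfl
      · exfalso
        simp only at htt'
        rw [mk_eq_mk_iff_of_mem p N hN _ _ 1 (t'.cast : ℤ) hγ10 rfl, hγ00] at htt'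
        simp only [lowElt, lowMat_00] at htt'
        have : (p : ℤ) ∣ 1 := by
          have h2 := dvd_sub (Dvd.intro (t'.cast : ℤ) rfl : (p : ℤ) ∣ p * (t'.cast : ℤ)) htt'
          simpa using h2
        exact hp.not_dvd_one (by exact_mod_cast this)
      · exfalso
        simp only at htt'
        rw [mk_eq_mk_iff_of_mem p N hN _ _ (t.cast : ℤ) 1 rfl hγ10, hγ00] at htt'
        simp only [lowElt, lowMat_00] at htt'
        have : (p : ℤ) ∣ 1 := by
          have h2 := dvd_add htt' (Dvd.intro_left (t.cast : ℤ) rfl : (p : ℤ) ∣ (t.cast : ℤ) * p)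
          simpa using h2
        exact hp.not_dvd_one (by exact_mod_cast this)
      · simp only at htt'
        rw [mk_eq_mk_iff_of_mem p N hN _ _ (t.cast : ℤ) (t'.cast : ℤ) rfl rfl] at htt'
        simp only [lowElt, lowMat_00] at htt'
        rw [← ZMod.intCast_zmod_eq_zero_iff_dvd] at htt'
        push_cast at htt'
        congr 1
        linear_combination -htt'
    · intro q
      induction q using QuotientGroup.induction_on with
      | H x =>
        obtain ⟨c, hc⟩ := exists_eq_mul_of_mem_Gamma0 N x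
        by_cases hpa : (p : ℤ) ∣ (x : SL(2, ℤ)) 0 0
        · refine ⟨none, ?_⟩
          simp only
          rw [mk_eq_mk_iff_of_mem p N hN _ _ 1 c hγ10 hc, hγ00]
          exact dvd_sub (Dvd.intro c rfl) (hpa.mul_left 1)
        · have hane : (((x : SL(2, ℤ)) 0 0 : ℤ) : ZMod p) ≠ 0 := by
            rwa [Ne, ZMod.intCast_zmod_eq_zero_iff_dvd]
          refine ⟨some ((c : ZMod p) * (((x : SL(2, ℤ)) 0 0 : ℤ) : ZMod p)⁻¹), ?_⟩
          simp only
          rw [mk_eq_mk_iff_of_mem p N hN _ _ _ c rfl hc]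
          simp only [lowElt, lowMat_00]
          rw [← ZMod.intCast_zmod_eq_zero_iff_dvd]
          push_cast
          field_simp
          ring
  rw [Subgroup.relIndex, Subgroup.index, ← key, Nat.card_eq_fintype_card, Fintype.card_option,
    ZMod.card]

theorem index_Gamma0 (N : ℕ) (hN : N ≠ 0) : (Gamma0 N).index = ModularCurve.dedekindPsi N := by
  induction N using induction_on_primes with
  | zero => exact absurd rfl hN
  | one =>
    rw [ModularCurve.dedekindPsi_one, Subgroup.index_eq_one]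
    ext g
    simp [Gamma0_mem, Subsingleton.elim (_ : ZMod 1) 0]
  | prime_mul p a hp ih =>
    have ha : a ≠ 0 := fun h => hN (by rw [h, mul_zero])
    have hmul := Subgroup.relIndex_mul_index (Gamma0_mul_le p a)
    rw [ih ha] at hmul
    by_cases h : p ∣ a
    · rw [← hmul, relIndex_Gamma0_of_dvd hp ha h, dedekindPsi_prime_mul_of_dvd hp ha h]
    · rw [← hmul, relIndex_Gamma0_of_not_dvd hp ha h, dedekindPsi_prime_mul_of_not_dvd hp ha h]


theorem card_quot_Gamma0 :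
    Nat.card (SL(2, ℤ) ⧸ Gamma0 N) = ModularCurve.dedekindPsi N :=
  index_Gamma0 N (NeZero.ne N)


/-! ### Orbits of `T`: the cusps -/

/-- The orbit space of `⟨T⟩` on `SL(2,ℤ)/Γ₀(N)`. -/
abbrev CuspQuot (N : ℕ) : Type :=
  MulAction.orbitRel.Quotient (Subgroup.zpowers ModularGroup.T) (SL(2, ℤ) ⧸ Gamma0 N)

/-- The class of a matrix in the orbit space. -/
def cuspMk (N : ℕ) (h : SL(2, ℤ)) : CuspQuot N :=
  Quotient.mk'' (QuotientGroup.mk h : SL(2, ℤ) ⧸ Gamma0 N)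

lemma cuspMk_surjective (N : ℕ) : Function.Surjective (cuspMk N) := by
  intro ω
  induction ω using Quotient.inductionOn' with
  | h q =>
    induction q using QuotientGroup.induction_on with
    | H g => exact ⟨g, rfl⟩

lemma cuspMk_eq_iff (N : ℕ) (h h' : SL(2, ℤ)) :
    cuspMk N h = cuspMk N h' ↔
      ∃ k : ℤ, (N : ℤ) ∣ (h' 0 0 + k * h' 1 0) * h 1 0 - h' 1 0 * h 0 0 := by
  unfold cuspMk
  rw [Quotient.eq'', MulAction.orbitRel_apply, MulAction.mem_orbit_iff]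
  constructor
  · rintro ⟨⟨t, ht⟩, htq⟩
    obtain ⟨k, rfl⟩ := Subgroup.mem_zpowers_iff.1 ht
    refine ⟨k, ?_⟩
    have htq' : (QuotientGroup.mk (ModularGroup.T ^ k * h') : SL(2, ℤ) ⧸ Gamma0 N)
        = QuotientGroup.mk h := htq
    rw [quot_eq_iff, T_zpow_mul_apply_00, T_zpow_mul_apply_10,
      ZMod.intCast_zmod_eq_zero_iff_dvd] at htq'
    exact htq'
  · rintro ⟨k, hk⟩
    refine ⟨⟨ModularGroup.T ^ k, Subgroup.mem_zpowers_iff.2 ⟨k, rfl⟩⟩, ?_⟩
    show (QuotientGroup.mk (ModularGroup.T ^ k * h') : SL(2, ℤ) ⧸ Gamma0 N)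
        = QuotientGroup.mk h
    rw [quot_eq_iff, T_zpow_mul_apply_00, T_zpow_mul_apply_10,
      ZMod.intCast_zmod_eq_zero_iff_dvd]
    exact hk


/-- Injectivity core. -/
lemma cusp_inj_core {N d d' : ℕ} (hN : N ≠ 0) (hd : d ∣ N) (hd' : d' ∣ N) {a a' k : ℤ}
    (ha : IsCoprime a (d : ℤ)) (ha' : IsCoprime a' (d' : ℤ))
    (hk : (N : ℤ) ∣ (a' + k * d') * d - d' * a) :
    d = d' ∧ ((Nat.gcd d (N / d) : ℕ) : ℤ) ∣ a' - a := by
  have hdN : (d : ℤ) ∣ N := by exact_mod_cast hd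
  have hd'N : (d' : ℤ) ∣ N := by exact_mod_cast hd'
  have h1 : (d : ℤ) ∣ d' * a := by
    have := (hdN.trans hk)
    have h2 : (d : ℤ) ∣ (a' + k * d') * d := Dvd.intro_left _ rfl
    have h3 := dvd_sub h2 this
    simpa using h3
  have h1' : (d : ℤ) ∣ d' := (ha.symm.dvd_of_dvd_mul_right h1)
  have h4 : (d' : ℤ) ∣ (a' + k * d') * d := by
    have := (hd'N.trans hk)
    have h2 : (d' : ℤ) ∣ d' * a := Dvd.intro _ rfl
    have h3 := dvd_add this h2
    simpa using h3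
  have hcop : IsCoprime (a' + k * d') (d' : ℤ) := by
    have := ha'.add_mul_right_left k
    simpa using this
  have h4' : (d' : ℤ) ∣ d := hcop.symm.dvd_of_dvd_mul_left h4
  have hdd' : d = d' := Nat.dvd_antisymm (by exact_mod_cast h1') (by exact_mod_cast h4')
  subst hdd'
  refine ⟨rfl, ?_⟩
  have hd0 : d ≠ 0 := fun h => hN (by rw [h] at hd; exact Nat.eq_zero_of_zero_dvd hd)
  obtain ⟨e, he⟩ := hd
  have he' : N / d = e := by rw [he]; exact Nat.mul_div_cancel_left e (Nat.pos_of_ne_zero hd0)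
  rw [he']
  -- N = d * e divides d * (a' + k d - a)
  have h5 : ((d : ℤ) * e) ∣ d * (a' + k * d - a) := by
    have : (a' + k * d) * d - d * a = d * (a' + k * d - a) := by ring
    rw [← this]
    rw [he] at hk
    exact_mod_cast hk
  have h6 : (e : ℤ) ∣ a' + k * d - a :=
    (mul_dvd_mul_iff_left (by exact_mod_cast hd0)).1 h5
  have hg1 : ((Nat.gcd d e : ℕ) : ℤ) ∣ e := by exact_mod_cast Nat.gcd_dvd_right d e
  have hg2 : ((Nat.gcd d e : ℕ) : ℤ) ∣ d := by exact_mod_cast Nat.gcd_dvd_left d e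
  have h7 := dvd_sub (hg1.trans h6) (hg2.mul_left k)
  have : a' + k * d - a - k * d = a' - a := by ring
  rwa [this] at h7

/-- Surjectivity core. -/
lemma cusp_surj_core {N : ℕ} (hN : N ≠ 0) {a c : ℤ} (hac : IsCoprime a c) :
    ∃ r : ℤ, IsCoprime r ((Nat.gcd (Int.gcd c N) (N / Int.gcd c N) : ℕ) : ℤ) ∧
      ∀ aM : ℤ, ((Nat.gcd (Int.gcd c N) (N / Int.gcd c N) : ℕ) : ℤ) ∣ aM - r →
        ∃ k : ℤ, (N : ℤ) ∣ (aM + k * (Int.gcd c N : ℕ)) * c - (Int.gcd c N : ℕ) * a := by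
  set d : ℕ := Int.gcd c N with hd
  have hdN : d ∣ N := by
    have := Int.gcd_dvd_right c (N : ℤ)
    exact_mod_cast this
  have hdc : (d : ℤ) ∣ c := Int.gcd_dvd_left c (N : ℤ)
  have hd0 : d ≠ 0 := fun h => hN (by rw [h] at hdN; exact Nat.eq_zero_of_zero_dvd hdN)
  obtain ⟨e, he⟩ := hdN
  obtain ⟨c₁, hc₁⟩ := hdc
  have he' : N / d = e := by rw [he]; exact Nat.mul_div_cancel_left e (Nat.pos_of_ne_zero hd0)
  rw [he']
  -- Bezout for d = gcd(c, N)
  obtain ⟨x, y, hbez⟩ : ∃ x y : ℤ, (d : ℤ) = c * x + N * y :=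
    ⟨_, _, Int.gcd_eq_gcd_ab c N⟩
  have hcop1 : IsCoprime c₁ (e : ℤ) := by
    refine ⟨x, y, ?_⟩
    have hd0' : (d : ℤ) ≠ 0 := by exact_mod_cast hd0
    apply mul_left_cancel₀ hd0'
    have hNe : (N : ℤ) = d * e := by exact_mod_cast he
    rw [hNe, hc₁] at hbez
    linear_combination -hbez
  obtain ⟨s, t, hst⟩ := hcop1
  -- s * c₁ + t * e = 1
  have hg1 : ((Nat.gcd d e : ℕ) : ℤ) ∣ e := by exact_mod_cast Nat.gcd_dvd_right d e
  have hg2 : ((Nat.gcd d e : ℕ) : ℤ) ∣ d := by exact_mod_cast Nat.gcd_dvd_left d e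
  have hse : IsCoprime s (e : ℤ) := ⟨c₁, t, by linear_combination hst⟩
  have hsg : IsCoprime s ((Nat.gcd d e : ℕ) : ℤ) := hse.of_isCoprime_of_dvd_right hg1
  have hag : IsCoprime a ((Nat.gcd d e : ℕ) : ℤ) :=
    hac.of_isCoprime_of_dvd_right (hg2.trans ⟨c₁, hc₁⟩)
  refine ⟨a * s, hag.mul_left hsg, fun aM haM => ?_⟩
  -- Bezout for g = gcd(d, e)
  obtain ⟨x', y', hbez2⟩ : ∃ x y : ℤ, ((Nat.gcd d e : ℕ) : ℤ) = d * x + e * y := by
    have := Int.gcd_eq_gcd_ab (d : ℤ) (e : ℤ)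
    rw [Int.gcd_natCast_natCast] at this
    exact ⟨_, _, this⟩
  obtain ⟨m, hm⟩ := haM
  -- aM - a s = g m; want k with e ∣ (aM + k d) c₁ - a
  refine ⟨- x' * m, ?_⟩
  have hNe : (N : ℤ) = d * e := by exact_mod_cast he
  rw [hNe, hc₁]
  have key : (aM + -x' * m * d) * (d * c₁) - d * a =
      d * e * ((y' * m * c₁) - a * t) := by
    have haM' : aM = a * s + (d * x' + e * y') * m := by
      rw [← hbez2]; linear_combination hm
    rw [haM']
    linear_combination (d : ℤ) * a * hst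
  rw [key]
  exact Dvd.intro _ rfl


/-- A matrix in `SL(2,ℤ)` with first column `(a, d)` from a Bezout relation. -/
def bezMat (a d x y : ℤ) (h : x * a + y * d = 1) : SL(2, ℤ) :=
  ⟨!![a, -y; d, x], by rw [Matrix.det_fin_two]; simp; linear_combination h⟩

@[simp] lemma bezMat_00 (a d x y : ℤ) (h : x * a + y * d = 1) : bezMat a d x y h 0 0 = a := rfl
@[simp] lemma bezMat_10 (a d x y : ℤ) (h : x * a + y * d = 1) : bezMat a d x y h 1 0 = d := rfl

lemma isCoprime_col (g : SL(2, ℤ)) : IsCoprime (g 0 0) (g 1 0) :=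
  ⟨g 1 1, - g 0 1, by linear_combination det_rel g⟩

lemma exists_rep (d : ℕ) (hd : d ≠ 0) (g : ℕ) (hg : g ∣ d) (u : (ZMod g)ˣ) :
    ∃ M : SL(2, ℤ), M 1 0 = d ∧ ((M 0 0 : ℤ) : ZMod g) = u := by
  have : NeZero d := ⟨hd⟩
  obtain ⟨u', hu'⟩ := ZMod.unitsMap_surjective hg u
  have hcop : Nat.Coprime (u' : ZMod d).val d := ZMod.val_coe_unit_coprime u'
  have hcop' : IsCoprime (((u' : ZMod d).val : ℕ) : ℤ) (d : ℤ) := Nat.isCoprime_iff_coprime.2 hcop
  obtain ⟨x, y, hxy⟩ := hcop'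
  refine ⟨bezMat ((u' : ZMod d).val : ℕ) d x y hxy, rfl, ?_⟩
  simp only [bezMat_00]
  rw [← hu']
  push_cast
  rw [ZMod.natCast_val]
  rfl

/-- The index set for the cusps. -/
abbrev CuspIdx (N : ℕ) : Type := Σ d : N.divisors, (ZMod (Nat.gcd d (N / d)))ˣ

lemma divisor_ne_zero {N : ℕ} (d : N.divisors) : (d : ℕ) ≠ 0 :=
  (Nat.pos_of_mem_divisors d.2).ne'

lemma divisor_dvd {N : ℕ} (d : N.divisors) : (d : ℕ) ∣ N :=
  Nat.dvd_of_mem_divisors d.2

/-- A chosen representative matrix for a cusp index. -/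
noncomputable def cuspRep (N : ℕ) (i : CuspIdx N) : SL(2, ℤ) :=
  Classical.choose (exists_rep i.1 (divisor_ne_zero i.1) (Nat.gcd i.1 (N / i.1))
    (Nat.gcd_dvd_left _ _) i.2)

lemma cuspRep_10 (N : ℕ) (i : CuspIdx N) : cuspRep N i 1 0 = (i.1 : ℕ) :=
  (Classical.choose_spec (exists_rep i.1 (divisor_ne_zero i.1) (Nat.gcd i.1 (N / i.1))
    (Nat.gcd_dvd_left _ _) i.2)).1

lemma cuspRep_00 (N : ℕ) (i : CuspIdx N) :
    ((cuspRep N i 0 0 : ℤ) : ZMod (Nat.gcd i.1 (N / i.1))) = i.2 :=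
  (Classical.choose_spec (exists_rep i.1 (divisor_ne_zero i.1) (Nat.gcd i.1 (N / i.1))
    (Nat.gcd_dvd_left _ _) i.2)).2

variable (N : ℕ) [NeZero N]

lemma cuspMk_cuspRep_injective : Function.Injective (fun i : CuspIdx N => cuspMk N (cuspRep N i)) := by
  rintro ⟨d, u⟩ ⟨d', u'⟩ h
  simp only at h
  rw [cuspMk_eq_iff] at h
  obtain ⟨k, hk⟩ := h
  rw [cuspRep_10, cuspRep_10] at hk
  simp only at hk
  have ha : IsCoprime (cuspRep N ⟨d, u⟩ 0 0) ((d : ℕ) : ℤ) := by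
    have := isCoprime_col (cuspRep N ⟨d, u⟩)
    rwa [cuspRep_10] at this
  have ha' : IsCoprime (cuspRep N ⟨d', u'⟩ 0 0) ((d' : ℕ) : ℤ) := by
    have := isCoprime_col (cuspRep N ⟨d', u'⟩)
    rwa [cuspRep_10] at this
  obtain ⟨hdd, hg⟩ := cusp_inj_core (NeZero.ne N) (divisor_dvd d) (divisor_dvd d') ha ha' hk
  have hdd' : d = d' := Subtype.ext hdd
  subst hdd'
  congr 1
  apply Units.ext
  rw [← cuspRep_00 N ⟨d, u⟩, ← cuspRep_00 N ⟨d, u'⟩]
  simp only
  rw [← ZMod.intCast_zmod_eq_zero_iff_dvd] at hg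
  push_cast at hg
  linear_combination -hg

lemma cuspMk_cuspRep_surjective :
    Function.Surjective (fun i : CuspIdx N => cuspMk N (cuspRep N i)) := by
  intro ω
  obtain ⟨h, rfl⟩ := cuspMk_surjective N ω
  obtain ⟨r, hr, hrk⟩ := cusp_surj_core (NeZero.ne N) (isCoprime_col h)
  have hdN : Int.gcd (h 1 0) N ∣ N := by
    have := Int.gcd_dvd_right (h 1 0) (N : ℤ)
    exact_mod_cast this
  have hd : Int.gcd (h 1 0) N ∈ N.divisors := Nat.mem_divisors.2 ⟨hdN, NeZero.ne N⟩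
  -- the unit
  obtain ⟨x, y, hxy⟩ := hr
  have hunit : IsUnit ((r : ℤ) : ZMod (Nat.gcd (Int.gcd (h 1 0) N) (N / Int.gcd (h 1 0) N))) := by
    refine IsUnit.of_mul_eq_one ((x : ℤ) : ZMod _) ?_
    have := congrArg (Int.cast : ℤ → ZMod (Nat.gcd (Int.gcd (h 1 0) N) (N / Int.gcd (h 1 0) N))) hxy
    push_cast at this
    rw [ZMod.natCast_self, mul_zero, add_zero] at this
    rw [mul_comm]; exact this
  obtain ⟨u, hu⟩ := hunit
  refine ⟨⟨⟨Int.gcd (h 1 0) N, hd⟩, u⟩, ?_⟩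
  simp only
  symm
  rw [cuspMk_eq_iff]
  have h00 := cuspRep_00 N ⟨⟨Int.gcd (h 1 0) N, hd⟩, u⟩
  simp only at h00
  rw [hu] at h00
  have hdiv : ((Nat.gcd (Int.gcd (h 1 0) N) (N / Int.gcd (h 1 0) N) : ℕ) : ℤ) ∣
      cuspRep N ⟨⟨Int.gcd (h 1 0) N, hd⟩, u⟩ 0 0 - r := by
    rw [← ZMod.intCast_zmod_eq_zero_iff_dvd]
    push_cast
    rw [h00, sub_self]
  obtain ⟨k, hk⟩ := hrk _ hdiv
  refine ⟨k, ?_⟩
  rw [cuspRep_10]
  exact hk

theorem card_orbits_T :
    Nat.card (MulAction.orbitRel.Quotient (Subgroup.zpowers ModularGroup.T)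
      (SL(2, ℤ) ⧸ Gamma0 N)) = ModularCurve.cuspCount N := by
  have hbij : Function.Bijective (fun i : CuspIdx N => cuspMk N (cuspRep N i)) :=
    ⟨cuspMk_cuspRep_injective N, cuspMk_cuspRep_surjective N⟩
  rw [← Nat.card_congr (Equiv.ofBijective _ hbij)]
  have : ∀ d : N.divisors, NeZero (Nat.gcd d (N / d)) := fun d =>
    ⟨Nat.gcd_ne_zero_left (divisor_ne_zero d)⟩
  rw [Nat.card_sigma]
  unfold ModularCurve.cuspCount
  rw [← Finset.sum_coe_sort N.divisors (fun d => Nat.totient (Nat.gcd d (N / d)))]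
  refine Finset.sum_congr rfl fun d _ => ?_
  rw [Nat.card_eq_fintype_card, ZMod.card_units_eq_totient]

end Fermat.Agent.S20lib
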