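/-
S20 library, Part F (helper9): modular forms of level `Γ₀(N)` form a finite-dimensional space.
-/
import Mathlib
import Fermat.Prelude.Thm_ModularForm_sturm_bound_Gamma0

set_option autoImplicit false

open UpperHalfPlane ModularForm CongruenceSubgroup
open scoped MatrixGroups ModularForm Manifold

namespace Fermat.Agent.S20lib

lemma finDim_one_mem_strictPeriods (N : ℕ) :
    (1 : ℝ) ∈ (Gamma0 N : Subgroup (GL (Fin 2) ℝ)).strictPeriods := by
  simp [CongruenceSubgroup.strictPeriods_Gamma0]

/-- The `ℂ`-linear map sending a modular form of level `Γ₀(N)` to its `q`-expansion coefficients. -/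
noncomputable def finDimCoeffLin (N : ℕ) (k : ℤ) :
    ModularForm (Gamma0 N : Subgroup (GL (Fin 2) ℝ)) k →ₗ[ℂ] (ℕ → ℂ) where
  toFun f n := PowerSeries.coeff n (qExpansion 1 f)
  map_add' f g := by
    funext n
    have h := ModularForm.qExpansion_add one_pos (finDim_one_mem_strictPeriods N) f g
    rw [FunLike.coe_add, h]
    simp
  map_smul' c f := by
    funext n
    have h := ModularForm.qExpansion_smul one_pos (finDim_one_mem_strictPeriods N) c f
    rw [FunLike.coe_smul, h]
    simp

@[simp] lemma finDimCoeffLin_apply (N : ℕ) (k : ℤ)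
    (f : ModularForm (Gamma0 N : Subgroup (GL (Fin 2) ℝ)) k) (n : ℕ) :
    finDimCoeffLin N k f n = PowerSeries.coeff n (qExpansion 1 f) := rfl

/-- Part F: `ModularForm (Gamma0 N) k` is a finite-dimensional `ℂ`-vector space (Sturm bound). -/
theorem finite_modularForm_Gamma0 (N : ℕ) [NeZero N] (k : ℤ) :
    Module.Finite ℂ (ModularForm (CongruenceSubgroup.Gamma0 N : Subgroup (GL (Fin 2) ℝ)) k) := by
  set B : ℕ := (k * (Gamma0 N).index).toNat / 12 with hB
  let T : ModularForm (Gamma0 N : Subgroup (GL (Fin 2) ℝ)) k →ₗ[ℂ] (Fin (B + 1) → ℂ) :=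
    (LinearMap.funLeft ℂ ℂ (fun i : Fin (B + 1) => (i : ℕ))).comp (finDimCoeffLin N k)
  have hT : Function.Injective T := by
    rw [← LinearMap.ker_eq_bot, LinearMap.ker_eq_bot']
    intro f hf
    refine ModularForm.sturm_bound_Gamma0 N f fun n hn => ?_
    have := congrFun hf ⟨n, Nat.lt_succ_of_le hn⟩
    simpa [T, LinearMap.funLeft_apply] using this
  exact FiniteDimensional.of_injective T hT

end Fermat.Agent.S20lib
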