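import Mathlib
import Fermat.Agent.S20_Ell

/-!
# S20 Part L: the final count (pure arithmetic)   (helper19)

From the weight statistics of a minimal generating system (number of generators `μ`, traces at the
elliptic points `i`, `ρ`, sum of the weights) we compute the number of generators of weight `10`.
-/

set_option autoImplicit false

open scoped MatrixGroups ModularForm Manifold Topology
open UpperHalfPlane ModularForm Filter

namespace Fermat.Agent.S20lib

/-- The possible weights. -/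
def countWts : Finset ℤ := {0, 2, 4, 6, 8, 10}

theorem count_wt_mem {J : Type} (wt : J → ℤ)
    (heven : ∀ j, Even (wt j)) (h0 : ∀ j, 0 ≤ wt j) (h10 : ∀ j, wt j ≤ 10) (j : J) :
    wt j ∈ countWts := by
  obtain ⟨m, hm⟩ := heven j
  have h1 := h0 j
  have h2 := h10 j
  have hm0 : 0 ≤ m := by omega
  have hm5 : m ≤ 5 := by omega
  rw [hm]
  simp only [countWts, Finset.mem_insert, Finset.mem_singleton]
  interval_cases m <;> simp

/-- Sums over `J` of a function of the weight, sorted by weight. -/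
theorem count_sum_eq {J : Type} [Fintype J] [DecidableEq J] (wt : J → ℤ)
    (hmem : ∀ j, wt j ∈ countWts) {M : Type*} [CommRing M] (f : ℤ → M) :
    ∑ j, f (wt j) = ∑ a ∈ countWts, (Fintype.card {j // wt j = a} : M) * f a := by
  rw [← Finset.sum_fiberwise_of_maps_to (s := Finset.univ) (t := countWts) (g := wt)
    (fun j _ => hmem j)]
  refine Finset.sum_congr rfl fun a _ => ?_
  rw [Finset.sum_congr rfl (fun j hj => by rw [(Finset.mem_filter.mp hj).2] :
    ∀ j ∈ Finset.univ.filter (fun j => wt j = a), f (wt j) = f a)]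
  rw [Finset.sum_const, nsmul_eq_mul, Fintype.card_subtype]

theorem count_final {J : Type} [Fintype J] [DecidableEq J] (wt : J → ℤ) (μ ν₂ ν₃ c : ℕ)
    (heven : ∀ j, Even (wt j)) (h0 : ∀ j, 0 ≤ wt j) (h10 : ∀ j, wt j ≤ 10)
    (hn0 : Fintype.card {j // wt j = 0} = 1)
    (hμ : Fintype.card J = μ)
    (h2 : ∑ j, Complex.I ^ (-(wt j)) = (ν₂ : ℂ))
    (h3 : ∑ j, ((ellRho : ℂ) + 1) ^ (-(wt j)) = (ν₃ : ℂ))
    (hK : ∑ j, wt j = 6 * ((μ : ℤ) - c)) :
    (Fintype.card {j // wt j = 10} : ℚ)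
      = 1 + (μ : ℚ) / 12 - (ν₂ : ℚ) / 4 - (ν₃ : ℚ) / 3 - (c : ℚ) / 2 := by
  have hmem := count_wt_mem wt heven h0 h10
  set n0 := Fintype.card {j // wt j = 0} with hn0d
  set n2 := Fintype.card {j // wt j = 2} with hn2d
  set n4 := Fintype.card {j // wt j = 4} with hn4d
  set n6 := Fintype.card {j // wt j = 6} with hn6d
  set n8 := Fintype.card {j // wt j = 8} with hn8d
  set n10 := Fintype.card {j // wt j = 10} with hn10d
  -- number of generators
  have e1 : (n0 : ℝ) + n2 + n4 + n6 + n8 + n10 = μ := by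
    have := count_sum_eq wt hmem (M := ℝ) (fun _ => 1)
    simp only [Finset.sum_const, Finset.card_univ, nsmul_eq_mul, mul_one, countWts] at this
    rw [hμ] at this
    rw [this]
    simp [Finset.sum_insert, ← hn0d, ← hn2d, ← hn4d, ← hn6d, ← hn8d, ← hn10d]
    ring
  -- sum of weights
  have e5 : 2 * (n2 : ℝ) + 4 * n4 + 6 * n6 + 8 * n8 + 10 * n10 = 6 * ((μ : ℝ) - c) := by
    have := count_sum_eq wt hmem (M := ℝ) (fun a => (a : ℝ))
    have hK' : ∑ j, ((wt j : ℤ) : ℝ) = 6 * ((μ : ℝ) - c) := by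
      rw [← Int.cast_sum, hK]; push_cast; ring
    rw [hK'] at this
    rw [this]
    simp [countWts, Finset.sum_insert, ← hn0d, ← hn2d, ← hn4d, ← hn6d, ← hn8d, ← hn10d]
    ring
  -- trace at `i`
  have e2 : (n0 : ℝ) - n2 + n4 - n6 + n8 - n10 = ν₂ := by
    have := count_sum_eq wt hmem (M := ℂ) (fun a => Complex.I ^ (-a))
    rw [h2] at this
    have hI2 : Complex.I ^ (-2 : ℤ) = -1 := by
      rw [zpow_neg, zpow_ofNat, Complex.I_sq]; norm_num
    have hI4 : Complex.I ^ (-4 : ℤ) = 1 := by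
      rw [show (-4 : ℤ) = (-2) + (-2) by norm_num, zpow_add₀ Complex.I_ne_zero, hI2]; norm_num
    have hI6 : Complex.I ^ (-6 : ℤ) = -1 := by
      rw [show (-6 : ℤ) = (-4) + (-2) by norm_num, zpow_add₀ Complex.I_ne_zero, hI2, hI4]
      norm_num
    have hI8 : Complex.I ^ (-8 : ℤ) = 1 := by
      rw [show (-8 : ℤ) = (-4) + (-4) by norm_num, zpow_add₀ Complex.I_ne_zero, hI4]; norm_num
    have hI10 : Complex.I ^ (-10 : ℤ) = -1 := by
      rw [show (-10 : ℤ) = (-8) + (-2) by norm_num, zpow_add₀ Complex.I_ne_zero, hI2, hI8]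
      norm_num
    simp only [countWts] at this
    rw [Finset.sum_insert (by decide), Finset.sum_insert (by decide), Finset.sum_insert (by decide),
      Finset.sum_insert (by decide), Finset.sum_insert (by decide), Finset.sum_singleton] at this
    simp only [neg_zero, zpow_zero, mul_one, hI2, hI4, hI6, hI8, hI10] at this
    have hre := congrArg Complex.re this
    simp only [Complex.natCast_re, Complex.add_re, Complex.mul_re, Complex.neg_re, Complex.one_re,
      Complex.natCast_im, Complex.neg_im, Complex.one_im] at hre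
    rw [← hn0d, ← hn2d, ← hn4d, ← hn6d, ← hn8d, ← hn10d] at hre
    linarith
  -- trace at `ρ`
  have hr := ellRho_sq_add
  have hr3 := ellRho_cube
  have hr0 := ellRho_ne_zero
  have hz2 := ellRho_add_one_sq
  have hz0 : (ellRho : ℂ) + 1 ≠ 0 := by
    intro h
    rw [h] at hz2
    exact hr0 (by rw [← hz2]; simp)
  have hinv : ((ellRho : ℂ))⁻¹ = -1 - (ellRho : ℂ) :=
    inv_eq_of_mul_eq_one_right (by linear_combination -hr)
  have hZ2 : ((ellRho : ℂ) + 1) ^ (-2 : ℤ) = -1 - (ellRho : ℂ) := by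
    rw [zpow_neg, zpow_ofNat, hz2, hinv]
  have hZ4 : ((ellRho : ℂ) + 1) ^ (-4 : ℤ) = (ellRho : ℂ) := by
    rw [show (-4 : ℤ) = (-2) + (-2) by norm_num, zpow_add₀ hz0, hZ2]
    linear_combination hr
  have hZ6 : ((ellRho : ℂ) + 1) ^ (-6 : ℤ) = 1 := by
    rw [show (-6 : ℤ) = (-4) + (-2) by norm_num, zpow_add₀ hz0, hZ2, hZ4]
    linear_combination -hr
  have hZ8 : ((ellRho : ℂ) + 1) ^ (-8 : ℤ) = -1 - (ellRho : ℂ) := by
    rw [show (-8 : ℤ) = (-6) + (-2) by norm_num, zpow_add₀ hz0, hZ2, hZ6, one_mul]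
  have hZ10 : ((ellRho : ℂ) + 1) ^ (-10 : ℤ) = (ellRho : ℂ) := by
    rw [show (-10 : ℤ) = (-6) + (-4) by norm_num, zpow_add₀ hz0, hZ4, hZ6, one_mul]
  have key := count_sum_eq wt hmem (M := ℂ) (fun a => ((ellRho : ℂ) + 1) ^ (-a))
  rw [h3] at key
  simp only [countWts] at key
  rw [Finset.sum_insert (by decide), Finset.sum_insert (by decide), Finset.sum_insert (by decide),
    Finset.sum_insert (by decide), Finset.sum_insert (by decide), Finset.sum_singleton] at key
  simp only [neg_zero, zpow_zero, mul_one, hZ2, hZ4, hZ6, hZ8, hZ10] at key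
  rw [← hn0d, ← hn2d, ← hn4d, ← hn6d, ← hn8d, ← hn10d] at key
  have hre := congrArg Complex.re key
  have him := congrArg Complex.im key
  have hρre : (ellRho : ℂ).re = -1 / 2 := by rw [coe_ellRho]
  have hρim : (ellRho : ℂ).im = Real.sqrt 3 / 2 := by rw [coe_ellRho]
  simp only [Complex.natCast_re, Complex.add_re, Complex.mul_re, Complex.neg_re, Complex.one_re,
    Complex.natCast_im, Complex.neg_im, Complex.one_im, Complex.sub_re, Complex.sub_im,
    Complex.add_im, Complex.mul_im, hρre, hρim] at hre him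
  have hs3 : (0 : ℝ) < Real.sqrt 3 := Real.sqrt_pos.mpr (by norm_num)
  -- imaginary part: `n4 + n10 = n2 + n8`
  have e4 : (n4 : ℝ) + n10 = n2 + n8 := by
    have : ((n4 : ℝ) + n10 - n2 - n8) * Real.sqrt 3 = 0 := by linarith
    rcases mul_eq_zero.mp this with h | h
    · linarith
    · exact absurd h hs3.ne'
  have e3 : (n0 : ℝ) + n6 - (n2 + n8) / 2 - (n4 + n10) / 2 = ν₃ := by linarith
  have hn0' : (n0 : ℝ) = 1 := by exact_mod_cast hn0
  have hfin : (n10 : ℝ) = 1 + (μ : ℝ) / 12 - (ν₂ : ℝ) / 4 - (ν₃ : ℝ) / 3 - (c : ℝ) / 2 := by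
    linarith
  apply Rat.cast_injective (α := ℝ)
  push_cast
  exact hfin

end Fermat.Agent.S20lib
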