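import Mathlib
import Fermat.Agent.S20_Gen

/-!
# S20 library: independence of the generators at elliptic points (from minimality)
-/

set_option autoImplicit false
open scoped MatrixGroups ModularForm Manifold Topology
open UpperHalfPlane ModularForm Filter

namespace Fermat.Agent.S20lib

variable {Γ : Subgroup SL(2, ℤ)}

lemma IsMF.pow {k : ℤ} {f : ℍ → ℂ} (h : IsMF ⊤ k f) (m : ℕ) : IsMF ⊤ (m * k) (f ^ m) := by
  induction m with
  | zero => simpa using isMF_const ⊤ 1
  | succ m ih =>
    rw [pow_succ]
    exact (ih.mul h).congr_weight (by push_cast; ring)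

/-- A level one multiplier passes through the slash action. -/
lemma slash_mul_top {k k' : ℤ} {a f : ℍ → ℂ} (ha : IsMF ⊤ k a) (g : SL(2, ℤ)) :
    (a * f) ∣[k + k'] g = a * (f ∣[k'] g) := by
  rw [mul_slash_SL2, ha.inv g trivial]

lemma slash_sum {ι : Type*} (s : Finset ι) (k : ℤ) (g : SL(2, ℤ)) (F : ι → ℍ → ℂ) :
    (∑ i ∈ s, F i) ∣[k] g = ∑ i ∈ s, (F i) ∣[k] g := by
  classical
  induction s using Finset.induction_on with
  | empty => simp [SlashAction.zero_slash]
  | insert a s ha ih => rw [Finset.sum_insert ha, Finset.sum_insert ha, SlashAction.add_slash, ih]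

/-- The translate of a combination `∑ a_j F_j` with level one coefficients. -/
lemma GenSys.slash_comb {B : ℤ} (G : GenSys Γ B) {k : ℤ} (a : G.J → ℍ → ℂ)
    (ha : ∀ j, IsMF ⊤ (k - G.wt j) (a j)) (g : SL(2, ℤ)) :
    (∑ j, a j * G.F j) ∣[k] g = ∑ j, a j * (G.F j ∣[G.wt j] g) := by
  rw [slash_sum]
  refine Finset.sum_congr rfl fun j _ => ?_
  have := slash_mul_top (k' := G.wt j) (f := G.F j) (ha j) g
  rwa [sub_add_cancel] at this

lemma GenSys.isMF_comb {B : ℤ} (G : GenSys Γ B) {k : ℤ} (a : G.J → ℍ → ℂ)
    (ha : ∀ j, IsMF ⊤ (k - G.wt j) (a j)) : IsMF Γ k (∑ j, a j * G.F j) :=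
  isMF_sum _ _ fun j _ => ((ha j).of_top.mul (G.isMF j)).congr_weight (by ring)

/-- Generators are nonzero. -/
lemma GenSys.F_ne_zero {B : ℤ} (G : GenSys Γ B) (j : G.J) : G.F j ≠ 0 := by
  classical
  intro h0
  have := G.min (fun i => if i = j then 1 else 0) (G.wt j) (by
    have : (∑ i, (if G.wt i = G.wt j then (if i = j then (1 : ℂ) else 0) else 0) • G.F i) = 0 := by
      apply Finset.sum_eq_zero
      intro i _
      by_cases hij : i = j
      · subst hij; simp [h0]
      · simp [hij]
    rw [this]
    exact (Wk Γ (G.wt j)).zero_mem) j rfl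
  simp at this

/-- Generators have even weight when `-1 ∈ Γ`. -/
lemma GenSys.wt_even [Γ.FiniteIndex] {B : ℤ} (G : GenSys Γ B) (hneg : -1 ∈ Γ) (j : G.J) :
    Even (G.wt j) := by
  by_contra hodd
  exact G.F_ne_zero j ((G.isMF j).eq_zero_of_odd hneg (Int.not_even_iff_odd.mp hodd))

/-- Value of a translate at a fixed point of `R`. -/
lemma slash_mul_apply_fix {k : ℤ} (f : ℍ → ℂ) (g R : SL(2, ℤ)) {z₀ : ℍ} (hfix : R • z₀ = z₀) :
    (f ∣[k] (g * R)) z₀ = (f ∣[k] g) z₀ * denom R z₀ ^ (-k) := by
  rw [SlashAction.slash_mul, SL_slash_apply (f ∣[k] g) R z₀, hfix]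

/-- Roots-of-unity class decomposition. -/
lemma class_decomp {J : Type*} [Fintype J] [DecidableEq J] (n : ℕ) (hn : 0 < n) (lam : J → ℂ)
    (hlam : ∀ j, lam j ^ n = 1) (x : J → ℂ) (h : ∀ t : ℕ, ∑ j, lam j ^ t * x j = 0)
    (μ₀ : ℂ) (hμ : μ₀ ^ n = 1) : ∑ j, (if lam j = μ₀ then x j else 0) = 0 := by
  have hμ0 : μ₀ ≠ 0 := by
    intro h0
    rw [h0, zero_pow hn.ne'] at hμ
    exact zero_ne_one hμ
  have key : ∑ t ∈ Finset.range n, (μ₀⁻¹) ^ t * ∑ j, lam j ^ t * x j = 0 := by
    apply Finset.sum_eq_zero
    intro t _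
    rw [h t, mul_zero]
  have geo : ∀ j, ∑ t ∈ Finset.range n, (lam j * μ₀⁻¹) ^ t = if lam j = μ₀ then (n : ℂ) else 0 := by
    intro j
    by_cases hj : lam j = μ₀
    · simp [hj, mul_inv_cancel₀ hμ0]
    · simp only [hj, if_false]
      have hr : lam j * μ₀⁻¹ ≠ 1 := by
        intro h1
        apply hj
        have := congrArg (· * μ₀) h1
        simpa [mul_assoc, inv_mul_cancel₀ hμ0] using this
      have hrn : (lam j * μ₀⁻¹) ^ n = 1 := by
        rw [mul_pow, hlam j, inv_pow, hμ]; simp
      have := geom_sum_eq hr n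
      rw [this, hrn, sub_self, zero_div]
  have e : ∑ t ∈ Finset.range n, (μ₀⁻¹) ^ t * ∑ j, lam j ^ t * x j
      = (n : ℂ) * ∑ j, (if lam j = μ₀ then x j else 0) := by
    calc ∑ t ∈ Finset.range n, (μ₀⁻¹) ^ t * ∑ j, lam j ^ t * x j
        = ∑ t ∈ Finset.range n, ∑ j, (lam j * μ₀⁻¹) ^ t * x j := by
          refine Finset.sum_congr rfl fun t _ => ?_
          rw [Finset.mul_sum]
          refine Finset.sum_congr rfl fun j _ => ?_
          rw [mul_pow]; ring
      _ = ∑ j, (∑ t ∈ Finset.range n, (lam j * μ₀⁻¹) ^ t) * x j := by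
          rw [Finset.sum_comm]
          refine Finset.sum_congr rfl fun j _ => ?_
          rw [Finset.sum_mul]
      _ = ∑ j, (if lam j = μ₀ then (n : ℂ) else 0) * x j := by
          refine Finset.sum_congr rfl fun j _ => ?_
          rw [geo j]
      _ = (n : ℂ) * ∑ j, (if lam j = μ₀ then x j else 0) := by
          rw [Finset.mul_sum]
          refine Finset.sum_congr rfl fun j _ => ?_
          split_ifs <;> simp
  rw [e] at key
  rcases mul_eq_zero.mp key with h0 | h0
  · exact absurd h0 (Nat.cast_ne_zero.mpr hn.ne')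
  · exact h0

/-- Data of an elliptic point used for the minimality argument. -/
structure EllData (Γ : Subgroup SL(2, ℤ)) where
  /-- the elliptic point -/
  z₀ : ℍ
  /-- the stabilising element -/
  R : SL(2, ℤ)
  fix : R • z₀ = z₀
  /-- the order of the multiplier -/
  n : ℕ
  hn : 0 < n
  hζ : denom R z₀ ^ n = 1
  /-- if `ζ ^ m = 1` then `n ∣ m` -/
  prim : ∀ m : ℤ, denom R z₀ ^ m = 1 → (n : ℤ) ∣ m
  /-- a level one form of weight `n` not vanishing at `z₀` -/
  e : ℍ → ℂ
  he : IsMF ⊤ n e
  he0 : e z₀ ≠ 0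
  /-- saturation in the form needed -/
  decomp : ∀ (k : ℤ) (f u : ℍ → ℂ), IsMF Γ k f → (∀ g : SL(2, ℤ), (f ∣[k] g) z₀ = 0) →
    IsMF Γ (k - n) u → IsDecomp Γ k (f + e * u)

/-- The elliptic data at `i`. -/
noncomputable def ellDataI (Γ : Subgroup SL(2, ℤ)) : EllData Γ where
  z₀ := UpperHalfPlane.I
  R := ModularGroup.S
  fix := S_smul_I
  n := 4
  hn := by norm_num
  hζ := by
    have hd : denom (ModularGroup.S : SL(2, ℤ)) (UpperHalfPlane.I : ℍ) = Complex.I := by
      simpa using ModularGroup.denom_S UpperHalfPlane.I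
    rw [hd]
    exact Complex.I_pow_four
  prim := by
    intro m hm
    have hd : denom (ModularGroup.S : SL(2, ℤ)) (UpperHalfPlane.I : ℍ) = Complex.I := by
      simpa using ModularGroup.denom_S UpperHalfPlane.I
    rw [hd] at hm
    have h4 : IsPrimitiveRoot Complex.I 4 := by
      have := Complex.isPrimitiveRoot_exp 4 (by norm_num)
      convert this using 1
      rw [show (2 : ℂ) * Real.pi * Complex.I / ((4 : ℕ) : ℂ) = (Real.pi / 2 : ℂ) * Complex.I by
        push_cast; ring]
      rw [Complex.exp_mul_I]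
      simp
    exact_mod_cast (h4.zpow_eq_one_iff_dvd m).mp hm
  e := ⇑E₄
  he := isMF_E₄
  he0 := E₄_I_ne_zero
  decomp := by
    intro k f u hf hvan hu
    obtain ⟨f', hf', rfl⟩ := sat_I hf hvan
    exact ⟨u, f', hu, hf', by ring⟩

/-- The elliptic data at `ρ`. -/
noncomputable def ellDataRho (Γ : Subgroup SL(2, ℤ)) : EllData Γ where
  z₀ := ellRho
  R := ModularGroup.S * ModularGroup.T
  fix := ST_smul_ellRho
  n := 6
  hn := by norm_num
  hζ := by
    rw [denom_ST_ellRho]
    calc ((ellRho : ℂ) + 1) ^ 6 = (((ellRho : ℂ) + 1) ^ 2) ^ 3 := by ring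
      _ = 1 := by rw [ellRho_add_one_sq, ellRho_cube]
  prim := by
    intro m hm
    rw [denom_ST_ellRho] at hm
    have h6 : IsPrimitiveRoot ((ellRho : ℂ) + 1) 6 := by
      have h2 : ((ellRho : ℂ) + 1) ^ 2 = (ellRho : ℂ) := ellRho_add_one_sq
      have h3 : ((ellRho : ℂ) + 1) ^ 3 = -1 := by
        have := ellRho_sq_add
        calc ((ellRho : ℂ) + 1) ^ 3 = ((ellRho : ℂ) + 1) ^ 2 * ((ellRho : ℂ) + 1) := by ring
          _ = (ellRho : ℂ) * ((ellRho : ℂ) + 1) := by rw [h2]
          _ = -1 := by linear_combination this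
      have h6' : ((ellRho : ℂ) + 1) ^ 6 = 1 := by
        calc ((ellRho : ℂ) + 1) ^ 6 = (((ellRho : ℂ) + 1) ^ 3) ^ 2 := by ring
          _ = 1 := by rw [h3]; norm_num
      refine IsPrimitiveRoot.mk_of_lt _ (by norm_num) h6' ?_
      intro l hl0 hl6 hl
      interval_cases l
      · -- l = 1
        have : (ellRho : ℂ) = 0 := by linear_combination hl
        exact ellRho_ne_zero this
      · -- l = 2
        rw [h2] at hl
        exact ellRho_ne_one hl
      · -- l = 3
        rw [h3] at hl
        norm_num at hl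
      · -- l = 4
        have : ((ellRho : ℂ) + 1) ^ 4 = (ellRho : ℂ) ^ 2 := by
          calc ((ellRho : ℂ) + 1) ^ 4 = (((ellRho : ℂ) + 1) ^ 2) ^ 2 := by ring
            _ = _ := by rw [h2]
        rw [this] at hl
        have h1 := ellRho_sq_add
        have : (ellRho : ℂ) = -2 := by linear_combination h1 - hl
        have h5 := ellRho_cube
        rw [this] at h5
        norm_num at h5
      · -- l = 5
        have : ((ellRho : ℂ) + 1) ^ 5 = - (ellRho : ℂ) := by
          calc ((ellRho : ℂ) + 1) ^ 5 = ((ellRho : ℂ) + 1) ^ 3 * ((ellRho : ℂ) + 1) ^ 2 := by ring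
            _ = _ := by rw [h2, h3]; ring
        rw [this] at hl
        have h5 := ellRho_cube
        have : (ellRho : ℂ) = -1 := by linear_combination -hl
        rw [this] at h5
        norm_num at h5
    exact_mod_cast (h6.zpow_eq_one_iff_dvd m).mp hm
  e := ⇑E₆
  he := isMF_E₆
  he0 := E₆_ellRho_ne_zero
  decomp := by
    intro k f u hf hvan hu
    obtain ⟨f', hf', rfl⟩ := sat_rho hf hvan
    exact ⟨f', u, hf', hu, by ring⟩

end Fermat.Agent.S20lib

namespace Fermat.Agent.S20lib

variable {Γ : Subgroup SL(2, ℤ)}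

/-- Independence of the generators at an elliptic point (consequence of minimality and
saturation). -/
theorem GenSys.indep_ell {B : ℤ} (G : GenSys Γ B) (E : EllData Γ) (c : G.J → ℂ)
    (h : ∀ g : SL(2, ℤ), ∑ j, c j * (G.F j ∣[G.wt j] g) E.z₀ = 0) : c = 0 := by
  classical
  set ζ : ℂ := denom E.R E.z₀ with hζdef
  have hζ0 : ζ ≠ 0 := by
    intro h0
    have := E.hζ
    rw [← hζdef, h0, zero_pow E.hn.ne'] at this
    exact zero_ne_one this
  set lam : G.J → ℂ := fun j => ζ ^ (-G.wt j) with hlam
  have hlamn : ∀ j, lam j ^ E.n = 1 := by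
    intro j
    simp only [hlam]
    rw [← zpow_natCast, ← zpow_mul, mul_comm, zpow_mul, zpow_natCast, E.hζ, one_zpow]
  -- Step A
  have stepA : ∀ t : ℕ, ∀ g : SL(2, ℤ),
      ∑ j, lam j ^ t * (c j * (G.F j ∣[G.wt j] g) E.z₀) = 0 := by
    intro t
    induction t with
    | zero => intro g; simpa using h g
    | succ t ih =>
      intro g
      have := ih (g * E.R)
      rw [← this]
      refine Finset.sum_congr rfl fun j _ => ?_
      rw [slash_mul_apply_fix (G.F j) g E.R E.fix, pow_succ]
      simp only [hlam]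
      ring
  -- Step B
  have stepB : ∀ (μ₀ : ℂ), μ₀ ^ E.n = 1 → ∀ g : SL(2, ℤ),
      ∑ j, (if lam j = μ₀ then c j * (G.F j ∣[G.wt j] g) E.z₀ else 0) = 0 := by
    intro μ₀ hμ g
    exact class_decomp E.n E.hn lam hlamn _ (fun t => stepA t g) μ₀ hμ
  -- same class implies divisibility
  have hcl : ∀ i j, lam i = lam j → (E.n : ℤ) ∣ (G.wt j - G.wt i) := by
    intro i j hij
    apply E.prim
    simp only [hlam] at hij
    rw [← hζdef, zpow_sub₀ hζ0]
    have h1 : ζ ^ G.wt j = ζ ^ G.wt i := by
      have := congrArg (fun x => x⁻¹) hij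
      simpa [zpow_neg] using this.symm
    rw [h1, div_self (zpow_ne_zero _ hζ0)]
  -- Step C: downward induction
  have stepC : ∀ m : ℕ, ∀ j, B - m < G.wt j → c j = 0 := by
    intro m
    induction m with
    | zero =>
      intro j hj
      have := G.wt_le j
      simp at hj
      omega
    | succ m ih =>
      intro j hj
      by_cases hlt : B - m < G.wt j
      · exact ih j hlt
      have hk : G.wt j = B - m := by push_cast at hj; omega
      set k := G.wt j with hkdef
      have ih' : ∀ i, k < G.wt i → c i = 0 := fun i hi => ih i (by omega)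
      -- exponent
      let mm : G.J → ℕ := fun i => ((k - G.wt i) / E.n).toNat
      have hmm : ∀ i, lam i = lam j → G.wt i ≤ k → (E.n : ℤ) * (mm i : ℤ) = k - G.wt i := by
        intro i hi hle
        obtain ⟨d, hd⟩ := hcl i j hi
        have hn0 : (0 : ℤ) < E.n := by exact_mod_cast E.hn
        have hd0 : 0 ≤ d := by
          by_contra hneg
          have : (E.n : ℤ) * d < 0 := mul_neg_of_pos_of_neg hn0 (by omega)
          omega
        simp only [mm]
        rw [show k - G.wt i = (E.n : ℤ) * d from hd, Int.mul_ediv_cancel_left _ hn0.ne',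
          Int.toNat_of_nonneg hd0]
      let cc : G.J → ℂ := fun i => c i * ((E.e E.z₀)⁻¹) ^ (mm i)
      let a : G.J → ℍ → ℂ := fun i =>
        if lam i = lam j ∧ G.wt i ≤ k then cc i • (E.e ^ (mm i)) else 0
      let b : G.J → ℍ → ℂ := fun i =>
        if lam i = lam j ∧ G.wt i < k then cc i • (E.e ^ (mm i - 1)) else 0
      have ha : ∀ i, IsMF ⊤ (k - G.wt i) (a i) := by
        intro i
        simp only [a]
        split_ifs with hc
        · exact ((E.he.pow (mm i)).smul _).congr_weight (by rw [mul_comm, hmm i hc.1 hc.2])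
        · exact isMF_zero
      have hmpos : ∀ i, lam i = lam j → G.wt i < k → 1 ≤ mm i := by
        intro i hi hlt
        have := hmm i hi hlt.le
        have hn0 : (0 : ℤ) < E.n := by exact_mod_cast E.hn
        by_contra h0
        have h0' : mm i = 0 := by omega
        rw [h0'] at this
        simp at this
        omega
      have hb : ∀ i, IsMF ⊤ (k - E.n - G.wt i) (b i) := by
        intro i
        simp only [b]
        split_ifs with hc
        · refine ((E.he.pow (mm i - 1)).smul _).congr_weight ?_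
          have h1 := hmm i hc.1 hc.2.le
          have h2 := hmpos i hc.1 hc.2
          push_cast [Nat.cast_sub h2]
          linear_combination h1
        · exact isMF_zero
      -- the form `F`
      have hF : IsMF Γ k (∑ i, a i * G.F i) := G.isMF_comb a ha
      have hu : IsMF Γ (k - E.n) (-∑ i, b i * G.F i) := (G.isMF_comb b hb).neg
      have hvan : ∀ g : SL(2, ℤ), ((∑ i, a i * G.F i) ∣[k] g) E.z₀ = 0 := by
        intro g
        rw [G.slash_comb a ha g, Finset.sum_apply]
        rw [← stepB (lam j) (hlamn j) g]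
        refine Finset.sum_congr rfl fun i _ => ?_
        simp only [Pi.mul_apply, a]
        by_cases hi : lam i = lam j
        · by_cases hle : G.wt i ≤ k
          · simp only [hi, hle, and_self, if_true, Pi.smul_apply, Pi.pow_apply, smul_eq_mul, cc]
            rw [mul_assoc (c i), ← mul_pow, inv_mul_cancel₀ E.he0, one_pow, mul_one]
          · simp only [hi, hle, and_false, if_false, if_true, Pi.zero_apply, zero_mul]
            rw [ih' i (by omega), zero_mul]
        · simp [hi]
      have hdec := E.decomp k _ _ hF hvan hu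
      have hsum : (∑ i, a i * G.F i) + E.e * (-∑ i, b i * G.F i)
          = ∑ i, (if G.wt i = k then c i else 0) • G.F i := by
        rw [mul_neg, Finset.mul_sum, ← sub_eq_add_neg, ← Finset.sum_sub_distrib]
        refine Finset.sum_congr rfl fun i _ => ?_
        by_cases hik : G.wt i = k
        · have hi : lam i = lam j := by simp only [hlam, hik, hkdef]
          have hm0 : mm i = 0 := by
            have := hmm i hi hik.le
            have hn0 : (0 : ℤ) < E.n := by exact_mod_cast E.hn
            rw [hik, sub_self] at this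
            rcases mul_eq_zero.mp this with h1 | h1
            · omega
            · exact_mod_cast h1
          funext z
          simp [a, b, hi, hik, cc, hm0]
        · simp only [hik, if_false, zero_smul]
          by_cases hi : lam i = lam j
          · by_cases hlt : G.wt i < k
            · have h1 := hmpos i hi hlt
              funext z
              simp only [a, b, hi, hlt, hlt.le, and_self, if_true, Pi.sub_apply, Pi.mul_apply,
                Pi.smul_apply, Pi.pow_apply, smul_eq_mul, Pi.zero_apply]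
              have : E.e z ^ mm i = E.e z * E.e z ^ (mm i - 1) := by
                rw [← pow_succ']
                congr 1
                omega
              rw [this]
              ring
            · have hle : ¬ G.wt i ≤ k := by omega
              funext z
              simp [a, b, hlt, hle]
          · funext z
            simp [a, b, hi]
      rw [hsum] at hdec
      exact G.min c k hdec j rfl
  funext j
  have hB : (0 : ℤ) ≤ B := le_trans (G.wt_nonneg j) (G.wt_le j)
  apply stepC (B.toNat + 1) j
  have := G.wt_nonneg j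
  push_cast
  rw [Int.toNat_of_nonneg hB]
  omega

end Fermat.Agent.S20lib
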