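import Mathlib
import Fermat.Agent.S20_Indep

/-!
# S20 library: the coset-indexed matrix of the generators
-/

set_option autoImplicit false
open scoped MatrixGroups ModularForm Manifold Topology
open UpperHalfPlane ModularForm Filter

namespace Fermat.Agent.S20lib

/-! ### holomorphic functions on `ℍ` form a domain -/

/-- Identity theorem on `ℍ`: a holomorphic function vanishing near one point is zero. -/
lemma eq_zero_of_eventually_zero {f : ℍ → ℂ} (hf : MDiff f) (z₀ : ℍ)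
    (h : ∀ᶠ w in 𝓝 (z₀ : ℂ), (f ∘ ofComplex) w = 0) : f = 0 := by
  rw [UpperHalfPlane.mdifferentiable_iff] at hf
  have han : AnalyticOnNhd ℂ (f ∘ ofComplex) {z | 0 < z.im} :=
    hf.analyticOnNhd isOpen_upperHalfPlaneSet
  have hconv : Convex ℝ {z : ℂ | 0 < z.im} := by
    have : {z : ℂ | 0 < z.im} = Complex.imCLM ⁻¹' Set.Ioi 0 := by ext; simp
    rw [this]
    exact (convex_Ioi 0).linear_preimage Complex.imCLM.toLinearMap
  have := han.eqOn_zero_of_preconnected_of_eventuallyEq_zero hconv.isPreconnected z₀.2 h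
  funext z
  have hz := this z.2
  simpa [Function.comp] using hz

/-- Holomorphic functions on `ℍ` form a domain. -/
lemma mdiff_mul_eq_zero {f g : ℍ → ℂ} (hf : MDiff f) (hg : MDiff g) (h : f * g = 0) :
    f = 0 ∨ g = 0 := by
  by_cases hf0 : f = 0
  · exact Or.inl hf0
  right
  obtain ⟨z₀, hz₀⟩ : ∃ z₀, f z₀ ≠ 0 := by
    by_contra hcon
    push Not at hcon
    exact hf0 (funext hcon)
  apply eq_zero_of_eventually_zero hg z₀
  have hfc : ContinuousAt (f ∘ ofComplex) (z₀ : ℂ) :=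
    (differentiableAt_comp_ofComplex hf z₀).continuousAt
  have hne : ∀ᶠ w in 𝓝 (z₀ : ℂ), (f ∘ ofComplex) w ≠ 0 :=
    hfc.eventually_ne (by simpa [Function.comp] using hz₀)
  filter_upwards [hne] with w hw
  have := congrFun h (ofComplex w)
  simp only [Pi.mul_apply, Pi.zero_apply, mul_eq_zero] at this
  rcases this with h1 | h1
  · exact absurd h1 hw
  · exact h1

lemma mdiff_prod {ι : Type*} (s : Finset ι) (F : ι → ℍ → ℂ) (h : ∀ i ∈ s, MDiff (F i)) :
    MDiff (∏ i ∈ s, F i) := by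
  classical
  induction s using Finset.induction_on with
  | empty =>
    rw [Finset.prod_empty]
    exact (mdifferentiable_const : MDiff (fun _ : ℍ => (1 : ℂ)))
  | insert a s ha ih =>
    rw [Finset.prod_insert ha]
    exact (h a (Finset.mem_insert_self a s)).mul (ih fun i hi => h i (Finset.mem_insert_of_mem hi))

lemma mdiff_sum {ι : Type*} (s : Finset ι) (F : ι → ℍ → ℂ) (h : ∀ i ∈ s, MDiff (F i)) :
    MDiff (∑ i ∈ s, F i) := by
  classical
  induction s using Finset.induction_on with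
  | empty =>
    rw [Finset.sum_empty]
    exact (mdifferentiable_const : MDiff (fun _ : ℍ => (0 : ℂ)))
  | insert a s ha ih =>
    rw [Finset.sum_insert ha]
    exact (h a (Finset.mem_insert_self a s)).add (ih fun i hi => h i (Finset.mem_insert_of_mem hi))

lemma mdiff_prod_ne_zero {ι : Type*} (s : Finset ι) (F : ι → ℍ → ℂ) (h : ∀ i ∈ s, MDiff (F i))
    (hne : ∀ i ∈ s, F i ≠ 0) : ∏ i ∈ s, F i ≠ 0 := by
  classical
  induction s using Finset.induction_on with
  | empty =>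
    simp only [Finset.prod_empty]
    intro h1
    have := congrFun h1 UpperHalfPlane.I
    simp at this
  | insert a s ha ih =>
    rw [Finset.prod_insert ha]
    intro h0
    rcases mdiff_mul_eq_zero (h a (Finset.mem_insert_self a s))
      (mdiff_prod s F fun i hi => h i (Finset.mem_insert_of_mem hi)) h0 with h1 | h1
    · exact hne a (Finset.mem_insert_self a s) h1
    · exact ih (fun i hi => h i (Finset.mem_insert_of_mem hi))
        (fun i hi => hne i (Finset.mem_insert_of_mem hi)) h1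

/-! ### coset representatives and components -/

variable (Γ : Subgroup SL(2, ℤ))

/-- inverse of the chosen representative of a coset -/
noncomputable def rep (q : SL(2, ℤ) ⧸ Γ) : SL(2, ℤ) := (Quotient.out q)⁻¹

variable {Γ}

lemma slash_rep {k : ℤ} {f : ℍ → ℂ} (hf : ∀ γ ∈ Γ, f ∣[k] γ = f) (g : SL(2, ℤ)) :
    f ∣[k] rep Γ ((g⁻¹ : SL(2, ℤ)) : SL(2, ℤ) ⧸ Γ) = f ∣[k] g := by
  obtain ⟨h, hh⟩ := QuotientGroup.mk_out_eq_mul Γ g⁻¹
  have : rep Γ ((g⁻¹ : SL(2, ℤ)) : SL(2, ℤ) ⧸ Γ) = (h : SL(2, ℤ))⁻¹ * g := by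
    simp only [rep, hh, mul_inv_rev, inv_inv]
  rw [this, SlashAction.slash_mul, hf _ (Γ.inv_mem h.2)]

lemma slash_rep_smul {k : ℤ} {f : ℍ → ℂ} (hf : ∀ γ ∈ Γ, f ∣[k] γ = f)
    (q : SL(2, ℤ) ⧸ Γ) (h : SL(2, ℤ)) :
    (f ∣[k] rep Γ q) ∣[k] h = f ∣[k] rep Γ (h⁻¹ • q) := by
  rw [← SlashAction.slash_mul, ← slash_rep hf (rep Γ q * h)]
  congr 2
  simp only [rep, mul_inv_rev, inv_inv]
  conv_rhs => rw [← QuotientGroup.out_eq' q]
  rfl

/-- distinct cosets give distinct translates of a separating form -/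
lemma rep_slash_injective {k : ℤ} {f : ℍ → ℂ}
    (hsep : ∀ g : SL(2, ℤ), g ∉ Γ → f ∣[k] g ≠ f) :
    Function.Injective fun q : SL(2, ℤ) ⧸ Γ => f ∣[k] rep Γ q := by
  intro q q' h
  simp only at h
  have h1 : f ∣[k] (rep Γ q * (rep Γ q')⁻¹) = f := by
    rw [SlashAction.slash_mul, h, ← SlashAction.slash_mul, mul_inv_cancel, SlashAction.slash_one]
  have hmem : rep Γ q * (rep Γ q')⁻¹ ∈ Γ := by
    by_contra hn
    exact hsep _ hn h1
  rw [← QuotientGroup.out_eq' q, ← QuotientGroup.out_eq' q', QuotientGroup.eq]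
  simpa [rep] using hmem

/-- the matrix of components of the generators -/
noncomputable def GenSys.Phi {B : ℤ} (G : GenSys Γ B) (z : ℍ) : Matrix (SL(2, ℤ) ⧸ Γ) G.J ℂ :=
  fun q j => (G.F j ∣[G.wt j] rep Γ q) z

lemma GenSys.Phi_mulVec_comb {B : ℤ} (G : GenSys Γ B) {k : ℤ} (a : G.J → ℍ → ℂ)
    (ha : ∀ j, IsMF ⊤ (k - G.wt j) (a j)) (z : ℍ) (q : SL(2, ℤ) ⧸ Γ) :
    (G.Phi z).mulVec (fun j => a j z) q = ((∑ j, a j * G.F j) ∣[k] rep Γ q) z := by
  rw [G.slash_comb a ha, Finset.sum_apply]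
  simp only [Matrix.mulVec, dotProduct, GenSys.Phi, Pi.mul_apply]
  refine Finset.sum_congr rfl fun j _ => ?_
  ring

/-- independence at elliptic points, matrix form -/
lemma GenSys.Phi_mulVec_injective_ell {B : ℤ} (G : GenSys Γ B) (E : EllData Γ) (c : G.J → ℂ)
    (h : (G.Phi E.z₀).mulVec c = 0) : c = 0 := by
  apply G.indep_ell E
  intro g
  have := congrFun h ((g⁻¹ : SL(2, ℤ)) : SL(2, ℤ) ⧸ Γ)
  simp only [Matrix.mulVec, dotProduct, GenSys.Phi, Pi.zero_apply] at this
  rw [← this]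
  refine Finset.sum_congr rfl fun j _ => ?_
  rw [slash_rep (G.isMF j).inv g]
  ring

end Fermat.Agent.S20lib

namespace Fermat.Agent.S20lib

variable {Γ : Subgroup SL(2, ℤ)}

lemma slash_pow {k : ℤ} (f : ℍ → ℂ) (g : SL(2, ℤ)) (m : ℕ) :
    (f ^ m) ∣[(m : ℤ) * k] g = (f ∣[k] g) ^ m := by
  induction m with
  | zero =>
    simp only [pow_zero, Nat.cast_zero, zero_mul]
    exact is_invariant_one g
  | succ m ih =>
    rw [pow_succ, pow_succ, ← ih, ← mul_slash_SL2]
    congr 1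
    push_cast; ring

lemma IsMF.pow' {k : ℤ} {f : ℍ → ℂ} (h : IsMF Γ k f) (m : ℕ) : IsMF Γ (m * k) (f ^ m) := by
  induction m with
  | zero => simpa using isMF_const Γ 1
  | succ m ih =>
    rw [pow_succ]
    exact (ih.mul h).congr_weight (by push_cast; ring)

/-- Separation implies that the columns of `Φ(z₁)` span, for a suitable `z₁`. -/
theorem GenSys.exists_Phi_surjective [Γ.FiniteIndex] {B : ℤ} (G : GenSys Γ B)
    {t : ℍ → ℂ} (ht : IsMF Γ 4 t) (hsep : ∀ g : SL(2, ℤ), g ∉ Γ → t ∣[(4 : ℤ)] g ≠ t)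
    (hB : 4 * (Nat.card (SL(2, ℤ) ⧸ Γ) : ℤ) ≤ B) :
    ∃ z₁ : ℍ, Function.Surjective (G.Phi z₁).mulVec := by
  classical
  let I := SL(2, ℤ) ⧸ Γ
  haveI : Fintype I := Fintype.ofFinite I
  let tq : I → ℍ → ℂ := fun q => t ∣[(4 : ℤ)] rep Γ q
  have hinj : Function.Injective tq := rep_slash_injective hsep
  have htq : ∀ q, MDiff (tq q) := fun q => ht.holo.slash _ _
  -- a point where all the values are distinct
  obtain ⟨z₁, hz₁⟩ : ∃ z₁ : ℍ, ∀ q q' : I, q ≠ q' → tq q z₁ ≠ tq q' z₁ := by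
    have hP : ∏ p ∈ (Finset.univ : Finset I).offDiag, (tq p.1 - tq p.2) ≠ 0 := by
      apply mdiff_prod_ne_zero
      · intro p _
        exact (htq p.1).sub (htq p.2)
      · intro p hp h0
        have hne : p.1 ≠ p.2 := (Finset.mem_offDiag.mp hp).2.2
        exact hne (hinj (sub_eq_zero.mp h0))
    obtain ⟨z₁, hz₁⟩ : ∃ z₁, (∏ p ∈ (Finset.univ : Finset I).offDiag, (tq p.1 - tq p.2)) z₁ ≠ 0 := by
      by_contra hcon
      push Not at hcon
      exact hP (funext hcon)
    refine ⟨z₁, fun q q' hqq' heq => hz₁ ?_⟩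
    rw [Finset.prod_apply]
    apply Finset.prod_eq_zero (i := (q, q'))
    · exact Finset.mem_offDiag.mpr ⟨Finset.mem_univ _, Finset.mem_univ _, hqq'⟩
    · simp [heq]
  refine ⟨z₁, ?_⟩
  -- Vandermonde
  let μ := Fintype.card I
  let e' : I ≃ Fin μ := Fintype.equivFin I
  let v : Fin μ → ℂ := fun i => tq (e'.symm i) z₁
  have hv : Function.Injective v := by
    intro i i' h
    by_contra hne
    exact hz₁ _ _ (fun h' => hne (e'.symm.injective h')) h
  have hdet : (Matrix.vandermonde v).det ≠ 0 := Matrix.det_vandermonde_ne_zero_iff.mpr hv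
  have hsurj : Function.Surjective (Matrix.vandermonde v).mulVec :=
    Matrix.mulVec_surjective_iff_isUnit.mpr
      ((Matrix.isUnit_iff_isUnit_det _).mpr (isUnit_iff_ne_zero.mpr hdet))
  -- the powers of `t` are combinations of the generators
  have hμ : (Nat.card (SL(2, ℤ) ⧸ Γ) : ℤ) = μ := by
    simp only [μ, Nat.card_eq_fintype_card]
    rfl
  have hpow : ∀ m : Fin μ, ∃ a : G.J → ℍ → ℂ, (∀ j, IsMF ⊤ ((m : ℕ) * 4 - G.wt j) (a j)) ∧
      t ^ (m : ℕ) = ∑ j, a j * G.F j := by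
    intro m
    apply G.gen _ _ _ (ht.pow' m)
    have := m.2
    rw [hμ] at hB
    have : ((m : ℕ) : ℤ) < μ := by exact_mod_cast m.2
    linarith
  choose a ha hat using hpow
  intro w
  obtain ⟨x, hx⟩ := hsurj (w ∘ e'.symm)
  refine ⟨fun j => ∑ m, x m * a m j z₁, ?_⟩
  funext q
  have hq : w q = (Matrix.vandermonde v).mulVec x (e' q) := by
    rw [hx]; simp
  rw [hq]
  simp only [Matrix.mulVec, dotProduct, Matrix.vandermonde_apply, v, Equiv.symm_apply_apply]
  have key : ∀ m : Fin μ, tq q z₁ ^ (m : ℕ) = ∑ j, G.Phi z₁ q j * a m j z₁ := by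
    intro m
    have h1 := G.Phi_mulVec_comb (a m) (ha m) z₁ q
    rw [← hat m, slash_pow] at h1
    simp only [Matrix.mulVec, dotProduct] at h1
    rw [h1]
    rfl
  simp_rw [key, Finset.mul_sum, Finset.sum_mul]
  rw [Finset.sum_comm]
  refine Finset.sum_congr rfl fun m _ => Finset.sum_congr rfl fun j _ => ?_
  ring

/-- The number of generators equals the index. -/
theorem GenSys.card_eq [Γ.FiniteIndex] {B : ℤ} (G : GenSys Γ B)
    {t : ℍ → ℂ} (ht : IsMF Γ 4 t) (hsep : ∀ g : SL(2, ℤ), g ∉ Γ → t ∣[(4 : ℤ)] g ≠ t)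
    (hB : 4 * (Nat.card (SL(2, ℤ) ⧸ Γ) : ℤ) ≤ B) :
    Fintype.card G.J = Nat.card (SL(2, ℤ) ⧸ Γ) := by
  classical
  haveI : Fintype (SL(2, ℤ) ⧸ Γ) := Fintype.ofFinite _
  rw [Nat.card_eq_fintype_card]
  apply le_antisymm
  · -- injectivity at `i`
    have hinj : Function.Injective (Matrix.mulVecLin (G.Phi (ellDataI Γ).z₀)) := by
      rw [← LinearMap.ker_eq_bot, LinearMap.ker_eq_bot']
      intro c hc
      exact G.Phi_mulVec_injective_ell (ellDataI Γ) c hc
    have := LinearMap.finrank_le_finrank_of_injective hinj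
    simpa using this
  · obtain ⟨z₁, hz₁⟩ := G.exists_Phi_surjective ht hsep hB
    have hsurj : Function.Surjective (Matrix.mulVecLin (G.Phi z₁)) := hz₁
    have := LinearMap.finrank_le_finrank_of_surjective hsurj
    simpa using this

end Fermat.Agent.S20lib
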