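import Mathlib
import Fermat.Agent.S20_Phi

/-!
# S20 library: the determinant of the generator matrix; freeness; nonvanishing
-/

set_option autoImplicit false
open scoped MatrixGroups ModularForm Manifold Topology
open UpperHalfPlane ModularForm Filter

namespace Fermat.Agent.S20lib

variable {Γ : Subgroup SL(2, ℤ)} [Γ.FiniteIndex] {B : ℤ}

/-- the `Fintype` structure on the coset space (used as a local instance) -/
noncomputable def fintypeQuot (Γ : Subgroup SL(2, ℤ)) [Γ.FiniteIndex] :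
    Fintype (SL(2, ℤ) ⧸ Γ) := Fintype.ofFinite _

/-- decidable equality on the coset space (used as a local instance) -/
noncomputable def decEqQuot (Γ : Subgroup SL(2, ℤ)) : DecidableEq (SL(2, ℤ) ⧸ Γ) :=
  Classical.decEq _

attribute [local instance] fintypeQuot decEqQuot

/-- the square matrix of components of the generators -/
noncomputable def GenSys.PhiSq (G : GenSys Γ B) (e : G.J ≃ SL(2, ℤ) ⧸ Γ) (z : ℍ) :
    Matrix (SL(2, ℤ) ⧸ Γ) (SL(2, ℤ) ⧸ Γ) ℂ :=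
  fun q q' => G.Phi z q (e.symm q')

/-- the determinant of the generator matrix -/
noncomputable def GenSys.Ddet (G : GenSys Γ B) (e : G.J ≃ SL(2, ℤ) ⧸ Γ) (z : ℍ) : ℂ :=
  (G.PhiSq e z).det

lemma GenSys.PhiSq_mulVec (G : GenSys Γ B) (e : G.J ≃ SL(2, ℤ) ⧸ Γ) (z : ℍ)
    (v : SL(2, ℤ) ⧸ Γ → ℂ) : (G.PhiSq e z).mulVec v = (G.Phi z).mulVec (v ∘ e) := by
  funext q
  simp only [Matrix.mulVec, dotProduct, GenSys.PhiSq, Function.comp]
  rw [← Equiv.sum_comp e]
  simp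

lemma GenSys.Phi_mulVec_eq (G : GenSys Γ B) (e : G.J ≃ SL(2, ℤ) ⧸ Γ) (z : ℍ)
    (c : G.J → ℂ) : (G.Phi z).mulVec c = (G.PhiSq e z).mulVec (c ∘ e.symm) := by
  rw [G.PhiSq_mulVec]
  congr 1
  funext j
  simp

/-- `Ddet z ≠ 0` iff the columns of `Φ(z)` are independent. -/
lemma GenSys.Ddet_ne_zero_of_injective (G : GenSys Γ B) (e : G.J ≃ SL(2, ℤ) ⧸ Γ) (z : ℍ)
    (h : ∀ c : G.J → ℂ, (G.Phi z).mulVec c = 0 → c = 0) : G.Ddet e z ≠ 0 := by
  intro h0
  obtain ⟨v, hv, hv0⟩ := Matrix.exists_mulVec_eq_zero_iff.mpr (show (G.PhiSq e z).det = 0 from h0)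
  rw [G.PhiSq_mulVec] at hv0
  have := h _ hv0
  apply hv
  funext q
  have := congrFun this (e.symm q)
  simpa only [Function.comp_apply, Equiv.apply_symm_apply, Pi.zero_apply] using this

lemma GenSys.injective_of_Ddet_ne_zero (G : GenSys Γ B) (e : G.J ≃ SL(2, ℤ) ⧸ Γ) (z : ℍ)
    (h : G.Ddet e z ≠ 0) (c : G.J → ℂ) (hc : (G.Phi z).mulVec c = 0) : c = 0 := by
  rw [G.Phi_mulVec_eq e] at hc
  have := Matrix.eq_zero_of_mulVec_eq_zero (show (G.PhiSq e z).det ≠ 0 from h) hc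
  funext j
  have := congrFun this (e j)
  simpa only [Function.comp_apply, Equiv.symm_apply_apply, Pi.zero_apply] using this

lemma GenSys.Ddet_ne_zero_ell (G : GenSys Γ B) (e : G.J ≃ SL(2, ℤ) ⧸ Γ) (E : EllData Γ) :
    G.Ddet e E.z₀ ≠ 0 :=
  G.Ddet_ne_zero_of_injective e _ (G.Phi_mulVec_injective_ell E)

lemma GenSys.mdiff_Phi (G : GenSys Γ B) (q : SL(2, ℤ) ⧸ Γ) (j : G.J) :
    MDiff (fun z => G.Phi z q j) :=
  (G.isMF j).holo.slash _ _

lemma GenSys.mdiff_Ddet (G : GenSys Γ B) (e : G.J ≃ SL(2, ℤ) ⧸ Γ) : MDiff (G.Ddet e) := by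
  have : G.Ddet e = ∑ σ : Equiv.Perm (SL(2, ℤ) ⧸ Γ),
      (fun _ : ℍ => ((Equiv.Perm.sign σ : ℤ) : ℂ)) *
        ∏ q, (fun z => G.Phi z (σ q) (e.symm q)) := by
    funext z
    rw [GenSys.Ddet, Matrix.det_apply]
    simp only [GenSys.PhiSq, Finset.sum_apply, Pi.mul_apply, Finset.prod_apply]
    refine Finset.sum_congr rfl fun σ _ => ?_
    rw [Units.smul_def, zsmul_eq_mul]
  rw [this]
  apply mdiff_sum
  intro σ _
  refine MDifferentiable.mul mdifferentiable_const ?_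
  apply mdiff_prod
  intro q _
  exact G.mdiff_Phi _ _

/-- Freeness of the generators over the level one forms. -/
theorem GenSys.free (G : GenSys Γ B) (e : G.J ≃ SL(2, ℤ) ⧸ Γ) {w : ℤ} (a : G.J → ℍ → ℂ)
    (ha : ∀ j, IsMF ⊤ (w - G.wt j) (a j)) (h : ∑ j, a j * G.F j = 0) : ∀ j, a j = 0 := by
  have hD : G.Ddet e ≠ 0 := fun h0 => G.Ddet_ne_zero_ell e (ellDataI Γ) (by rw [h0]; rfl)
  have hz : ∀ z : ℍ, G.Ddet e z ≠ 0 → ∀ j, a j z = 0 := by
    intro z hDz j
    have hc : (G.Phi z).mulVec (fun j => a j z) = 0 := by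
      funext q
      rw [G.Phi_mulVec_comb a ha z q, h, SlashAction.zero_slash]
      rfl
    have := G.injective_of_Ddet_ne_zero e z hDz _ hc
    exact congrFun this j
  intro j
  have hmul : G.Ddet e * a j = 0 := by
    funext z
    by_cases hDz : G.Ddet e z = 0
    · simp [hDz]
    · simp [hz z hDz j]
  rcases mdiff_mul_eq_zero (G.mdiff_Ddet e) (ha j).holo hmul with h1 | h1
  · exact absurd h1 hD
  · exact h1

end Fermat.Agent.S20lib
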