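import Mathlib
import Fermat.Agent.S20_Det

/-!
# S20 library: the generator determinant vanishes nowhere; its transformation law
-/

set_option autoImplicit false
open scoped MatrixGroups ModularForm Manifold Topology
open UpperHalfPlane ModularForm Filter

namespace Fermat.Agent.S20lib

attribute [local instance] fintypeQuot decEqQuot

variable {Γ : Subgroup SL(2, ℤ)} {B : ℤ}

/-- transformation law of the generator matrix -/
lemma GenSys.Phi_smul (G : GenSys Γ B) (g : SL(2, ℤ)) (z : ℍ) (q : SL(2, ℤ) ⧸ Γ) (j : G.J) :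
    G.Phi (g • z) q j = G.Phi z (g⁻¹ • q) j * denom g z ^ (G.wt j) := by
  simp only [GenSys.Phi]
  rw [← slash_rep_smul (G.isMF j).inv q g, SL_slash_apply (G.F j ∣[G.wt j] rep Γ q) g z,
    mul_assoc, ← zpow_add₀ (denom_ne_zero g z)]
  simp

/-- injectivity of `Φ` is transported along the action of `SL(2,ℤ)` -/
lemma GenSys.Phi_mulVec_injective_smul (G : GenSys Γ B) (g : SL(2, ℤ)) {z : ℍ}
    (hz : ∀ c : G.J → ℂ, (G.Phi z).mulVec c = 0 → c = 0) (c : G.J → ℂ)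
    (h : (G.Phi (g • z)).mulVec c = 0) : c = 0 := by
  have h1 : (G.Phi z).mulVec (fun j => denom g z ^ (G.wt j) * c j) = 0 := by
    funext q
    have := congrFun h (g • q)
    simp only [Matrix.mulVec, dotProduct, Pi.zero_apply] at this ⊢
    rw [← this]
    refine Finset.sum_congr rfl fun j _ => ?_
    rw [G.Phi_smul, inv_smul_smul]
    ring
  have h2 := hz _ h1
  funext j
  have := congrFun h2 j
  simp only [Pi.zero_apply, mul_eq_zero] at this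
  rcases this with h0 | h0
  · exact absurd h0 (zpow_ne_zero _ (denom_ne_zero g z))
  · exact h0

/-! ### level one multipliers -/

lemma exists_four_six {m : ℤ} (hm : Even m) (h4 : 4 ≤ m) :
    ∃ x y : ℕ, (x : ℤ) * 4 + (y : ℤ) * 6 = m := by
  obtain ⟨r, hr⟩ := hm
  rcases Int.even_or_odd' r with ⟨s, hs | hs⟩
  · refine ⟨s.toNat, 0, ?_⟩
    have : 0 ≤ s := by omega
    omega
  · refine ⟨(s - 1).toNat, 1, ?_⟩
    have : 0 ≤ s - 1 := by omega
    omega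

lemma isMF_E₄_pow_mul_E₆_pow (x y : ℕ) :
    IsMF ⊤ ((x : ℤ) * 4 + (y : ℤ) * 6) (⇑E₄ ^ x * ⇑E₆ ^ y) :=
  (isMF_E₄.pow x).mul (isMF_E₆.pow y)

/-- a level one form of prescribed even weight with value `1` at a non-elliptic point -/
lemma exists_levelOne_apply_eq_one {z₀ : ℍ} (h4 : E₄ z₀ ≠ 0) (h6 : E₆ z₀ ≠ 0) {m : ℤ}
    (hm : Even m) (hm4 : 4 ≤ m) : ∃ b : ℍ → ℂ, IsMF ⊤ m b ∧ b z₀ = 1 := by
  obtain ⟨x, y, hxy⟩ := exists_four_six hm hm4
  refine ⟨(E₄ z₀ ^ x * E₆ z₀ ^ y)⁻¹ • (⇑E₄ ^ x * ⇑E₆ ^ y),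
    ((isMF_E₄_pow_mul_E₆_pow x y).smul _).congr_weight hxy, ?_⟩
  simp only [Pi.smul_apply, Pi.mul_apply, Pi.pow_apply, smul_eq_mul]
  exact inv_mul_cancel₀ (mul_ne_zero (pow_ne_zero _ h4) (pow_ne_zero _ h6))

/-- a level one form of prescribed even weight with value `1` at `i∞` -/
lemma exists_levelOne_tendsto_one {m : ℤ} (hm : Even m) (hm4 : 4 ≤ m) :
    ∃ b : ℍ → ℂ, IsMF ⊤ m b ∧ Tendsto b atImInfty (𝓝 1) := by
  obtain ⟨x, y, hxy⟩ := exists_four_six hm hm4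
  refine ⟨⇑E₄ ^ x * ⇑E₆ ^ y, (isMF_E₄_pow_mul_E₆_pow x y).congr_weight hxy, ?_⟩
  have := (tendsto_E₄.pow x).mul (tendsto_E₆.pow y)
  rw [one_pow, one_pow, one_mul] at this
  exact this

/-- a common weight for the multipliers -/
lemma GenSys.exists_weight [Γ.FiniteIndex] (G : GenSys Γ B) (hneg : -1 ∈ Γ) :
    ∃ w : ℤ, w - 12 ≤ B ∧ ∀ j, Even (w - G.wt j) ∧ 4 ≤ w - G.wt j := by
  refine ⟨2 * (B / 2) + 4, by omega, fun j => ?_⟩
  obtain ⟨r, hr⟩ := G.wt_even hneg j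
  have hle := G.wt_le j
  refine ⟨⟨B / 2 + 2 - r, by omega⟩, by omega⟩

/-- independence at non-elliptic points -/
theorem GenSys.Phi_mulVec_injective_pt [Γ.FiniteIndex] (G : GenSys Γ B)
    (e : G.J ≃ SL(2, ℤ) ⧸ Γ) (hneg : -1 ∈ Γ) {z₀ : ℍ} (h4 : E₄ z₀ ≠ 0) (h6 : E₆ z₀ ≠ 0)
    (c : G.J → ℂ) (h : (G.Phi z₀).mulVec c = 0) : c = 0 := by
  obtain ⟨w, hwB, hw⟩ := G.exists_weight hneg
  have hb : ∀ j, ∃ b : ℍ → ℂ, IsMF ⊤ (w - G.wt j) b ∧ b z₀ = 1 := fun j =>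
    exists_levelOne_apply_eq_one h4 h6 (hw j).1 (hw j).2
  choose b hbMF hb1 using hb
  have ha : ∀ j, IsMF ⊤ (w - G.wt j) (c j • b j) := fun j => (hbMF j).smul _
  have hf : IsMF Γ w (∑ j, (c j • b j) * G.F j) := G.isMF_comb _ ha
  have hvan : ∀ g : SL(2, ℤ), ((∑ j, (c j • b j) * G.F j) ∣[w] g) z₀ = 0 := by
    intro g
    rw [G.slash_comb _ ha, Finset.sum_apply]
    have := congrFun h ((g⁻¹ : SL(2, ℤ)) : SL(2, ℤ) ⧸ Γ)
    simp only [Matrix.mulVec, dotProduct, GenSys.Phi, Pi.zero_apply] at this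
    rw [← this]
    refine Finset.sum_congr rfl fun j _ => ?_
    rw [slash_rep (G.isMF j).inv g]
    simp only [Pi.mul_apply, Pi.smul_apply, smul_eq_mul, hb1]
    ring
  obtain ⟨f', hf', hff'⟩ := sat_pt h4 h6 hf hvan
  obtain ⟨a', ha', hfa'⟩ := G.gen (w - 12) hwB f' hf'
  have ha2 : ∀ j, IsMF ⊤ (w - G.wt j) (c j • b j - hpt z₀ * a' j) := fun j =>
    (ha j).sub (((isMF_hpt z₀).mul (ha' j)).congr_weight (by ring))
  have hsum : ∑ j, (c j • b j - hpt z₀ * a' j) * G.F j = 0 := by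
    simp only [sub_mul, Finset.sum_sub_distrib]
    rw [hff', hfa', Finset.mul_sum, sub_eq_zero]
    refine Finset.sum_congr rfl fun j _ => ?_
    ring
  have hzero := G.free e _ ha2 hsum
  funext j
  have := congrFun (hzero j) z₀
  simpa [hb1, hpt_self] using this

/-- the generators are independent at every point -/
theorem GenSys.Phi_mulVec_injective [Γ.FiniteIndex] (G : GenSys Γ B)
    (e : G.J ≃ SL(2, ℤ) ⧸ Γ) (hneg : -1 ∈ Γ) (z : ℍ)
    (c : G.J → ℂ) (h : (G.Phi z).mulVec c = 0) : c = 0 := by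
  by_cases h6 : E₆ z = 0
  · obtain ⟨g, rfl⟩ := exists_smul_I_of_E₆_eq_zero h6
    exact G.Phi_mulVec_injective_smul g (G.Phi_mulVec_injective_ell (ellDataI Γ)) c h
  by_cases h4 : E₄ z = 0
  · obtain ⟨g, rfl⟩ := exists_smul_ellRho_of_E₄_eq_zero h4
    exact G.Phi_mulVec_injective_smul g (G.Phi_mulVec_injective_ell (ellDataRho Γ)) c h
  exact G.Phi_mulVec_injective_pt e hneg h4 h6 c h

/-- the generator determinant vanishes nowhere -/
theorem GenSys.Ddet_ne_zero [Γ.FiniteIndex] (G : GenSys Γ B)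
    (e : G.J ≃ SL(2, ℤ) ⧸ Γ) (hneg : -1 ∈ Γ) (z : ℍ) : G.Ddet e z ≠ 0 :=
  G.Ddet_ne_zero_of_injective e z (G.Phi_mulVec_injective e hneg z)

/-! ### the transformation law of the determinant -/

lemma prod_zpow_eq_zpow_sum {ι : Type*} (s : Finset ι) (a : ℂ) (ha : a ≠ 0) (f : ι → ℤ) :
    ∏ i ∈ s, a ^ (f i) = a ^ (∑ i ∈ s, f i) := by
  classical
  induction s using Finset.induction_on with
  | empty => simp
  | insert i s hi ih => rw [Finset.prod_insert hi, Finset.sum_insert hi, zpow_add₀ ha, ih]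

lemma GenSys.PhiSq_smul (G : GenSys Γ B) [Γ.FiniteIndex] (e : G.J ≃ SL(2, ℤ) ⧸ Γ)
    (g : SL(2, ℤ)) (z : ℍ) :
    G.PhiSq e (g • z) = ((G.PhiSq e z).submatrix (MulAction.toPerm g⁻¹) id) *
      Matrix.diagonal (fun q' => denom g z ^ (G.wt (e.symm q'))) := by
  ext q q'
  rw [Matrix.mul_diagonal]
  simp only [GenSys.PhiSq, Matrix.submatrix_apply, id, MulAction.toPerm_apply]
  exact G.Phi_smul g z q (e.symm q')

lemma GenSys.Ddet_sq_smul (G : GenSys Γ B) [Γ.FiniteIndex] (e : G.J ≃ SL(2, ℤ) ⧸ Γ)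
    (g : SL(2, ℤ)) (z : ℍ) :
    G.Ddet e (g • z) ^ 2 = G.Ddet e z ^ 2 * denom g z ^ (2 * ∑ j, G.wt j) := by
  have hd : denom g z ≠ 0 := denom_ne_zero g z
  rw [GenSys.Ddet, G.PhiSq_smul, Matrix.det_mul, Matrix.det_permute, Matrix.det_diagonal,
    prod_zpow_eq_zpow_sum _ _ hd, Equiv.sum_comp e.symm G.wt, mul_pow, mul_pow, two_mul,
    zpow_add₀ hd, ← GenSys.Ddet]
  have hs : (((Equiv.Perm.sign (MulAction.toPerm g⁻¹ : Equiv.Perm (SL(2, ℤ) ⧸ Γ)) : ℤˣ) : ℤ) : ℂ) ^ 2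
      = 1 := by
    rcases Int.units_eq_one_or (Equiv.Perm.sign (MulAction.toPerm g⁻¹ :
      Equiv.Perm (SL(2, ℤ) ⧸ Γ))) with h | h <;> rw [h] <;> norm_num
  rw [hs]
  ring

end Fermat.Agent.S20lib
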