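import Mathlib
import Fermat.Agent.S20_Nonvan

/-!
# S20 library: the cusp package (frame at `i∞` adapted to a generating system)
-/

set_option autoImplicit false
open scoped MatrixGroups ModularForm Manifold Topology
open UpperHalfPlane ModularForm Filter Asymptotics

namespace Fermat.Agent.S20lib

attribute [local instance] fintypeQuot decEqQuot

variable {Γ : Subgroup SL(2, ℤ)} [Γ.FiniteIndex] {B : ℤ}

/-- The behaviour of the generator matrix at `i∞`: `PhiSq = E * Ξ` with `E` an explicit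
exponential frame and `Ξ = Einv * PhiSq` converging to an invertible matrix `L`. -/
structure CuspPkg (G : GenSys Γ B) (e : G.J ≃ SL(2, ℤ) ⧸ Γ) where
  /-- the frame -/
  E : ℍ → Matrix (SL(2, ℤ) ⧸ Γ) (SL(2, ℤ) ⧸ Γ) ℂ
  /-- its inverse -/
  Einv : ℍ → Matrix (SL(2, ℤ) ⧸ Γ) (SL(2, ℤ) ⧸ Γ) ℂ
  /-- the constant in the determinant -/
  C : ℂ
  /-- the limit matrix -/
  L : Matrix (SL(2, ℤ) ⧸ Γ) (SL(2, ℤ) ⧸ Γ) ℂ
  hC : C ≠ 0
  mul : ∀ z, E z * Einv z = 1
  det : ∀ z : ℍ, (E z).det = C * Complex.exp (Real.pi * Complex.I *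
    ((Fintype.card (SL(2, ℤ) ⧸ Γ) : ℂ) -
      (Nat.card (MulAction.orbitRel.Quotient (Subgroup.zpowers ModularGroup.T)
        (SL(2, ℤ) ⧸ Γ)) : ℂ)) * (z : ℂ))
  bdd : ∀ q q', IsBoundedAtImInfty (fun z => E z q q')
  zero : ∀ q q', IsZeroAtImInfty (fun z => discriminant z * Einv z q q')
  lim : ∀ q q', (fun z : ℍ => (Einv z * G.PhiSq e z) q q' - L q q')
    =O[atImInfty] fun z : ℍ => Real.exp (-2 * Real.pi * z.im)
  hL : L.det ≠ 0

end Fermat.Agent.S20lib
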