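import Mathlib
import Fermat.Agent.S20_CuspPkg

/-!
# S20 Part P3: the inverse of the generator matrix, times `Δ`, vanishes at `i∞`   (helper19)
-/

set_option autoImplicit false
open scoped MatrixGroups ModularForm Manifold Topology
open UpperHalfPlane ModularForm Filter Asymptotics

namespace Fermat.Agent.S20lib

attribute [local instance] fintypeQuot decEqQuot

variable {Γ : Subgroup SL(2, ℤ)} [Γ.FiniteIndex] {B : ℤ}

/-- `Ξ = Einv * PhiSq` tends to `L`. -/
lemma CuspPkg.cuspInv_tendsto_Xi {G : GenSys Γ B} {e : G.J ≃ SL(2, ℤ) ⧸ Γ} (P : CuspPkg G e) :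
    Tendsto (fun z : ℍ => P.Einv z * G.PhiSq e z) atImInfty (𝓝 P.L) := by
  refine tendsto_pi_nhds.mpr fun q => tendsto_pi_nhds.mpr fun q' => ?_
  have h0 : Tendsto (fun z : ℍ => Real.exp (-2 * Real.pi * z.im)) atImInfty (𝓝 0) := by
    have h1 : Tendsto (fun z : ℍ => z.im) atImInfty atTop := tendsto_comap
    have h2 : Tendsto (fun z : ℍ => -2 * Real.pi * z.im) atImInfty atBot := by
      have : Tendsto (fun z : ℍ => (2 * Real.pi) * z.im) atImInfty atTop :=
        h1.const_mul_atTop (by positivity)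
      have := tendsto_neg_atTop_atBot.comp this
      refine this.congr fun z => ?_
      simp only [Function.comp]
      ring
    exact Real.tendsto_exp_atBot.comp h2
  have h3 := (P.lim q q').trans_tendsto h0
  have h4 : Tendsto (fun z : ℍ => ((P.Einv z * G.PhiSq e z) q q' - P.L q q') + P.L q q')
      atImInfty (𝓝 (0 + P.L q q')) := h3.add tendsto_const_nhds
  simpa using h4

theorem GenSys.cusp_inv (G : GenSys Γ B) (e : G.J ≃ SL(2, ℤ) ⧸ Γ) (hneg : -1 ∈ Γ)
    (P : CuspPkg G e) (q' q : SL(2, ℤ) ⧸ Γ) :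
    IsZeroAtImInfty (fun z : ℍ => discriminant z * (G.PhiSq e z)⁻¹ q' q) := by
  -- the inverse of `Ξ` converges, hence is bounded
  have hLu : IsUnit P.L.det := P.hL.isUnit
  have hXi : Tendsto (fun z : ℍ => (P.Einv z * G.PhiSq e z)⁻¹) atImInfty (𝓝 P.L⁻¹) := by
    have hc : ContinuousAt Inv.inv P.L := continuousAt_matrix_inv P.L
      (by
        have : Ring.inverse = (Inv.inv : ℂ → ℂ) := by
          funext x; exact Ring.inverse_eq_inv x
        rw [this]
        exact continuousAt_inv₀ P.hL)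
    exact hc.tendsto.comp P.cuspInv_tendsto_Xi
  have hbdd : ∀ q₁, IsBoundedAtImInfty (fun z : ℍ => (P.Einv z * G.PhiSq e z)⁻¹ q' q₁) := by
    intro q₁
    have h1 : Tendsto (fun z : ℍ => (P.Einv z * G.PhiSq e z)⁻¹ q' q₁) atImInfty
        (𝓝 (P.L⁻¹ q' q₁)) := by
      have := (tendsto_pi_nhds.mp ((tendsto_pi_nhds.mp hXi) q')) q₁
      exact this
    exact h1.isBigO_one ℝ
  -- the formula for the inverse
  have hinv : ∀ z : ℍ, (G.PhiSq e z)⁻¹ = (P.Einv z * G.PhiSq e z)⁻¹ * P.Einv z := by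
    intro z
    have hM : (G.PhiSq e z).det ≠ 0 := G.Ddet_ne_zero e hneg z
    have hE : P.Einv z * P.E z = 1 := mul_eq_one_comm.mp (P.mul z)
    have hdE : (P.Einv z).det ≠ 0 := by
      intro h0
      have := congrArg Matrix.det hE
      rw [Matrix.det_mul, h0, zero_mul, Matrix.det_one] at this
      exact zero_ne_one this
    have hdX : IsUnit (P.Einv z * G.PhiSq e z).det := by
      rw [Matrix.det_mul]
      exact (mul_ne_zero hdE hM).isUnit
    apply Matrix.inv_eq_left_inv
    rw [Matrix.mul_assoc, Matrix.nonsing_inv_mul _ hdX]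
  have hfun : (fun z : ℍ => discriminant z * (G.PhiSq e z)⁻¹ q' q)
      = ∑ q₁, (fun z : ℍ => (P.Einv z * G.PhiSq e z)⁻¹ q' q₁) *
          (fun z : ℍ => discriminant z * P.Einv z q₁ q) := by
    funext z
    rw [hinv z, Matrix.mul_apply, Finset.mul_sum, Finset.sum_apply]
    refine Finset.sum_congr rfl fun q₁ _ => ?_
    simp only [Pi.mul_apply]
    ring
  rw [hfun]
  -- a finite sum of (bounded × zero)
  have hterm : ∀ q₁, IsZeroAtImInfty
      ((fun z : ℍ => (P.Einv z * G.PhiSq e z)⁻¹ q' q₁) *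
        (fun z : ℍ => discriminant z * P.Einv z q₁ q)) := fun q₁ =>
    BoundedAtFilter.mul_zeroAtFilter (hbdd q₁) (P.zero q₁ q)
  have hsum : ∀ s : Finset (SL(2, ℤ) ⧸ Γ), IsZeroAtImInfty
      (∑ q₁ ∈ s, (fun z : ℍ => (P.Einv z * G.PhiSq e z)⁻¹ q' q₁) *
        (fun z : ℍ => discriminant z * P.Einv z q₁ q)) := by
    intro s
    induction s using Finset.induction_on with
    | empty =>
      rw [Finset.sum_empty]
      exact zero_zeroAtFilter _
    | insert a s ha ih =>
      rw [Finset.sum_insert ha]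
      exact ZeroAtFilter.add (hterm a) ih
  exact hsum Finset.univ

end Fermat.Agent.S20lib
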