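import Mathlib
import Fermat.Agent.S20_Nonvan

/-!
# S20 library, Part Q: duality — `dim S₂(Γ)` is the number of generators of weight `10`
-/

set_option autoImplicit false
open scoped MatrixGroups ModularForm Manifold Topology
open UpperHalfPlane ModularForm Filter

namespace Fermat.Agent.S20lib

attribute [local instance] fintypeQuot decEqQuot

variable {Γ : Subgroup SL(2, ℤ)} [Γ.FiniteIndex] {B : ℤ}

/-! ### holomorphy of determinants and inverses -/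

/-- The determinant of a matrix of holomorphic functions is holomorphic. -/
lemma mdiff_det {n : Type*} [Fintype n] [DecidableEq n] (M : ℍ → Matrix n n ℂ)
    (h : ∀ i j, MDiff (fun z => M z i j)) : MDiff (fun z => (M z).det) := by
  have : (fun z => (M z).det) = ∑ σ : Equiv.Perm n,
      (fun _ : ℍ => ((Equiv.Perm.sign σ : ℤ) : ℂ)) * ∏ i, (fun z => M z (σ i) i) := by
    funext z
    rw [Matrix.det_apply]
    simp only [Finset.sum_apply, Pi.mul_apply, Finset.prod_apply]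
    refine Finset.sum_congr rfl fun σ _ => ?_
    rw [Units.smul_def, zsmul_eq_mul]
  rw [this]
  apply mdiff_sum
  intro σ _
  refine MDifferentiable.mul mdifferentiable_const ?_
  apply mdiff_prod
  intro i _
  exact h _ _

/-- The inverse of a nowhere vanishing holomorphic function is holomorphic. -/
lemma mdiff_inv {f : ℍ → ℂ} (hf : MDiff f) (hne : ∀ z, f z ≠ 0) : MDiff (fun z => (f z)⁻¹) := by
  rw [UpperHalfPlane.mdifferentiable_iff] at hf ⊢
  have : ((fun z => (f z)⁻¹) ∘ ofComplex) = fun w => ((f ∘ ofComplex) w)⁻¹ := rfl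
  rw [this]
  exact hf.inv fun w _ => hne _

/-- The entries of the inverse of a matrix of holomorphic functions with nowhere vanishing
determinant are holomorphic. -/
lemma mdiff_matrix_inv {n : Type*} [Fintype n] [DecidableEq n] (M : ℍ → Matrix n n ℂ)
    (h : ∀ i j, MDiff (fun z => M z i j)) (hdet : ∀ z, (M z).det ≠ 0) (i j : n) :
    MDiff (fun z => (M z)⁻¹ i j) := by
  have e : (fun z => (M z)⁻¹ i j)
      = (fun z => ((M z).det)⁻¹) * (fun z => ((M z).updateRow j (Pi.single i 1)).det) := by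
    funext z
    rw [Matrix.inv_def, Matrix.smul_apply, Matrix.adjugate_apply, Ring.inverse_eq_inv', smul_eq_mul,
      Pi.mul_apply]
  rw [e]
  refine (mdiff_inv (mdiff_det M h) hdet).mul (mdiff_det _ fun a b => ?_)
  by_cases hab : a = j
  · subst hab
    simp only [Matrix.updateRow_self]
    exact mdifferentiable_const
  · simp only [Matrix.updateRow_ne hab]
    exact h a b

/-! ### the inverse matrix -/

/-- the inverse of the generator matrix -/
noncomputable def GenSys.Psi (G : GenSys Γ B) (e : G.J ≃ SL(2, ℤ) ⧸ Γ) (z : ℍ) :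
    Matrix (SL(2, ℤ) ⧸ Γ) (SL(2, ℤ) ⧸ Γ) ℂ :=
  (G.PhiSq e z)⁻¹

lemma GenSys.isUnit_det_PhiSq (G : GenSys Γ B) (e : G.J ≃ SL(2, ℤ) ⧸ Γ) (hneg : -1 ∈ Γ) (z : ℍ) :
    IsUnit (G.PhiSq e z).det :=
  isUnit_iff_ne_zero.mpr (G.Ddet_ne_zero e hneg z)

lemma GenSys.Psi_mul_PhiSq (G : GenSys Γ B) (e : G.J ≃ SL(2, ℤ) ⧸ Γ) (hneg : -1 ∈ Γ) (z : ℍ) :
    G.Psi e z * G.PhiSq e z = 1 :=
  Matrix.nonsing_inv_mul _ (G.isUnit_det_PhiSq e hneg z)

lemma GenSys.PhiSq_mul_Psi (G : GenSys Γ B) (e : G.J ≃ SL(2, ℤ) ⧸ Γ) (hneg : -1 ∈ Γ) (z : ℍ) :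
    G.PhiSq e z * G.Psi e z = 1 :=
  Matrix.mul_nonsing_inv _ (G.isUnit_det_PhiSq e hneg z)

lemma GenSys.mdiff_Psi (G : GenSys Γ B) (e : G.J ≃ SL(2, ℤ) ⧸ Γ) (hneg : -1 ∈ Γ)
    (q' q : SL(2, ℤ) ⧸ Γ) : MDiff (fun z => G.Psi e z q' q) :=
  mdiff_matrix_inv (fun z => G.PhiSq e z) (fun a b => G.mdiff_Phi a (e.symm b))
    (fun z => G.Ddet_ne_zero e hneg z) q' q

/-- transformation law of the inverse matrix -/
lemma GenSys.Psi_smul (G : GenSys Γ B) (e : G.J ≃ SL(2, ℤ) ⧸ Γ) (hneg : -1 ∈ Γ)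
    (g : SL(2, ℤ)) (z : ℍ) (q' q : SL(2, ℤ) ⧸ Γ) :
    G.Psi e (g • z) q' q = denom g z ^ (-(G.wt (e.symm q'))) * G.Psi e z q' (g⁻¹ • q) := by
  have hd : denom g z ≠ 0 := denom_ne_zero g z
  have key : G.Psi e (g • z) = Matrix.of fun q' q =>
      denom g z ^ (-(G.wt (e.symm q'))) * G.Psi e z q' (g⁻¹ • q) := by
    unfold GenSys.Psi
    apply Matrix.inv_eq_left_inv
    ext a b
    rw [Matrix.mul_apply]
    simp only [Matrix.of_apply]
    have h1 : ∀ q, (G.PhiSq e (g • z)) q b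
        = G.PhiSq e z (g⁻¹ • q) b * denom g z ^ (G.wt (e.symm b)) := fun q => by
      simp only [GenSys.PhiSq]
      exact G.Phi_smul g z q (e.symm b)
    simp_rw [h1]
    have h2 : ∑ q, denom g z ^ (-(G.wt (e.symm a))) * (G.PhiSq e z)⁻¹ a (g⁻¹ • q) *
        (G.PhiSq e z (g⁻¹ • q) b * denom g z ^ (G.wt (e.symm b)))
        = denom g z ^ (-(G.wt (e.symm a))) * denom g z ^ (G.wt (e.symm b)) *
          ∑ q, (G.PhiSq e z)⁻¹ a (g⁻¹ • q) * G.PhiSq e z (g⁻¹ • q) b := by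
      rw [Finset.mul_sum]
      refine Finset.sum_congr rfl fun q _ => ?_
      ring
    have h3 : ∑ q, (G.PhiSq e z)⁻¹ a (g⁻¹ • q) * G.PhiSq e z (g⁻¹ • q) b
        = ∑ q, (G.PhiSq e z)⁻¹ a q * G.PhiSq e z q b :=
      Equiv.sum_comp (MulAction.toPerm g⁻¹ : Equiv.Perm (SL(2, ℤ) ⧸ Γ))
        (fun q => (G.PhiSq e z)⁻¹ a q * G.PhiSq e z q b)
    rw [h2, h3, ← Matrix.mul_apply]
    have := G.Psi_mul_PhiSq e hneg z
    unfold GenSys.Psi at this
    rw [this]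
    by_cases hab : a = b
    · subst hab
      rw [Matrix.one_apply_eq, mul_one, ← zpow_add₀ hd]
      simp
    · rw [Matrix.one_apply_ne hab, mul_zero]
  rw [key]
  rfl

/-! ### the dual family -/

lemma discriminant_smul_dual (g : SL(2, ℤ)) (z : ℍ) :
    discriminant (g • z) = denom g z ^ (12 : ℤ) * discriminant z := by
  have h := congrFun (isCF_discriminant.inv g trivial) z
  rw [SL_slash_apply] at h
  have hd : denom g z ≠ 0 := denom_ne_zero g z
  rw [← h, mul_comm (discriminant (g • z)), ← mul_assoc, ← zpow_add₀ hd]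
  simp

/-- the dual family `ψ_j(q) = Δ · (Φ⁻¹)_{j q}` -/
noncomputable def GenSys.psi (G : GenSys Γ B) (e : G.J ≃ SL(2, ℤ) ⧸ Γ) (j : G.J)
    (q : SL(2, ℤ) ⧸ Γ) : ℍ → ℂ :=
  fun z => discriminant z * G.Psi e z (e j) q

lemma GenSys.mdiff_psi (G : GenSys Γ B) (e : G.J ≃ SL(2, ℤ) ⧸ Γ) (hneg : -1 ∈ Γ) (j : G.J)
    (q : SL(2, ℤ) ⧸ Γ) : MDiff (G.psi e j q) :=
  isCF_discriminant.holo.mul (G.mdiff_Psi e hneg (e j) q)

lemma GenSys.psi_slash (G : GenSys Γ B) (e : G.J ≃ SL(2, ℤ) ⧸ Γ) (hneg : -1 ∈ Γ) (j : G.J)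
    (q : SL(2, ℤ) ⧸ Γ) (g : SL(2, ℤ)) :
    (G.psi e j q) ∣[12 - G.wt j] g = G.psi e j (g⁻¹ • q) := by
  funext z
  have hd : denom g z ≠ 0 := denom_ne_zero g z
  rw [SL_slash_apply]
  simp only [GenSys.psi]
  rw [discriminant_smul_dual, G.Psi_smul e hneg, Equiv.symm_apply_apply]
  have h1 : denom g z ^ (12 : ℤ) * denom g z ^ (-(G.wt j)) * denom g z ^ (-(12 - G.wt j)) = 1 := by
    rw [← zpow_add₀ hd, ← zpow_add₀ hd]
    have : (12 : ℤ) + -G.wt j + -(12 - G.wt j) = 0 := by ring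
    rw [this, zpow_zero]
  linear_combination (discriminant z * G.Psi e z (e j) (g⁻¹ • q)) * h1

/-- the dual forms are cusp forms of weight `12 - wt j` -/
lemma GenSys.isCF_psi (G : GenSys Γ B) (e : G.J ≃ SL(2, ℤ) ⧸ Γ) (hneg : -1 ∈ Γ)
    (hcusp : ∀ q' q : SL(2, ℤ) ⧸ Γ,
      IsZeroAtImInfty (fun z : ℍ => discriminant z * (G.PhiSq e z)⁻¹ q' q)) (j : G.J) :
    IsCF Γ (12 - G.wt j) (G.psi e j ((1 : SL(2, ℤ)) : SL(2, ℤ) ⧸ Γ)) where
  holo := G.mdiff_psi e hneg j _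
  inv := fun γ hγ => by
    rw [G.psi_slash e hneg]
    congr 1
    show ((γ⁻¹ * 1 : SL(2, ℤ)) : SL(2, ℤ) ⧸ Γ) = ((1 : SL(2, ℤ)) : SL(2, ℤ) ⧸ Γ)
    rw [QuotientGroup.eq]
    simpa using hγ
  zero := fun g => by
    rw [G.psi_slash e hneg]
    exact hcusp (e j) _

/-- all dual components are translates of the dual form -/
lemma GenSys.psi_mk (G : GenSys Γ B) (e : G.J ≃ SL(2, ℤ) ⧸ Γ) (hneg : -1 ∈ Γ) (j : G.J)
    (h : SL(2, ℤ)) :
    G.psi e j ((h : SL(2, ℤ)) : SL(2, ℤ) ⧸ Γ)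
      = (G.psi e j ((1 : SL(2, ℤ)) : SL(2, ℤ) ⧸ Γ)) ∣[12 - G.wt j] h⁻¹ := by
  rw [G.psi_slash e hneg, inv_inv]
  congr 1
  show ((h : SL(2, ℤ)) : SL(2, ℤ) ⧸ Γ) = ((h * 1 : SL(2, ℤ)) : SL(2, ℤ) ⧸ Γ)
  rw [mul_one]

/-- the weights of the generators are at most `10` -/
lemma GenSys.wt_le_ten (G : GenSys Γ B) (e : G.J ≃ SL(2, ℤ) ⧸ Γ) (hneg : -1 ∈ Γ)
    (hcusp : ∀ q' q : SL(2, ℤ) ⧸ Γ,
      IsZeroAtImInfty (fun z : ℍ => discriminant z * (G.PhiSq e z)⁻¹ q' q)) (j : G.J) :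
    G.wt j ≤ 10 := by
  by_contra hlt
  obtain ⟨r, hr⟩ := G.wt_even hneg j
  have h12 : 12 - G.wt j ≤ 0 := by omega
  have h0 := (G.isCF_psi e hneg hcusp j).eq_zero_of_nonpos h12
  have hall : ∀ q, G.psi e j q = 0 := fun q => by
    obtain ⟨h, rfl⟩ := QuotientGroup.mk_surjective q
    rw [G.psi_mk e hneg, h0, SlashAction.zero_slash]
  have hrow : ∀ q, G.Psi e UpperHalfPlane.I (e j) q = 0 := fun q => by
    have := congrFun (hall q) UpperHalfPlane.I
    simp only [GenSys.psi, Pi.zero_apply, mul_eq_zero] at this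
    exact this.resolve_left (discriminant_ne_zero UpperHalfPlane.I)
  have h1 := congrFun (congrFun (G.Psi_mul_PhiSq e hneg UpperHalfPlane.I) (e j)) (e j)
  rw [Matrix.mul_apply, Matrix.one_apply_eq] at h1
  simp [hrow] at h1

/-- independence of the dual forms of weight `2` -/
lemma GenSys.psi_indep (G : GenSys Γ B) (e : G.J ≃ SL(2, ℤ) ⧸ Γ) (hneg : -1 ∈ Γ)
    (c : G.J → ℂ) (hc : ∀ j, G.wt j ≠ 10 → c j = 0)
    (h : ∑ j, c j • G.psi e j ((1 : SL(2, ℤ)) : SL(2, ℤ) ⧸ Γ) = 0) : c = 0 := by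
  have hq : ∀ q, ∑ j, c j • G.psi e j q = 0 := by
    intro q
    obtain ⟨h', rfl⟩ := QuotientGroup.mk_surjective q
    have : ∑ j, c j • G.psi e j ((h' : SL(2, ℤ)) : SL(2, ℤ) ⧸ Γ)
        = (∑ j, c j • G.psi e j ((1 : SL(2, ℤ)) : SL(2, ℤ) ⧸ Γ)) ∣[(2 : ℤ)] h'⁻¹ := by
      rw [slash_sum]
      refine Finset.sum_congr rfl fun j _ => ?_
      by_cases hj : G.wt j = 10
      · rw [SL_smul_slash, G.psi_mk e hneg j h', hj]
        norm_num
      · rw [hc j hj, zero_smul, zero_smul, SlashAction.zero_slash]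
    rw [this, h, SlashAction.zero_slash]
  have hvec : Matrix.vecMul (c ∘ e.symm) (G.Psi e UpperHalfPlane.I) = 0 := by
    funext q
    have := congrFun (hq q) UpperHalfPlane.I
    simp only [Finset.sum_apply, Pi.smul_apply, GenSys.psi, smul_eq_mul, Pi.zero_apply] at this
    have h2 : discriminant UpperHalfPlane.I * ∑ j, c j * G.Psi e UpperHalfPlane.I (e j) q = 0 := by
      rw [Finset.mul_sum, ← this]
      refine Finset.sum_congr rfl fun j _ => ?_
      ring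
    have h3 := (mul_eq_zero.mp h2).resolve_left (discriminant_ne_zero UpperHalfPlane.I)
    simp only [Matrix.vecMul, dotProduct, Function.comp, Pi.zero_apply]
    rw [← Equiv.sum_comp e]
    simpa using h3
  have h0 : c ∘ e.symm = 0 := by
    have := congrArg (fun v => Matrix.vecMul v (G.PhiSq e UpperHalfPlane.I)) hvec
    simp only [Matrix.vecMul_vecMul, G.Psi_mul_PhiSq e hneg, Matrix.vecMul_one,
      Matrix.zero_vecMul] at this
    exact this
  funext j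
  have := congrFun h0 (e j)
  simpa using this

/-! ### spanning -/

lemma isZeroAtImInfty_finset_sum {ι : Type*} (s : Finset ι) {F : ι → ℍ → ℂ}
    (hF : ∀ i ∈ s, IsZeroAtImInfty (F i)) : IsZeroAtImInfty (∑ i ∈ s, F i) := by
  classical
  induction s using Finset.induction_on with
  | empty =>
    simp only [Finset.sum_empty]
    exact Filter.zero_zeroAtFilter _
  | insert i t hi ih =>
    rw [Finset.sum_insert hi]
    exact Filter.ZeroAtFilter.add (hF i (Finset.mem_insert_self i t))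
      (ih fun j hj => hF j (Finset.mem_insert_of_mem hj))

/-- the trace of `f · F_j` to level one -/
noncomputable def GenSys.traceForm (G : GenSys Γ B) (f : ℍ → ℂ) (j : G.J) : ℍ → ℂ :=
  ∑ q : SL(2, ℤ) ⧸ Γ, (f ∣[(2 : ℤ)] rep Γ q) * (G.F j ∣[G.wt j] rep Γ q)

lemma GenSys.traceForm_slash (G : GenSys Γ B) {f : ℍ → ℂ} (hf : IsCF Γ 2 f) (j : G.J)
    (g : SL(2, ℤ)) : (G.traceForm f j) ∣[2 + G.wt j] g = G.traceForm f j := by
  unfold GenSys.traceForm
  rw [slash_sum]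
  simp_rw [mul_slash_SL2, slash_rep_smul hf.inv, slash_rep_smul (G.isMF j).inv]
  exact Equiv.sum_comp (MulAction.toPerm g⁻¹ : Equiv.Perm (SL(2, ℤ) ⧸ Γ))
    (fun q => (f ∣[(2 : ℤ)] rep Γ q) * (G.F j ∣[G.wt j] rep Γ q))

lemma GenSys.isCF_traceForm (G : GenSys Γ B) {f : ℍ → ℂ} (hf : IsCF Γ 2 f) (j : G.J) :
    IsCF ⊤ (2 + G.wt j) (G.traceForm f j) where
  holo := mdiff_sum _ _ fun q _ => (hf.holo.slash _ _).mul ((G.isMF j).holo.slash _ _)
  inv := fun g _ => G.traceForm_slash hf j g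
  zero := fun g => by
    rw [G.traceForm_slash hf j g]
    unfold GenSys.traceForm
    refine isZeroAtImInfty_finset_sum _ fun q _ => ?_
    exact (hf.zero (rep Γ q)).mul_boundedAtFilter ((G.isMF j).bdd (rep Γ q))

/-- every cusp form of weight `2` is a combination of the dual forms of weight `2` -/
lemma GenSys.exists_psi_comb (G : GenSys Γ B) (e : G.J ≃ SL(2, ℤ) ⧸ Γ) (hneg : -1 ∈ Γ)
    (hcusp : ∀ q' q : SL(2, ℤ) ⧸ Γ,
      IsZeroAtImInfty (fun z : ℍ => discriminant z * (G.PhiSq e z)⁻¹ q' q))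
    {f : ℍ → ℂ} (hf : IsCF Γ 2 f) :
    ∃ c : G.J → ℂ, (∀ j, G.wt j ≠ 10 → c j = 0) ∧
      f = ∑ j, c j • G.psi e j ((1 : SL(2, ℤ)) : SL(2, ℤ) ⧸ Γ) := by
  have hT : ∀ j, ∃ cj : ℂ, G.traceForm f j = cj • discriminant ∧ (G.wt j ≠ 10 → cj = 0) := by
    intro j
    have hcf := G.isCF_traceForm hf j
    by_cases hj : G.wt j = 10
    · have h12 : (2 : ℤ) + G.wt j = 12 := by rw [hj]; norm_num
      rw [h12] at hcf
      obtain ⟨c, hc⟩ := hcf.eq_smul_discriminant_top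
      exact ⟨c, hc, fun h => absurd hj h⟩
    · have hle := G.wt_le_ten e hneg hcusp j
      have : 2 + G.wt j < 12 := by omega
      exact ⟨0, by rw [hcf.eq_zero_of_lt_twelve_top this, zero_smul], fun _ => rfl⟩
  choose c hc hc0 using hT
  refine ⟨c, hc0, ?_⟩
  funext z
  have key : ∀ q, (f ∣[(2 : ℤ)] rep Γ q) z = ∑ j, G.traceForm f j z * G.Psi e z (e j) q := by
    intro q
    simp only [GenSys.traceForm, Finset.sum_apply, Pi.mul_apply, Finset.sum_mul]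
    rw [Finset.sum_comm]
    have hin : ∀ q'', ∑ j, (f ∣[(2 : ℤ)] rep Γ q'') z * (G.F j ∣[G.wt j] rep Γ q'') z
          * G.Psi e z (e j) q
        = (f ∣[(2 : ℤ)] rep Γ q'') z * (1 : Matrix (SL(2, ℤ) ⧸ Γ) (SL(2, ℤ) ⧸ Γ) ℂ) q'' q := by
      intro q''
      rw [← G.PhiSq_mul_Psi e hneg z, Matrix.mul_apply, Finset.mul_sum, ← Equiv.sum_comp e]
      refine Finset.sum_congr rfl fun j _ => ?_
      simp only [GenSys.PhiSq, GenSys.Phi, Equiv.symm_apply_apply]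
      ring
    simp_rw [hin]
    simp [Matrix.one_apply]
  have hq₀ : f ∣[(2 : ℤ)] rep Γ ((1 : SL(2, ℤ)) : SL(2, ℤ) ⧸ Γ) = f := by
    have := slash_rep hf.inv (1 : SL(2, ℤ))
    simpa using this
  have h1 := key ((1 : SL(2, ℤ)) : SL(2, ℤ) ⧸ Γ)
  rw [hq₀] at h1
  rw [h1, Finset.sum_apply]
  refine Finset.sum_congr rfl fun j _ => ?_
  rw [hc j]
  simp only [GenSys.psi, Pi.smul_apply, smul_eq_mul]
  ring

/-! ### the dimension of `S₂(Γ)` -/

lemma sum_subtype_smul_eq {J M : Type*} [Fintype J] [AddCommMonoid M] [Module ℂ M]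
    (p : J → Prop) [DecidablePred p] (c : J → ℂ) (X : J → M) (hc : ∀ j, ¬ p j → c j = 0) :
    ∑ j : {j // p j}, c j.1 • X j.1 = ∑ j, c j • X j := by
  rw [← Finset.sum_subtype (Finset.univ.filter p) (by simp) (fun j => c j • X j)]
  apply Finset.sum_filter_of_ne
  intro j _ hj
  by_contra hp
  exact hj (by rw [hc j hp, zero_smul])

/-- **Part Q (duality)**: the generators have weight at most `10`, and `dim S₂(Γ)` is the number
of generators of weight `10`. -/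
theorem GenSys.finrank_Sk_two (G : GenSys Γ B) (e : G.J ≃ SL(2, ℤ) ⧸ Γ) (hneg : -1 ∈ Γ)
    (hcusp : ∀ q' q : SL(2, ℤ) ⧸ Γ,
      IsZeroAtImInfty (fun z : ℍ => discriminant z * (G.PhiSq e z)⁻¹ q' q)) :
    (∀ j, G.wt j ≤ 10) ∧
      Module.finrank ℂ (Sk Γ 2) = Fintype.card {j : G.J // G.wt j = 10} := by
  classical
  refine ⟨G.wt_le_ten e hneg hcusp, ?_⟩
  have hv : ∀ j : {j : G.J // G.wt j = 10},
      IsCF Γ 2 (G.psi e j.1 ((1 : SL(2, ℤ)) : SL(2, ℤ) ⧸ Γ)) := fun j => by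
    have := G.isCF_psi e hneg hcusp j.1
    rwa [j.2, show (12 : ℤ) - 10 = 2 by norm_num] at this
  let v : {j : G.J // G.wt j = 10} → Sk Γ 2 :=
    fun j => ⟨G.psi e j.1 ((1 : SL(2, ℤ)) : SL(2, ℤ) ⧸ Γ), hv j⟩
  have hli : LinearIndependent ℂ v := by
    rw [Fintype.linearIndependent_iff]
    intro c hc j
    let c₀ : G.J → ℂ := fun j => if h : G.wt j = 10 then c ⟨j, h⟩ else 0
    have hc₀ : ∀ j, ¬ G.wt j = 10 → c₀ j = 0 := fun j hj => dif_neg hj
    have hsum : ∑ j, c₀ j • G.psi e j ((1 : SL(2, ℤ)) : SL(2, ℤ) ⧸ Γ) = 0 := by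
      have h1 := congrArg (fun x : Sk Γ 2 => (x : ℍ → ℂ)) hc
      simp only [Submodule.coe_sum, Submodule.coe_smul, Submodule.coe_zero, v] at h1
      rw [← sum_subtype_smul_eq (fun j => G.wt j = 10) c₀
        (fun j => G.psi e j ((1 : SL(2, ℤ)) : SL(2, ℤ) ⧸ Γ)) hc₀, ← h1]
      refine Finset.sum_congr rfl fun i _ => ?_
      simp only [c₀, dif_pos i.2]
    have h0 := G.psi_indep e hneg c₀ hc₀ hsum
    have := congrFun h0 j.1
    simpa only [c₀, dif_pos j.2, Pi.zero_apply] using this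
  have hsp : ⊤ ≤ Submodule.span ℂ (Set.range v) := by
    rintro ⟨f, hf⟩ -
    obtain ⟨c, hc0, hfc⟩ := G.exists_psi_comb e hneg hcusp hf
    rw [Submodule.mem_span_range_iff_exists_fun]
    refine ⟨fun j => c j.1, ?_⟩
    apply Subtype.ext
    simp only [Submodule.coe_sum, Submodule.coe_smul, v]
    rw [hfc]
    exact sum_subtype_smul_eq (fun j => G.wt j = 10) c
      (fun j => G.psi e j ((1 : SL(2, ℤ)) : SL(2, ℤ) ⧸ Γ)) hc0
  rw [Module.finrank_eq_card_basis (Module.Basis.mk hli hsp)]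

end Fermat.Agent.S20lib
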