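import Mathlib

/-!
# S20 Part K1: the analytic lemma for the cusp frame

If `ψ : ℍ → ℂ` is holomorphic, `1`-periodic and `e^{2πiz} ψ(z) → 0` at `i∞`, then `ψ` is
bounded at `i∞` and in fact `ψ - Λ = O(e^{-2π Im z})` for a constant `Λ`.
-/

open scoped MatrixGroups ModularForm Manifold
open UpperHalfPlane ModularForm Asymptotics Filter

namespace Fermat.Agent.S20lib

/-- `z ↦ e^{2πiz}` on `ℍ` is holomorphic. -/
theorem mdiff_exp_two_pi_I :
    MDiff (fun z : ℍ => Complex.exp (2 * Real.pi * Complex.I * z)) := by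
  intro z
  rw [UpperHalfPlane.mdifferentiableAt_iff]
  have h1 : DifferentiableAt ℂ (fun w : ℂ => Complex.exp (2 * Real.pi * Complex.I * w)) (z : ℂ) := by
    fun_prop
  refine h1.congr_of_eventuallyEq ?_
  have hopen : {w : ℂ | 0 < w.im} ∈ nhds (z : ℂ) :=
    (Complex.continuous_im.isOpen_preimage _ isOpen_Ioi).mem_nhds z.2
  filter_upwards [hopen] with w hw
  simp only [Function.comp_apply]
  rw [UpperHalfPlane.ofComplex_apply_of_im_pos hw]

/-- `‖e^{2πiz}‖ = e^{-2π Im z}`. -/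
theorem norm_exp_two_pi_I (z : ℍ) :
    ‖Complex.exp (2 * Real.pi * Complex.I * z)‖ = Real.exp (-2 * Real.pi * z.im) := by
  rw [Complex.norm_exp]
  congr 1
  simp [Complex.mul_re, Complex.mul_im]

/-- periodicity of `f ∘ ofComplex` from periodicity of `f` under `1 +ᵥ ·`. -/
theorem periodic_comp_ofComplex_of_vadd {f : ℍ → ℂ}
    (hper : ∀ z : ℍ, f ((1 : ℝ) +ᵥ z) = f z) :
    Function.Periodic (f ∘ UpperHalfPlane.ofComplex) (1 : ℝ) := by
  intro w
  simp only [Function.comp_apply]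
  by_cases hw : 0 < w.im
  · have hw' : 0 < (w + ((1 : ℝ) : ℂ)).im := by simpa using hw
    rw [UpperHalfPlane.ofComplex_apply_of_im_pos hw, UpperHalfPlane.ofComplex_apply_of_im_pos hw']
    rw [← hper ⟨w, hw⟩]
    congr 1
    ext
    simp [add_comm]
  · have hw' : ¬ 0 < (w + ((1 : ℝ) : ℂ)).im := by simpa using hw
    rw [UpperHalfPlane.ofComplex_apply_of_im_nonpos (not_lt.mp hw),
      UpperHalfPlane.ofComplex_apply_of_im_nonpos (not_lt.mp hw')]

theorem periodic_decay_of_exp_mul_zero {ψ : ℍ → ℂ} (hψ : MDiff ψ)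
    (hper : ∀ z : ℍ, ψ ((1 : ℝ) +ᵥ z) = ψ z)
    (hz : IsZeroAtImInfty (fun z : ℍ => Complex.exp (2 * Real.pi * Complex.I * z) * ψ z)) :
    ∃ Λ : ℂ, (fun z : ℍ => ψ z - Λ) =O[atImInfty] fun z : ℍ => Real.exp (-2 * Real.pi * z.im) := by
  set g : ℍ → ℂ := fun z : ℍ => Complex.exp (2 * Real.pi * Complex.I * z) * ψ z with hg
  have hgd : MDiff g := mdiff_exp_two_pi_I.mul hψ
  have hgper : ∀ z : ℍ, g ((1 : ℝ) +ᵥ z) = g z := by
    intro z
    simp only [hg, hper z]
    congr 1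
    have : (((1 : ℝ) +ᵥ z : ℍ) : ℂ) = 1 + (z : ℂ) := by simp
    rw [this, mul_add, Complex.exp_add]
    have h1 : Complex.exp (2 * Real.pi * Complex.I * 1) = 1 := by
      simp [Complex.exp_two_pi_mul_I]
    rw [h1, one_mul]
  have hgbdd : IsBoundedAtImInfty g := hz.isBoundedAtImInfty
  have hgO : g =O[atImInfty] fun τ : ℍ => Real.exp (-2 * Real.pi * τ.im / 1) :=
    UpperHalfPlane.IsZeroAtImInfty.exp_decay_atImInfty hz one_pos
      (periodic_comp_ofComplex_of_vadd hgper) hgd hgbdd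
  -- ψ is bounded at i∞
  have hψbdd : IsBoundedAtImInfty ψ := by
    rw [UpperHalfPlane.isBoundedAtImInfty_iff]
    obtain ⟨C, hC⟩ := hgO.bound
    rw [Filter.eventually_iff_exists_mem] at hC
    obtain ⟨s, hs, hsC⟩ := hC
    rw [UpperHalfPlane.atImInfty_mem] at hs
    obtain ⟨A, hA⟩ := hs
    refine ⟨C, A, fun z hzA => ?_⟩
    have h1 := hsC z (hA z hzA)
    simp only [hg, div_one, norm_mul, norm_exp_two_pi_I, Real.norm_eq_abs,
      abs_of_pos (Real.exp_pos _)] at h1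
    have hpos : 0 < Real.exp (-2 * Real.pi * z.im) := Real.exp_pos _
    rw [mul_comm C] at h1
    exact le_of_mul_le_mul_left h1 hpos
  refine ⟨valueAtInfty ψ, ?_⟩
  have := UpperHalfPlane.exp_decay_sub_atImInfty (h := 1) one_pos
    (periodic_comp_ofComplex_of_vadd hper) hψ hψbdd
  simpa using this

end Fermat.Agent.S20lib
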