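import Mathlib

set_option autoImplicit false

/-!
# S20 Part K2: orbit decomposition of a finite `G`-set under a cyclic subgroup
-/

namespace Fermat.Agent.S20lib

open MulAction Subgroup Function

/-- The value of `ZMod.finEquiv`. -/
lemma finEquiv_cast_int (n : ℕ) [NeZero n] (m : Fin n) :
    (ZMod.cast (ZMod.finEquiv n m) : ℤ) = ((m : ℕ) : ℤ) := by
  cases n with
  | zero => exact absurd rfl (NeZero.ne 0)
  | succ k => rfl

/-- Orbit decomposition for the generator `a` (powers `a ^ m`). -/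
theorem exists_orbit_equiv_aux {G : Type} [Group G] (I : Type) [Fintype I] [DecidableEq I]
    [MulAction G I] (a : G) :
    ∃ (Ω : Type) (_ : Fintype Ω) (_ : DecidableEq Ω) (h : Ω → ℕ) (b : Ω → I)
      (e : I ≃ Σ ω : Ω, Fin (h ω)),
      (∀ ω, 0 < h ω) ∧ (∀ ω, a ^ (h ω) • b ω = b ω) ∧
      (∀ ω (m : Fin (h ω)), e.symm ⟨ω, m⟩ = a ^ (m : ℕ) • b ω) ∧
      Fintype.card Ω = Nat.card (MulAction.orbitRel.Quotient (Subgroup.zpowers a) I) := by
  classical
  letI : Fintype (MulAction.orbitRel.Quotient (Subgroup.zpowers a) I) := Fintype.ofFinite _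
  refine ⟨MulAction.orbitRel.Quotient (Subgroup.zpowers a) I, inferInstance, inferInstance,
    fun ω => minimalPeriod (a • ·) ω.out, fun ω => ω.out,
    (selfEquivSigmaOrbits (zpowers a) I).trans
      (Equiv.sigmaCongrRight fun ω =>
        (orbitZPowersEquiv a ω.out).trans (ZMod.finEquiv _).symm.toEquiv), ?_, ?_, ?_, ?_⟩
  · intro ω
    exact Nat.pos_of_ne_zero (NeZero.ne _)
  · intro ω
    exact pow_smul_eq_iff_minimalPeriod_dvd.mpr dvd_rfl
  · intro ω m
    have h1 : ((selfEquivSigmaOrbits (zpowers a) I).trans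
      (Equiv.sigmaCongrRight fun ω =>
        (orbitZPowersEquiv a ω.out).trans (ZMod.finEquiv _).symm.toEquiv)).symm ⟨ω, m⟩
        = a ^ (ZMod.cast (ZMod.finEquiv _ m) : ℤ) • ω.out := rfl
    rw [h1, finEquiv_cast_int, zpow_natCast]
  · rw [Nat.card_eq_fintype_card]

/-- (K2) Orbit decomposition in the form needed for the cusp frame. -/
theorem exists_orbit_equiv {G : Type} [Group G] (I : Type) [Fintype I] [DecidableEq I]
    [MulAction G I] (t : G) :
    ∃ (Ω : Type) (_ : Fintype Ω) (_ : DecidableEq Ω) (h : Ω → ℕ) (b : Ω → I)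
      (e : I ≃ Σ ω : Ω, Fin (h ω)),
      (∀ ω, 0 < h ω) ∧ (∀ ω, t ^ (h ω) • b ω = b ω) ∧
      (∀ ω (m : Fin (h ω)), e.symm ⟨ω, m⟩ = (t⁻¹) ^ (m : ℕ) • b ω) ∧
      Fintype.card Ω = Nat.card (MulAction.orbitRel.Quotient (Subgroup.zpowers t) I) := by
  obtain ⟨Ω, i1, i2, h, b, e, h1, h2, h3, h4⟩ := exists_orbit_equiv_aux I t⁻¹
  refine ⟨Ω, i1, i2, h, b, e, h1, ?_, h3, ?_⟩
  · intro ω
    have := h2 ω
    rw [inv_pow, inv_smul_eq_iff] at this
    exact this.symm
  · rw [h4, Subgroup.zpowers_inv]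

end Fermat.Agent.S20lib
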