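import Mathlib
import Fermat.Agent.S20_CuspFrameAnalytic
import Fermat.Agent.S20_CuspFrameOrbits

set_option autoImplicit false

open scoped MatrixGroups ModularForm Manifold
open UpperHalfPlane ModularForm Asymptotics Filter

namespace Fermat.Agent.S20lib

noncomputable section

/-- The standard primitive `h`-th root of unity. -/
def cfZeta (h : ℕ) : ℂ := Complex.exp (2 * Real.pi * Complex.I / h)

/-- The character `z ↦ exp (2πi r z / h)`. -/
def cfChar (h r : ℕ) (z : ℂ) : ℂ := Complex.exp (2 * Real.pi * Complex.I * r * z / h)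

/-- The DFT (Vandermonde) matrix. -/
def cfV (h : ℕ) : Matrix (Fin h) (Fin h) ℂ := fun m r => cfZeta h ^ ((r : ℕ) * (m : ℕ))

/-- The inverse DFT matrix. -/
def cfW (h : ℕ) : Matrix (Fin h) (Fin h) ℂ :=
  fun r m => (h : ℂ)⁻¹ * (cfZeta h)⁻¹ ^ ((r : ℕ) * (m : ℕ))

lemma cfZeta_prim {h : ℕ} (hh : 0 < h) : IsPrimitiveRoot (cfZeta h) h :=
  Complex.isPrimitiveRoot_exp h hh.ne'

lemma cfZeta_ne_zero (h : ℕ) : cfZeta h ≠ 0 := Complex.exp_ne_zero _

lemma cfZeta_pow_self {h : ℕ} (hh : 0 < h) : cfZeta h ^ h = 1 := (cfZeta_prim hh).pow_eq_one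

lemma cfZeta_inv_pow_self {h : ℕ} (hh : 0 < h) : (cfZeta h)⁻¹ ^ h = 1 := by
  rw [inv_pow, cfZeta_pow_self hh, inv_one]

lemma cfV_mul_cfW (h : ℕ) : cfV h * cfW h = 1 := by
  rcases Nat.eq_zero_or_pos h with rfl | hh
  · ext i; exact i.elim0
  ext m m'
  rw [Matrix.mul_apply]
  simp only [cfV, cfW]
  set ζ := cfZeta h with hζ
  have hζ0 : ζ ≠ 0 := cfZeta_ne_zero h
  have hterm : ∀ r : Fin h, ζ ^ ((r : ℕ) * (m : ℕ)) * ((h : ℂ)⁻¹ * ζ⁻¹ ^ ((r : ℕ) * (m' : ℕ)))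
      = (h : ℂ)⁻¹ * (ζ ^ (m : ℕ) * ζ⁻¹ ^ (m' : ℕ)) ^ (r : ℕ) := by
    intro r
    rw [mul_pow, ← pow_mul, ← pow_mul, mul_comm (m : ℕ) (r : ℕ), mul_comm (m' : ℕ) (r : ℕ)]
    ring
  rw [Finset.sum_congr rfl (fun r _ => hterm r), ← Finset.mul_sum,
    Fin.sum_univ_eq_sum_range (fun r => (ζ ^ (m : ℕ) * ζ⁻¹ ^ (m' : ℕ)) ^ r) h]
  have hh0 : (h : ℂ) ≠ 0 := by exact_mod_cast hh.ne'
  by_cases hmm : m = m'
  · subst hmm
    rw [Matrix.one_apply_eq]
    have : ζ ^ (m : ℕ) * ζ⁻¹ ^ (m : ℕ) = 1 := by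
      rw [inv_pow]; exact mul_inv_cancel₀ (pow_ne_zero _ hζ0)
    simp only [this, one_pow, Finset.sum_const, Finset.card_range, nsmul_eq_mul, mul_one]
    exact inv_mul_cancel₀ hh0
  · rw [Matrix.one_apply_ne hmm]
    have hw : ζ ^ (m : ℕ) * ζ⁻¹ ^ (m' : ℕ) ≠ 1 := by
      intro h1
      apply hmm
      have h2 : ζ ^ (m : ℕ) = ζ ^ (m' : ℕ) := by
        rw [inv_pow] at h1
        exact (mul_inv_eq_one₀ (pow_ne_zero _ hζ0)).mp h1
      exact Fin.ext ((cfZeta_prim hh).pow_inj m.2 m'.2 h2)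
    rw [geom_sum_eq hw]
    have : (ζ ^ (m : ℕ) * ζ⁻¹ ^ (m' : ℕ)) ^ h = 1 := by
      rw [mul_pow, ← pow_mul, ← pow_mul, mul_comm (m : ℕ), mul_comm (m' : ℕ), pow_mul, pow_mul,
        cfZeta_pow_self hh, cfZeta_inv_pow_self hh, one_pow, one_pow, mul_one]
    rw [this, sub_self, zero_div, mul_zero]

lemma cfChar_mul_neg (h r : ℕ) (z : ℂ) : cfChar h r z * cfChar h r (-z) = 1 := by
  unfold cfChar
  rw [← Complex.exp_add]
  have : 2 * (Real.pi : ℂ) * Complex.I * r * z / h + 2 * (Real.pi : ℂ) * Complex.I * r * (-z) / h = 0 := by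
    ring
  rw [this, Complex.exp_zero]

lemma cfChar_add_one {h : ℕ} (r : ℕ) (z : ℂ) :
    cfChar h r (-(z + 1)) = cfChar h r (-z) * (cfZeta h)⁻¹ ^ r := by
  unfold cfChar cfZeta
  rw [← Complex.exp_neg, ← Complex.exp_nat_mul, ← Complex.exp_add]
  congr 1
  ring

lemma norm_cfChar (h r : ℕ) (z : ℂ) :
    ‖cfChar h r z‖ = Real.exp (-2 * Real.pi * r * z.im / h) := by
  unfold cfChar
  rw [Complex.norm_exp]
  congr 1
  have : (2 * (Real.pi : ℂ) * Complex.I * r * z / h) = ((2 * Real.pi * r / h : ℝ) : ℂ) * (Complex.I * z) := by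
    push_cast; ring
  rw [this, Complex.re_ofReal_mul]
  simp only [Complex.mul_re, Complex.I_re, Complex.I_im, zero_mul, one_mul, zero_sub]
  ring


lemma cfSum_range_id (n : ℕ) : ∑ i ∈ Finset.range n, (i : ℂ) = (n : ℂ) * ((n : ℂ) - 1) / 2 := by
  induction n with
  | zero => simp
  | succ k ih => rw [Finset.sum_range_succ, ih]; push_cast; ring

lemma cfProd_char {h : ℕ} (hh : 0 < h) (z : ℂ) :
    ∏ r : Fin h, cfChar h (r : ℕ) z = Complex.exp (Real.pi * Complex.I * ((h : ℂ) - 1) * z) := by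
  have hh0 : (h : ℂ) ≠ 0 := by exact_mod_cast hh.ne'
  unfold cfChar
  rw [← Complex.exp_sum]
  congr 1
  rw [Fin.sum_univ_eq_sum_range (fun r : ℕ => 2 * (Real.pi : ℂ) * Complex.I * r * z / h) h]
  have : ∀ r ∈ Finset.range h, 2 * (Real.pi : ℂ) * Complex.I * (r : ℂ) * z / h
      = (2 * (Real.pi : ℂ) * Complex.I * z / h) * (r : ℂ) := by
    intro r _; ring
  rw [Finset.sum_congr rfl this, ← Finset.mul_sum, cfSum_range_id]
  field_simp

section frame

variable {Ω : Type} [Fintype Ω] [DecidableEq Ω] (h : Ω → ℕ)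

/-- Block-diagonal DFT matrix. -/
def cfVJ : Matrix (Σ ω, Fin (h ω)) (Σ ω, Fin (h ω)) ℂ :=
  Matrix.blockDiagonal' (fun ω => cfV (h ω))

/-- Block-diagonal inverse DFT matrix. -/
def cfWJ : Matrix (Σ ω, Fin (h ω)) (Σ ω, Fin (h ω)) ℂ :=
  Matrix.blockDiagonal' (fun ω => cfW (h ω))

/-- The diagonal of characters. -/
def cfD (z : ℂ) : (Σ ω, Fin (h ω)) → ℂ := fun j => cfChar (h j.1) (j.2 : ℕ) z

/-- The frame on the sigma index. -/
def cfEJ (z : ℂ) : Matrix (Σ ω, Fin (h ω)) (Σ ω, Fin (h ω)) ℂ :=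
  cfVJ h * Matrix.diagonal (cfD h z)

/-- The inverse frame on the sigma index. -/
def cfEinvJ (z : ℂ) : Matrix (Σ ω, Fin (h ω)) (Σ ω, Fin (h ω)) ℂ :=
  Matrix.diagonal (cfD h (-z)) * cfWJ h

lemma cfEJ_mul_cfEinvJ (z : ℂ) : cfEJ h z * cfEinvJ h z = 1 := by
  unfold cfEJ cfEinvJ
  rw [Matrix.mul_assoc, ← Matrix.mul_assoc (Matrix.diagonal _), Matrix.diagonal_mul_diagonal]
  have : (fun j => cfD h z j * cfD h (-z) j) = fun _ => 1 :=
    funext fun j => cfChar_mul_neg _ _ _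
  rw [this, Matrix.diagonal_one, Matrix.one_mul]
  unfold cfVJ cfWJ
  rw [← Matrix.blockDiagonal'_mul]
  have : (fun ω => cfV (h ω) * cfW (h ω)) = fun _ => 1 := funext fun ω => cfV_mul_cfW _
  rw [this]
  exact Matrix.blockDiagonal'_one

omit [DecidableEq Ω] in
lemma cfProd_D (hpos : ∀ ω, 0 < h ω) (z : ℂ) :
    ∏ j, cfD h z j
      = Complex.exp (Real.pi * Complex.I * ((∑ ω, (h ω : ℂ)) - (Fintype.card Ω : ℂ)) * z) := by
  rw [Fintype.prod_sigma]
  simp only [cfD]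
  rw [Finset.prod_congr rfl (fun ω _ => cfProd_char (hpos ω) z), ← Complex.exp_sum]
  congr 1
  rw [← Finset.sum_mul, ← Finset.mul_sum, Finset.sum_sub_distrib]
  simp

lemma cfVJ_det_ne_zero : (cfVJ h).det ≠ 0 := by
  have := congrArg Matrix.det (cfEJ_mul_cfEinvJ h 0)
  rw [Matrix.det_mul, Matrix.det_one] at this
  unfold cfEJ at this
  rw [Matrix.det_mul] at this
  intro h0
  rw [h0, zero_mul, zero_mul] at this
  exact zero_ne_one this

lemma cfEJ_det (hpos : ∀ ω, 0 < h ω) (z : ℂ) :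
    (cfEJ h z).det = (cfVJ h).det *
      Complex.exp (Real.pi * Complex.I * ((∑ ω, (h ω : ℂ)) - (Fintype.card Ω : ℂ)) * z) := by
  unfold cfEJ
  rw [Matrix.det_mul, Matrix.det_diagonal, cfProd_D h hpos]

end frame

/-! ### The analytic side -/

lemma mdiff_cfChar_neg (h r : ℕ) : MDiff (fun z : ℍ => cfChar h r (-(z : ℂ))) := by
  intro z
  rw [UpperHalfPlane.mdifferentiableAt_iff]
  have h1 : DifferentiableAt ℂ (fun w : ℂ => cfChar h r (-w)) (z : ℂ) := by
    unfold cfChar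
    fun_prop
  refine h1.congr_of_eventuallyEq ?_
  have hopen : {w : ℂ | 0 < w.im} ∈ nhds (z : ℂ) :=
    (Complex.continuous_im.isOpen_preimage _ isOpen_Ioi).mem_nhds z.2
  filter_upwards [hopen] with w hw
  simp only [Function.comp_apply]
  rw [UpperHalfPlane.ofComplex_apply_of_im_pos hw]

lemma tendsto_im_atImInfty' : Tendsto (fun z : ℍ => z.im) atImInfty atTop :=
  tendsto_comap

/-- `e^{2πiz} · e^{-2πi r z/h} → 0` at `i∞` when `r < h`. -/
lemma cfTendsto {h r : ℕ} (hr : r < h) :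
    Tendsto (fun z : ℍ => Complex.exp (2 * Real.pi * Complex.I * z) * cfChar h r (-(z : ℂ)))
      atImInfty (nhds 0) := by
  rw [tendsto_zero_iff_norm_tendsto_zero]
  have hh0 : (0 : ℝ) < h := by exact_mod_cast (Nat.zero_le r).trans_lt hr
  have hrh : (r : ℝ) < h := by exact_mod_cast hr
  have hc : 0 < 2 * Real.pi * (1 - (r : ℝ) / h) := by
    have : (r : ℝ) / h < 1 := (div_lt_one hh0).mpr hrh
    have := Real.pi_pos
    nlinarith
  have hnorm : ∀ z : ℍ, ‖Complex.exp (2 * Real.pi * Complex.I * z) * cfChar h r (-(z : ℂ))‖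
      = Real.exp (-((2 * Real.pi * (1 - (r : ℝ) / h)) * z.im)) := by
    intro z
    rw [norm_mul, norm_exp_two_pi_I, norm_cfChar, ← Real.exp_add]
    congr 1
    simp only [Complex.neg_im, UpperHalfPlane.coe_im]
    field_simp
    ring
  simp_rw [hnorm]
  exact Real.tendsto_exp_neg_atTop_nhds_zero.comp
    (Tendsto.const_mul_atTop hc tendsto_im_atImInfty')

/-- `Δ = O(e^{2πiz})` at `i∞`. -/
lemma cfDisc_isBigO :
    (discriminant : ℍ → ℂ) =O[atImInfty] fun z : ℍ => Complex.exp (2 * Real.pi * Complex.I * z) := by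
  have h1 : (1 : ℝ) ∈ (𝒮ℒ : Subgroup (GL (Fin 2) ℝ)).strictPeriods := by
    simp
  have := CuspFormClass.exp_decay_atImInfty (Γ := 𝒮ℒ) (k := 12) CuspForm.discriminant one_pos h1
  rw [CuspForm.coe_discriminant] at this
  refine this.trans (IsBigO.of_bound 1 (Eventually.of_forall fun z => ?_))
  rw [norm_exp_two_pi_I, one_mul, div_one, Real.norm_of_nonneg (Real.exp_pos _).le]

lemma cfDisc_mul_char {h r : ℕ} (hr : r < h) (c : ℂ) :
    IsZeroAtImInfty (fun z : ℍ => discriminant z * (cfChar h r (-(z : ℂ)) * c)) := by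
  have h1 : (fun z : ℍ => discriminant z * (cfChar h r (-(z : ℂ)) * c))
      =O[atImInfty] fun z : ℍ =>
        Complex.exp (2 * Real.pi * Complex.I * z) * (cfChar h r (-(z : ℂ)) * c) :=
    cfDisc_isBigO.mul (isBigO_refl _ _)
  refine h1.trans_tendsto ?_
  have := (cfTendsto hr).mul_const c
  rw [zero_mul] at this
  refine this.congr fun z => ?_
  ring

/-- The components of `Einv • F`. -/
def cfPsi (h r : ℕ) (g : ℕ → ℍ → ℂ) (z : ℍ) : ℂ :=
  ∑ m ∈ Finset.range h,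
    cfChar h r (-(z : ℂ)) * ((h : ℂ)⁻¹ * (cfZeta h)⁻¹ ^ (r * m)) * g m z

lemma mdiff_cfPsi (h r : ℕ) (g : ℕ → ℍ → ℂ) (hg : ∀ m, MDiff (g m)) : MDiff (cfPsi h r g) := by
  have : cfPsi h r g = ∑ m ∈ Finset.range h,
      ((fun z : ℍ => cfChar h r (-(z : ℂ))) * (fun _ : ℍ => ((h : ℂ)⁻¹ * (cfZeta h)⁻¹ ^ (r * m))))
        * g m := by
    funext z
    simp [cfPsi, Finset.sum_apply]
  rw [this]
  exact MDifferentiable.sum fun m _ =>
    ((mdiff_cfChar_neg h r).mul mdifferentiable_const).mul (hg m)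

lemma cfPsi_periodic {h : ℕ} (hh : 0 < h) (r : ℕ) (g : ℕ → ℍ → ℂ)
    (hg1 : ∀ m z, g m ((1 : ℝ) +ᵥ z) = g (m + 1) z) (hgh : g h = g 0) (z : ℍ) :
    cfPsi h r g ((1 : ℝ) +ᵥ z) = cfPsi h r g z := by
  unfold cfPsi
  set T : ℕ → ℂ := fun m =>
    cfChar h r (-(z : ℂ)) * ((h : ℂ)⁻¹ * (cfZeta h)⁻¹ ^ (r * m)) * g m z with hT
  have hcoe : (((1 : ℝ) +ᵥ z : ℍ) : ℂ) = (z : ℂ) + 1 := by
    rw [UpperHalfPlane.coe_vadd]; push_cast; ring
  have hterm : ∀ m ∈ Finset.range h,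
      cfChar h r (-(((1 : ℝ) +ᵥ z : ℍ) : ℂ)) * ((h : ℂ)⁻¹ * (cfZeta h)⁻¹ ^ (r * m))
        * g m ((1 : ℝ) +ᵥ z) = T (m + 1) := by
    intro m _
    simp only [hT]
    rw [hcoe, cfChar_add_one, hg1, Nat.mul_succ, pow_add]
    ring
  rw [Finset.sum_congr rfl hterm]
  change ∑ m ∈ Finset.range h, T (m + 1) = ∑ m ∈ Finset.range h, T m
  have h1 := Finset.sum_range_succ' T h
  have h2 := Finset.sum_range_succ T h
  have h3 : T h = T 0 := by
    simp only [hT]
    rw [hgh, pow_mul, pow_mul, pow_zero, pow_right_comm, cfZeta_inv_pow_self hh, one_pow]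
  rw [h2, h3] at h1
  exact (add_right_cancel h1).symm

lemma cfPsi_decay {h r : ℕ} (hr : r < h) (g : ℕ → ℍ → ℂ)
    (hg : ∀ m, IsBoundedAtImInfty (g m)) :
    IsZeroAtImInfty (fun z : ℍ => Complex.exp (2 * Real.pi * Complex.I * z) * cfPsi h r g z) := by
  unfold cfPsi
  simp_rw [Finset.mul_sum]
  have : ∀ m ∈ Finset.range h, Tendsto (fun z : ℍ => Complex.exp (2 * Real.pi * Complex.I * z) *
      (cfChar h r (-(z : ℂ)) * ((h : ℂ)⁻¹ * (cfZeta h)⁻¹ ^ (r * m)) * g m z))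
      atImInfty (nhds 0) := by
    intro m _
    have h1 := (cfTendsto hr).mul_const ((h : ℂ)⁻¹ * (cfZeta h)⁻¹ ^ (r * m))
    rw [zero_mul] at h1
    have h2 := h1.zero_mul_isBoundedUnder_le ((isBigO_one_iff ℝ).mp (hg m))
    refine h2.congr fun z => ?_
    ring
  have h0 := tendsto_finsetSum (Finset.range h) this
  rw [Finset.sum_const_zero] at h0
  exact h0


section assembly

variable {Ω : Type} [Fintype Ω] [DecidableEq Ω] (h : Ω → ℕ)

lemma cfEinvJ_mulVec (j : Σ ω, Fin (h ω)) (v : (Σ ω, Fin (h ω)) → ℂ) (z : ℂ) :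
    (cfEinvJ h z).mulVec v j
      = ∑ m : Fin (h j.1), cfChar (h j.1) (j.2 : ℕ) (-z) * cfW (h j.1) j.2 m * v ⟨j.1, m⟩ := by
  obtain ⟨ω, r⟩ := j
  simp only [Matrix.mulVec, dotProduct, cfEinvJ, Matrix.diagonal_mul, cfD]
  rw [Fintype.sum_sigma]
  rw [Finset.sum_eq_single ω]
  · refine Finset.sum_congr rfl fun m _ => ?_
    simp only [cfWJ]
    rw [Matrix.blockDiagonal'_apply_eq]
  · intro ω' _ hne
    refine Finset.sum_eq_zero fun m _ => ?_
    simp only [cfWJ]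
    rw [Matrix.blockDiagonal'_apply_ne _ _ _ (Ne.symm hne), mul_zero, zero_mul]
  · intro hω
    exact absurd (Finset.mem_univ ω) hω

end assembly

end

/-- **S20 Part K**: the cusp frame. -/
theorem exists_cusp_frame {G : Type} [Group G] (I : Type) [Fintype I] [DecidableEq I]
    [MulAction G I] (t : G) :
    ∃ (E Einv : ℍ → Matrix I I ℂ) (C : ℂ), C ≠ 0 ∧
      (∀ z, E z * Einv z = 1) ∧
      (∀ z : ℍ, (E z).det = C * Complex.exp (Real.pi * Complex.I *
        ((Fintype.card I : ℂ) - (Nat.card (MulAction.orbitRel.Quotient (Subgroup.zpowers t) I) : ℂ))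
          * (z : ℂ))) ∧
      (∀ q q', IsBoundedAtImInfty (fun z => E z q q')) ∧
      (∀ q q', IsZeroAtImInfty (fun z => discriminant z * Einv z q q')) ∧
      (∀ F : I → ℍ → ℂ, (∀ q, MDiff (F q)) → (∀ q, IsBoundedAtImInfty (F q)) →
        (∀ q (z : ℍ), F q ((1 : ℝ) +ᵥ z) = F (t⁻¹ • q) z) →
        ∃ Λ : I → ℂ, ∀ q,
          (fun z : ℍ => (Einv z).mulVec (fun q' => F q' z) q - Λ q)
            =O[atImInfty] fun z : ℍ => Real.exp (-2 * Real.pi * z.im)) := by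
  obtain ⟨Ω, instF, instD, h, b, e, hpos, hper, hesymm, hcard⟩ := exists_orbit_equiv I t
  refine ⟨fun z => (cfEJ h (z : ℂ)).submatrix e e, fun z => (cfEinvJ h (z : ℂ)).submatrix e e,
    (cfVJ h).det, cfVJ_det_ne_zero h, ?_, ?_, ?_, ?_, ?_⟩
  · intro z
    rw [Matrix.submatrix_mul_equiv, cfEJ_mul_cfEinvJ, Matrix.submatrix_one_equiv]
  · intro z
    rw [Matrix.det_submatrix_equiv_self, cfEJ_det h hpos]
    have hI : (Fintype.card I : ℂ) = ∑ ω, (h ω : ℂ) := by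
      rw [Fintype.card_congr e, Fintype.card_sigma]
      simp
    rw [hI, ← hcard]
  · intro q q'
    rw [UpperHalfPlane.isBoundedAtImInfty_iff]
    refine ⟨‖cfVJ h (e q) (e q')‖, 0, fun z _ => ?_⟩
    simp only [Matrix.submatrix_apply, cfEJ, Matrix.mul_diagonal, norm_mul]
    have h1 : ‖cfD h (z : ℂ) (e q')‖ ≤ 1 := by
      simp only [cfD, norm_cfChar]
      rw [Real.exp_le_one_iff]
      have hy : 0 < (z : ℂ).im := z.2
      have hpi := Real.pi_pos
      have hr : (0 : ℝ) ≤ ((e q').2 : ℕ) := Nat.cast_nonneg _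
      have hh : (0 : ℝ) ≤ (h (e q').1 : ℝ) := Nat.cast_nonneg _
      apply div_nonpos_of_nonpos_of_nonneg _ hh
      have : 0 ≤ 2 * Real.pi * (((e q').2 : ℕ) : ℝ) * (z : ℂ).im := by positivity
      linarith
    exact mul_le_of_le_one_right (norm_nonneg _) h1
  · intro q q'
    have hfun : (fun z : ℍ => discriminant z * ((cfEinvJ h (z : ℂ)).submatrix e e) q q')
        = fun z : ℍ => discriminant z *
          (cfChar (h (e q).1) ((e q).2 : ℕ) (-(z : ℂ)) * cfWJ h (e q) (e q')) := by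
      funext z
      simp only [Matrix.submatrix_apply, cfEinvJ, Matrix.diagonal_mul, cfD]
    change IsZeroAtImInfty (fun z : ℍ => discriminant z * ((cfEinvJ h (z : ℂ)).submatrix e e) q q')
    rw [hfun]
    exact cfDisc_mul_char (e q).2.2 _
  · intro F hF hFb hFper
    have key : ∀ q, ∃ Λ : ℂ,
        (fun z : ℍ => ((cfEinvJ h (z : ℂ)).submatrix e e).mulVec (fun q' => F q' z) q - Λ)
          =O[atImInfty] fun z : ℍ => Real.exp (-2 * Real.pi * z.im) := by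
      intro q
      have hgper : ∀ (m : ℕ) (z : ℍ), F ((t⁻¹) ^ m • b (e q).1) ((1 : ℝ) +ᵥ z)
          = F ((t⁻¹) ^ (m + 1) • b (e q).1) z := by
        intro m z
        rw [hFper, pow_succ', mul_smul]
      have hgh : (fun m : ℕ => F ((t⁻¹) ^ m • b (e q).1)) (h (e q).1)
          = (fun m : ℕ => F ((t⁻¹) ^ m • b (e q).1)) 0 := by
        simp only [pow_zero, one_smul]
        congr 1
        rw [inv_pow, inv_smul_eq_iff]
        exact (hper _).symm
      have hψ : (fun z : ℍ => ((cfEinvJ h (z : ℂ)).submatrix e e).mulVec (fun q' => F q' z) q)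
          = cfPsi (h (e q).1) ((e q).2 : ℕ) (fun m => F ((t⁻¹) ^ m • b (e q).1)) := by
        funext z
        rw [Matrix.submatrix_mulVec_equiv]
        simp only [Function.comp_apply]
        rw [cfEinvJ_mulVec]
        unfold cfPsi
        rw [← Fin.sum_univ_eq_sum_range (fun m : ℕ =>
          cfChar (h (e q).1) ((e q).2 : ℕ) (-(z : ℂ)) *
            (((h (e q).1 : ℕ) : ℂ)⁻¹ * (cfZeta (h (e q).1))⁻¹ ^ (((e q).2 : ℕ) * m)) *
            F ((t⁻¹) ^ m • b (e q).1) z) (h (e q).1)]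
        refine Finset.sum_congr rfl fun m _ => ?_
        simp only [cfW, Function.comp_apply, hesymm]
      have := periodic_decay_of_exp_mul_zero
        (ψ := cfPsi (h (e q).1) ((e q).2 : ℕ) (fun m => F ((t⁻¹) ^ m • b (e q).1)))
        (mdiff_cfPsi _ _ _ (fun m => hF _))
        (cfPsi_periodic (hpos _) _ _ hgper hgh)
        (cfPsi_decay (e q).2.2 _ (fun m => hFb _))
      rw [← hψ] at this
      exact this
    choose Λ hΛ using key
    exact ⟨Λ, hΛ⟩

end Fermat.Agent.S20lib
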