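import Mathlib
import Fermat.Agent.S20_CuspPkg
import Fermat.Agent.S20_CuspFrame

/-!
# S20 library: existence of the cusp package
-/

set_option autoImplicit false
open scoped MatrixGroups ModularForm Manifold Topology
open UpperHalfPlane ModularForm Filter Asymptotics

namespace Fermat.Agent.S20lib

attribute [local instance] fintypeQuot decEqQuot

/-! ### decay at `i∞` -/

/-- `f = O(exp(-2π y))` at `i∞` -/
def Decay (f : ℍ → ℂ) : Prop :=
  f =O[atImInfty] fun z : ℍ => Real.exp (-2 * Real.pi * z.im)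

lemma tendsto_expDecay :
    Tendsto (fun z : ℍ => Real.exp (-2 * Real.pi * z.im)) atImInfty (𝓝 0) := by
  have h1 : Tendsto (fun z : ℍ => z.im) atImInfty atTop := tendsto_comap
  have h2 : Tendsto (fun y : ℝ => -2 * Real.pi * y) atTop atBot := by
    have : Tendsto (fun y : ℝ => (2 * Real.pi) * y) atTop atTop :=
      tendsto_id.const_mul_atTop (by positivity)
    have := tendsto_neg_atTop_atBot.comp this
    refine this.congr fun y => ?_
    simp only [Function.comp_apply]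
    ring
  exact Real.tendsto_exp_atBot.comp (h2.comp h1)

lemma Decay.isZero {f : ℍ → ℂ} (h : Decay f) : IsZeroAtImInfty f :=
  h.trans_tendsto tendsto_expDecay

lemma Decay.add {f g : ℍ → ℂ} (hf : Decay f) (hg : Decay g) : Decay (fun z => f z + g z) :=
  IsBigO.add hf hg

lemma decay_zero : Decay (fun _ => 0) := isBigO_zero _ _

lemma decay_sum {ι : Type*} (s : Finset ι) (F : ι → ℍ → ℂ) (h : ∀ i ∈ s, Decay (F i)) :
    Decay (fun z => ∑ i ∈ s, F i z) := by
  have := IsBigO.sum h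
  refine this.congr_left fun z => ?_
  simp

lemma Decay.bdd_mul {f g : ℍ → ℂ} (hf : IsBoundedAtImInfty f) (hg : Decay g) :
    Decay (fun z => f z * g z) := by
  have := IsBigO.mul hf hg
  simpa [Decay] using this

lemma Decay.mul_bdd {f g : ℍ → ℂ} (hf : Decay f) (hg : IsBoundedAtImInfty g) :
    Decay (fun z => f z * g z) := by
  have := Decay.bdd_mul hg hf
  refine this.congr_left fun z => ?_
  ring

lemma Decay.const_mul {f : ℍ → ℂ} (c : ℂ) (hf : Decay f) : Decay (fun z => c * f z) :=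
  IsBigO.const_mul_left hf c

lemma isBounded_of_tendsto {f : ℍ → ℂ} {c : ℂ} (h : Tendsto f atImInfty (𝓝 c)) :
    IsBoundedAtImInfty f :=
  h.isBigO_one ℝ

lemma isZero_mul_bdd {f g : ℍ → ℂ} (hf : IsZeroAtImInfty f) (hg : IsBoundedAtImInfty g) :
    IsZeroAtImInfty (fun z => f z * g z) := by
  have hg' : g =O[atImInfty] fun _ : ℍ => (1 : ℂ) := by
    have : g =O[atImInfty] (1 : ℍ → ℝ) := hg
    refine this.trans ?_
    exact (isBigO_const_const (1 : ℝ) (one_ne_zero : (1 : ℂ) ≠ 0) atImInfty)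
  have h1 : (fun z => f z * g z) =O[atImInfty] fun z => f z * (1 : ℂ) :=
    IsBigO.mul (isBigO_refl f atImInfty) hg'
  refine h1.trans_tendsto ?_
  have hf' : Tendsto f atImInfty (𝓝 0) := hf
  simpa using hf'

variable {k : ℤ}

/-- level one forms with value `1` at `i∞` -/
lemma IsMF.sub_one_decay {b : ℍ → ℂ} (h : IsMF ⊤ k b) (h1 : Tendsto b atImInfty (𝓝 1)) :
    Decay (fun z => b z - 1) := by
  have hv : valueAtInfty b = 1 := tendsto_nhds_unique h.tendsto_top h1
  have := h.exp_decay_top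
  rwa [hv] at this

variable {Γ : Subgroup SL(2, ℤ)} [Γ.FiniteIndex] {B : ℤ}

/-- periodicity of the columns of `Φ` -/
lemma GenSys.Phi_vadd (G : GenSys Γ B) (z : ℍ) (q : SL(2, ℤ) ⧸ Γ) (j : G.J) :
    G.Phi ((1 : ℝ) +ᵥ z) q j = G.Phi z ((ModularGroup.T)⁻¹ • q) j := by
  rw [← UpperHalfPlane.modular_T_smul, G.Phi_smul]
  have : denom (ModularGroup.T : SL(2, ℤ)) z = 1 := by simpa using denom_T_zpow 1 z
  rw [this, one_zpow, mul_one]

/-- the limit matrix at `i∞` is injective -/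
lemma GenSys.limit_injective (G : GenSys Γ B) (e : G.J ≃ SL(2, ℤ) ⧸ Γ) (hneg : -1 ∈ Γ)
    (E Einv : ℍ → Matrix (SL(2, ℤ) ⧸ Γ) (SL(2, ℤ) ⧸ Γ) ℂ)
    (L : Matrix (SL(2, ℤ) ⧸ Γ) (SL(2, ℤ) ⧸ Γ) ℂ) (hmul : ∀ z, E z * Einv z = 1)
    (hbdd : ∀ q q', IsBoundedAtImInfty (fun z => E z q q'))
    (hlim : ∀ q q', Decay (fun z : ℍ => (Einv z * G.PhiSq e z) q q' - L q q'))
    (v : SL(2, ℤ) ⧸ Γ → ℂ) (hv : L.mulVec v = 0) : v = 0 := by
  obtain ⟨w, hwB, hw⟩ := G.exists_weight hneg
  have hb : ∀ j, ∃ b : ℍ → ℂ, IsMF ⊤ (w - G.wt j) b ∧ Tendsto b atImInfty (𝓝 1) := fun j =>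
    exists_levelOne_tendsto_one (hw j).1 (hw j).2
  choose b hbMF hb1 using hb
  set c : G.J → ℂ := fun j => v (e j) with hc
  have ha : ∀ j, IsMF ⊤ (w - G.wt j) (c j • b j) := fun j => (hbMF j).smul _
  have hf : IsMF Γ w (∑ j, (c j • b j) * G.F j) := G.isMF_comb _ ha
  have hdec : ∀ g : SL(2, ℤ), Decay ((∑ j, (c j • b j) * G.F j) ∣[w] g) := by
    intro g
    rw [← slash_rep hf.inv g]
    set q : SL(2, ℤ) ⧸ Γ := ((g⁻¹ : SL(2, ℤ)) : SL(2, ℤ) ⧸ Γ) with hq
    have hform : ∀ z : ℍ, ((∑ j, (c j • b j) * G.F j) ∣[w] rep Γ q) z =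
        ∑ q₁, E z q q₁ * ∑ q', (((Einv z * G.PhiSq e z) q₁ q' - L q₁ q') *
          (v q' * b (e.symm q') z) + L q₁ q' * v q' * (b (e.symm q') z - 1)) := by
      intro z
      rw [← G.Phi_mulVec_comb _ ha z q, G.Phi_mulVec_eq e]
      have hE : G.PhiSq e z = E z * (Einv z * G.PhiSq e z) := by
        rw [← Matrix.mul_assoc, hmul, Matrix.one_mul]
      conv_lhs => rw [hE]
      rw [← Matrix.mulVec_mulVec]
      simp only [Matrix.mulVec, dotProduct]
      refine Finset.sum_congr rfl fun q₁ _ => ?_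
      congr 1
      have h0 : ∑ q', L q₁ q' * v q' = 0 := by
        have := congrFun hv q₁
        simpa only [Matrix.mulVec, dotProduct, Pi.zero_apply] using this
      have h1 : ∀ q' : SL(2, ℤ) ⧸ Γ,
          (Einv z * G.PhiSq e z) q₁ q' * ((fun j => (c j • b j) z) ∘ e.symm) q' =
          (((Einv z * G.PhiSq e z) q₁ q' - L q₁ q') * (v q' * b (e.symm q') z)
            + L q₁ q' * v q' * (b (e.symm q') z - 1)) + L q₁ q' * v q' := by
        intro q'
        simp only [Function.comp_apply, Pi.smul_apply, smul_eq_mul, hc, Equiv.apply_symm_apply]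
        ring
      rw [Finset.sum_congr rfl fun q' _ => h1 q', Finset.sum_add_distrib, h0, add_zero]
    have hD : Decay (fun z : ℍ => ∑ q₁, E z q q₁ * ∑ q', (((Einv z * G.PhiSq e z) q₁ q' - L q₁ q') *
          (v q' * b (e.symm q') z) + L q₁ q' * v q' * (b (e.symm q') z - 1))) := by
      refine decay_sum _ _ fun q₁ _ => Decay.bdd_mul (hbdd q q₁) ?_
      refine decay_sum _ _ fun q' _ => Decay.add ?_ ?_
      · refine Decay.mul_bdd (hlim q₁ q') ?_
        have : IsBoundedAtImInfty (fun z => v q' * b (e.symm q') z) :=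
          isBounded_of_tendsto ((hb1 (e.symm q')).const_mul (v q'))
        exact this
      · exact Decay.const_mul _ ((hbMF _).sub_one_decay (hb1 _))
    exact hD.congr_left fun z => (hform z).symm
  obtain ⟨f', hf', hff'⟩ := sat_infty hf hdec
  obtain ⟨a', ha', hfa'⟩ := G.gen (w - 12) hwB f' hf'
  have ha2 : ∀ j, IsMF ⊤ (w - G.wt j) (c j • b j - discriminant * a' j) := fun j =>
    (ha j).sub ((isCF_discriminant.isMF.mul (ha' j)).congr_weight (by ring))
  have hsum : ∑ j, (c j • b j - discriminant * a' j) * G.F j = 0 := by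
    simp only [sub_mul, Finset.sum_sub_distrib]
    rw [hff', hfa', Finset.mul_sum, sub_eq_zero]
    refine Finset.sum_congr rfl fun j _ => ?_
    ring
  have hzero := G.free e _ ha2 hsum
  have hcj : ∀ j, c j = 0 := by
    intro j
    have h1 : Tendsto (fun z => c j * b j z) atImInfty (𝓝 (c j * 1)) := (hb1 j).const_mul (c j)
    have h2 : Tendsto (fun z => discriminant z * a' j z) atImInfty (𝓝 0) :=
      isZero_mul_bdd isCF_discriminant.zero_one (ha' j).bdd_one
    have h3 : (fun z => c j * b j z) = fun z => discriminant z * a' j z := by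
      funext z
      have := congrFun (hzero j) z
      simp only [Pi.sub_apply, Pi.smul_apply, Pi.mul_apply, smul_eq_mul, Pi.zero_apply] at this
      exact sub_eq_zero.mp this
    rw [h3] at h1
    have := tendsto_nhds_unique h1 h2
    simpa using this
  funext q
  have := hcj (e.symm q)
  simpa [hc] using this

/-- **Existence of the cusp package.** -/
theorem GenSys.exists_cuspPkg (G : GenSys Γ B) (e : G.J ≃ SL(2, ℤ) ⧸ Γ) (hneg : -1 ∈ Γ) :
    Nonempty (CuspPkg G e) := by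
  obtain ⟨E, Einv, C, hC, hmul, hdet, hbdd, hzero, hlim⟩ :=
    exists_cusp_frame (G := SL(2, ℤ)) (SL(2, ℤ) ⧸ Γ) ModularGroup.T
  have hcol : ∀ q' : SL(2, ℤ) ⧸ Γ, ∃ Λ : SL(2, ℤ) ⧸ Γ → ℂ, ∀ q,
      Decay (fun z : ℍ => (Einv z * G.PhiSq e z) q q' - Λ q) := by
    intro q'
    obtain ⟨Λ, hΛ⟩ := hlim (fun q z => G.Phi z q (e.symm q')) (fun q => G.mdiff_Phi q _)
      (fun q => (G.isMF _).bdd (rep Γ q)) (fun q z => G.Phi_vadd z q _)
    exact ⟨Λ, fun q => hΛ q⟩
  choose Lcol hLcol using hcol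
  have hL : (Matrix.of fun q q' => Lcol q' q : Matrix (SL(2, ℤ) ⧸ Γ) (SL(2, ℤ) ⧸ Γ) ℂ).det ≠ 0 := by
    intro h0
    obtain ⟨v, hv, hv0⟩ := Matrix.exists_mulVec_eq_zero_iff.mpr h0
    exact hv (G.limit_injective e hneg E Einv _ hmul hbdd (fun q q' => hLcol q' q) v hv0)
  exact ⟨{ E := E, Einv := Einv, C := C, L := Matrix.of fun q q' => Lcol q' q, hC := hC,
           mul := hmul, det := hdet, bdd := hbdd, zero := hzero,
           lim := fun q q' => hLcol q' q, hL := hL }⟩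

end Fermat.Agent.S20lib
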