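import Mathlib
import Fermat.Agent.S20_CuspLim

/-!
# S20 library: the sum of the weights of the generators
-/

set_option autoImplicit false
open scoped MatrixGroups ModularForm Manifold Topology
open UpperHalfPlane ModularForm Filter Asymptotics

namespace Fermat.Agent.S20lib

attribute [local instance] fintypeQuot decEqQuot

/-- `Δ(z) / exp(2πiz) → 1` -/
lemma tendsto_discriminant_div_exp :
    Tendsto (fun z : ℍ => discriminant z / Complex.exp (2 * Real.pi * Complex.I * z))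
      atImInfty (𝓝 1) := by
  refine tendsto_atImInfty_tprod_one_sub_eta_q_pow.congr fun z => ?_
  have h := discriminant_eq_q_prod z
  have hq : Function.Periodic.qParam 1 (z : ℂ) = Complex.exp (2 * Real.pi * Complex.I * z) := by
    simp [Function.Periodic.qParam]
  rw [hq] at h
  rw [h, mul_div_cancel_left₀ _ (Complex.exp_ne_zero _)]

lemma mdiff_zpow {f : ℍ → ℂ} (hf : MDiff f) (h0 : ∀ z, f z ≠ 0) (n : ℤ) :
    MDiff (fun z => f z ^ n) := by
  rcases n with n | n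
  · simp only [Int.ofNat_eq_natCast, zpow_natCast]
    exact hf.pow n
  · simp only [zpow_negSucc]
    exact (hf.pow (n + 1)).inv fun z => pow_ne_zero _ (h0 z)

lemma discriminant_smul_denom (g : SL(2, ℤ)) (z : ℍ) :
    discriminant (g • z) = discriminant z * denom g z ^ (12 : ℤ) := by
  have h := congrFun (isCF_discriminant.isMF.inv g trivial) z
  rw [SL_slash_apply] at h
  rw [← h, mul_assoc, ← zpow_add₀ (denom_ne_zero g z)]
  simp

variable {Γ : Subgroup SL(2, ℤ)} [Γ.FiniteIndex] {B : ℤ}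

/-- entries of `Ξ = Einv * PhiSq` converge -/
lemma CuspPkg.tendsto_Xi {G : GenSys Γ B} {e : G.J ≃ SL(2, ℤ) ⧸ Γ} (P : CuspPkg G e) :
    Tendsto (fun z => P.Einv z * G.PhiSq e z) atImInfty (𝓝 P.L) := by
  refine tendsto_pi_nhds.mpr fun q => tendsto_pi_nhds.mpr fun q' => ?_
  have h1 : Tendsto (fun z : ℍ => (P.Einv z * G.PhiSq e z) q q' - P.L q q') atImInfty (𝓝 0) :=
    (P.lim q q').trans_tendsto tendsto_expDecay
  have h2 := h1.add_const (P.L q q')
  simpa using h2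

lemma CuspPkg.tendsto_det_Xi {G : GenSys Γ B} {e : G.J ≃ SL(2, ℤ) ⧸ Γ} (P : CuspPkg G e) :
    Tendsto (fun z => (P.Einv z * G.PhiSq e z).det) atImInfty (𝓝 P.L.det) :=
  ((continuous_id.matrix_det).tendsto _).comp P.tendsto_Xi

lemma CuspPkg.PhiSq_eq {G : GenSys Γ B} {e : G.J ≃ SL(2, ℤ) ⧸ Γ} (P : CuspPkg G e) (z : ℍ) :
    G.PhiSq e z = P.E z * (P.Einv z * G.PhiSq e z) := by
  rw [← Matrix.mul_assoc, P.mul, Matrix.one_mul]

lemma CuspPkg.Ddet_eq {G : GenSys Γ B} {e : G.J ≃ SL(2, ℤ) ⧸ Γ} (P : CuspPkg G e) (z : ℍ) :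
    G.Ddet e z = (P.E z).det * (P.Einv z * G.PhiSq e z).det := by
  rw [GenSys.Ddet, ← Matrix.det_mul, ← P.PhiSq_eq]

/-- **The sum of the weights.** -/
theorem GenSys.sum_wt (G : GenSys Γ B) (e : G.J ≃ SL(2, ℤ) ⧸ Γ) (hneg : -1 ∈ Γ)
    (P : CuspPkg G e) :
    ∑ j, G.wt j = 6 * ((Nat.card (SL(2, ℤ) ⧸ Γ) : ℤ) -
      (Nat.card (MulAction.orbitRel.Quotient (Subgroup.zpowers ModularGroup.T)
        (SL(2, ℤ) ⧸ Γ)) : ℤ)) := by
  set K : ℤ := ∑ j, G.wt j with hK
  set m : ℤ := (Nat.card (SL(2, ℤ) ⧸ Γ) : ℤ) -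
      (Nat.card (MulAction.orbitRel.Quotient (Subgroup.zpowers ModularGroup.T)
        (SL(2, ℤ) ⧸ Γ)) : ℤ) with hm
  set k₀ : ℤ := 2 * K - 12 * m with hk₀
  -- the function `U`
  set U : ℍ → ℂ := fun z => G.Ddet e z ^ 2 * (discriminant z ^ m)⁻¹ with hU
  have hD0 : ∀ z, G.Ddet e z ≠ 0 := G.Ddet_ne_zero e hneg
  have hΔ0 : ∀ z : ℍ, discriminant z ≠ 0 := discriminant_ne_zero
  have hU0 : ∀ z, U z ≠ 0 := fun z =>
    mul_ne_zero (pow_ne_zero _ (hD0 z)) (inv_ne_zero (zpow_ne_zero _ (hΔ0 z)))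
  have hUholo : MDiff U :=
    ((G.mdiff_Ddet e).pow 2).mul ((mdiff_zpow isCF_discriminant.holo hΔ0 m).inv
      fun z => zpow_ne_zero _ (hΔ0 z))
  -- transformation law
  have hUsmul : ∀ (g : SL(2, ℤ)) (z : ℍ), U (g • z) = U z * denom g z ^ k₀ := by
    intro g z
    have hd : denom g z ≠ 0 := denom_ne_zero g z
    simp only [hU]
    rw [G.Ddet_sq_smul, discriminant_smul_denom, mul_zpow, ← zpow_mul, mul_inv, hk₀,
      zpow_sub₀ hd, ← hK]
    field_simp
  -- limit at infinity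
  have hcard : ((Fintype.card (SL(2, ℤ) ⧸ Γ) : ℂ) -
      (Nat.card (MulAction.orbitRel.Quotient (Subgroup.zpowers ModularGroup.T)
        (SL(2, ℤ) ⧸ Γ)) : ℂ)) = (m : ℂ) := by
    rw [hm, ← Nat.card_eq_fintype_card]
    push_cast
    ring
  have hUform : ∀ z : ℍ, U z = P.C ^ 2 * (P.Einv z * G.PhiSq e z).det ^ 2 *
      ((discriminant z / Complex.exp (2 * Real.pi * Complex.I * z)) ^ m)⁻¹ := by
    intro z
    simp only [hU]
    rw [P.Ddet_eq, P.det, hcard, div_zpow, inv_div, mul_pow, mul_pow, ← Complex.exp_nat_mul,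
      ← Complex.exp_int_mul]
    have : Complex.exp (((2 : ℕ) : ℂ) * (Real.pi * Complex.I * (m : ℂ) * (z : ℂ)))
        = Complex.exp ((m : ℂ) * (2 * Real.pi * Complex.I * z)) := by
      congr 1
      push_cast
      ring
    rw [this]
    have hz : discriminant z ^ m ≠ 0 := zpow_ne_zero _ (hΔ0 z)
    field_simp
  have hUlim : Tendsto U atImInfty (𝓝 (P.C ^ 2 * P.L.det ^ 2 * ((1 : ℂ) ^ m)⁻¹)) := by
    have h1 := (tendsto_discriminant_div_exp.zpow₀ m (Or.inl one_ne_zero)).inv₀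
      (zpow_ne_zero _ one_ne_zero)
    have h2 := ((P.tendsto_det_Xi.pow 2).const_mul (P.C ^ 2)).mul h1
    exact h2.congr fun z => (hUform z).symm
  have hlim0 : P.C ^ 2 * P.L.det ^ 2 * ((1 : ℂ) ^ m)⁻¹ ≠ 0 := by
    rw [one_zpow, inv_one, mul_one]
    exact mul_ne_zero (pow_ne_zero _ P.hC) (pow_ne_zero _ P.hL)
  -- `U` and `U⁻¹` are level one forms
  have hUMF : IsMF ⊤ k₀ U := by
    have hinv : ∀ γ : SL(2, ℤ), U ∣[k₀] γ = U := by
      intro γ
      funext z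
      rw [SL_slash_apply, hUsmul, mul_assoc, ← zpow_add₀ (denom_ne_zero γ z)]
      simp
    refine ⟨hUholo, fun γ _ => hinv γ, fun g => ?_⟩
    rw [hinv g]
    exact isBounded_of_tendsto hUlim
  have hVMF : IsMF ⊤ (-k₀) (fun z => (U z)⁻¹) := by
    have hinv : ∀ γ : SL(2, ℤ), (fun z => (U z)⁻¹) ∣[-k₀] γ = fun z => (U z)⁻¹ := by
      intro γ
      funext z
      rw [SL_slash_apply, hUsmul, neg_neg, mul_inv, mul_assoc,
        inv_mul_cancel₀ (zpow_ne_zero _ (denom_ne_zero γ z)), mul_one]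
    refine ⟨hUholo.inv hU0, fun γ _ => hinv γ, fun g => ?_⟩
    rw [hinv g]
    exact isBounded_of_tendsto (hUlim.inv₀ hlim0)
  -- conclusion
  have hk0 : k₀ = 0 := by
    rcases lt_trichotomy k₀ 0 with h | h | h
    · have := hUMF.eq_zero_of_neg_top h
      exact absurd (congrFun this UpperHalfPlane.I) (hU0 _)
    · exact h
    · have := hVMF.eq_zero_of_neg_top (by omega)
      exact absurd (congrFun this UpperHalfPlane.I) (inv_ne_zero (hU0 _))
  omega

end Fermat.Agent.S20lib
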