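import Mathlib
import Fermat.Agent.S20_Det

/-!
# S20 Part M: the trace identity at an elliptic point
-/

set_option autoImplicit false
open scoped MatrixGroups ModularForm Manifold Topology
open UpperHalfPlane ModularForm Filter

namespace Fermat.Agent.S20lib

attribute [local instance] fintypeQuot decEqQuot

variable {Γ : Subgroup SL(2, ℤ)} [Γ.FiniteIndex] {B : ℤ}

/-- Transformation of the generator matrix at a fixed point under the stabilising element. -/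
lemma GenSys.Phi_smul_fix (G : GenSys Γ B) (E : EllData Γ) (q : SL(2, ℤ) ⧸ Γ) (j : G.J) :
    G.Phi E.z₀ (E.R⁻¹ • q) j = G.Phi E.z₀ q j * denom E.R E.z₀ ^ (-(G.wt j)) := by
  simp only [GenSys.Phi]
  rw [← slash_rep_smul (G.isMF j).inv q E.R, SL_slash_apply (G.F j ∣[G.wt j] rep Γ q) E.R E.z₀,
    E.fix]

/-- Trace of a permutation matrix, counted with `Nat.card`. -/
lemma trace_permMatrix_toPerm (R : SL(2, ℤ)) :
    Matrix.trace ((MulAction.toPerm R⁻¹ : Equiv.Perm (SL(2, ℤ) ⧸ Γ)).permMatrix ℂ)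
      = (Nat.card {q : SL(2, ℤ) ⧸ Γ // R • q = q} : ℂ) := by
  rw [Matrix.trace_permutation]
  congr 1
  rw [← Nat.card_coe_set_eq]
  apply Nat.card_congr
  refine Equiv.subtypeEquivRight fun q => ?_
  simp only [Function.mem_fixedPoints, Function.IsFixedPt, MulAction.toPerm_apply]
  rw [inv_smul_eq_iff]
  exact eq_comm

/-- (Part M) Trace identity at an elliptic point. -/
theorem GenSys.trace_ell (G : GenSys Γ B) (e : G.J ≃ SL(2, ℤ) ⧸ Γ) (E : EllData Γ) :
    ∑ j, (denom E.R E.z₀) ^ (-(G.wt j))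
      = (Nat.card {q : SL(2, ℤ) ⧸ Γ // E.R • q = q} : ℂ) := by
  have hdet : IsUnit (G.PhiSq e E.z₀).det := isUnit_iff_ne_zero.mpr (G.Ddet_ne_zero_ell e E)
  have hPM : (MulAction.toPerm E.R⁻¹ : Equiv.Perm (SL(2, ℤ) ⧸ Γ)).permMatrix ℂ * G.PhiSq e E.z₀
      = G.PhiSq e E.z₀ *
        Matrix.diagonal fun q' => (denom E.R E.z₀) ^ (-(G.wt (e.symm q'))) := by
    rw [Equiv.Perm.permMatrix, PEquiv.toMatrix_toPEquiv_mul]
    ext q q'
    rw [Matrix.mul_diagonal]
    simp only [Matrix.submatrix_apply, id_eq, MulAction.toPerm_apply, GenSys.PhiSq]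
    exact G.Phi_smul_fix E q (e.symm q')
  have htr : Matrix.trace
      (Matrix.diagonal fun q' : SL(2, ℤ) ⧸ Γ => (denom E.R E.z₀) ^ (-(G.wt (e.symm q'))))
      = Matrix.trace ((MulAction.toPerm E.R⁻¹ : Equiv.Perm (SL(2, ℤ) ⧸ Γ)).permMatrix ℂ) := by
    have h1 : (Matrix.diagonal fun q' : SL(2, ℤ) ⧸ Γ => (denom E.R E.z₀) ^ (-(G.wt (e.symm q'))))
        = (G.PhiSq e E.z₀)⁻¹ *
          ((MulAction.toPerm E.R⁻¹ : Equiv.Perm (SL(2, ℤ) ⧸ Γ)).permMatrix ℂ * G.PhiSq e E.z₀) := by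
      rw [hPM, ← Matrix.mul_assoc, Matrix.nonsing_inv_mul _ hdet, Matrix.one_mul]
    rw [h1, Matrix.trace_mul_comm, Matrix.mul_assoc, Matrix.mul_nonsing_inv _ hdet, Matrix.mul_one]
  rw [← trace_permMatrix_toPerm (Γ := Γ) E.R, ← htr, Matrix.trace_diagonal]
  rw [← Equiv.sum_comp e]
  simp

end Fermat.Agent.S20lib
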