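import Mathlib
import Fermat.Agent.S20_Indep

/-!
# S20 Part R: a minimal generating system has exactly one generator of weight `0`
-/

set_option autoImplicit false
open scoped MatrixGroups ModularForm Manifold Topology
open UpperHalfPlane ModularForm Filter

namespace Fermat.Agent.S20lib

variable {Γ : Subgroup SL(2, ℤ)} [Γ.FiniteIndex] {B : ℤ}

/-- Some generator has weight `0` (because `1` has to be generated). -/
theorem GenSys.exists_wt_zero (G : GenSys Γ B) (hB : 0 ≤ B) : ∃ j, G.wt j = 0 := by
  classical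
  by_contra hno
  rw [not_exists] at hno
  obtain ⟨a, ha, hsum⟩ := G.gen 0 hB (Function.const ℍ 1) (isMF_const Γ 1)
  have hzero : ∀ j, a j = 0 := fun j => by
    have hpos : 0 < G.wt j := lt_of_le_of_ne (G.wt_nonneg j) (Ne.symm (hno j))
    exact (ha j).eq_zero_of_neg_top (by omega)
  have h0 : (Function.const ℍ (1 : ℂ)) = 0 := by
    rw [hsum]
    exact Finset.sum_eq_zero fun j _ => by rw [hzero j, zero_mul]
  have := congrFun h0 UpperHalfPlane.I
  simp at this

/-- Two generators of weight `0` coincide (minimality). -/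
theorem GenSys.wt_zero_unique (G : GenSys Γ B) {j j₀ : G.J} (hj : G.wt j = 0)
    (hj₀ : G.wt j₀ = 0) : j = j₀ := by
  classical
  by_contra hne
  obtain ⟨c₁, hc₁⟩ := (hj ▸ G.isMF j : IsMF Γ 0 (G.F j)).eq_const
  obtain ⟨c₂, hc₂⟩ := (hj₀ ▸ G.isMF j₀ : IsMF Γ 0 (G.F j₀)).eq_const
  have hsum : (∑ i, (if G.wt i = 0 then (if i = j then c₂ else if i = j₀ then -c₁ else 0)
      else 0) • G.F i) = 0 := by
    have hterm : ∀ i, (if G.wt i = 0 then (if i = j then c₂ else if i = j₀ then -c₁ else 0)
        else 0) • G.F i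
        = (if i = j then c₂ • G.F j else 0) + (if i = j₀ then (-c₁) • G.F j₀ else 0) := by
      intro i
      by_cases h1 : i = j
      · subst h1
        simp [hj, hne]
      · by_cases h2 : i = j₀
        · subst h2
          simp [hj₀, h1]
        · simp [h1, h2]
    rw [Finset.sum_congr rfl (fun i _ => hterm i), Finset.sum_add_distrib,
      Finset.sum_ite_eq', Finset.sum_ite_eq']
    simp only [Finset.mem_univ, if_true]
    rw [hc₁, hc₂]
    funext z
    simp only [Pi.add_apply, Pi.smul_apply, Function.const_apply, smul_eq_mul, Pi.zero_apply]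
    ring
  have hmin := G.min (fun i => if i = j then c₂ else if i = j₀ then -c₁ else 0) 0
    (by rw [hsum]; exact (Wk Γ 0).zero_mem) j hj
  simp only [if_true] at hmin
  have : G.F j₀ = 0 := by
    rw [hc₂, hmin]
    rfl
  exact G.F_ne_zero j₀ this

/-- **S20 Part R**: exactly one generator has weight `0`. -/
theorem GenSys.card_wt_zero (G : GenSys Γ B) (hB : 0 ≤ B) :
    Fintype.card {j : G.J // G.wt j = 0} = 1 := by
  classical
  rw [Fintype.card_eq_one_iff]
  obtain ⟨j₀, hj₀⟩ := G.exists_wt_zero hB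
  exact ⟨⟨j₀, hj₀⟩, fun ⟨j, hj⟩ => Subtype.ext (G.wt_zero_unique hj hj₀)⟩

end Fermat.Agent.S20lib
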