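import Mathlib
import Fermat.Agent.S20_SumWt
import Fermat.Agent.S20_Trace
import Fermat.Agent.S20_Count
import Fermat.Agent.S20_WtZero
import Fermat.Agent.S20_CuspInv
import Fermat.Agent.S20_Dual

/-!
# S20 library: the dimension of `S₂(Γ)` for a finite index subgroup `Γ ∋ -1` of `SL(2,ℤ)`
-/

set_option autoImplicit false
open scoped MatrixGroups ModularForm Manifold Topology
open UpperHalfPlane ModularForm Filter

namespace Fermat.Agent.S20lib

attribute [local instance] fintypeQuot decEqQuot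

variable {Γ : Subgroup SL(2, ℤ)} [Γ.FiniteIndex]

/-- **The dimension formula for weight two cusp forms.** -/
theorem finrank_Sk_two_eq (hneg : -1 ∈ Γ) (hfd : ∀ k, Module.Finite ℂ (Mk Γ k))
    {t : ℍ → ℂ} (ht : IsMF Γ 4 t) (hsep : ∀ g : SL(2, ℤ), g ∉ Γ → t ∣[(4 : ℤ)] g ≠ t) :
    (Module.finrank ℂ (Sk Γ 2) : ℚ) =
      1 + (Nat.card (SL(2, ℤ) ⧸ Γ) : ℚ) / 12
        - (Nat.card {q : SL(2, ℤ) ⧸ Γ // ModularGroup.S • q = q} : ℚ) / 4
        - (Nat.card {q : SL(2, ℤ) ⧸ Γ // (ModularGroup.S * ModularGroup.T) • q = q} : ℚ) / 3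
        - (Nat.card (MulAction.orbitRel.Quotient (Subgroup.zpowers ModularGroup.T)
            (SL(2, ℤ) ⧸ Γ)) : ℚ) / 2 := by
  obtain ⟨G⟩ := GenSys.exists_ge hfd (4 * Nat.card (SL(2, ℤ) ⧸ Γ))
  have hB : 4 * (Nat.card (SL(2, ℤ) ⧸ Γ) : ℤ) ≤ ((4 * Nat.card (SL(2, ℤ) ⧸ Γ) : ℕ) : ℤ) := by
    push_cast
    exact le_rfl
  have hB0 : (0 : ℤ) ≤ ((4 * Nat.card (SL(2, ℤ) ⧸ Γ) : ℕ) : ℤ) := Int.natCast_nonneg _
  have hcard : Fintype.card G.J = Nat.card (SL(2, ℤ) ⧸ Γ) := G.card_eq ht hsep hB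
  have e : G.J ≃ SL(2, ℤ) ⧸ Γ :=
    Fintype.equivOfCardEq (hcard.trans Nat.card_eq_fintype_card)
  obtain ⟨P⟩ := G.exists_cuspPkg e hneg
  have hK := G.sum_wt e hneg P
  obtain ⟨h10, hfin⟩ := G.finrank_Sk_two e hneg (G.cusp_inv e hneg P)
  have h2 : ∑ j, Complex.I ^ (-(G.wt j)) =
      ((Nat.card {q : SL(2, ℤ) ⧸ Γ // ModularGroup.S • q = q} : ℕ) : ℂ) := by
    have := G.trace_ell e (ellDataI Γ)
    have hd : denom (ModularGroup.S : SL(2, ℤ)) (UpperHalfPlane.I : ℍ) = Complex.I := by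
      simpa using ModularGroup.denom_S UpperHalfPlane.I
    simp only [ellDataI] at this
    rw [hd] at this
    exact this
  have h3 : ∑ j, ((ellRho : ℂ) + 1) ^ (-(G.wt j)) =
      ((Nat.card {q : SL(2, ℤ) ⧸ Γ // (ModularGroup.S * ModularGroup.T) • q = q} : ℕ) : ℂ) := by
    have := G.trace_ell e (ellDataRho Γ)
    simp only [ellDataRho] at this
    rw [denom_ST_ellRho] at this
    exact this
  have hfinal := count_final G.wt _ _ _ _ (G.wt_even hneg) G.wt_nonneg h10 (G.card_wt_zero hB0)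
    hcard h2 h3 hK
  rw [hfin]
  convert hfinal using 2

end Fermat.Agent.S20lib
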