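import Fermat.Agent.TForm_Sep

/-!
# Exported statements about `t(z) = E₄(N z)`

* `Fermat.Agent.TForm.exists_tForm` : signature of S23 piece P4.
* `Fermat.Agent.TForm.exists_separating_form` : signature of S20 Part E.
-/

set_option autoImplicit false

open UpperHalfPlane ModularForm CongruenceSubgroup
open scoped MatrixGroups ModularForm Manifold

namespace Fermat.Agent.TForm

/-- P4 (S23): the form `t(z) = E₄(N z)` on `Γ₀(N)`: integral q-expansion, and not invariant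
under any `γ ∈ SL(2,ℤ) \ Γ₀(N)`. -/
theorem exists_tForm (N : ℕ) [NeZero N] :
    ∃ t : ModularForm (Gamma0 N) 4,
      (∀ n : ℕ, ∃ m : ℤ, PowerSeries.coeff n (qExpansion 1 t) = (m : ℂ)) ∧
      (∀ γ : SL(2, ℤ), γ ∉ Gamma0 N → (⇑t) ∣[(4 : ℤ)] γ ≠ ⇑t) :=
  ⟨tForm N, qExpansion_tForm_coeff_int N, tForm_slash_ne N⟩

/-- Part E (S20): a weight 4 form on `Γ₀(N)` separating the cosets of `Γ₀(N)` in `SL(2,ℤ)`. -/
theorem exists_separating_form (N : ℕ) [NeZero N] :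
    ∃ f : ModularForm (CongruenceSubgroup.Gamma0 N : Subgroup (GL (Fin 2) ℝ)) 4,
      ∀ g : SL(2, ℤ), g ∉ CongruenceSubgroup.Gamma0 N → (⇑f) ∣[(4 : ℤ)] g ≠ ⇑f :=
  ⟨tForm N, tForm_slash_ne N⟩

end Fermat.Agent.TForm
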