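import Fermat.Statements.S20
import Fermat.Agent.S20_Main
import Fermat.Agent.S20_Comb
import Fermat.Agent.S20_FinDim
import Fermat.Agent.TForm_Main

set_option autoImplicit false
open CuspForm

namespace Fermat.Agent.S20

theorem result (N : ℕ) [NeZero N] :
    (Module.finrank ℂ (CuspForm (CongruenceSubgroup.Gamma0 N) 2) : ℚ) = ModularCurve.genusFormula N := by
  have hneg : (-1 : Matrix.SpecialLinearGroup (Fin 2) ℤ) ∈ CongruenceSubgroup.Gamma0 N := by
    rw [CongruenceSubgroup.Gamma0_mem]
    simp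
  have hfd : ∀ k : ℤ, Module.Finite ℂ (Fermat.Agent.S20lib.Mk (CongruenceSubgroup.Gamma0 N) k) :=
    fun k =>
      haveI := Fermat.Agent.S20lib.finite_modularForm_Gamma0 N k
      Module.Finite.equiv (Fermat.Agent.S20lib.modularFormEquiv (CongruenceSubgroup.Gamma0 N) k)
  obtain ⟨f, hf⟩ := Fermat.Agent.TForm.exists_separating_form N
  have main := Fermat.Agent.S20lib.finrank_Sk_two_eq hneg hfd
    (Fermat.Agent.S20lib.isMF_of_modularForm f) hf
  rw [Fermat.Agent.S20lib.card_quot_Gamma0, Fermat.Agent.S20lib.card_fixed_S,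
    Fermat.Agent.S20lib.card_fixed_ST, Fermat.Agent.S20lib.card_orbits_T] at main
  rw [LinearEquiv.finrank_eq (Fermat.Agent.S20lib.cuspFormEquiv (CongruenceSubgroup.Gamma0 N) 2),
    main]
  rfl

end Fermat.Agent.S20
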