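import Mathlib

set_option autoImplicit false

/-!
# An upper bound for the dimension of parabolic homomorphisms (abstract form)

`G` a group generated by `S, T`, `Γ ≤ G` of finite index, `X = G ⧸ Γ`.
`P` a space of homomorphisms `Γ → ℂ` killing every element of `Γ` conjugate in `G` to
`S ^ nS`, `(S * T) ^ nU` or `T ^ nT`, where these powers act trivially on `X`.  Then
`dim P + dim V^S + dim V^{ST} + dim V^T ≤ |X| + 2`, where `V = ℂ^X`.
-/

namespace Fermat.Agent.S21lib

open scoped Pointwise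

section Cocycle

variable {G : Type*} [Group G] (Γ : Subgroup G)

theorem coc_mem (g : G) (x : G ⧸ Γ) :
    (Quotient.out (g • x))⁻¹ * (g * Quotient.out x) ∈ Γ := by
  rw [← QuotientGroup.eq, QuotientGroup.out_eq']
  conv_lhs => rw [← QuotientGroup.out_eq' x]
  rfl

/-- The `Γ`-valued cocycle attached to the section `Quotient.out`. -/
noncomputable def coc (g : G) (x : G ⧸ Γ) : Γ :=
  ⟨(Quotient.out (g • x))⁻¹ * (g * Quotient.out x), coc_mem Γ g x⟩

theorem coc_mul (g h : G) (x : G ⧸ Γ) : coc Γ (g * h) x = coc Γ g (h • x) * coc Γ h x := by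
  apply Subtype.ext
  simp only [coc, Subgroup.coe_mul, mul_smul]
  group

theorem coc_one (x : G ⧸ Γ) : coc Γ 1 x = 1 := by
  apply Subtype.ext
  simp [coc]

/-- On the base point, the cocycle of `γ ∈ Γ` is a conjugate of `γ` inside `Γ`. -/
theorem coc_base (γ : Γ) :
    ∃ δ : Γ, coc Γ (γ : G) (QuotientGroup.mk 1 : G ⧸ Γ) = δ⁻¹ * γ * δ := by
  have hδ : Quotient.out (QuotientGroup.mk 1 : G ⧸ Γ) ∈ Γ := by
    have h := QuotientGroup.out_eq' (QuotientGroup.mk 1 : G ⧸ Γ)
    rw [QuotientGroup.eq] at h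
    simpa using Γ.inv_mem h
  have hfix : (γ : G) • (QuotientGroup.mk 1 : G ⧸ Γ) = QuotientGroup.mk 1 := by
    rw [MulAction.Quotient.smul_mk, QuotientGroup.eq]
    simp
  refine ⟨⟨_, hδ⟩, ?_⟩
  apply Subtype.ext
  simp only [coc, hfix, Subgroup.coe_mul, Subgroup.coe_inv]
  group

/-- At a fixed point, the cocycle of `g` is a conjugate of `g`. -/
theorem coc_fix (g : G) (x : G ⧸ Γ) (hx : g • x = x) :
    (coc Γ g x : G) = (Quotient.out x)⁻¹ * g * Quotient.out x := by
  simp only [coc, hx]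
  group

variable (φ : Additive Γ →+ ℂ)

/-- The `ℂ`-valued cocycle attached to a homomorphism `φ : Γ → ℂ`. -/
noncomputable def cocφ (g : G) (x : G ⧸ Γ) : ℂ := φ (Additive.ofMul (coc Γ g x))

theorem cocφ_mul (g h : G) (x : G ⧸ Γ) :
    cocφ Γ φ (g * h) x = cocφ Γ φ g (h • x) + cocφ Γ φ h x := by
  simp only [cocφ, coc_mul, ofMul_mul, map_add]

theorem cocφ_one (x : G ⧸ Γ) : cocφ Γ φ 1 x = 0 := by
  simp [cocφ, coc_one]

/-- The twisted cocycle `a_g(x) = c_φ(g, x) + b(g x) - b(x)`. -/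
noncomputable def acoc (b : G ⧸ Γ → ℂ) (g : G) (x : G ⧸ Γ) : ℂ :=
  cocφ Γ φ g x + b (g • x) - b x

theorem acoc_mul (b : G ⧸ Γ → ℂ) (g h : G) (x : G ⧸ Γ) :
    acoc Γ φ b (g * h) x = acoc Γ φ b g (h • x) + acoc Γ φ b h x := by
  simp only [acoc, cocφ_mul, mul_smul]
  ring

theorem acoc_one (b : G ⧸ Γ → ℂ) (x : G ⧸ Γ) : acoc Γ φ b 1 x = 0 := by
  simp [acoc, cocφ_one]

theorem acoc_inv (b : G ⧸ Γ → ℂ) (g : G) (x : G ⧸ Γ) :
    acoc Γ φ b g⁻¹ x = - acoc Γ φ b g (g⁻¹ • x) := by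
  have h := acoc_mul Γ φ b g g⁻¹ x
  rw [mul_inv_cancel, acoc_one] at h
  linear_combination -h

theorem acoc_pow (b : G ⧸ Γ → ℂ) (g : G) (n : ℕ) (x : G ⧸ Γ) :
    acoc Γ φ b (g ^ n) x = ∑ j ∈ Finset.range n, acoc Γ φ b g (g ^ j • x) := by
  induction n generalizing x with
  | zero => simp [acoc_one]
  | succ n ih =>
    rw [pow_succ, acoc_mul, Finset.sum_range_succ', ih (g • x)]
    simp only [pow_succ, mul_smul, pow_zero, one_smul]

/-- If `g` fixes `x` and `φ` kills the conjugates of `g`, then `a_g(x) = 0`. -/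
theorem acoc_fix (b : G ⧸ Γ → ℂ) (g : G) (x : G ⧸ Γ) (hx : g • x = x)
    (hφ : ∀ γ : Γ, ∀ h : G, (γ : G) = h⁻¹ * g * h → φ (Additive.ofMul γ) = 0) :
    acoc Γ φ b g x = 0 := by
  have h1 : cocφ Γ φ g x = 0 := hφ _ _ (coc_fix Γ g x hx)
  simp [acoc, h1, hx]

/-- If `a_S = 0` and `a_T = 0` for generators `S, T`, then `a_g = 0` for all `g`. -/
theorem acoc_eq_zero_of_gen (S T : G) (hgen : Subgroup.closure {S, T} = ⊤) (b : G ⧸ Γ → ℂ)
    (hS : ∀ x, acoc Γ φ b S x = 0) (hT : ∀ x, acoc Γ φ b T x = 0) (g : G) :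
    ∀ x, acoc Γ φ b g x = 0 := by
  have hg : g ∈ Subgroup.closure {S, T} := by rw [hgen]; trivial
  induction hg using Subgroup.closure_induction with
  | mem g hg =>
    rcases hg with rfl | hg
    · exact hS
    · rw [Set.mem_singleton_iff] at hg
      subst hg
      exact hT
  | one => exact acoc_one Γ φ b
  | mul g h _ _ ihg ihh => intro x; rw [acoc_mul, ihg, ihh, add_zero]
  | inv g _ ih => intro x; rw [acoc_inv, ih, neg_zero]

/-- If all `a_g` vanish then `φ = 0`. -/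
theorem eq_zero_of_acoc_eq_zero (b : G ⧸ Γ → ℂ) (h : ∀ g x, acoc Γ φ b g x = 0) : φ = 0 := by
  refine AddMonoidHom.ext fun γ' => ?_
  obtain ⟨γ, rfl⟩ : ∃ γ : Γ, Additive.ofMul γ = γ' := ⟨Additive.toMul γ', rfl⟩
  obtain ⟨δ, hδ⟩ := coc_base Γ γ
  have hfix : (γ : G) • (QuotientGroup.mk 1 : G ⧸ Γ) = QuotientGroup.mk 1 := by
    rw [MulAction.Quotient.smul_mk, QuotientGroup.eq]
    simp
  have h1 := h (γ : G) (QuotientGroup.mk 1)
  simp only [acoc, cocφ, hδ, hfix, add_sub_cancel_right] at h1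
  simpa [ofMul_mul, map_add] using h1

/-- A function invariant under all of `G` is constant. -/
theorem const_of_smul_invariant (b : G ⧸ Γ → ℂ) (h : ∀ (g : G) x, b (g • x) = b x)
    (x : G ⧸ Γ) : b x = b (QuotientGroup.mk 1) := by
  induction x using QuotientGroup.induction_on with
  | H g =>
    have := h g (QuotientGroup.mk 1)
    rw [MulAction.Quotient.smul_mk] at this
    simpa using this

/-- A function invariant under generators `S, T` is invariant under `G`. -/
theorem smul_invariant_of_gen (S T : G) (hgen : Subgroup.closure {S, T} = ⊤) (b : G ⧸ Γ → ℂ)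
    (hS : ∀ x, b (S • x) = b x) (hT : ∀ x, b (T • x) = b x) (g : G) :
    ∀ x, b (g • x) = b x := by
  have hg : g ∈ Subgroup.closure {S, T} := by rw [hgen]; trivial
  induction hg using Subgroup.closure_induction with
  | mem g hg =>
    rcases hg with rfl | hg
    · exact hS
    · rw [Set.mem_singleton_iff] at hg
      subst hg
      exact hT
  | one => intro x; rw [one_smul]
  | mul g h _ _ ihg ihh => intro x; rw [mul_smul, ihg, ihh]
  | inv g _ ih => intro x; rw [← ih (g⁻¹ • x), smul_inv_smul]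

end Cocycle

section Invariants

variable {G : Type*} [Group G] {X : Type*} [MulAction G X]

/-- Functions on `X` invariant under `g`. -/
def invSub (g : G) : Submodule ℂ (X → ℂ) where
  carrier := {b | ∀ x, b (g • x) = b x}
  zero_mem' := fun _ => rfl
  add_mem' := by
    intro a b ha hb x
    show a (g • x) + b (g • x) = a x + b x
    rw [ha x, hb x]
  smul_mem' := by
    intro c a ha x
    show c • a (g • x) = c • a x
    rw [ha x]

theorem mem_invSub {g : G} {b : X → ℂ} : b ∈ invSub g ↔ ∀ x, b (g • x) = b x := Iff.rfl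

theorem conj_mem_invSub {g : G} {b : X → ℂ} (hb : b ∈ invSub g) :
    (fun x => (starRingEnd ℂ) (b x)) ∈ invSub g := fun x => by
  show (starRingEnd ℂ) (b (g • x)) = (starRingEnd ℂ) (b x)
  rw [hb x]

theorem invSub_pow {g : G} {b : X → ℂ} (hb : b ∈ invSub g) (j : ℕ) (x : X) :
    b (g ^ j • x) = b x := by
  induction j with
  | zero => simp
  | succ j ih => rw [pow_succ', mul_smul, hb, ih]

/-- If `β` is `g`-invariant and `∑_{j<n} a(g^j x) = 0` for all `x` (`n > 0`), then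
`∑_x β(x) a(x) = 0`. -/
theorem sum_mul_eq_zero_of_invariant [Fintype X] (g : G) (n : ℕ) (hn : 0 < n) (β a : X → ℂ)
    (hβ : β ∈ invSub g) (ha : ∀ x, ∑ j ∈ Finset.range n, a (g ^ j • x) = 0) :
    ∑ x, β x * a x = 0 := by
  have key : ∀ j : ℕ, ∑ x, β x * a (g ^ j • x) = ∑ x, β x * a x := by
    intro j
    rw [← Equiv.sum_comp (MulAction.toPerm (g ^ j)) (fun x => β x * a x)]
    refine Finset.sum_congr rfl fun x _ => ?_
    simp only [MulAction.toPerm_apply]
    rw [invSub_pow hβ]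
  have h1 : (n : ℂ) * ∑ x, β x * a x = 0 := by
    calc (n : ℂ) * ∑ x, β x * a x
        = ∑ j ∈ Finset.range n, ∑ x, β x * a (g ^ j • x) := by
          rw [Finset.sum_congr rfl (fun j _ => key j)]
          simp
      _ = ∑ x, β x * ∑ j ∈ Finset.range n, a (g ^ j • x) := by
          rw [Finset.sum_comm]
          simp [Finset.mul_sum]
      _ = 0 := by simp [ha]
  rcases mul_eq_zero.mp h1 with h | h
  · exact absurd (by exact_mod_cast h) hn.ne'
  · exact h

end Invariants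

section Main

variable {G : Type*} [Group G] (Γ : Subgroup G)

/-- `(φ, b) ↦ a^{φ,b}_g` as a linear map. -/
noncomputable def acocL (g : G) :
    ((Additive Γ →+ ℂ) × (G ⧸ Γ → ℂ)) →ₗ[ℂ] (G ⧸ Γ → ℂ) where
  toFun p := fun x => acoc Γ p.1 p.2 g x
  map_add' p q := by
    ext x
    simp only [acoc, cocφ, Prod.fst_add, Prod.snd_add, AddMonoidHom.add_apply, Pi.add_apply]
    ring
  map_smul' c p := by
    ext x
    simp only [acoc, cocφ, Prod.smul_fst, Prod.smul_snd, AddMonoidHom.smul_apply, Pi.smul_apply,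
      smul_eq_mul, RingHom.id_apply]
    ring

@[simp] theorem acocL_apply (g : G) (p : (Additive Γ →+ ℂ) × (G ⧸ Γ → ℂ)) (x : G ⧸ Γ) :
    acocL Γ g p x = acoc Γ p.1 p.2 g x := rfl

variable (S T : G) (P : Submodule ℂ (Additive Γ →+ ℂ))

/-- The map `(φ, b) ↦ (a_S, a_{ST})` on `P × V`. -/
noncomputable def thetaL :
    (P × (G ⧸ Γ → ℂ)) →ₗ[ℂ] (G ⧸ Γ → ℂ) × (G ⧸ Γ → ℂ) :=
  ((acocL Γ S).prod (acocL Γ (S * T))).comp (LinearMap.prodMap P.subtype LinearMap.id)

theorem thetaL_apply (p : P × (G ⧸ Γ → ℂ)) :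
    thetaL Γ S T P p = (fun x => acoc Γ (p.1 : Additive Γ →+ ℂ) p.2 S x,
      fun x => acoc Γ (p.1 : Additive Γ →+ ℂ) p.2 (S * T) x) := rfl

/-- The map `(β, β', τ) ↦ (β - τ, β' + τ)` on `V^S × V^{ST} × V^T`. -/
noncomputable def jL :
    (↥(invSub S : Submodule ℂ (G ⧸ Γ → ℂ)) × ↥(invSub (S * T) : Submodule ℂ (G ⧸ Γ → ℂ)) ×
      ↥(invSub T : Submodule ℂ (G ⧸ Γ → ℂ))) →ₗ[ℂ] (G ⧸ Γ → ℂ) × (G ⧸ Γ → ℂ) where
  toFun p := ((p.1 : G ⧸ Γ → ℂ) - (p.2.2 : G ⧸ Γ → ℂ), (p.2.1 : G ⧸ Γ → ℂ) + (p.2.2 : G ⧸ Γ → ℂ))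
  map_add' p q := by
    ext x
    · simp only [Prod.fst_add, Prod.snd_add, Submodule.coe_add, Pi.add_apply, Pi.sub_apply]
      ring
    · simp only [Prod.fst_add, Prod.snd_add, Submodule.coe_add, Pi.add_apply]
      ring
  map_smul' c p := by
    ext x
    · simp only [Prod.smul_fst, Prod.smul_snd, Submodule.coe_smul, Pi.smul_apply, Pi.sub_apply,
        smul_eq_mul, RingHom.id_apply]
      ring
    · simp only [Prod.smul_fst, Prod.smul_snd, Submodule.coe_smul, Pi.smul_apply, Pi.add_apply,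
        smul_eq_mul, RingHom.id_apply]
      ring

theorem jL_apply (p : ↥(invSub S : Submodule ℂ (G ⧸ Γ → ℂ)) ×
    ↥(invSub (S * T) : Submodule ℂ (G ⧸ Γ → ℂ)) × ↥(invSub T : Submodule ℂ (G ⧸ Γ → ℂ))) :
    jL Γ S T p = ((p.1 : G ⧸ Γ → ℂ) - (p.2.2 : G ⧸ Γ → ℂ),
      (p.2.1 : G ⧸ Γ → ℂ) + (p.2.2 : G ⧸ Γ → ℂ)) := rfl

/-- `g ^ n` acts trivially on `G ⧸ Γ` (`n > 0`) and every `φ ∈ P` kills the conjugates of
`g ^ n` lying in `Γ`. -/
def KillsPow (g : G) (n : ℕ) : Prop :=
  0 < n ∧ (∀ x : G ⧸ Γ, g ^ n • x = x) ∧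
    ∀ φ ∈ P, ∀ γ : Γ, ∀ h : G, (γ : G) = h⁻¹ * g ^ n * h → φ (Additive.ofMul γ) = 0

variable {Γ P} in
theorem sum_mul_acoc_eq_zero [Fintype (G ⧸ Γ)] {g : G} {n : ℕ} (hk : KillsPow Γ P g n)
    {φ : Additive Γ →+ ℂ} (hφ : φ ∈ P) (b β : G ⧸ Γ → ℂ) (hβ : β ∈ invSub g) :
    ∑ x, β x * acoc Γ φ b g x = 0 := by
  refine sum_mul_eq_zero_of_invariant g n hk.1 β _ hβ fun x => ?_
  rw [← acoc_pow]
  exact acoc_fix Γ φ b (g ^ n) x (hk.2.1 x) (hk.2.2 φ hφ)

variable {Γ P S T} in
/-- The key orthogonality relation. -/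
theorem orth [Fintype (G ⧸ Γ)] {nS nU nT : ℕ} (hS : KillsPow Γ P S nS)
    (hU : KillsPow Γ P (S * T) nU) (hT : KillsPow Γ P T nT)
    {φ : Additive Γ →+ ℂ} (hφ : φ ∈ P) (b β β' τ : G ⧸ Γ → ℂ)
    (hβ : β ∈ invSub S) (hβ' : β' ∈ invSub (S * T)) (hτ : τ ∈ invSub T) :
    ∑ x, (β x - τ x) * acoc Γ φ b S x + ∑ x, (β' x + τ x) * acoc Γ φ b (S * T) x = 0 := by
  have h1 := sum_mul_acoc_eq_zero hS hφ b β hβ
  have h2 := sum_mul_acoc_eq_zero hU hφ b β' hβ'
  have h3 := sum_mul_acoc_eq_zero hT hφ b τ hτ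
  have h4 : ∑ x, τ x * acoc Γ φ b (S * T) x = ∑ x, τ x * acoc Γ φ b S x := by
    have h5 : ∑ x, τ x * acoc Γ φ b S (T • x) = ∑ x, τ x * acoc Γ φ b S x := by
      rw [← Equiv.sum_comp (MulAction.toPerm T) (fun x => τ x * acoc Γ φ b S x)]
      refine Finset.sum_congr rfl fun x _ => ?_
      simp only [MulAction.toPerm_apply]
      rw [hτ x]
    calc ∑ x, τ x * acoc Γ φ b (S * T) x
        = ∑ x, τ x * acoc Γ φ b S (T • x) + ∑ x, τ x * acoc Γ φ b T x := by
          rw [← Finset.sum_add_distrib]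
          refine Finset.sum_congr rfl fun x _ => ?_
          rw [acoc_mul]
          ring
      _ = ∑ x, τ x * acoc Γ φ b S x := by rw [h5, h3, add_zero]
  simp only [sub_mul, add_mul, Finset.sum_sub_distrib, Finset.sum_add_distrib]
  rw [h1, h2, h4]
  ring

variable {Γ P S T} in
/-- The ranges of `thetaL` and `jL` are disjoint. -/
theorem disjoint_range [Fintype (G ⧸ Γ)] {nS nU nT : ℕ} (hS : KillsPow Γ P S nS)
    (hU : KillsPow Γ P (S * T) nU) (hT : KillsPow Γ P T nT) :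
    Disjoint (LinearMap.range (thetaL Γ S T P)) (LinearMap.range (jL Γ S T)) := by
  rw [Submodule.disjoint_def]
  rintro v ⟨⟨φ, b⟩, hv1⟩ ⟨⟨β, β', τ⟩, hv2⟩
  have h := orth hS hU hT φ.2 b (fun x => (starRingEnd ℂ) (β.1 x))
    (fun x => (starRingEnd ℂ) (β'.1 x)) (fun x => (starRingEnd ℂ) (τ.1 x))
    (conj_mem_invSub β.2) (conj_mem_invSub β'.2) (conj_mem_invSub τ.2)
  have e1 : ∀ x, acoc Γ (φ : Additive Γ →+ ℂ) b S x = v.1 x := fun x => by rw [← hv1]; rfl
  have e2 : ∀ x, acoc Γ (φ : Additive Γ →+ ℂ) b (S * T) x = v.2 x := fun x => by rw [← hv1]; rfl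
  have e3 : ∀ x, β.1 x - τ.1 x = v.1 x := fun x => by rw [← hv2]; rfl
  have e4 : ∀ x, β'.1 x + τ.1 x = v.2 x := fun x => by rw [← hv2]; rfl
  have h' : ∑ x, ((Complex.normSq (v.1 x) : ℝ) : ℂ) + ∑ x, ((Complex.normSq (v.2 x) : ℝ) : ℂ)
      = 0 := by
    rw [← h]
    congr 1
    · refine Finset.sum_congr rfl fun x _ => ?_
      rw [e1, ← map_sub, e3, Complex.normSq_eq_conj_mul_self]
    · refine Finset.sum_congr rfl fun x _ => ?_
      rw [e2, ← map_add, e4, Complex.normSq_eq_conj_mul_self]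
  have h'' : ∑ x, Complex.normSq (v.1 x) + ∑ x, Complex.normSq (v.2 x) = 0 := by
    exact_mod_cast h'
  have n1 : 0 ≤ ∑ x, Complex.normSq (v.1 x) :=
    Finset.sum_nonneg fun x _ => Complex.normSq_nonneg _
  have n2 : 0 ≤ ∑ x, Complex.normSq (v.2 x) :=
    Finset.sum_nonneg fun x _ => Complex.normSq_nonneg _
  have z1 : ∑ x, Complex.normSq (v.1 x) = 0 := by linarith
  have z2 : ∑ x, Complex.normSq (v.2 x) = 0 := by linarith
  rw [Finset.sum_eq_zero_iff_of_nonneg (fun x _ => Complex.normSq_nonneg _)] at z1 z2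
  refine Prod.ext ?_ ?_
  · funext x
    exact Complex.normSq_eq_zero.mp (z1 x (Finset.mem_univ x))
  · funext x
    exact Complex.normSq_eq_zero.mp (z2 x (Finset.mem_univ x))

variable {Γ P S T} in
/-- The kernel of `thetaL` consists of pairs `(0, constant)`. -/
theorem eq_zero_of_thetaL_eq_zero (hgen : Subgroup.closure {S, T} = ⊤)
    (p : P × (G ⧸ Γ → ℂ)) (h : thetaL Γ S T P p = 0) :
    (p.1 : Additive Γ →+ ℂ) = 0 ∧ ∀ x, p.2 x = p.2 (QuotientGroup.mk 1) := by
  rw [thetaL_apply] at h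
  have hS : ∀ x, acoc Γ (p.1 : Additive Γ →+ ℂ) p.2 S x = 0 := fun x =>
    congrFun (congrArg Prod.fst h) x
  have hU : ∀ x, acoc Γ (p.1 : Additive Γ →+ ℂ) p.2 (S * T) x = 0 := fun x =>
    congrFun (congrArg Prod.snd h) x
  have hT : ∀ x, acoc Γ (p.1 : Additive Γ →+ ℂ) p.2 T x = 0 := fun x => by
    have := hU x
    rw [acoc_mul, hS, zero_add] at this
    exact this
  have hall := acoc_eq_zero_of_gen Γ (p.1 : Additive Γ →+ ℂ) S T hgen p.2 hS hT
  have hφ := eq_zero_of_acoc_eq_zero Γ (p.1 : Additive Γ →+ ℂ) p.2 hall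
  refine ⟨hφ, ?_⟩
  refine const_of_smul_invariant Γ p.2 fun g x => ?_
  have := hall g x
  rw [hφ] at this
  simp only [acoc, cocφ, AddMonoidHom.zero_apply, zero_add] at this
  exact sub_eq_zero.mp this

variable {Γ P S T} in
theorem finrank_ker_thetaL_le (hgen : Subgroup.closure {S, T} = ⊤) :
    Module.finrank ℂ (LinearMap.ker (thetaL Γ S T P)) ≤ 1 := by
  have hle : LinearMap.ker (thetaL Γ S T P) ≤
      Submodule.span ℂ {((0 : P), (fun _ => (1 : ℂ) : G ⧸ Γ → ℂ))} := by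
    intro p hp
    obtain ⟨h1, h2⟩ := eq_zero_of_thetaL_eq_zero hgen p (LinearMap.mem_ker.mp hp)
    rw [Submodule.mem_span_singleton]
    refine ⟨p.2 (QuotientGroup.mk 1), ?_⟩
    refine Prod.ext ?_ ?_
    · apply Subtype.ext
      simp [h1]
    · funext x
      simp [h2 x]
  calc Module.finrank ℂ (LinearMap.ker (thetaL Γ S T P))
      ≤ Module.finrank ℂ (Submodule.span ℂ {((0 : P), (fun _ => (1 : ℂ) : G ⧸ Γ → ℂ))}) :=
        Submodule.finrank_mono hle
    _ ≤ 1 := by
      have := finrank_span_le_card (R := ℂ)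
        ({((0 : P), (fun _ => (1 : ℂ) : G ⧸ Γ → ℂ))} : Set (P × (G ⧸ Γ → ℂ)))
      simpa using this

/-- The constant function `c`, as an element of `invSub g`. -/
def constInv {X : Type*} [MulAction G X] (g : G) (c : ℂ) :
    (invSub g : Submodule ℂ (X → ℂ)) := ⟨fun _ => c, fun _ => rfl⟩

variable {Γ P S T} in
theorem finrank_ker_jL_le (hgen : Subgroup.closure {S, T} = ⊤) :
    Module.finrank ℂ (LinearMap.ker (jL Γ S T)) ≤ 1 := by
  have hle : LinearMap.ker (jL Γ S T) ≤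
      Submodule.span ℂ {((constInv S 1 : (invSub S : Submodule ℂ (G ⧸ Γ → ℂ))),
        (constInv (S * T) (-1) : (invSub (S * T) : Submodule ℂ (G ⧸ Γ → ℂ))),
        (constInv T 1 : (invSub T : Submodule ℂ (G ⧸ Γ → ℂ))))} := by
    rintro ⟨β, β', τ⟩ hker
    rw [LinearMap.mem_ker, jL_apply] at hker
    have h1 : ∀ x, β.1 x = τ.1 x := fun x =>
      sub_eq_zero.mp (congrFun (congrArg Prod.fst hker) x)
    have h2 : ∀ x, β'.1 x = - τ.1 x := fun x =>
      eq_neg_of_add_eq_zero_left (congrFun (congrArg Prod.snd hker) x)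
    have hτS : ∀ x, τ.1 (S • x) = τ.1 x := fun x => by rw [← h1, ← h1, β.2 x]
    have hτ : ∀ x, τ.1 x = τ.1 (QuotientGroup.mk 1) := fun x =>
      const_of_smul_invariant Γ τ.1 (smul_invariant_of_gen Γ S T hgen τ.1 hτS τ.2) x
    rw [Submodule.mem_span_singleton]
    refine ⟨τ.1 (QuotientGroup.mk 1), ?_⟩
    refine Prod.ext (Subtype.ext ?_) (Prod.ext (Subtype.ext ?_) (Subtype.ext ?_))
    · funext x
      simp [constInv, h1 x, ← hτ x]
    · funext x
      simp [constInv, h2 x, ← hτ x]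
    · funext x
      simp [constInv, ← hτ x]
  refine le_trans (Submodule.finrank_mono hle) ?_
  have := finrank_span_le_card (R := ℂ)
    ({((constInv S 1 : (invSub S : Submodule ℂ (G ⧸ Γ → ℂ))),
        (constInv (S * T) (-1) : (invSub (S * T) : Submodule ℂ (G ⧸ Γ → ℂ))),
        (constInv T 1 : (invSub T : Submodule ℂ (G ⧸ Γ → ℂ))))} :
      Set (↥(invSub S : Submodule ℂ (G ⧸ Γ → ℂ)) × ↥(invSub (S * T) : Submodule ℂ (G ⧸ Γ → ℂ)) ×
        ↥(invSub T : Submodule ℂ (G ⧸ Γ → ℂ))))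
  simpa using this

variable {Γ P S T} in
theorem finite_of_gen [Finite (G ⧸ Γ)] (hgen : Subgroup.closure {S, T} = ⊤) :
    Module.Finite ℂ P := by
  let f : P →ₗ[ℂ] (G ⧸ Γ → ℂ) × (G ⧸ Γ → ℂ) :=
    (thetaL Γ S T P).comp (LinearMap.inl ℂ P (G ⧸ Γ → ℂ))
  have hinj : Function.Injective f := by
    refine (injective_iff_map_eq_zero f).mpr fun φ hφ => ?_
    exact Subtype.ext (eq_zero_of_thetaL_eq_zero hgen (φ, 0) hφ).1
  exact Module.Finite.of_injective f hinj

variable {Γ P S T} in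
/-- **The abstract dimension bound.** -/
theorem finrank_add_le [Fintype (G ⧸ Γ)] (hgen : Subgroup.closure {S, T} = ⊤)
    {nS nU nT : ℕ} (hS : KillsPow Γ P S nS) (hU : KillsPow Γ P (S * T) nU)
    (hT : KillsPow Γ P T nT) :
    Module.Finite ℂ P ∧
    Module.finrank ℂ P + Module.finrank ℂ (invSub S : Submodule ℂ (G ⧸ Γ → ℂ))
      + Module.finrank ℂ (invSub (S * T) : Submodule ℂ (G ⧸ Γ → ℂ))
      + Module.finrank ℂ (invSub T : Submodule ℂ (G ⧸ Γ → ℂ))
      ≤ Fintype.card (G ⧸ Γ) + 2 := by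
  have hfin : Module.Finite ℂ P := finite_of_gen hgen
  refine ⟨hfin, ?_⟩
  have h1 := Submodule.finrank_add_finrank_le_of_disjoint (disjoint_range hS hU hT)
  have h2 := LinearMap.finrank_range_add_finrank_ker (thetaL Γ S T P)
  have h3 := LinearMap.finrank_range_add_finrank_ker (jL Γ S T)
  have h4 := finrank_ker_thetaL_le (Γ := Γ) (P := P) hgen
  have h5 := finrank_ker_jL_le (Γ := Γ) hgen
  simp only [Module.finrank_prod, Module.finrank_pi] at h1 h2 h3
  omega

end Main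

section Dim

variable {G : Type*} [Group G] {X : Type*} [MulAction G X] [Fintype X]

/-- Precomposition with the action of `h`, as a linear map. -/
noncomputable def preL (h : G) : (X → ℂ) →ₗ[ℂ] (X → ℂ) :=
  LinearMap.funLeft ℂ ℂ (fun x => h • x)

omit [Fintype X] in
theorem preL_apply (h : G) (b : X → ℂ) (x : X) : preL h b x = b (h • x) := rfl

theorem trace_preL [DecidableEq X] (h : G) :
    LinearMap.trace ℂ (X → ℂ) (preL h) = (Fintype.card {x : X // h • x = x} : ℂ) := by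
  rw [LinearMap.trace_eq_matrix_trace ℂ (Pi.basisFun ℂ X), LinearMap.toMatrix_eq_toMatrix',
    Matrix.trace]
  simp only [Matrix.diag_apply, LinearMap.toMatrix'_apply, preL_apply]
  rw [Fintype.card_subtype]
  simp [Pi.single_apply, Finset.sum_boole]

theorem finrank_invSub_mul (g : G) (n : ℕ) (hn : 0 < n) (hg : ∀ x : X, g ^ n • x = x) :
    n * Module.finrank ℂ (invSub g : Submodule ℂ (X → ℂ))
      = ∑ j ∈ Finset.range n, Nat.card {x : X // g ^ j • x = x} := by
  classical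
  have hn0 : (n : ℂ) ≠ 0 := by exact_mod_cast hn.ne'
  have hπ : LinearMap.IsProj (invSub g : Submodule ℂ (X → ℂ))
      ((n : ℂ)⁻¹ • ∑ j ∈ Finset.range n, preL (g ^ j)) := by
    constructor
    · intro b x
      simp only [LinearMap.smul_apply, LinearMap.sum_apply, Pi.smul_apply, Finset.sum_apply,
        preL_apply, smul_eq_mul]
      congr 1
      have h1 : ∀ j, b (g ^ j • g • x) = b (g ^ (j + 1) • x) := fun j => by
        rw [pow_succ, mul_smul]
      simp only [h1]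
      have h2 := Finset.sum_range_succ (fun j => b (g ^ j • x)) n
      have h3 := Finset.sum_range_succ' (fun j => b (g ^ j • x)) n
      simp only [hg, pow_zero, one_smul] at h2 h3
      rw [h2] at h3
      exact add_right_cancel h3.symm
    · intro b hb
      funext x
      simp only [LinearMap.smul_apply, LinearMap.sum_apply, Pi.smul_apply, Finset.sum_apply,
        preL_apply, smul_eq_mul, invSub_pow hb]
      simp [hn0]
  have h1 := hπ.trace
  simp only [map_smul, map_sum, trace_preL, smul_eq_mul] at h1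
  have h2 : ((n * Module.finrank ℂ (invSub g : Submodule ℂ (X → ℂ)) : ℕ) : ℂ)
      = ((∑ j ∈ Finset.range n, Nat.card {x : X // g ^ j • x = x} : ℕ) : ℂ) := by
    push_cast
    rw [← h1]
    simp only [Nat.card_eq_fintype_card]
    field_simp
  exact_mod_cast h2


theorem card_orbits_le_finrank_invSub (g : G) :
    Nat.card (MulAction.orbitRel.Quotient (Subgroup.zpowers g) X)
      ≤ Module.finrank ℂ (invSub g : Submodule ℂ (X → ℂ)) := by
  classical
  have : Fintype (MulAction.orbitRel.Quotient (Subgroup.zpowers g) X) := Fintype.ofFinite _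
  have hsurj : Function.Surjective
      (Quotient.mk'' : X → MulAction.orbitRel.Quotient (Subgroup.zpowers g) X) :=
    Quotient.mk''_surjective
  have hinj : Function.Injective (LinearMap.funLeft ℂ ℂ
      (Quotient.mk'' : X → MulAction.orbitRel.Quotient (Subgroup.zpowers g) X)) :=
    LinearMap.funLeft_injective_of_surjective ℂ ℂ _ hsurj
  have hrange : LinearMap.range (LinearMap.funLeft ℂ ℂ
      (Quotient.mk'' : X → MulAction.orbitRel.Quotient (Subgroup.zpowers g) X))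
      ≤ (invSub g : Submodule ℂ (X → ℂ)) := by
    rintro _ ⟨f, rfl⟩ x
    show f (Quotient.mk'' (g • x)) = f (Quotient.mk'' x)
    congr 1
    apply Quotient.sound'
    rw [MulAction.orbitRel_apply]
    exact ⟨⟨g, Subgroup.mem_zpowers g⟩, rfl⟩
  calc Nat.card (MulAction.orbitRel.Quotient (Subgroup.zpowers g) X)
      = Module.finrank ℂ (MulAction.orbitRel.Quotient (Subgroup.zpowers g) X → ℂ) := by
        simp [Nat.card_eq_fintype_card]
    _ = Module.finrank ℂ (LinearMap.range (LinearMap.funLeft ℂ ℂ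
          (Quotient.mk'' : X → MulAction.orbitRel.Quotient (Subgroup.zpowers g) X))) :=
        (LinearMap.finrank_range_of_inj hinj).symm
    _ ≤ Module.finrank ℂ (invSub g : Submodule ℂ (X → ℂ)) := Submodule.finrank_mono hrange

/-- Involutions: `2 dim V^g = |X| + |Fix g|`. -/
theorem two_mul_finrank_invSub (g : G) (hg : ∀ x : X, g ^ 2 • x = x) :
    2 * Module.finrank ℂ (invSub g : Submodule ℂ (X → ℂ))
      = Nat.card X + Nat.card {x : X // g • x = x} := by
  have h := finrank_invSub_mul g 2 (by norm_num) hg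
  have h0 : Nat.card {x : X // g ^ 0 • x = x} = Nat.card X :=
    Nat.card_congr (Equiv.subtypeUnivEquiv fun x => by simp)
  have h1 : Nat.card {x : X // g ^ 1 • x = x} = Nat.card {x : X // g • x = x} :=
    Nat.card_congr (Equiv.subtypeEquivRight fun x => by rw [pow_one])
  rw [h, Finset.sum_range_succ, Finset.sum_range_one, h0, h1]

/-- Order three: `3 dim V^g = |X| + 2 |Fix g|`. -/
theorem three_mul_finrank_invSub (g : G) (hg : ∀ x : X, g ^ 3 • x = x) :
    3 * Module.finrank ℂ (invSub g : Submodule ℂ (X → ℂ))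
      = Nat.card X + 2 * Nat.card {x : X // g • x = x} := by
  have h := finrank_invSub_mul g 3 (by norm_num) hg
  have h0 : Nat.card {x : X // g ^ 0 • x = x} = Nat.card X :=
    Nat.card_congr (Equiv.subtypeUnivEquiv fun x => by simp)
  have h1 : Nat.card {x : X // g ^ 1 • x = x} = Nat.card {x : X // g • x = x} :=
    Nat.card_congr (Equiv.subtypeEquivRight fun x => by rw [pow_one])
  have h2 : Nat.card {x : X // g ^ 2 • x = x} = Nat.card {x : X // g • x = x} := by
    refine Nat.card_congr (Equiv.subtypeEquivRight fun x => ?_)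
    constructor
    · intro hx
      have := hg x
      rw [pow_succ', mul_smul, hx] at this
      exact this
    · intro hx
      rw [pow_two, mul_smul, hx, hx]
  rw [h, Finset.sum_range_succ, Finset.sum_range_succ, Finset.sum_range_one, h0, h1, h2]
  ring

end Dim

end Fermat.Agent.S21lib
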