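import Mathlib
import Fermat.Prelude.Def_ModularCurve_PeriodHomPair
import Fermat.Prelude.Def_ModularCurve_GenusNumerics
import Fermat.Agent.S20_Comb
import Fermat.Agent.S21_CohomAbstract

set_option autoImplicit false

/-!
# `dim Hom_par(Γ₀(N), ℂ) ≤ 2g`

Specialisation of the abstract bound of `S21_CohomAbstract` to `Γ₀(N) ≤ SL(2, ℤ)`, using the
counts of S20 Part C (`Fermat.Agent.S20lib`).
-/

open CongruenceSubgroup ModularCurve ModularCurve.Period
open scoped MatrixGroups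

namespace Fermat.Agent.S21lib

theorem S_sq_eq_neg_one : (ModularGroup.S : SL(2, ℤ)) ^ 2 = -1 := by
  apply Subtype.ext
  rw [pow_two]
  simpa using ModularGroup.S_mul_S_eq

theorem ST_cube_eq_neg_one : ((ModularGroup.S : SL(2, ℤ)) * ModularGroup.T) ^ 3 = -1 := by
  apply Subtype.ext
  simp only [pow_succ, pow_zero, one_mul, Matrix.SpecialLinearGroup.coe_mul, ModularGroup.coe_S,
    ModularGroup.coe_T, Matrix.SpecialLinearGroup.coe_neg, Matrix.SpecialLinearGroup.coe_one]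
  ext i j
  fin_cases i <;> fin_cases j <;> simp [Matrix.mul_apply, Fin.sum_univ_two]

theorem neg_one_smul_quot (N : ℕ) (x : SL(2, ℤ) ⧸ Gamma0 N) : (-1 : SL(2, ℤ)) • x = x := by
  induction x using QuotientGroup.induction_on with
  | H g =>
    rw [MulAction.Quotient.smul_mk, QuotientGroup.eq]
    have : ((-1 : SL(2, ℤ)) • g)⁻¹ * g = -1 := by
      rw [inv_mul_eq_iff_eq_mul, smul_eq_mul, neg_mul, one_mul, neg_mul, mul_neg, mul_one, neg_neg]
    rw [this, Gamma0_mem]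
    simp

theorem trace_conj_SL (h A : SL(2, ℤ)) :
    ((h⁻¹ * A * h : SL(2, ℤ)) : Matrix (Fin 2) (Fin 2) ℤ).trace
      = (A : Matrix (Fin 2) (Fin 2) ℤ).trace := by
  rw [Matrix.SpecialLinearGroup.coe_mul, Matrix.trace_mul_comm, ← Matrix.SpecialLinearGroup.coe_mul,
    ← mul_assoc, mul_inv_cancel, one_mul]

theorem trace_neg_one_SL : ((-1 : SL(2, ℤ)) : Matrix (Fin 2) (Fin 2) ℤ).trace = -2 := by
  simp [Matrix.trace]

theorem trace_T_pow (n : ℕ) :
    ((ModularGroup.T ^ n : SL(2, ℤ)) : Matrix (Fin 2) (Fin 2) ℤ).trace = 2 := by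
  have h := ModularGroup.coe_T_zpow (n : ℤ)
  rw [zpow_natCast] at h
  change ((ModularGroup.T ^ n : SL(2, ℤ)).1).trace = 2
  rw [h]
  simp [Matrix.trace]

theorem killsPow_of_neg_one (N : ℕ) (g : SL(2, ℤ)) (n : ℕ) (hn : 0 < n) (hg : g ^ n = -1) :
    KillsPow (Gamma0 N) (parabolicHoms ℂ (Gamma0 N) ℂ) g n := by
  refine ⟨hn, fun x => by rw [hg]; exact neg_one_smul_quot N x, ?_⟩
  intro φ hφ γ h hγ
  apply hφ γ
  rw [hγ, trace_conj_SL, hg, trace_neg_one_SL]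
  norm_num

theorem killsPow_T (N : ℕ) [NeZero N] :
    ∃ n : ℕ, KillsPow (Gamma0 N) (parabolicHoms ℂ (Gamma0 N) ℂ) ModularGroup.T n := by
  have : Finite (SL(2, ℤ) ⧸ Gamma0 N) := Subgroup.finite_quotient_of_finiteIndex
  have : Finite (Equiv.Perm (SL(2, ℤ) ⧸ Gamma0 N)) := by
    classical
    have : Fintype (SL(2, ℤ) ⧸ Gamma0 N) := Fintype.ofFinite _
    infer_instance
  refine ⟨orderOf (MulAction.toPermHom SL(2, ℤ) (SL(2, ℤ) ⧸ Gamma0 N) ModularGroup.T),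
    orderOf_pos _, fun x => ?_, ?_⟩
  · have h := pow_orderOf_eq_one
      (MulAction.toPermHom SL(2, ℤ) (SL(2, ℤ) ⧸ Gamma0 N) ModularGroup.T)
    rw [← map_pow] at h
    have h' := congrArg (fun e : Equiv.Perm (SL(2, ℤ) ⧸ Gamma0 N) => e x) h
    simpa using h'
  · intro φ hφ γ h hγ
    apply hφ γ
    rw [hγ, trace_conj_SL, trace_T_pow]
    norm_num

/-- (II) `dim Hom_par(Γ₀(N), ℂ) ≤ 2g`, by Shapiro-type bookkeeping on `X = SL(2,ℤ)/Γ₀(N)`
and S20 Part C. -/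
theorem finrank_parabolicHoms_le (N : ℕ) [NeZero N] :
    Module.Finite ℂ (parabolicHoms ℂ (Gamma0 N) ℂ) ∧
    (Module.finrank ℂ (parabolicHoms ℂ (Gamma0 N) ℂ) : ℚ) ≤ 2 * genusFormula N := by
  classical
  have hfin : Finite (SL(2, ℤ) ⧸ Gamma0 N) := Subgroup.finite_quotient_of_finiteIndex
  have hft : Fintype (SL(2, ℤ) ⧸ Gamma0 N) := Fintype.ofFinite _
  obtain ⟨nT, hT⟩ := killsPow_T N
  have hS := killsPow_of_neg_one N ModularGroup.S 2 (by norm_num) S_sq_eq_neg_one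
  have hU := killsPow_of_neg_one N (ModularGroup.S * ModularGroup.T) 3 (by norm_num)
    ST_cube_eq_neg_one
  obtain ⟨h1, h2⟩ := finrank_add_le (Γ := Gamma0 N) (P := parabolicHoms ℂ (Gamma0 N) ℂ)
    SpecialLinearGroup.SL2Z_generators hS hU hT
  refine ⟨h1, ?_⟩
  have e2 := two_mul_finrank_invSub (X := SL(2, ℤ) ⧸ Gamma0 N) ModularGroup.S hS.2.1
  have e3 := three_mul_finrank_invSub (X := SL(2, ℤ) ⧸ Gamma0 N)
    (ModularGroup.S * ModularGroup.T) hU.2.1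
  have eT := card_orbits_le_finrank_invSub (X := SL(2, ℤ) ⧸ Gamma0 N) ModularGroup.T
  rw [Fermat.Agent.S20lib.card_fixed_S, Fermat.Agent.S20lib.card_quot_Gamma0] at e2
  rw [Fermat.Agent.S20lib.card_fixed_ST, Fermat.Agent.S20lib.card_quot_Gamma0] at e3
  have eT0 := Fermat.Agent.S20lib.card_orbits_T N
  rw [← Nat.card_eq_fintype_card, Fermat.Agent.S20lib.card_quot_Gamma0] at h2
  have e2' : (2 : ℚ) * (Module.finrank ℂ
      (invSub ModularGroup.S : Submodule ℂ (SL(2, ℤ) ⧸ Gamma0 N → ℂ)) : ℚ)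
      = dedekindPsi N + nuTwo N := by exact_mod_cast e2
  have e3' : (3 : ℚ) * (Module.finrank ℂ
      (invSub (ModularGroup.S * ModularGroup.T) : Submodule ℂ (SL(2, ℤ) ⧸ Gamma0 N → ℂ)) : ℚ)
      = dedekindPsi N + 2 * nuThree N := by exact_mod_cast e3
  have eT' : (cuspCount N : ℚ) ≤ (Module.finrank ℂ
      (invSub ModularGroup.T : Submodule ℂ (SL(2, ℤ) ⧸ Gamma0 N → ℂ)) : ℚ) := by
    rw [← eT0]
    exact_mod_cast eT
  have h2' : (Module.finrank ℂ (parabolicHoms ℂ (Gamma0 N) ℂ) : ℚ)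
      + (Module.finrank ℂ (invSub ModularGroup.S : Submodule ℂ (SL(2, ℤ) ⧸ Gamma0 N → ℂ)) : ℚ)
      + (Module.finrank ℂ
          (invSub (ModularGroup.S * ModularGroup.T) : Submodule ℂ (SL(2, ℤ) ⧸ Gamma0 N → ℂ)) : ℚ)
      + (Module.finrank ℂ (invSub ModularGroup.T : Submodule ℂ (SL(2, ℤ) ⧸ Gamma0 N → ℂ)) : ℚ)
      ≤ dedekindPsi N + 2 := by exact_mod_cast h2
  unfold genusFormula
  linarith

end Fermat.Agent.S21lib
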