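import Mathlib.NumberTheory.ModularForms.QExpansion
import Mathlib.Analysis.Complex.HasPrimitives
import Mathlib.Analysis.Complex.RemovableSingularity

/-!
# S21 (P0): primitives of periodic holomorphic functions on the upper half plane

A holomorphic `h`-periodic function on `ℍ` vanishing at `i∞` has a primitive tending to `0`
at `i∞`.
-/

set_option autoImplicit false

open UpperHalfPlane Filter Topology Function
open scoped Manifold

namespace Fermat.Agent.S21lib

/-- (P0) A holomorphic `h`-periodic function on `ℍ` vanishing at `i∞` has a primitive tending to `0`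
at `i∞`. -/
theorem exists_primitive_of_periodic {g : ℍ → ℂ} {h : ℝ} (hh : 0 < h)
    (hper : Function.Periodic (g ∘ ofComplex) h) (hhol : MDiff g) (hzero : IsZeroAtImInfty g) :
    ∃ G : ℍ → ℂ, (∀ τ : ℍ, HasDerivAt (G ∘ ofComplex) (g τ) ↑τ) ∧ Tendsto G atImInfty (𝓝 0) := by
  have hbdd : IsBoundedAtImInfty g := hzero.boundedAtFilter
  set φ : ℂ → ℂ := cuspFunction h g with hφ
  have hφdiff : DifferentiableOn ℂ φ (Metric.ball 0 1) :=
    differentiableOn_cuspFunction_ball hh hper hhol hbdd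
  have hφ0 : φ 0 = 0 := hzero.cuspFunction_apply_zero hh
  have hball : Metric.ball (0 : ℂ) 1 ∈ 𝓝 (0 : ℂ) := Metric.ball_mem_nhds 0 one_pos
  have hψdiff : DifferentiableOn ℂ (dslope φ 0) (Metric.ball 0 1) :=
    (Complex.differentiableOn_dslope hball).mpr hφdiff
  obtain ⟨Ψ, hΨ0, hΨ⟩ := hψdiff.isExactOn_ball.with_val_at 0 0
  have hc : (2 * (Real.pi : ℂ) * Complex.I / h) ≠ 0 :=
    div_ne_zero Complex.two_pi_I_ne_zero (by exact_mod_cast hh.ne')
  -- the primitive on `ℂ`
  set F : ℂ → ℂ := fun z => (h / (2 * (Real.pi : ℂ) * Complex.I)) * Ψ (Periodic.qParam h z) with hF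
  refine ⟨fun τ => F τ, fun τ => ?_, ?_⟩
  · -- derivative
    have hq1 : ‖Periodic.qParam h (τ : ℂ)‖ < 1 := Periodic.norm_qParam_lt_one hh τ.im_pos
    have hqmem : Periodic.qParam h (τ : ℂ) ∈ Metric.ball (0 : ℂ) 1 := by
      simpa [Metric.mem_ball, dist_zero_right] using hq1
    have hqne : Periodic.qParam h (τ : ℂ) ≠ 0 := Periodic.qParam_ne_zero _
    have hΨd := hΨ _ hqmem
    have hqd : HasDerivAt (Periodic.qParam h)
        (Periodic.qParam h (τ : ℂ) * (2 * (Real.pi : ℂ) * Complex.I / h)) (τ : ℂ) := by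
      have := (((hasDerivAt_id (τ : ℂ)).const_mul (2 * (Real.pi : ℂ) * Complex.I)).div_const
        (h : ℂ)).cexp
      simp only [id_eq, mul_one] at this
      exact this
    have hcomp := (hΨd.comp (τ : ℂ) hqd).const_mul (h / (2 * (Real.pi : ℂ) * Complex.I))
    have hval : (h / (2 * (Real.pi : ℂ) * Complex.I)) *
        (dslope φ 0 (Periodic.qParam h (τ : ℂ)) *
          (Periodic.qParam h (τ : ℂ) * (2 * (Real.pi : ℂ) * Complex.I / h))) = g τ := by
      rw [dslope_of_ne _ hqne, slope_def_field, hφ0, sub_zero, sub_zero]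
      have hφq : φ (Periodic.qParam h (τ : ℂ)) = g τ := eq_cuspFunction τ hh.ne' hper
      rw [hφq]
      have hh' : (h : ℂ) ≠ 0 := by exact_mod_cast hh.ne'
      have h2 : (2 * (Real.pi : ℂ) * Complex.I) ≠ 0 := Complex.two_pi_I_ne_zero
      field_simp
    rw [hval] at hcomp
    have hev : ((fun τ : ℍ => F τ) ∘ ofComplex) =ᶠ[𝓝 (τ : ℂ)] F := by
      have hopen : {z : ℂ | 0 < z.im} ∈ 𝓝 (τ : ℂ) :=
        (Complex.continuous_im.isOpen_preimage _ isOpen_Ioi).mem_nhds τ.im_pos
      filter_upwards [hopen] with z hz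
      simp only [Function.comp_apply]
      rw [ofComplex_apply_of_im_pos hz]
    exact HasDerivAt.congr_of_eventuallyEq hcomp hev
  · -- limit
    have hcont : ContinuousAt Ψ 0 := (hΨ 0 (Metric.mem_ball_self one_pos)).continuousAt
    have h1 : Tendsto (fun τ : ℍ => Ψ (Periodic.qParam h (τ : ℂ))) atImInfty (𝓝 (Ψ 0)) :=
      hcont.tendsto.comp (qParam_tendsto_atImInfty hh)
    have h2 := h1.const_mul (h / (2 * (Real.pi : ℂ) * Complex.I))
    rw [hΨ0, mul_zero] at h2
    exact h2

end Fermat.Agent.S21lib
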