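import Mathlib
import Fermat.Prelude.Def_ModularCurve_PeriodHomPair
import Fermat.Prelude.Thm_CongruenceSubgroup_one_mem_strictPeriods_Gamma0
import Fermat.Prelude.Thm_Subgroup_IsArithmetic_exists_nat_mem_strictPeriods_conj
import Fermat.Agent.S21_Primitive

/-!
# S21 (P1): every weight-2 cusp form on `Γ₀(N)` has an Eichler integral
-/

set_option autoImplicit false

open UpperHalfPlane CongruenceSubgroup Filter Topology ModularCurve ModularCurve.Period
open scoped MatrixGroups ModularForm Manifold Pointwise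

namespace Fermat.Agent.S21lib

/-- A function on `ℍ` with vanishing derivative is constant. -/
theorem eq_of_hasDerivAt_zero {H : ℍ → ℂ} (h : ∀ τ : ℍ, HasDerivAt (H ∘ ofComplex) 0 ↑τ)
    (z w : ℍ) : H z = H w := by
  have hconv : Convex ℝ {x : ℂ | 0 < x.im} := convex_halfSpace_im_gt 0
  have hopen : IsOpen {x : ℂ | 0 < x.im} := isOpen_upperHalfPlaneSet
  have hd : DifferentiableOn ℂ (H ∘ ofComplex) {x : ℂ | 0 < x.im} := fun x hx =>
    (h ⟨x, hx⟩).differentiableAt.differentiableWithinAt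
  have hz : Set.EqOn (deriv (H ∘ ofComplex)) 0 {x : ℂ | 0 < x.im} := fun x hx =>
    (h ⟨x, hx⟩).deriv
  have := hopen.is_const_of_deriv_eq_zero hconv.isPreconnected hd hz
    (show (z : ℂ) ∈ {x : ℂ | 0 < x.im} from z.im_pos)
    (show (w : ℂ) ∈ {x : ℂ | 0 < x.im} from w.im_pos)
  simpa using this

/-- Chain rule for the Möbius action of `SL(2, ℤ)`. -/
theorem hasDerivAt_comp_smul {F f : ℍ → ℂ}
    (hF : ∀ τ : ℍ, HasDerivAt (F ∘ ofComplex) (f τ) ↑τ) (γ : SL(2, ℤ)) (τ : ℍ) :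
    HasDerivAt ((fun z : ℍ => F (γ • z)) ∘ ofComplex) ((f ∣[(2 : ℤ)] γ) τ) ↑τ := by
  have hdet : ((γ : GL (Fin 2) ℝ)).val.det = 1 := by
    rw [← Matrix.GeneralLinearGroup.val_det_apply]; simp
  have hpos : 0 < ((γ : GL (Fin 2) ℝ)).val.det := by rw [hdet]; exact one_pos
  have h1 : HasDerivAt (fun w ↦ ↑((γ : GL (Fin 2) ℝ) • ofComplex w) : ℂ → ℂ)
      (1 / denom γ τ ^ 2) ↑τ := by
    have := (hasStrictDerivAt_smul hpos τ).hasDerivAt
    rw [hdet] at this
    simpa using this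
  have h2 : HasDerivAt (F ∘ ofComplex) (f (γ • τ)) ↑((γ : GL (Fin 2) ℝ) • ofComplex (τ : ℂ)) := by
    rw [ofComplex_apply]
    exact hF (γ • τ)
  have h3 := h2.comp (τ : ℂ) h1
  have hval : f (γ • τ) * (1 / denom γ τ ^ 2) = (f ∣[(2 : ℤ)] γ) τ := by
    rw [ModularForm.SL_slash_apply]
    congr 1
    rw [zpow_neg, one_div]
    norm_cast
  rw [hval] at h3
  refine h3.congr_of_eventuallyEq ?_
  filter_upwards [isOpen_upperHalfPlaneSet.mem_nhds τ.im_pos] with w hw
  simp only [Function.comp_apply]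
  rw [ofComplex_apply_of_im_pos hw, ofComplex_apply]
  rfl

/-- (P1) Every weight-2 cusp form on `Γ₀(N)` has an Eichler integral. -/
theorem hasEquivariantPrimitive (N : ℕ) [NeZero N] (f : CuspForm (Gamma0 N) 2) :
    ∃ F : ℍ → ℂ, HasEquivariantPrimitive N f F := by
  obtain ⟨F, hFd, hF0⟩ := exists_primitive_of_periodic one_pos
    (SlashInvariantFormClass.periodic_comp_ofComplex f
      (CongruenceSubgroup.one_mem_strictPeriods_Gamma0 N))
    (CuspFormClass.holo f) (CuspFormClass.zero_at_infty f)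
  refine ⟨F, hFd, hF0, ?_, ?_⟩
  · -- equivariance
    intro γ
    refine ⟨F ((γ : SL(2, ℤ)) • UpperHalfPlane.I) - F UpperHalfPlane.I, fun z => ?_⟩
    have hslash : (⇑f) ∣[(2 : ℤ)] (γ : SL(2, ℤ)) = ⇑f :=
      SlashInvariantFormClass.slash_action_eq f _ ⟨γ, γ.2, rfl⟩
    have key : ∀ τ : ℍ,
        HasDerivAt ((fun z : ℍ => F ((γ : SL(2, ℤ)) • z) - F z) ∘ ofComplex) 0 ↑τ := by
      intro τ
      have h1 := hasDerivAt_comp_smul hFd γ τ
      rw [hslash] at h1
      have h2 := h1.sub (hFd τ)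
      rw [sub_self] at h2
      exact h2
    exact eq_of_hasDerivAt_zero key z UpperHalfPlane.I
  · -- cusp limits
    intro δ
    obtain ⟨M, hMpos, hM⟩ := Subgroup.IsArithmetic.exists_nat_mem_strictPeriods_conj
      ((Gamma0 N : Subgroup SL(2, ℤ)) : Subgroup (GL (Fin 2) ℝ))
    have hM' : (M : ℝ) ∈ (ConjAct.toConjAct (Matrix.SpecialLinearGroup.mapGL ℝ δ)⁻¹ •
        ((Gamma0 N : Subgroup SL(2, ℤ)) : Subgroup (GL (Fin 2) ℝ))).strictPeriods := by
      have := hM δ⁻¹
      rwa [map_inv] at this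
    have hMpos' : (0 : ℝ) < M := by exact_mod_cast hMpos
    set f₀ : ℍ → ℂ := (⇑f) ∣[(2 : ℤ)] δ with hf₀
    have hf₀_mdiff : MDiff f₀ := (CuspFormClass.holo f).slash _ _
    have hf₀_zero : IsZeroAtImInfty f₀ := CuspFormClass.zero_at_infty_slash f δ
    have hf₀_per : Function.Periodic (f₀ ∘ ofComplex) (M : ℝ) :=
      SlashInvariantFormClass.periodic_comp_ofComplex
        (SlashInvariantForm.translate f (Matrix.SpecialLinearGroup.mapGL ℝ δ)) hM'
    obtain ⟨G, hGd, hG0⟩ := exists_primitive_of_periodic hMpos' hf₀_per hf₀_mdiff hf₀_zero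
    have key : ∀ τ : ℍ, HasDerivAt ((fun z : ℍ => F (δ • z) - G z) ∘ ofComplex) 0 ↑τ := by
      intro τ
      have h1 := hasDerivAt_comp_smul hFd δ τ
      have h2 := h1.sub (hGd τ)
      rw [sub_self] at h2
      exact h2
    refine ⟨F (δ • UpperHalfPlane.I) - G UpperHalfPlane.I, ?_⟩
    have hfun : (fun w : ℍ => F (δ • w))
        = fun w => G w + (F (δ • UpperHalfPlane.I) - G UpperHalfPlane.I) := funext fun w => by
      have := eq_of_hasDerivAt_zero key w UpperHalfPlane.I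
      linear_combination this
    rw [hfun]
    simpa using hG0.add_const (F (δ • UpperHalfPlane.I) - G UpperHalfPlane.I)

end Fermat.Agent.S21lib
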