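import Mathlib
import Fermat.Prelude.Def_ModularCurve_PeriodHomPair
import Fermat.Agent.S21_Equiv

/-!
# S21 (L): the period map is linear
-/

set_option autoImplicit false

open UpperHalfPlane CongruenceSubgroup Filter Topology ModularCurve ModularCurve.Period
open scoped MatrixGroups ModularForm Manifold

namespace Fermat.Agent.S21lib

/-- The period map can be computed from any Eichler integral. -/
theorem periodMap_apply (N : ℕ) (f : CuspForm (Gamma0 N) 2) {F : ℍ → ℂ}
    (hF : HasEquivariantPrimitive N f F) (γ : Gamma0 N) :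
    periodMap N f (Additive.ofMul γ)
      = F ((γ : SL(2, ℤ)) • UpperHalfPlane.I) - F UpperHalfPlane.I := by
  obtain ⟨F₀, h₀, hP⟩ := periodMap_def N f hF
  rw [hP]
  show F₀ ((γ : SL(2, ℤ)) • UpperHalfPlane.I) - F₀ UpperHalfPlane.I = _
  have key : ∀ τ : ℍ, HasDerivAt ((fun z : ℍ => F₀ z - F z) ∘ ofComplex) 0 ↑τ := by
    intro τ
    have h2 := (h₀.1 τ).sub (hF.1 τ)
    rw [sub_self] at h2
    exact h2
  have := eq_of_hasDerivAt_zero key ((γ : SL(2, ℤ)) • UpperHalfPlane.I) UpperHalfPlane.I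
  linear_combination this

theorem HasEquivariantPrimitive_add (N : ℕ) {f g : CuspForm (Gamma0 N) 2} {F G : ℍ → ℂ}
    (hF : HasEquivariantPrimitive N f F) (hG : HasEquivariantPrimitive N g G) :
    HasEquivariantPrimitive N (f + g) (fun z => F z + G z) := by
  refine ⟨fun τ => ?_, ?_, fun γ => ?_, fun δ => ?_⟩
  · exact (hF.1 τ).add (hG.1 τ)
  · simpa using hF.2.1.add hG.2.1
  · obtain ⟨c, hc⟩ := hF.2.2.1 γ
    obtain ⟨d, hd⟩ := hG.2.2.1 γ
    exact ⟨c + d, fun z => by rw [← hc z, ← hd z]; ring⟩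
  · obtain ⟨L, hL⟩ := hF.2.2.2 δ
    obtain ⟨L', hL'⟩ := hG.2.2.2 δ
    exact ⟨L + L', hL.add hL'⟩

theorem HasEquivariantPrimitive_smul (N : ℕ) (c : ℂ) {f : CuspForm (Gamma0 N) 2} {F : ℍ → ℂ}
    (hF : HasEquivariantPrimitive N f F) :
    HasEquivariantPrimitive N (c • f) (fun z => c * F z) := by
  refine ⟨fun τ => ?_, ?_, fun γ => ?_, fun δ => ?_⟩
  · exact (hF.1 τ).const_mul c
  · simpa using hF.2.1.const_mul c
  · obtain ⟨a, ha⟩ := hF.2.2.1 γ
    exact ⟨c * a, fun z => by rw [← ha z]; ring⟩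
  · obtain ⟨L, hL⟩ := hF.2.2.2 δ
    exact ⟨c * L, hL.const_mul c⟩

/-- The period map as a linear map. -/
noncomputable def periodMapLinear (N : ℕ) [NeZero N] :
    CuspForm (Gamma0 N) 2 →ₗ[ℂ] (Additive (Gamma0 N) →+ ℂ) where
  toFun f := periodMap N f
  map_add' f g := by
    obtain ⟨F, hF⟩ := hasEquivariantPrimitive N f
    obtain ⟨G, hG⟩ := hasEquivariantPrimitive N g
    refine AddMonoidHom.ext fun γ => ?_
    obtain ⟨γ, rfl⟩ := Additive.ofMul.surjective γ
    rw [AddMonoidHom.add_apply, periodMap_apply N f hF, periodMap_apply N g hG,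
      periodMap_apply N (f + g) (HasEquivariantPrimitive_add N hF hG)]
    ring
  map_smul' c f := by
    obtain ⟨F, hF⟩ := hasEquivariantPrimitive N f
    refine AddMonoidHom.ext fun γ => ?_
    obtain ⟨γ, rfl⟩ := Additive.ofMul.surjective γ
    rw [RingHom.id_apply, AddMonoidHom.smul_apply, periodMap_apply N f hF,
      periodMap_apply N (c • f) (HasEquivariantPrimitive_smul N c hF), smul_eq_mul]
    ring

/-- (L) -/
theorem existsPeriodMapLinear (N : ℕ) [NeZero N] : ExistsPeriodMapLinear N :=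
  ⟨periodMapLinear N, fun _ => rfl⟩

end Fermat.Agent.S21lib
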