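import Mathlib
import Fermat.Prelude.Def_ModularCurve_PeriodHomPair
import Fermat.Prelude.Def_ModularCurve_GenusNumerics
import Fermat.Agent.S21_Linear

/-!
# S21 (Fin): final assembly of Eichler–Shimura from its parts
-/

set_option autoImplicit false

open UpperHalfPlane CongruenceSubgroup Filter Topology ModularCurve ModularCurve.Period
open scoped MatrixGroups ModularForm Manifold

namespace Fermat.Agent.S21lib

/-- The explicit formula for `periodHomPair`. -/
theorem periodHomPair_apply (N : ℕ) [NeZero N] (f g : CuspForm (Gamma0 N) 2) :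
    periodHomPair N (f, g)
      = (periodMap N f + charInvolution N ℂ ℂ (periodMap N f))
        + (periodMap N g - charInvolution N ℂ ℂ (periodMap N g)) := by
  obtain ⟨pml, hpml, hP⟩ := periodHomPair_def N (existsPeriodMapLinear N)
  rw [hP, LinearMap.coprod_apply]
  simp only [LinearMap.comp_apply, LinearMap.add_apply, LinearMap.sub_apply, LinearMap.id_apply,
    hpml]

theorem range_periodHomPair_le (N : ℕ) [NeZero N]
    (hpar : ∀ f : CuspForm (Gamma0 N) 2, periodMap N f ∈ parabolicHoms ℂ (Gamma0 N) ℂ) :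
    LinearMap.range (periodHomPair N) ≤ parabolicHoms ℂ (Gamma0 N) ℂ := by
  rintro _ ⟨⟨f, g⟩, rfl⟩
  rw [periodHomPair_apply]
  exact add_mem (add_mem (hpar f) (charInvolution_mem_parabolicHoms N ℂ ℂ (hpar f)))
    (sub_mem (hpar g) (charInvolution_mem_parabolicHoms N ℂ ℂ (hpar g)))

/-- (Fin) Eichler–Shimura from injectivity, parabolicity, the cohomological dimension bound
and the dimension formula. -/
theorem eichlerShimura_of_parts (N : ℕ) [NeZero N]
    (hinj : Function.Injective (periodHomPair N))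
    (hpar : ∀ f : CuspForm (Gamma0 N) 2, periodMap N f ∈ parabolicHoms ℂ (Gamma0 N) ℂ)
    (hII : Module.Finite ℂ (parabolicHoms ℂ (Gamma0 N) ℂ) ∧
      (Module.finrank ℂ (parabolicHoms ℂ (Gamma0 N) ℂ) : ℚ) ≤ 2 * genusFormula N)
    (hdim : (Module.finrank ℂ (CuspForm (Gamma0 N) 2) : ℚ) = genusFormula N) :
    Function.Injective (periodHomPair N)
      ∧ LinearMap.range (periodHomPair N) = parabolicHoms ℂ (Gamma0 N) ℂ := by
  refine ⟨hinj, ?_⟩
  obtain ⟨hfin, hrank⟩ := hII
  have hle := range_periodHomPair_le N hpar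
  have : FiniteDimensional ℂ (parabolicHoms ℂ (Gamma0 N) ℂ) := hfin
  have hfr : FiniteDimensional ℂ (LinearMap.range (periodHomPair N)) :=
    Submodule.finiteDimensional_of_le hle
  have hprod : FiniteDimensional ℂ (CuspForm (Gamma0 N) 2 × CuspForm (Gamma0 N) 2) :=
    (LinearEquiv.ofInjective (periodHomPair N) hinj).symm.finiteDimensional
  have hS : FiniteDimensional ℂ (CuspForm (Gamma0 N) 2) :=
    FiniteDimensional.of_injective (LinearMap.inl ℂ (CuspForm (Gamma0 N) 2) (CuspForm (Gamma0 N) 2))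
      LinearMap.inl_injective
  have h1 : Module.finrank ℂ (LinearMap.range (periodHomPair N))
      = Module.finrank ℂ (CuspForm (Gamma0 N) 2 × CuspForm (Gamma0 N) 2) :=
    LinearMap.finrank_range_of_inj hinj
  have h2 : Module.finrank ℂ (CuspForm (Gamma0 N) 2 × CuspForm (Gamma0 N) 2)
      = Module.finrank ℂ (CuspForm (Gamma0 N) 2) + Module.finrank ℂ (CuspForm (Gamma0 N) 2) :=
    Module.finrank_prod
  refine Submodule.eq_of_le_of_finrank_le hle ?_
  rw [h1, h2]
  have h3 : (Module.finrank ℂ (parabolicHoms ℂ (Gamma0 N) ℂ) : ℚ)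
      ≤ ((Module.finrank ℂ (CuspForm (Gamma0 N) 2) + Module.finrank ℂ (CuspForm (Gamma0 N) 2) : ℕ)
        : ℚ) := by
    push_cast
    rw [hdim]
    linarith
  exact_mod_cast h3

end Fermat.Agent.S21lib
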