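import Mathlib
import Fermat.Prelude.Def_ModularCurve_PeriodHomPair

/-!
# S21 (Inj): injectivity of the period pairing, given the maximum principle (Inj0),
existence of Eichler integrals (P1) and linearity of the period map (L).
-/

set_option autoImplicit false

open UpperHalfPlane CongruenceSubgroup Filter Topology ModularCurve ModularCurve.Period
open scoped MatrixGroups ModularForm Manifold ComplexConjugate

namespace Fermat.Agent.S21lib

/-- `J` preserves the filter `atImInfty`. -/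
lemma tendsto_J_smul_atImInfty :
    Tendsto (fun w : ℍ => UpperHalfPlane.J • w) atImInfty atImInfty :=
  tendsto_smul_atImInfty (by simp [UpperHalfPlane.J])

lemma J_smul_J_smul (z : ℍ) : UpperHalfPlane.J • (UpperHalfPlane.J • z) = z := by
  rw [← mul_smul, ← sq, UpperHalfPlane.J_sq, one_smul]

/-- `J γ = (jγj) J` as maps of `ℍ`. -/
lemma J_smul_SL_smul (γ : SL(2, ℤ)) (z : ℍ) :
    UpperHalfPlane.J • (γ • z) = (jConjSL γ) • (UpperHalfPlane.J • z) := by
  rw [ModularGroup.sl_moeb, ModularGroup.sl_moeb, ← mul_smul, ← mul_smul]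
  congr 1
  ext i j
  fin_cases i <;> fin_cases j <;>
    simp [UpperHalfPlane.J, Matrix.mul_apply, Fin.sum_univ_two, jConjMat]

/-- The reflected conjugate `z ↦ conj (C (J z))` of a function on `ℍ`. -/
noncomputable def reflConj (C : ℍ → ℂ) : ℍ → ℂ := fun z => conj (C (UpperHalfPlane.J • z))

lemma J_smul_ofComplex {z : ℂ} (hz : 0 < z.im) :
    UpperHalfPlane.J • ofComplex z = ofComplex (-conj z) := by
  have hz' : 0 < (-conj z).im := by simpa using hz
  apply UpperHalfPlane.ext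
  rw [UpperHalfPlane.coe_J_smul, ofComplex_apply_of_im_pos hz, ofComplex_apply_of_im_pos hz']

lemma hasDerivAt_reflConj {C : ℍ → ℂ} {v : ℍ → ℂ}
    (hC : ∀ τ : ℍ, HasDerivAt (C ∘ ofComplex) (v τ) ↑τ) (τ : ℍ) :
    HasDerivAt (reflConj C ∘ ofComplex) (-conj (v (UpperHalfPlane.J • τ))) ↑τ := by
  have h1 : HasDerivAt (C ∘ ofComplex) (v (UpperHalfPlane.J • τ)) (-(conj (τ : ℂ))) := by
    have := hC (UpperHalfPlane.J • τ)
    rwa [UpperHalfPlane.coe_J_smul] at this
  have hneg : HasDerivAt (fun z : ℂ => -z) (-1) (conj (τ : ℂ)) := (hasDerivAt_id _).neg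
  have h2 : HasDerivAt ((C ∘ ofComplex) ∘ (fun z : ℂ => -z))
      (v (UpperHalfPlane.J • τ) * (-1)) (conj (τ : ℂ)) :=
    HasDerivAt.comp (conj (τ : ℂ)) h1 hneg
  have h3 := h2.conj_conj
  rw [Complex.conj_conj] at h3
  have hev : (reflConj C ∘ ofComplex) =ᶠ[𝓝 (τ : ℂ)]
      (conj ∘ ((C ∘ ofComplex) ∘ (fun z : ℂ => -z)) ∘ conj) := by
    have hopen : {z : ℂ | 0 < z.im} ∈ 𝓝 (τ : ℂ) :=
      (Complex.continuous_im.isOpen_preimage _ isOpen_Ioi).mem_nhds τ.im_pos
    filter_upwards [hopen] with z hz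
    simp only [Function.comp_apply, reflConj]
    rw [J_smul_ofComplex hz]
  have h4 := h3.congr_of_eventuallyEq hev
  have hval : conj (v (UpperHalfPlane.J • τ) * -1) = -conj (v (UpperHalfPlane.J • τ)) := by
    simp
  rw [hval] at h4
  exact h4

/-- A constant function on `ℍ` has zero derivative. -/
lemma deriv_eq_zero_of_const {Ψ : ℍ → ℂ} (hconst : ∀ z w : ℍ, Ψ z = Ψ w) {d : ℂ} {τ : ℍ}
    (hd : HasDerivAt (Ψ ∘ ofComplex) d ↑τ) : d = 0 := by
  have : (Ψ ∘ ofComplex) = fun _ => Ψ τ := by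
    funext z
    exact hconst _ _
  rw [this] at hd
  exact hd.unique (hasDerivAt_const _ _)

/-- Holomorphy on `ℍ` from pointwise complex derivatives. -/
lemma mdiff_of_hasDerivAt {Ψ : ℍ → ℂ} {d : ℍ → ℂ}
    (h : ∀ τ : ℍ, HasDerivAt (Ψ ∘ ofComplex) (d τ) ↑τ) : MDiff Ψ := by
  rw [UpperHalfPlane.mdifferentiable_iff]
  intro z hz
  exact (h ⟨z, hz⟩).differentiableAt.differentiableWithinAt

/-- (Inj) Injectivity of the period pairing, from linearity of the period map (L), existence of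
Eichler integrals (P1) and the maximum principle (Inj0). -/
theorem periodHomPair_injective_of (N : ℕ) [NeZero N]
    (hL : ExistsPeriodMapLinear N)
    (hP1 : ∀ f : CuspForm (Gamma0 N) 2, ∃ F : ℍ → ℂ, HasEquivariantPrimitive N f F)
    (hInj0 : ∀ {Ψ : ℍ → ℂ}, MDiff Ψ →
      (∀ γ ∈ Gamma0 N, ∀ z : ℍ, (Ψ (γ • z)).re = (Ψ z).re) →
      (∀ δ : SL(2, ℤ), ∃ L : ℂ, Tendsto (fun w : ℍ => Ψ (δ • w)) atImInfty (𝓝 L)) →
      ∀ z w : ℍ, Ψ z = Ψ w) :
    Function.Injective (periodHomPair N) := by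
  obtain ⟨pml, hpml, hdef⟩ := periodHomPair_def N hL
  rw [injective_iff_map_eq_zero]
  rintro ⟨f, g⟩ hfg
  obtain ⟨Ff, hFf, hPf⟩ := periodMap_def N f (hP1 f).choose_spec
  obtain ⟨Fg, hFg, hPg⟩ := periodMap_def N g (hP1 g).choose_spec
  -- the relation between the periods
  have hrel : ∀ γ : Gamma0 N,
      hFf.2.2.1.period γ + hFf.2.2.1.period (jConjGamma0 N γ) +
        (hFg.2.2.1.period γ - hFg.2.2.1.period (jConjGamma0 N γ)) = 0 := by
    intro γ
    have := congrArg (fun φ : Additive (Gamma0 N) →+ ℂ => φ (Additive.ofMul γ)) hfg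
    simpa only [hdef, LinearMap.coprod_apply, LinearMap.comp_apply, LinearMap.add_apply,
      LinearMap.sub_apply, LinearMap.id_apply, hpml, hPf, hPg, AddMonoidHom.add_apply,
      AddMonoidHom.sub_apply, charInvolution_apply, toMul_ofMul,
      IsEquivariantPrimitive.periodHom_apply, AddMonoidHom.zero_apply] using this
  -- the functions
  set A : ℍ → ℂ := fun z => Ff z + Fg z with hA
  set C : ℍ → ℂ := fun z => Ff z - Fg z with hC
  -- derivatives
  have hAd : ∀ τ : ℍ, HasDerivAt (A ∘ ofComplex) (f τ + g τ) ↑τ := fun τ =>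
    (hFf.1 τ).add (hFg.1 τ)
  have hCd : ∀ τ : ℍ, HasDerivAt (C ∘ ofComplex) (f τ - g τ) ↑τ := fun τ =>
    (hFf.1 τ).sub (hFg.1 τ)
  have hBd : ∀ τ : ℍ, HasDerivAt (reflConj C ∘ ofComplex)
      (-conj (f (UpperHalfPlane.J • τ) - g (UpperHalfPlane.J • τ))) ↑τ := fun τ =>
    hasDerivAt_reflConj (v := fun τ => f τ - g τ) hCd τ
  -- equivariance
  have hAe : ∀ (γ : Gamma0 N) (z : ℍ), A ((γ : SL(2, ℤ)) • z) - A z =
      hFf.2.2.1.period γ + hFg.2.2.1.period γ := by
    intro γ z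
    have h1 := hFf.2.2.1.sub_eq_period γ z
    have h2 := hFg.2.2.1.sub_eq_period γ z
    simp only [hA]
    linear_combination h1 + h2
  have hCe : ∀ (γ : Gamma0 N) (z : ℍ), C ((γ : SL(2, ℤ)) • z) - C z =
      hFf.2.2.1.period γ - hFg.2.2.1.period γ := by
    intro γ z
    have h1 := hFf.2.2.1.sub_eq_period γ z
    have h2 := hFg.2.2.1.sub_eq_period γ z
    simp only [hC]
    linear_combination h1 - h2
  have hBe : ∀ (γ : Gamma0 N) (z : ℍ), reflConj C ((γ : SL(2, ℤ)) • z) - reflConj C z =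
      conj (hFf.2.2.1.period (jConjGamma0 N γ) - hFg.2.2.1.period (jConjGamma0 N γ)) := by
    intro γ z
    have h := hCe (jConjGamma0 N γ) (UpperHalfPlane.J • z)
    rw [jConjGamma0_coe] at h
    simp only [reflConj]
    rw [J_smul_SL_smul, ← map_sub, h]
  -- cusp limits
  have hAl : ∀ δ : SL(2, ℤ), ∃ L : ℂ, Tendsto (fun w : ℍ => A (δ • w)) atImInfty (𝓝 L) := by
    intro δ
    obtain ⟨L1, hL1⟩ := hFf.2.2.2 δ
    obtain ⟨L2, hL2⟩ := hFg.2.2.2 δ
    exact ⟨L1 + L2, hL1.add hL2⟩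
  have hBl : ∀ δ : SL(2, ℤ), ∃ L : ℂ,
      Tendsto (fun w : ℍ => reflConj C (δ • w)) atImInfty (𝓝 L) := by
    intro δ
    obtain ⟨L1, hL1⟩ := hFf.2.2.2 (jConjSL δ)
    obtain ⟨L2, hL2⟩ := hFg.2.2.2 (jConjSL δ)
    refine ⟨conj (L1 - L2), ?_⟩
    have h1 : Tendsto (fun w : ℍ => C ((jConjSL δ) • w)) atImInfty (𝓝 (L1 - L2)) :=
      hL1.sub hL2
    have h2 := h1.comp tendsto_J_smul_atImInfty
    have h3 := (Complex.continuous_conj.tendsto (L1 - L2)).comp h2
    refine h3.congr (fun w => ?_)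
    simp only [Function.comp_apply, reflConj]
    rw [J_smul_SL_smul]
  -- first invariant function
  have hΨ1 : ∀ z w : ℍ, A z + reflConj C z = A w + reflConj C w := by
    refine hInj0 (Ψ := fun z => A z + reflConj C z)
      (mdiff_of_hasDerivAt (fun τ => (hAd τ).add (hBd τ))) ?_ ?_
    · intro γ hγ z
      have h1 := hAe ⟨γ, hγ⟩ z
      have h2 := hBe ⟨γ, hγ⟩ z
      have h3 := hrel ⟨γ, hγ⟩
      simp only at h1 h2
      have hsum : A (γ • z) + reflConj C (γ • z) = A z + reflConj C z +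
          (conj (hFf.2.2.1.period (jConjGamma0 N ⟨γ, hγ⟩) -
              hFg.2.2.1.period (jConjGamma0 N ⟨γ, hγ⟩)) -
            (hFf.2.2.1.period (jConjGamma0 N ⟨γ, hγ⟩) -
              hFg.2.2.1.period (jConjGamma0 N ⟨γ, hγ⟩))) := by
        linear_combination h1 + h2 + h3
      rw [hsum, Complex.add_re, Complex.sub_re, Complex.conj_re, sub_self, add_zero]
    · intro δ
      obtain ⟨L1, hL1⟩ := hAl δ
      obtain ⟨L2, hL2⟩ := hBl δ
      exact ⟨L1 + L2, hL1.add hL2⟩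
  -- second invariant function
  have hΨ2 : ∀ z w : ℍ, Complex.I * (A z - reflConj C z) = Complex.I * (A w - reflConj C w) := by
    refine hInj0 (Ψ := fun z => Complex.I * (A z - reflConj C z))
      (mdiff_of_hasDerivAt (fun τ => ((hAd τ).sub (hBd τ)).const_mul Complex.I)) ?_ ?_
    · intro γ hγ z
      have h1 := hAe ⟨γ, hγ⟩ z
      have h2 := hBe ⟨γ, hγ⟩ z
      have h3 := hrel ⟨γ, hγ⟩
      simp only at h1 h2
      have hsum : Complex.I * (A (γ • z) - reflConj C (γ • z)) =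
          Complex.I * (A z - reflConj C z) -
          Complex.I * (conj (hFf.2.2.1.period (jConjGamma0 N ⟨γ, hγ⟩) -
              hFg.2.2.1.period (jConjGamma0 N ⟨γ, hγ⟩)) +
            (hFf.2.2.1.period (jConjGamma0 N ⟨γ, hγ⟩) -
              hFg.2.2.1.period (jConjGamma0 N ⟨γ, hγ⟩))) := by
        linear_combination Complex.I * h1 - Complex.I * h2 + Complex.I * h3
      rw [hsum, Complex.sub_re]
      simp [Complex.mul_re]
    · intro δ
      obtain ⟨L1, hL1⟩ := hAl δ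
      obtain ⟨L2, hL2⟩ := hBl δ
      exact ⟨Complex.I * (L1 - L2), (hL1.sub hL2).const_mul Complex.I⟩
  -- derivatives vanish
  have hd1 : ∀ τ : ℍ, (f τ + g τ) +
      (-conj (f (UpperHalfPlane.J • τ) - g (UpperHalfPlane.J • τ))) = 0 := fun τ =>
    deriv_eq_zero_of_const (Ψ := fun z => A z + reflConj C z) hΨ1 ((hAd τ).add (hBd τ))
  have hd2 : ∀ τ : ℍ, Complex.I * ((f τ + g τ) -
      (-conj (f (UpperHalfPlane.J • τ) - g (UpperHalfPlane.J • τ)))) = 0 := fun τ =>
    deriv_eq_zero_of_const (Ψ := fun z => Complex.I * (A z - reflConj C z)) hΨ2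
      (((hAd τ).sub (hBd τ)).const_mul Complex.I)
  have hsum0 : ∀ τ : ℍ, f τ + g τ = 0 := by
    intro τ
    have h1 := hd1 τ
    have h2 := (mul_eq_zero.mp (hd2 τ)).resolve_left Complex.I_ne_zero
    linear_combination (1 / 2 : ℂ) * h1 + (1 / 2 : ℂ) * h2
  have hdiff0 : ∀ τ : ℍ, f τ - g τ = 0 := by
    intro τ
    have h1 := hd1 (UpperHalfPlane.J • τ)
    have h2 := (mul_eq_zero.mp (hd2 (UpperHalfPlane.J • τ))).resolve_left Complex.I_ne_zero
    rw [J_smul_J_smul] at h1 h2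
    have h3 : conj (f τ - g τ) = 0 := by
      linear_combination (-1 / 2 : ℂ) * h1 + (1 / 2 : ℂ) * h2
    exact (map_eq_zero_iff _ (starRingEnd ℂ).injective).mp h3
  have hf0 : f = 0 := by
    ext τ
    have h1 := hsum0 τ
    have h2 := hdiff0 τ
    show f τ = 0
    linear_combination (1 / 2 : ℂ) * h1 + (1 / 2 : ℂ) * h2
  have hg0 : g = 0 := by
    ext τ
    have h1 := hsum0 τ
    have h2 := hdiff0 τ
    show g τ = 0
    linear_combination (1 / 2 : ℂ) * h1 - (1 / 2 : ℂ) * h2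
  rw [hf0, hg0]
  rfl

end Fermat.Agent.S21lib
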