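/-
S21 library, part (Inj0): maximum principle on `X₀(N)`.

A holomorphic function `Ψ` on `ℍ` whose real part is `Γ₀(N)`-invariant and such that `Ψ ∘ δ` has a
limit at `i∞` for every `δ ∈ SL(2,ℤ)` is constant.

Route: `Ψ ∘ δ` is `N`-periodic (its real part is, and the difference `Ψ(δ(w+N)) − Ψ(δ w)` is a
holomorphic function with zero real part tending to `0`), so it factors through the `q`-disc.
On each translate of the fundamental domain the real part is bounded by its maximum over the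
compact truncated domain and over a closed `q`-disc; finitely many cosets give a global maximum,
attained on `ℍ` (directly, or via the maximum principle on the `q`-disc), and the maximum modulus
principle for `exp ∘ Ψ` finishes.
-/
import Mathlib

set_option autoImplicit false

open UpperHalfPlane CongruenceSubgroup Filter Topology Function
open scoped MatrixGroups ModularForm Manifold Modular

namespace Fermat.Agent.S21lib

local notation "𝕢" => Periodic.qParam

/-- A holomorphic function on a preconnected open set whose real part attains its maximum is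
constant. -/
lemma maxp_eq_of_re_le {U : Set ℂ} (hU : IsOpen U) (hc : IsPreconnected U) {g : ℂ → ℂ}
    (hg : DifferentiableOn ℂ g U) {z₀ : ℂ} (hz₀ : z₀ ∈ U)
    (hmax : ∀ z ∈ U, (g z).re ≤ (g z₀).re) : ∀ z ∈ U, g z = g z₀ := by
  have hF : DifferentiableOn ℂ (fun z => Complex.exp (g z)) U := hg.cexp
  have hm : IsMaxOn (norm ∘ fun z => Complex.exp (g z)) U z₀ := by
    intro z hz
    simp only [Function.comp_apply, Complex.norm_exp]
    exact Real.exp_le_exp.2 (hmax z hz)
  have hconst := Complex.eqOn_of_isPreconnected_of_isMaxOn_norm hc hU hF hz₀ hm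
  have hderiv : U.EqOn (deriv g) 0 := by
    intro z hz
    have hgz : DifferentiableAt ℂ g z := hg.differentiableAt (hU.mem_nhds hz)
    have h1 : HasDerivAt (fun z => Complex.exp (g z)) (Complex.exp (g z) * deriv g z) z :=
      hgz.hasDerivAt.cexp
    have h2 : HasDerivAt (fun z => Complex.exp (g z)) 0 z := by
      have : (fun z => Complex.exp (g z)) =ᶠ[𝓝 z] fun _ => Complex.exp (g z₀) := by
        filter_upwards [hU.mem_nhds hz] with w hw
        exact hconst hw
      exact (hasDerivAt_const z _).congr_of_eventuallyEq this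
    have h3 := h1.unique h2
    simpa [Complex.exp_ne_zero] using h3
  intro z hz
  exact hU.is_const_of_deriv_eq_zero hc hg hderiv hz hz₀

/-- The same on the upper half plane. -/
lemma maxp_upper {Ψ : ℍ → ℂ} (hhol : MDiff Ψ) (z₀ : ℍ) (hmax : ∀ z : ℍ, (Ψ z).re ≤ (Ψ z₀).re) :
    ∀ z : ℍ, Ψ z = Ψ z₀ := by
  have hg : DifferentiableOn ℂ (Ψ ∘ ofComplex) {z | 0 < z.im} := mdifferentiable_iff.1 hhol
  have hU : IsOpen {z : ℂ | 0 < z.im} := isOpen_upperHalfPlaneSet
  have hc : IsPreconnected {z : ℂ | 0 < z.im} :=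
    (convex_halfSpace_im_gt 0).isPreconnected
  have key := maxp_eq_of_re_le hU hc hg (z₀ := (z₀ : ℂ)) z₀.im_pos (fun z hz => by
    have := hmax ⟨z, hz⟩
    simpa [Function.comp_apply, ofComplex_apply_of_im_pos hz] using this)
  intro z
  have := key (z : ℂ) z.im_pos
  simpa [Function.comp_apply] using this

lemma maxp_mdiff_comp_smul {Ψ : ℍ → ℂ} (hhol : MDiff Ψ) (δ : SL(2, ℤ)) :
    MDiff (fun w : ℍ => Ψ (δ • w)) := by
  have h := mdifferentiable_smul (g := Matrix.SpecialLinearGroup.mapGL ℝ δ) (by simp)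
  exact hhol.comp h

lemma maxp_tendsto_vadd (x : ℝ) : Tendsto (fun w : ℍ => x +ᵥ w) atImInfty atImInfty := by
  simp only [atImInfty, tendsto_comap_iff, Function.comp_def, vadd_im]
  exact tendsto_comap

/-- A holomorphic function on `ℍ` with `h`-periodic real part and a limit at `i∞` is
`h`-periodic. -/
lemma maxp_periodic {V : ℍ → ℂ} (hhol : MDiff V) (h : ℝ)
    (hre : ∀ w : ℍ, (V (h +ᵥ w)).re = (V w).re) {L : ℂ} (hL : Tendsto V atImInfty (𝓝 L)) :
    ∀ w : ℍ, V (h +ᵥ w) = V w := by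
  set D : ℍ → ℂ := fun w => V (h +ᵥ w) - V w with hD
  have hDhol : MDiff D := by
    have h1 : MDiff (fun w : ℍ => V (h +ᵥ w)) := by
      rw [mdifferentiable_iff] at hhol ⊢
      have : DifferentiableOn ℂ (fun z : ℂ => (V ∘ ofComplex) (z + h)) {z | 0 < z.im} := by
        refine DifferentiableOn.comp (g := V ∘ ofComplex) (f := fun z : ℂ => z + (h : ℂ))
          (t := {z | 0 < z.im}) hhol ?_ ?_
        · exact (differentiableOn_id.add_const _)
        · intro z hz
          simpa using hz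
      refine this.congr fun z hz => ?_
      have hz' : 0 < (z + h).im := by simpa using hz
      simp only [Function.comp_apply, ofComplex_apply_of_im_pos hz, ofComplex_apply_of_im_pos hz']
      congr 1
      ext
      simp [add_comm]
    exact h1.sub hhol
  have hconst := maxp_upper hDhol I (fun z => by simp [hD, hre])
  have hlim : Tendsto D atImInfty (𝓝 (L - L)) :=
    (hL.comp (maxp_tendsto_vadd h)).sub hL
  have hlim' : Tendsto D atImInfty (𝓝 (D I)) := by
    have : D = fun _ => D I := funext hconst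
    rw [this]
    exact tendsto_const_nhds
  have h0 : D I = 0 := by
    have := tendsto_nhds_unique hlim' hlim
    simpa using this
  intro w
  have := hconst w
  rw [h0] at this
  exact sub_eq_zero.1 this

lemma maxp_periodic_comp {V : ℍ → ℂ} (h : ℝ) (hper : ∀ w : ℍ, V (h +ᵥ w) = V w) :
    Periodic (V ∘ ofComplex) h := by
  intro w
  by_cases! hw : 0 < Complex.im w
  · have : 0 < Complex.im (w + h) := by simp [hw]
    simp only [comp_apply, ofComplex_apply_of_im_pos this, ofComplex_apply_of_im_pos hw]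
    rw [← hper ⟨w, hw⟩]
    congr 1
    ext
    simp [add_comm]
  · have : Complex.im (w + h) ≤ 0 := by simpa using hw
    simp [ofComplex_apply_of_im_nonpos this, ofComplex_apply_of_im_nonpos hw]

/-- Conjugates of `T ^ N` lie in `Γ₀(N)`. -/
lemma maxp_conj_T_pow_mem (N : ℕ) (δ : SL(2, ℤ)) :
    δ * ModularGroup.T ^ (N : ℤ) * δ⁻¹ ∈ Gamma0 N := by
  have h1 : ModularGroup.T ^ (N : ℤ) ∈ Gamma N := by
    simpa using ModularGroup_T_pow_mem_Gamma (N : ℤ) (N : ℤ) dvd_rfl
  have h2 : δ * ModularGroup.T ^ (N : ℤ) * δ⁻¹ ∈ Gamma N :=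
    (Gamma_normal N).conj_mem _ h1 δ
  rw [Gamma_mem] at h2
  rw [Gamma0_mem]
  exact h2.2.2.1

lemma maxp_I_mem_truncated : (I : ℍ) ∈ ModularGroup.truncatedFundamentalDomain 1 := by
  refine ⟨⟨?_, ?_⟩, ?_⟩
  · simp [Complex.normSq_apply]
  · simp
  · simp

/-- On the fundamental domain, the real part of a periodic holomorphic function bounded at `i∞`
is bounded by a value attained on `ℍ` or at the cusp. -/
lemma maxp_local_max {V : ℍ → ℂ} (hhol : MDiff V) {h : ℝ} (hh : 0 < h)
    (hper : Periodic (V ∘ ofComplex) h) (hbdd : IsBoundedAtImInfty V) :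
    ∃ m : ℝ, (∀ w ∈ 𝒟, (V w).re ≤ m) ∧
      ((∃ w : ℍ, (V w).re = m) ∨ (cuspFunction h V 0).re = m) := by
  -- the compact part of the fundamental domain
  have hKc : IsCompact (ModularGroup.truncatedFundamentalDomain 1) :=
    ModularGroup.isCompact_truncatedFundamentalDomain 1
  have hcont : Continuous fun w : ℍ => (V w).re :=
    Complex.continuous_re.comp hhol.continuous
  obtain ⟨a, -, ha⟩ := hKc.exists_isMaxOn ⟨I, maxp_I_mem_truncated⟩ hcont.continuousOn
  -- the closed disc
  set r : ℝ := Real.exp (-2 * Real.pi / h) with hr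
  have hr1 : r < 1 := by
    rw [hr, Real.exp_lt_one_iff]
    have : 0 < 2 * Real.pi / h := by positivity
    have h2 : -2 * Real.pi / h = -(2 * Real.pi / h) := by ring
    rw [h2]; linarith
  have hr0 : 0 ≤ r := (Real.exp_pos _).le
  have hvd : DifferentiableOn ℂ (cuspFunction h V) (Metric.ball 0 1) :=
    differentiableOn_cuspFunction_ball hh hper hhol hbdd
  have hsub : Metric.closedBall (0 : ℂ) r ⊆ Metric.ball 0 1 :=
    Metric.closedBall_subset_ball hr1
  have hvc : ContinuousOn (fun q : ℂ => (cuspFunction h V q).re) (Metric.closedBall 0 r) :=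
    Complex.continuous_re.comp_continuousOn (hvd.continuousOn.mono hsub)
  obtain ⟨b, hbB, hb⟩ := (isCompact_closedBall (0 : ℂ) r).exists_isMaxOn
    ⟨0, Metric.mem_closedBall_self hr0⟩ hvc
  refine ⟨max (V a).re (cuspFunction h V b).re, ?_, ?_⟩
  · intro w hw
    by_cases hw1 : w.im ≤ 1
    · exact le_max_of_le_left (ha ⟨hw, hw1⟩)
    · rw [not_le] at hw1
      have hq : 𝕢 h (w : ℂ) ∈ Metric.closedBall (0 : ℂ) r := by
        rw [mem_closedBall_zero_iff, Periodic.norm_qParam, hr]
        apply Real.exp_le_exp.2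
        have h3 : -2 * Real.pi * (w : ℂ).im / h = -(2 * Real.pi / h) * (w : ℂ).im := by ring
        have h4 : -2 * Real.pi / h = -(2 * Real.pi / h) * 1 := by ring
        rw [h3, h4]
        have : 0 < 2 * Real.pi / h := by positivity
        have hw1' : (1 : ℝ) < (w : ℂ).im := hw1
        nlinarith
      have : (cuspFunction h V (𝕢 h (w : ℂ))).re ≤ (cuspFunction h V b).re := hb hq
      rw [eq_cuspFunction w hh.ne' hper] at this
      exact le_max_of_le_right this
  · rcases le_total (cuspFunction h V b).re (V a).re with hle | hle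
    · left
      exact ⟨a, (max_eq_left hle).symm⟩
    · rw [max_eq_right hle]
      rcases eq_or_ne b 0 with rfl | hb0
      · right; rfl
      · left
        have hb1 : ‖b‖ < 1 := by
          have := hsub hbB
          simpa using this
        have hpos := Periodic.im_invQParam_pos_of_norm_lt_one hh hb1 hb0
        refine ⟨⟨Periodic.invQParam h b, hpos⟩, ?_⟩
        rw [← eq_cuspFunction ⟨Periodic.invQParam h b, hpos⟩ hh.ne' hper]
        rw [Periodic.qParam_right_inv hh.ne' hb0]

/-- If the bound is the value at the cusp, it is attained on `ℍ` as well. -/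
lemma maxp_cusp_max {V : ℍ → ℂ} (hhol : MDiff V) {h : ℝ} (hh : 0 < h)
    (hper : Periodic (V ∘ ofComplex) h) (hbdd : IsBoundedAtImInfty V) {m : ℝ}
    (hle : ∀ w : ℍ, (V w).re ≤ m) (hm : (cuspFunction h V 0).re = m) :
    ∃ w : ℍ, (V w).re = m := by
  have hvd : DifferentiableOn ℂ (cuspFunction h V) (Metric.ball 0 1) :=
    differentiableOn_cuspFunction_ball hh hper hhol hbdd
  have key := maxp_eq_of_re_le Metric.isOpen_ball (convex_ball (0 : ℂ) 1).isPreconnected hvd
    (z₀ := 0) (Metric.mem_ball_self one_pos) (fun q hq => by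
      rcases eq_or_ne q 0 with rfl | hq0
      · exact le_rfl
      · have hq1 : ‖q‖ < 1 := by simpa using hq
        have hpos := Periodic.im_invQParam_pos_of_norm_lt_one hh hq1 hq0
        have := eq_cuspFunction ⟨Periodic.invQParam h q, hpos⟩ hh.ne' hper
        rw [Periodic.qParam_right_inv hh.ne' hq0] at this
        rw [this, hm]
        exact hle _)
  refine ⟨I, ?_⟩
  have hI : 𝕢 h (I : ℍ) ∈ Metric.ball (0 : ℂ) 1 := by
    rw [mem_ball_zero_iff]
    exact Periodic.norm_qParam_lt_one hh (I : ℍ).im_pos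
  have := key _ hI
  rw [eq_cuspFunction I hh.ne' hper] at this
  rw [this, hm]

/-- (Inj0) Maximum principle on `X₀(N)`: a holomorphic function on `ℍ` whose real part is
`Γ₀(N)`-invariant and which has a limit at every cusp is constant. -/
theorem const_of_re_invariant (N : ℕ) [NeZero N] {Ψ : ℍ → ℂ} (hhol : MDiff Ψ)
    (hinv : ∀ γ ∈ Gamma0 N, ∀ z : ℍ, (Ψ (γ • z)).re = (Ψ z).re)
    (hlim : ∀ δ : SL(2, ℤ), ∃ L : ℂ, Tendsto (fun w : ℍ => Ψ (δ • w)) atImInfty (𝓝 L)) :
    ∀ z w : ℍ, Ψ z = Ψ w := by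
  classical
  have hN : (0 : ℝ) < N := Nat.cast_pos.2 (NeZero.pos N)
  have hV : ∀ δ : SL(2, ℤ), MDiff (fun w : ℍ => Ψ (δ • w)) := maxp_mdiff_comp_smul hhol
  have hre : ∀ (δ : SL(2, ℤ)) (w : ℍ),
      (Ψ (δ • ((N : ℝ) +ᵥ w))).re = (Ψ (δ • w)).re := by
    intro δ w
    have h1 : (N : ℝ) +ᵥ w = ModularGroup.T ^ (N : ℤ) • w := by
      rw [modular_T_zpow_smul]; simp
    have h2 : δ • (ModularGroup.T ^ (N : ℤ) • w)
        = (δ * ModularGroup.T ^ (N : ℤ) * δ⁻¹) • (δ • w) := by
      simp only [mul_smul, inv_smul_smul]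
    rw [h1, h2]
    exact hinv _ (maxp_conj_T_pow_mem N δ) _
  have hper : ∀ δ : SL(2, ℤ), Periodic ((fun w : ℍ => Ψ (δ • w)) ∘ ofComplex) (N : ℝ) := by
    intro δ
    obtain ⟨L, hL⟩ := hlim δ
    exact maxp_periodic_comp _ (maxp_periodic (hV δ) N (hre δ) hL)
  have hbdd : ∀ δ : SL(2, ℤ), IsBoundedAtImInfty (fun w : ℍ => Ψ (δ • w)) := by
    intro δ
    obtain ⟨L, hL⟩ := hlim δ
    exact hL.isBigO_one ℝ
  choose m hm1 hm2 using fun δ => maxp_local_max (hV δ) hN (hper δ) (hbdd δ)
  obtain ⟨q₀, hq₀⟩ := Finite.exists_max (fun q : SL(2, ℤ) ⧸ Gamma0 N => m (q.out)⁻¹)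
  set δ₀ : SL(2, ℤ) := (q₀.out)⁻¹ with hδ₀
  have hglob : ∀ z : ℍ, (Ψ z).re ≤ m δ₀ := by
    intro z
    obtain ⟨g, hg⟩ := ModularGroup.exists_smul_mem_fd z
    set q : SL(2, ℤ) ⧸ Gamma0 N := (g : SL(2, ℤ) ⧸ Gamma0 N) with hq
    have hη : (q.out)⁻¹ * g ∈ Gamma0 N := by
      rw [← QuotientGroup.eq]
      exact q.out_eq'
    have hz : z = ((q.out)⁻¹ * g)⁻¹ • ((q.out)⁻¹ • (g • z)) := by
      simp only [← mul_smul]
      simp
    calc (Ψ z).re = (Ψ (((q.out)⁻¹ * g)⁻¹ • ((q.out)⁻¹ • (g • z)))).re := by rw [← hz]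
      _ = (Ψ ((q.out)⁻¹ • (g • z))).re := hinv _ (inv_mem hη) _
      _ ≤ m (q.out)⁻¹ := hm1 _ _ hg
      _ ≤ m δ₀ := hq₀ q
  have hatt : ∃ z₀ : ℍ, (Ψ z₀).re = m δ₀ := by
    rcases hm2 δ₀ with ⟨w, hw⟩ | hc
    · exact ⟨δ₀ • w, hw⟩
    · obtain ⟨w, hw⟩ := maxp_cusp_max (hV δ₀) hN (hper δ₀) (hbdd δ₀) (fun w => hglob _) hc
      exact ⟨δ₀ • w, hw⟩
  obtain ⟨z₀, hz₀⟩ := hatt
  have hconst := maxp_upper hhol z₀ (fun z => by rw [hz₀]; exact hglob z)
  intro z w
  rw [hconst z, hconst w]

end Fermat.Agent.S21lib
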