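import Mathlib

set_option autoImplicit false

/-!
# S21 (Par0): parabolic elements of `SL(2,ℤ)` are conjugate to `± Tᵐ`
-/

namespace Fermat.Agent.S21lib

open scoped MatrixGroups

/-- Complete a column `(x, y)` with `x * w - u * y = 1` to an element of `SL(2,ℤ)`. -/
def parCompl (x y u w : ℤ) (h : x * w - u * y = 1) : SL(2, ℤ) :=
  ⟨!![x, u; y, w], by rw [Matrix.det_fin_two_of]; exact h⟩

@[simp] lemma parCompl_00 (x y u w : ℤ) (h : x * w - u * y = 1) : parCompl x y u w h 0 0 = x := rfl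
@[simp] lemma parCompl_01 (x y u w : ℤ) (h : x * w - u * y = 1) : parCompl x y u w h 0 1 = u := rfl
@[simp] lemma parCompl_10 (x y u w : ℤ) (h : x * w - u * y = 1) : parCompl x y u w h 1 0 = y := rfl
@[simp] lemma parCompl_11 (x y u w : ℤ) (h : x * w - u * y = 1) : parCompl x y u w h 1 1 = w := rfl

lemma parDet_rel (g : SL(2, ℤ)) : g 0 0 * g 1 1 - g 0 1 * g 1 0 = 1 := by
  have := g.det_coe
  rw [Matrix.det_fin_two] at this
  exact this

/-- An element of `SL(2,ℤ)` with first column `(1, 0)` is a power of `T`. -/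
lemma eq_T_zpow_of_col (M : SL(2, ℤ)) (h00 : M 0 0 = 1) (h10 : M 1 0 = 0) :
    M = ModularGroup.T ^ (M 0 1) := by
  have hdet := parDet_rel M
  rw [h00, h10] at hdet
  have h11 : M 1 1 = 1 := by linarith
  ext i j
  rw [ModularGroup.coe_T_zpow]
  fin_cases i <;> fin_cases j <;> simp [h00, h10, h11]

/-- An element of `SL(2,ℤ)` fixing a primitive vector is conjugate to a power of `T`. -/
lemma conj_of_fixed_vector (γ : SL(2, ℤ)) (x y : ℤ) (hxy : IsCoprime x y)
    (h0 : γ 0 0 * x + γ 0 1 * y = x) (h1 : γ 1 0 * x + γ 1 1 * y = y) :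
    ∃ (δ : SL(2, ℤ)) (m : ℤ), γ = δ * ModularGroup.T ^ m * δ⁻¹ := by
  obtain ⟨w, u, h⟩ := hxy
  have hdet : x * w - (-u) * y = 1 := by linarith
  set δ : SL(2, ℤ) := parCompl x y (-u) w hdet with hδ
  have hM00 : (δ⁻¹ * γ * δ) 0 0 = 1 := by
    rw [Matrix.SpecialLinearGroup.coe_mul, Matrix.SpecialLinearGroup.coe_mul,
      Matrix.SpecialLinearGroup.coe_inv, Matrix.adjugate_fin_two, Matrix.mul_apply]
    simp only [Fin.sum_univ_two, Matrix.mul_apply, Matrix.of_apply, Matrix.cons_val_zero,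
      Matrix.cons_val_one, Matrix.cons_val', Matrix.cons_val_fin_one, hδ, parCompl_00,
      parCompl_01, parCompl_10, parCompl_11]
    linear_combination w * h0 + u * h1 + h
  have hM10 : (δ⁻¹ * γ * δ) 1 0 = 0 := by
    rw [Matrix.SpecialLinearGroup.coe_mul, Matrix.SpecialLinearGroup.coe_mul,
      Matrix.SpecialLinearGroup.coe_inv, Matrix.adjugate_fin_two, Matrix.mul_apply]
    simp only [Fin.sum_univ_two, Matrix.mul_apply, Matrix.of_apply, Matrix.cons_val_zero,
      Matrix.cons_val_one, Matrix.cons_val', Matrix.cons_val_fin_one, hδ, parCompl_00,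
      parCompl_01, parCompl_10, parCompl_11]
    linear_combination (-y) * h0 + x * h1
  refine ⟨δ, (δ⁻¹ * γ * δ) 0 1, ?_⟩
  rw [← eq_T_zpow_of_col _ hM00 hM10]
  group

/-- Trace `2` case. -/
lemma exists_conj_eq_T_zpow_of_trace_two (γ : SL(2, ℤ)) (h : γ 0 0 + γ 1 1 = 2) :
    ∃ (δ : SL(2, ℤ)) (m : ℤ), γ = δ * ModularGroup.T ^ m * δ⁻¹ := by
  have hdet := parDet_rel γ
  by_cases hb : γ 0 1 = 0 ∧ γ 0 0 = 1
  · obtain ⟨hb0, ha⟩ := hb
    have hd : γ 1 1 = 1 := by linarith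
    exact conj_of_fixed_vector γ 0 1 (isCoprime_zero_left.mpr isUnit_one)
      (by simp [hb0]) (by simp [hd])
  · -- kernel vector `(b, -α)` with `α = a - 1`, divided by its gcd
    set b := γ 0 1 with hbdef
    set α := γ 0 0 - 1 with hαdef
    have hne : b ≠ 0 ∨ α ≠ 0 := by
      by_contra hcon
      rw [not_or, not_not, not_not] at hcon
      exact hb ⟨hcon.1, by linarith [hcon.2]⟩
    have hpos : 0 < Int.gcd b α := Int.gcd_pos_iff.mpr hne
    obtain ⟨b', α', hgcd, hb', hα'⟩ := Int.exists_gcd_one hpos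
    have hcop : IsCoprime b' α' := Int.isCoprime_iff_gcd_eq_one.mpr hgcd
    have hg : (Int.gcd b α : ℤ) ≠ 0 := by exact_mod_cast hpos.ne'
    generalize (Int.gcd b α : ℤ) = g at hb' hα' hg
    rw [mul_comm] at hb' hα'
    have ha : γ 0 0 = 1 + α := by simp [hαdef]
    have hd : γ 1 1 = 1 - α := by linarith
    -- determinant relation: α² + b c = 0
    have hrel : α * α + b * γ 1 0 = 0 := by
      have := hdet
      rw [ha, hd] at this
      linarith [this]
    have hrel' : g * (g * α' * α' + b' * γ 1 0) = 0 := by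
      have := hrel
      rw [hb', hα'] at this
      linear_combination this
    have hrel'' : g * α' * α' + b' * γ 1 0 = 0 := by
      rcases mul_eq_zero.mp hrel' with h0 | h0
      · exact absurd h0 hg
      · exact h0
    refine conj_of_fixed_vector γ b' (-α') hcop.neg_right ?_ ?_
    · rw [ha, ← hbdef, hb', hα']
      ring
    · rw [hd, hα']
      linear_combination hrel''

/-- (Par0) Elements of `SL(2,ℤ)` with `trace² = 4` are `± δ Tᵐ δ⁻¹`. -/
theorem exists_conj_eq_T_zpow (γ : SL(2, ℤ))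
    (h : ((γ : Matrix (Fin 2) (Fin 2) ℤ)).trace ^ 2 = 4) :
    ∃ (δ : SL(2, ℤ)) (m : ℤ), γ = δ * ModularGroup.T ^ m * δ⁻¹ ∨
      γ = -(δ * ModularGroup.T ^ m * δ⁻¹) := by
  rw [Matrix.trace_fin_two] at h
  have h2 : (γ 0 0 + γ 1 1 - 2) * (γ 0 0 + γ 1 1 + 2) = 0 := by linear_combination h
  rcases mul_eq_zero.mp h2 with h3 | h3
  · obtain ⟨δ, m, hδ⟩ := exists_conj_eq_T_zpow_of_trace_two γ (by linarith)
    exact ⟨δ, m, Or.inl hδ⟩
  · have h4 : (-γ) 0 0 + (-γ) 1 1 = 2 := by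
      rw [Matrix.SpecialLinearGroup.coe_neg]
      simp only [Matrix.neg_apply]
      linarith
    obtain ⟨δ, m, hδ⟩ := exists_conj_eq_T_zpow_of_trace_two (-γ) h4
    refine ⟨δ, m, Or.inr ?_⟩
    rw [← hδ, neg_neg]

end Fermat.Agent.S21lib
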