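import Mathlib
import Fermat.Prelude.Def_ModularCurve_PeriodHomPair
import Fermat.Agent.S21_Parabolic

/-!
# S21 (Par): the period map lands in the parabolic homomorphisms
-/

set_option autoImplicit false

open UpperHalfPlane CongruenceSubgroup Filter Topology ModularCurve ModularCurve.Period
open scoped MatrixGroups ModularForm Manifold

namespace Fermat.Agent.S21lib

/-- Translation by `T ^ m` preserves the filter `atImInfty`. -/
lemma tendsto_T_zpow_smul_atImInfty (m : ℤ) :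
    Tendsto (fun w : ℍ => ModularGroup.T ^ m • w) atImInfty atImInfty := by
  rw [atImInfty, tendsto_comap_iff]
  have : (UpperHalfPlane.im ∘ fun w : ℍ => ModularGroup.T ^ m • w) = UpperHalfPlane.im := by
    funext w
    exact ModularGroup.im_T_zpow_smul w m
  rw [this]
  exact tendsto_comap

/-- If `F` has a limit at the cusp `δ ∞` and `F (γ z) - F z = c` for all `z`, where
`γ` acts as `δ Tᵐ δ⁻¹`, then `c = 0`. -/
lemma period_eq_zero_of_conj_T {F : ℍ → ℂ} (γ δ : SL(2, ℤ)) (m : ℤ) (c : ℂ)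
    (hγ : ∀ z : ℍ, γ • z = (δ * ModularGroup.T ^ m * δ⁻¹) • z)
    (hc : ∀ z : ℍ, F (γ • z) - F z = c)
    (hlim : ∃ L : ℂ, Tendsto (fun w : ℍ => F (δ • w)) atImInfty (𝓝 L)) : c = 0 := by
  obtain ⟨L, hL⟩ := hlim
  have h1 : Tendsto (fun w : ℍ => F (δ • (ModularGroup.T ^ m • w))) atImInfty (𝓝 L) :=
    hL.comp (tendsto_T_zpow_smul_atImInfty m)
  have h2 : Tendsto (fun w : ℍ => F (δ • (ModularGroup.T ^ m • w)) - F (δ • w)) atImInfty
      (𝓝 (L - L)) := h1.sub hL
  have h3 : (fun w : ℍ => F (δ • (ModularGroup.T ^ m • w)) - F (δ • w)) = fun _ => c := by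
    funext w
    have := hc (δ • w)
    rw [hγ (δ • w)] at this
    rw [← this]
    congr 2
    rw [mul_smul, mul_smul, inv_smul_smul]
  rw [h3, sub_self] at h2
  exact tendsto_nhds_unique tendsto_const_nhds h2

/-- (Par) The period map of a cusp form is a parabolic homomorphism. -/
theorem periodMap_mem_parabolicHoms (N : ℕ) [NeZero N] (f : CuspForm (Gamma0 N) 2) :
    periodMap N f ∈ parabolicHoms ℂ (Gamma0 N) ℂ := by
  classical
  by_cases h : ∃ F : ℍ → ℂ, HasEquivariantPrimitive N f F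
  · obtain ⟨F₀, h₀, hpm⟩ := periodMap_def N f h.choose_spec
    rw [hpm, mem_parabolicHoms_iff]
    intro γ hγ
    rw [IsEquivariantPrimitive.periodHom_apply]
    have hper : ∀ z : ℍ, F₀ ((γ : SL(2, ℤ)) • z) - F₀ z = h₀.2.2.1.period γ :=
      fun z => h₀.2.2.1.sub_eq_period γ z
    obtain ⟨δ, m, hδ | hδ⟩ := exists_conj_eq_T_zpow (γ : SL(2, ℤ)) hγ
    · refine period_eq_zero_of_conj_T (γ : SL(2, ℤ)) δ m _ (fun z => ?_) hper (h₀.2.2.2 δ)
      rw [hδ]
    · refine period_eq_zero_of_conj_T (γ : SL(2, ℤ)) δ m _ (fun z => ?_) hper (h₀.2.2.2 δ)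
      rw [hδ, ModularGroup.SL_neg_smul]
  · rw [periodMap, dif_neg h]
    exact zero_mem _

end Fermat.Agent.S21lib
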