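import Mathlib
import Fermat.Prelude.Def_ModularCurve_PeriodHomPair
import Fermat.Prelude.Def_ModularCurve_GenusNumerics
import Fermat.Agent.S21_Final
import Fermat.Agent.S21_Inj
import Fermat.Agent.S21_Par
import Fermat.Agent.S21_MaxPrinciple
import Fermat.Agent.S21_Cohomology

/-!
# S21: Eichler–Shimura from the dimension formula (S20)
-/

set_option autoImplicit false

open UpperHalfPlane CongruenceSubgroup Filter Topology ModularCurve ModularCurve.Period
open scoped MatrixGroups ModularForm Manifold

namespace Fermat.Agent.S21lib

/-- (Inj) the period pairing is injective. -/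
theorem periodHomPair_injective (N : ℕ) [NeZero N] : Function.Injective (periodHomPair N) :=
  periodHomPair_injective_of N (existsPeriodMapLinear N) (hasEquivariantPrimitive N)
    (fun h1 h2 h3 => const_of_re_invariant N h1 h2 h3)

/-- Eichler–Shimura for `Γ₀(N)`, given the dimension formula `dim S₂(Γ₀(N)) = g(X₀(N))`. -/
theorem eichlerShimura_of_dim (N : ℕ) [NeZero N]
    (hdim : (Module.finrank ℂ (CuspForm (Gamma0 N) 2) : ℚ) = genusFormula N) :
    Function.Injective (periodHomPair N)
      ∧ LinearMap.range (periodHomPair N) = parabolicHoms ℂ (Gamma0 N) ℂ :=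
  eichlerShimura_of_parts N (periodHomPair_injective N) (periodMap_mem_parabolicHoms N)
    (finrank_parabolicHoms_le N) hdim

end Fermat.Agent.S21lib
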