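import Fermat.Agent.FrobAssemble

set_option autoImplicit false

/-!
# Existence of Frobenius elements in `Gal(ℚ̄/ℚ)`
-/

namespace Fermat.Agent.FrobLib

open scoped Pointwise

theorem isGalois_QBar : IsGalois ℚ (AlgebraicClosure ℚ) :=
  (inferInstance : @IsGalois ℚ _ (AlgebraicClosure ℚ) _ (AlgebraicClosure.instAlgebra ℚ))

theorem isAlgebraic_QBar : Algebra.IsAlgebraic ℚ (AlgebraicClosure ℚ) :=
  AlgebraicClosure.isAlgebraic ℚ

/-- The action of the absolute Galois group on the ring of algebraic integers. -/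
noncomputable instance zbarSMul : SMul GQ ZBar := ⟨zbarMap⟩

theorem zbar_smul_def (σ : GQ) (b : ZBar) : σ • b = zbarMap σ b := rfl

@[simp] theorem coe_zbar_smul (σ : GQ) (b : ZBar) :
    ((σ • b : ZBar) : AlgebraicClosure ℚ) = σ (b : AlgebraicClosure ℚ) := rfl

/-- The action of the absolute Galois group on the ring of algebraic integers. -/
noncomputable instance zbarAction : MulSemiringAction GQ ZBar where
  one_smul b := Subtype.ext (by simp)
  mul_smul σ τ b := Subtype.ext (by simp [AlgEquiv.mul_apply])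
  smul_zero σ := Subtype.ext (by simp)
  smul_add σ a b := Subtype.ext (by simp)
  smul_one σ := Subtype.ext (by simp)
  smul_mul σ a b := Subtype.ext (by simp)

instance zbar_smulCommClass : SMulCommClass GQ ℤ ZBar where
  smul_comm σ n b := Subtype.ext (by
    simp only [coe_zbar_smul, zsmul_eq_mul, Subalgebra.coe_mul, map_mul]
    simp)

instance zbar_isInvariant : Algebra.IsInvariant ℤ ZBar GQ where
  isInvariant b hb := by
    have := isGalois_QBar
    have hfix : ∀ f : GQ, f (b : AlgebraicClosure ℚ) = b := fun f =>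
      congrArg Subtype.val (hb f)
    obtain ⟨q, hq⟩ := (InfiniteGalois.mem_range_algebraMap_iff_fixed (k := ℚ)
      (K := AlgebraicClosure ℚ) (b : AlgebraicClosure ℚ)).mpr hfix
    have hint : IsIntegral ℤ (algebraMap ℚ (AlgebraicClosure ℚ) q) := by
      rw [hq]; exact b.2
    have hintQ : IsIntegral ℤ q :=
      (isIntegral_algebraMap_iff (algebraMap ℚ (AlgebraicClosure ℚ)).injective).mp hint
    obtain ⟨m, hm⟩ := IsIntegrallyClosed.isIntegral_iff.mp hintQ
    refine ⟨m, Subtype.ext ?_⟩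
    rw [← hq, ← hm]
    simp

end Fermat.Agent.FrobLib

namespace Fermat.Agent.FrobLib

open scoped Pointwise

theorem zbar_continuousSMul [TopologicalSpace ZBar] [DiscreteTopology ZBar] :
    ContinuousSMul GQ ZBar := by
  refine continuousSMul_iff_stabilizer_isOpen.mpr ?_
  intro b
  have := isAlgebraic_QBar
  have h := stabilizer_isOpen_of_isIntegral (K := ℚ) (L := AlgebraicClosure ℚ)
    (b : AlgebraicClosure ℚ)
  convert h using 1
  ext σ
  simp only [SetLike.mem_coe, MulAction.mem_stabilizer_iff]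
  constructor
  · intro hσ
    exact congrArg Subtype.val hσ
  · intro hσ
    exact Subtype.ext hσ

theorem zbar_exists_root (ℓ : ℕ) (hℓ : 0 < ℓ) (b : ZBar) : ∃ c : ZBar, c ^ ℓ = b := by
  obtain ⟨z, hz⟩ := IsAlgClosed.exists_pow_nat_eq (b : AlgebraicClosure ℚ) hℓ
  have hint : IsIntegral ℤ z := IsIntegral.of_pow hℓ (hz ▸ b.2)
  exact ⟨⟨z, hint⟩, Subtype.ext hz⟩

attribute [local instance] Ideal.Quotient.field in
/-- Existence of a Frobenius element at a prime `Q` of `ℤ̄` over `ℓ`, as a congruence. -/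
theorem exists_frob_congr (ℓ : ℕ) (hℓ : ℓ.Prime) (Q : Ideal ZBar) [Q.IsPrime]
    (hℓQ : (ℓ : ZBar) ∈ Q) : ∃ σ : GQ, ∀ b : ZBar, σ • b - b ^ ℓ ∈ Q := by
  let P : Ideal ℤ := Q.under ℤ
  have hℓP : (ℓ : ℤ) ∈ P := by
    change algebraMap ℤ ZBar (ℓ : ℤ) ∈ Q
    simpa using hℓQ
  have hPprime : P.IsPrime := Ideal.IsPrime.under ℤ Q
  have hPne : P ≠ ⊥ := by
    intro h
    rw [h, Ideal.mem_bot] at hℓP
    exact hℓ.ne_zero (by exact_mod_cast hℓP)
  have hPmax : P.IsMaximal := Ideal.IsPrime.isMaximal hPprime hPne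
  have hQmax : Q.IsMaximal := Ideal.isMaximal_of_isIntegral_of_isMaximal_comap Q hPmax
  have hzero : ((ℓ : ℕ) : ZBar ⧸ Q) = 0 := by
    have : (Ideal.Quotient.mk Q (ℓ : ZBar)) = 0 := Ideal.Quotient.eq_zero_iff_mem.mpr hℓQ
    simpa using this
  have hchar : CharP (ZBar ⧸ Q) ℓ := (CharP.charP_iff_prime_eq_zero hℓ).mpr hzero
  have hexp : ExpChar (ZBar ⧸ Q) ℓ := .prime hℓ
  have hbij : Function.Bijective (frobenius (ZBar ⧸ Q) ℓ) := by
    refine ⟨frobenius_inj (ZBar ⧸ Q) ℓ, fun y => ?_⟩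
    obtain ⟨b, rfl⟩ := Ideal.Quotient.mk_surjective y
    obtain ⟨c, hc⟩ := zbar_exists_root ℓ hℓ.pos b
    exact ⟨Ideal.Quotient.mk Q c, by rw [frobenius_def, ← map_pow, hc]⟩
  let l : (ZBar ⧸ Q) ≃ₐ[ℤ ⧸ P] ZBar ⧸ Q :=
    { RingEquiv.ofBijective (frobenius (ZBar ⧸ Q) ℓ) hbij with
      commutes' := by
        intro r
        obtain ⟨n, rfl⟩ := Ideal.Quotient.mk_surjective r
        change (algebraMap (ℤ ⧸ P) (ZBar ⧸ Q) (Ideal.Quotient.mk P n)) ^ ℓ = _
        rw [← map_pow, ← map_pow]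
        congr 1
        rw [Ideal.Quotient.eq]
        have : Fact ℓ.Prime := ⟨hℓ⟩
        have hdvd : (ℓ : ℤ) ∣ n ^ ℓ - n := by
          rw [← ZMod.intCast_zmod_eq_zero_iff_dvd]
          push_cast
          rw [ZMod.pow_card, sub_self]
        obtain ⟨k, hk⟩ := hdvd
        rw [hk]
        exact P.mul_mem_right k hℓP }
  have := isGalois_QBar
  have := isAlgebraic_QBar
  let _ : TopologicalSpace ZBar := ⊥
  have : DiscreteTopology ZBar := ⟨rfl⟩
  have := zbar_continuousSMul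
  obtain ⟨σ, hσ⟩ := Ideal.Quotient.stabilizerHom_surjective_of_profinite (G := GQ) P Q l
  refine ⟨σ, fun b => ?_⟩
  rw [← Ideal.Quotient.eq]
  have := DFunLike.congr_fun hσ (Ideal.Quotient.mk Q b)
  rw [Ideal.Quotient.stabilizerHom_apply] at this
  rw [map_pow]
  exact this

/-- **Existence of Frobenius elements**: for every prime `ℓ` there is a place of `ℚ̄` above `ℓ`
together with a Frobenius element at this place. -/
theorem exists_isFrobeniusAt (l : ℕ) (hl : l.Prime) :
    ∃ (A : ValuationSubring (AlgebraicClosure ℚ))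
      (σ : AlgebraicClosure ℚ ≃ₐ[ℚ] AlgebraicClosure ℚ),
      A.LiesOverPrime l ∧ A.IsFrobeniusAt σ l := by
  -- a prime of `ℤ̄` above `l`
  have hP : (Ideal.span {(l : ℤ)}).IsPrime :=
    (Ideal.span_singleton_prime (by exact_mod_cast hl.ne_zero)).mpr
      (Nat.prime_iff_prime_int.mp hl)
  obtain ⟨Q, -, hQprime, hQ⟩ := Ideal.exists_ideal_over_prime_of_isIntegral
    (Ideal.span {(l : ℤ)}) (⊥ : Ideal ZBar) (by
      rw [Ideal.comap_bot_of_injective _ (FaithfulSMul.algebraMap_injective ℤ ZBar)]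
      exact bot_le)
  have hlQ : (l : ZBar) ∈ Q := by
    have : (l : ℤ) ∈ Q.comap (algebraMap ℤ ZBar) := by
      rw [hQ]
      exact Ideal.subset_span rfl
    simpa using this
  obtain ⟨σ, hσ⟩ := exists_frob_congr l hl Q hlQ
  refine exists_isFrobeniusAt_of_prime_of_congr l hl.ne_zero Q hlQ σ (fun b => ?_)
  exact ⟨σ • b - b ^ l, hσ b, rfl⟩

end Fermat.Agent.FrobLib
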