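import Mathlib
import Fermat.Agent.S51lib.TorsionCard

/-!
# Item 64 (DivPoly), piece C: counting `n`-torsion from the multiplication-by-`n` formula

`card_torsionBy_eq_sq`: over an algebraically closed field of characteristic zero, if
`x(n • P) = Φₙ(x) / ΨSqₙ(x)` whenever `ΨSqₙ(x) ≠ 0` (and then `n • P ≠ 0`), and `Φₙ`, `ΨSqₙ` have no
common root, then `#E[n] = n²` (`n` odd).
-/

set_option autoImplicit false

open WeierstrassCurve WeierstrassCurve.Affine Polynomial

namespace Fermat.Agent.DPCount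

section generic

variable {K : Type*} [Field K]

/-- For `c` outside a finite set, the fibre `Φ = c Ψ` consists of `deg Φ` distinct points. -/
theorem exists_separable_fibre [IsAlgClosed K] [Infinite K] [DecidableEq K] (Φ Ψ : K[X]) (d : ℕ)
    (hd : Φ.natDegree = d) (hΨ : Ψ.natDegree < d)
    (hcop : ∀ x : K, Φ.eval x = 0 → Ψ.eval x ≠ 0)
    (hW : derivative Φ * Ψ - Φ * derivative Ψ ≠ 0) :
    ∃ (c : K) (s : Finset K), s.card = d ∧ ∀ r ∈ s, Φ.eval r = c * Ψ.eval r ∧ Ψ.eval r ≠ 0 := by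
  set Wr : K[X] := derivative Φ * Ψ - Φ * derivative Ψ with hWr
  set B : Finset K := Wr.roots.toFinset.image (fun r => Φ.eval r / Ψ.eval r) with hB
  obtain ⟨c, hc⟩ := Infinite.exists_notMem_finset B
  set F : K[X] := Φ - C c * Ψ with hF
  have hdegCΨ : (C c * Ψ).natDegree < Φ.natDegree := by
    rw [hd]
    exact lt_of_le_of_lt (natDegree_C_mul_le c Ψ) hΨ
  have hFdeg : F.natDegree = d := by
    rw [hF, natDegree_sub_eq_left_of_natDegree_lt hdegCΨ, hd]
  have hd0 : d ≠ 0 := by
    intro h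
    rw [h] at hΨ
    exact absurd hΨ (Nat.not_lt_zero _)
  have hF0 : F ≠ 0 := by
    intro h
    rw [h, natDegree_zero] at hFdeg
    exact hd0 hFdeg.symm
  have hroot : ∀ r, F.IsRoot r → Φ.eval r = c * Ψ.eval r ∧ Ψ.eval r ≠ 0 := by
    intro r hr
    have h1 : Φ.eval r = c * Ψ.eval r := by
      have : F.eval r = 0 := hr
      rw [hF, eval_sub, eval_mul, eval_C] at this
      linear_combination this
    refine ⟨h1, fun h0 => ?_⟩
    rw [h0, mul_zero] at h1
    exact hcop r h1 h0
  have hnodup : F.roots.Nodup := by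
    rw [Multiset.nodup_iff_count_le_one]
    intro a
    rw [count_roots]
    by_contra hcon
    have h2 : 1 < rootMultiplicity a F := by omega
    obtain ⟨hr, hr'⟩ := (one_lt_rootMultiplicity_iff_isRoot hF0).mp h2
    obtain ⟨h1, hΨa⟩ := hroot a hr
    have h3 : (derivative Φ).eval a = c * (derivative Ψ).eval a := by
      have : (derivative F).eval a = 0 := hr'
      rw [hF, derivative_sub, derivative_mul, derivative_C, zero_mul, zero_add, eval_sub,
        eval_mul, eval_C] at this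
      linear_combination this
    have hWa : Wr.eval a = 0 := by
      rw [hWr, eval_sub, eval_mul, eval_mul, h1, h3]
      ring
    apply hc
    rw [hB, Finset.mem_image]
    refine ⟨a, ?_, ?_⟩
    · rw [Multiset.mem_toFinset, mem_roots hW]
      exact hWa
    · rw [h1]
      field_simp
  refine ⟨c, F.roots.toFinset, ?_, ?_⟩
  · rw [Multiset.toFinset_card_of_nodup hnodup, IsAlgClosed.card_roots_eq_natDegree, hFdeg]
  · intro r hr
    rw [Multiset.mem_toFinset, mem_roots hF0] at hr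
    exact hroot r hr

end generic

section curve

open Fermat.Agent.S51lib

variable {K : Type*} [Field K]

/-- The Wronskian of `Φₙ` and `ΨSqₙ` has leading coefficient `n²`. -/
theorem wronskian_ne_zero [CharZero K] (W : WeierstrassCurve K) (n : ℕ) (hn : 2 ≤ n) :
    derivative (W.Φ n) * W.ΨSq n - W.Φ n * derivative (W.ΨSq n) ≠ 0 := by
  set d : ℕ := n ^ 2 with hd
  have hd4 : 4 ≤ d := by rw [hd]; nlinarith
  have habs : (n : ℤ).natAbs = n := Int.natAbs_natCast n
  have hΦdeg : (W.Φ n).natDegree ≤ (d - 1) + 1 := by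
    have := W.natDegree_Φ_le (n : ℤ)
    rw [habs] at this
    omega
  have hΦ'deg : (derivative (W.Φ n)).natDegree ≤ d - 1 := by
    have h1 := natDegree_derivative_le (W.Φ n)
    omega
  have hΨdeg : (W.ΨSq n).natDegree ≤ d - 1 := by
    have := W.natDegree_ΨSq_le (n : ℤ)
    rw [habs] at this
    exact this
  have hΨ'deg : (derivative (W.ΨSq n)).natDegree ≤ d - 2 := by
    have h1 := natDegree_derivative_le (W.ΨSq n)
    omega
  have hΦc : (W.Φ n).coeff ((d - 1) + 1) = 1 := by
    have := W.coeff_Φ (n : ℤ)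
    rw [habs] at this
    rw [show d - 1 + 1 = n ^ 2 by omega]
    exact this
  have hΨc : (W.ΨSq n).coeff (d - 1) = (n : K) ^ 2 := by
    have := W.coeff_ΨSq (n : ℤ)
    rw [habs] at this
    rw [this]
    push_cast
    ring
  have c1 : (derivative (W.Φ n) * W.ΨSq n).coeff ((d - 1) + (d - 1)) = (d : K) * (n : K) ^ 2 := by
    rw [coeff_mul_add_eq_of_natDegree_le hΦ'deg hΨdeg, coeff_derivative, hΦc, hΨc]
    have : ((d - 1 : ℕ) : K) + 1 = (d : K) := by
      have : d - 1 + 1 = d := by omega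
      exact_mod_cast this
    rw [this]
    ring
  have c2 : (W.Φ n * derivative (W.ΨSq n)).coeff ((d - 1 + 1) + (d - 2)) =
      (n : K) ^ 2 * ((d : K) - 1) := by
    rw [coeff_mul_add_eq_of_natDegree_le hΦdeg hΨ'deg, coeff_derivative, hΦc,
      show d - 2 + 1 = d - 1 by omega, hΨc]
    have : ((d - 2 : ℕ) : K) + 1 = (d : K) - 1 := by
      have : ((d - 2 : ℕ) : K) + 2 = (d : K) := by
        have : d - 2 + 2 = d := by omega
        exact_mod_cast this
      linear_combination this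
    rw [this]
    ring
  have hidx : (d - 1 + 1) + (d - 2) = (d - 1) + (d - 1) := by omega
  rw [hidx] at c2
  intro h0
  have : (derivative (W.Φ n) * W.ΨSq n - W.Φ n * derivative (W.ΨSq n)).coeff
      ((d - 1) + (d - 1)) = (n : K) ^ 2 := by
    rw [coeff_sub, c1, c2]
    ring
  rw [h0, coeff_zero] at this
  have hn0 : (n : K) ≠ 0 := by
    have : n ≠ 0 := by omega
    exact_mod_cast this
  exact pow_ne_zero 2 hn0 this.symm

/-- Over an algebraically closed field, every `x` is the `x`-coordinate of a point. -/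
theorem exists_point_of_x [IsAlgClosed K] (W : Affine K) (hΔ : W.Δ ≠ 0) (x : K) :
    ∃ P : W.Point, P ≠ 0 ∧ xc W P = x := by
  obtain ⟨y, hy⟩ := IsAlgClosed.exists_root (tcQuad W x) (by
    rw [degree_eq_natDegree (tcQuad_ne_zero W x), tcQuad_natDegree]
    norm_num)
  have heq : W.Equation x y := by
    rw [equation_iff]
    rw [IsRoot, tcQuad] at hy
    simp only [eval_sub, eval_add, eval_pow, eval_X, eval_mul, eval_C] at hy
    linear_combination hy
  have hns : W.Nonsingular x y := (equation_iff_nonsingular_of_Δ_ne_zero hΔ).mp heq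
  exact ⟨Point.some x y hns, Point.some_ne_zero hns, rfl⟩

variable [DecidableEq K]

/-- Piece C: `#E[n] = n²` from the multiplication-by-`n` formula (`n` odd). -/
theorem card_torsionBy_eq_sq [IsAlgClosed K] [CharZero K] (W : Affine K) (hΔ : W.Δ ≠ 0) (n : ℕ)
    (hodd : Odd n)
    (hmul : ∀ (x y : K) (h : W.Nonsingular x y), (W.ΨSq n).eval x ≠ 0 →
      ∃ (x' y' : K) (h' : W.Nonsingular x' y'),
        n • Point.some x y h = Point.some x' y' h' ∧ x' * (W.ΨSq n).eval x = (W.Φ n).eval x)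
    (hcop : ∀ x : K, (W.Φ n).eval x = 0 → (W.ΨSq n).eval x ≠ 0) :
    Nat.card (Submodule.torsionBy ℤ W.Point n) = n ^ 2 := by
  have hn0 : n ≠ 0 := fun h => by rw [h] at hodd; exact absurd hodd (by decide)
  have hnK : (n : K) ≠ 0 := by exact_mod_cast hn0
  have hnotEven : ¬ Even n := Nat.not_even_iff_odd.mpr hodd
  -- x-coordinate of `n • P`
  have hmul' : ∀ P : W.Point, P ≠ 0 → (W.ΨSq n).eval (xc W P) ≠ 0 →
      n • P ≠ 0 ∧ xc W (n • P) * (W.ΨSq n).eval (xc W P) = (W.Φ n).eval (xc W P) := by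
    rintro (_ | ⟨x, y, h⟩) hP hΨ
    · exact absurd rfl hP
    obtain ⟨x', y', h', e, hx'⟩ := hmul x y h hΨ
    rw [e]
    exact ⟨Point.some_ne_zero h', hx'⟩
  -- upper bound
  have hΨSq : W.ΨSq (n : ℤ) = W.preΨ' n ^ 2 := by
    rw [WeierstrassCurve.ΨSq_ofNat, if_neg hnotEven, mul_one]
  have hf0 : W.preΨ' n ≠ 0 := W.preΨ'_ne_zero hnK
  have hup := card_torsionBy_le W n (W.preΨ' n) hf0 (by
    intro P hP hnP
    by_contra hne
    have hΨ : (W.ΨSq n).eval (xc W P) ≠ 0 := by
      rw [hΨSq, eval_pow]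
      exact pow_ne_zero 2 hne
    exact (hmul' P hP hΨ).1 hnP)
  obtain ⟨hfin, hle⟩ := hup
  have hdeg : 2 * (W.preΨ' n).natDegree + 1 ≤ n ^ 2 := by
    have h1 := W.natDegree_preΨ'_le n
    rw [if_neg hnotEven] at h1
    have h2 : 1 ≤ n ^ 2 := Nat.one_le_pow _ _ (Nat.pos_of_ne_zero hn0)
    omega
  refine le_antisymm (hle.trans hdeg) ?_
  -- lower bound
  by_cases hn1 : n = 1
  · subst hn1
    have := hfin
    rw [one_pow]
    exact Nat.card_pos
  have hn2 : 2 ≤ n := by omega
  have hΨlt : (W.ΨSq (n : ℤ)).natDegree < n ^ 2 := by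
    have := W.natDegree_ΨSq_le (n : ℤ)
    rw [Int.natAbs_natCast] at this
    have h2 : 1 ≤ n ^ 2 := Nat.one_le_pow _ _ (Nat.pos_of_ne_zero hn0)
    omega
  have hΦd : (W.Φ (n : ℤ)).natDegree = n ^ 2 := by
    rw [W.natDegree_Φ, Int.natAbs_natCast]
  obtain ⟨c, s, hscard, hs⟩ := exists_separable_fibre (W.Φ n) (W.ΨSq n) (n ^ 2) hΦd hΨlt hcop
    (wronskian_ne_zero W n hn2)
  -- points above the fibre
  have step1 : ∀ r ∈ s, ∃ P : W.Point, P ≠ 0 ∧ xc W P = r ∧ n • P ≠ 0 ∧ xc W (n • P) = c := by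
    intro r hr
    obtain ⟨P, hP, hx⟩ := exists_point_of_x W hΔ r
    obtain ⟨h1, h2⟩ := hs r hr
    have h3 := hmul' P hP (by rw [hx]; exact h2)
    rw [hx, h1] at h3
    refine ⟨P, hP, hx, h3.1, ?_⟩
    exact mul_right_cancel₀ h2 h3.2
  have hsne : s.Nonempty := by
    rw [← Finset.card_pos, hscard]
    exact Nat.pos_of_ne_zero (pow_ne_zero 2 hn0)
  obtain ⟨r₀, hr₀⟩ := hsne
  obtain ⟨P₀, hP₀, hxP₀, hnP₀, hxnP₀⟩ := step1 r₀ hr₀
  have step3 : ∀ r : s, ∃ P : W.Point, xc W P = r ∧ n • P = n • P₀ := by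
    rintro ⟨r, hr⟩
    obtain ⟨P, hP, hx, hnP, hxn⟩ := step1 r hr
    rcases eq_or_eq_neg_of_xc_eq W hnP hnP₀ (hxn.trans hxnP₀.symm) with e | e
    · exact ⟨P, hx, e⟩
    · refine ⟨-P, by rw [xc_neg]; exact hx, ?_⟩
      rw [smul_neg, e, neg_neg]
  choose g hgx hgn using step3
  set φ : s → Submodule.torsionBy ℤ W.Point n := fun r =>
    ⟨g r - P₀, by
      rw [Submodule.mem_torsionBy_iff, natCast_zsmul, smul_sub, hgn r, sub_self]⟩ with hφ
  have hinj : Function.Injective φ := by
    intro r r' h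
    have h1 : g r - P₀ = g r' - P₀ := congrArg Subtype.val h
    have h2 : g r = g r' := sub_left_injective h1
    apply Subtype.ext
    rw [← hgx r, ← hgx r', h2]
  calc n ^ 2 = s.card := hscard.symm
    _ = Nat.card s := by rw [Nat.card_eq_fintype_card, Fintype.card_coe]
    _ ≤ Nat.card (Submodule.torsionBy ℤ W.Point n) := Nat.card_le_card_of_injective φ hinj

end curve

end Fermat.Agent.DPCount
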