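import Fermat.Agent.FrobVal
import Fermat.Prelude.Def_EllipticCurve_FrobeniusTrace

set_option autoImplicit false

/-!
# From a Frobenius congruence on `ℤ̄` to `ValuationSubring.IsFrobeniusAt`
-/

namespace Fermat.Agent.FrobLib

open scoped Pointwise

/-- Notation for the absolute Galois group as it appears in the frozen statements. -/
abbrev GQ : Type := AlgebraicClosure ℚ ≃ₐ[ℚ] AlgebraicClosure ℚ

theorem algEquiv_isIntegral (σ : GQ) (b : ZBar) : IsIntegral ℤ (σ (b : AlgebraicClosure ℚ)) :=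
  (b.2 : IsIntegral ℤ (b : AlgebraicClosure ℚ)).map (σ.toAlgHom.restrictScalars ℤ)

/-- The image of an algebraic integer under a Galois automorphism, as an algebraic integer. -/
noncomputable def zbarMap (σ : GQ) (b : ZBar) : ZBar := ⟨σ (b : AlgebraicClosure ℚ), algEquiv_isIntegral σ b⟩

@[simp] theorem coe_zbarMap (σ : GQ) (b : ZBar) :
    ((zbarMap σ b : ZBar) : AlgebraicClosure ℚ) = σ (b : AlgebraicClosure ℚ) := rfl

section

variable (Q : Ideal ZBar) [Q.IsPrime] (ℓ : ℕ) (hℓ : ℓ ≠ 0) (σ : GQ)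
  (h : ∀ b : ZBar, ∃ c ∈ Q, σ (b : AlgebraicClosure ℚ) - (b : AlgebraicClosure ℚ) ^ ℓ = (c : AlgebraicClosure ℚ))

omit [Q.IsPrime] in
include h in
theorem zbarMap_sub_pow_mem (b : ZBar) : zbarMap σ b - b ^ ℓ ∈ Q := by
  obtain ⟨c, hc, hcb⟩ := h b
  have : zbarMap σ b - b ^ ℓ = c := by
    apply Subtype.ext
    simpa using hcb
  rw [this]
  exact hc

include h hℓ in
theorem zbarMap_mem_iff (b : ZBar) : zbarMap σ b ∈ Q ↔ b ∈ Q := by
  have h1 := zbarMap_sub_pow_mem Q ℓ σ h b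
  constructor
  · intro hb
    have : b ^ ℓ ∈ Q := by
      have := Q.sub_mem hb h1
      simpa using this
    exact Ideal.IsPrime.mem_of_pow_mem ‹_› ℓ this
  · intro hb
    have : b ^ ℓ ∈ Q := Ideal.pow_mem_of_mem Q hb ℓ (Nat.pos_of_ne_zero hℓ)
    have := Q.add_mem h1 this
    simpa using this

include h hℓ in
theorem map_mem_valuationSubringOfPrime {x : AlgebraicClosure ℚ}
    (hx : x ∈ valuationSubringOfPrime Q) : σ x ∈ valuationSubringOfPrime Q := by
  obtain ⟨a, s, hs, hxs⟩ := (mem_valuationSubringOfPrime_iff Q x).mp hx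
  refine (mem_valuationSubringOfPrime_iff Q _).mpr
    ⟨zbarMap σ a, zbarMap σ s, fun hmem => hs ((zbarMap_mem_iff Q ℓ hℓ σ h s).mp hmem), ?_⟩
  rw [coe_zbarMap, coe_zbarMap, ← map_mul, hxs]

include h hℓ in
theorem symm_map_mem_valuationSubringOfPrime {x : AlgebraicClosure ℚ}
    (hx : x ∈ valuationSubringOfPrime Q) : σ.symm x ∈ valuationSubringOfPrime Q := by
  obtain ⟨a, s, hs, hxs⟩ := (mem_valuationSubringOfPrime_iff Q x).mp hx
  refine (mem_valuationSubringOfPrime_iff Q _).mpr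
    ⟨zbarMap σ.symm a, zbarMap σ.symm s, fun hmem => hs ?_, ?_⟩
  · have := (zbarMap_mem_iff Q ℓ hℓ σ h (zbarMap σ.symm s)).mpr hmem
    have e : zbarMap σ (zbarMap σ.symm s) = s := by
      apply Subtype.ext
      simp
    rwa [e] at this
  · rw [coe_zbarMap, coe_zbarMap, ← map_mul, hxs]

include h hℓ in
theorem mem_decompositionSubgroup :
    σ ∈ (valuationSubringOfPrime Q).decompositionSubgroup ℚ := by
  rw [MulAction.mem_stabilizer_iff]
  ext x
  rw [ValuationSubring.mem_pointwise_smul_iff_inv_smul_mem]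
  constructor
  · intro hx
    have := map_mem_valuationSubringOfPrime Q ℓ hℓ σ h hx
    simpa using this
  · intro hx
    exact symm_map_mem_valuationSubringOfPrime Q ℓ hℓ σ h hx

include h hℓ in
/-- A Galois automorphism congruent to the `ℓ`-power map modulo `Q` is a Frobenius element at the
valuation subring `(ℤ̄)_Q`. -/
theorem isFrobeniusAt_valuationSubringOfPrime :
    (valuationSubringOfPrime Q).IsFrobeniusAt σ ℓ := by
  refine ⟨mem_decompositionSubgroup Q ℓ hℓ σ h, ?_⟩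
  intro x
  obtain ⟨v, rfl⟩ := IsLocalRing.residue_surjective x
  rw [← IsLocalRing.ResidueField.residue_smul, ← map_pow, ← sub_eq_zero, ← map_sub,
    IsLocalRing.residue_eq_zero_iff, ← ValuationSubring.coe_mem_nonunits_iff,
    mem_nonunits_valuationSubringOfPrime_iff]
  obtain ⟨v, hv⟩ := v
  obtain ⟨a, s, hs, hvs⟩ := (mem_valuationSubringOfPrime_iff Q v).mp hv
  have hσs : zbarMap σ s ∉ Q := fun hmem => hs ((zbarMap_mem_iff Q ℓ hℓ σ h s).mp hmem)
  refine ⟨(zbarMap σ a - a ^ ℓ) * s ^ ℓ - a ^ ℓ * (zbarMap σ s - s ^ ℓ), zbarMap σ s * s ^ ℓ,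
    ?_, ?_, ?_⟩
  · exact Q.sub_mem (Q.mul_mem_right _ (zbarMap_sub_pow_mem Q ℓ σ h a))
      (Q.mul_mem_left _ (zbarMap_sub_pow_mem Q ℓ σ h s))
  · intro hmem
    rcases Ideal.IsPrime.mem_or_mem ‹_› hmem with h1 | h1
    · exact hσs h1
    · exact hs (Ideal.IsPrime.mem_of_pow_mem ‹_› ℓ h1)
  · have e1 : σ v * σ (s : AlgebraicClosure ℚ) = σ (a : AlgebraicClosure ℚ) := by
      rw [← map_mul, hvs]
    have e2 : v ^ ℓ * (s : AlgebraicClosure ℚ) ^ ℓ = (a : AlgebraicClosure ℚ) ^ ℓ := by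
      rw [← mul_pow, hvs]
    simp only [Subalgebra.coe_sub, Subalgebra.coe_mul, Subalgebra.coe_pow, coe_zbarMap]
    change (σ v - v ^ ℓ) * _ = _
    linear_combination (s : AlgebraicClosure ℚ) ^ ℓ * e1 - σ (s : AlgebraicClosure ℚ) * e2

end

/-- A prime of `ℤ̄` containing `ℓ` gives a valuation subring lying over `ℓ`. -/
theorem liesOverPrime_valuationSubringOfPrime (Q : Ideal ZBar) [Q.IsPrime] (ℓ : ℕ)
    (hℓQ : (ℓ : ZBar) ∈ Q) : (valuationSubringOfPrime Q).LiesOverPrime ℓ := by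
  have := coe_mem_nonunits_valuationSubringOfPrime Q hℓQ
  simpa [ValuationSubring.LiesOverPrime] using this

/-- Final assembly: a prime `Q` of `ℤ̄` over `ℓ` and a Galois automorphism congruent to the
`ℓ`-power map modulo `Q` give a place over `ℓ` with a Frobenius element. -/
theorem exists_isFrobeniusAt_of_prime_of_congr (ℓ : ℕ) (hℓ : ℓ ≠ 0) (Q : Ideal ZBar) [Q.IsPrime]
    (hℓQ : (ℓ : ZBar) ∈ Q) (σ : GQ)
    (h : ∀ b : ZBar, ∃ c ∈ Q,
      σ (b : AlgebraicClosure ℚ) - (b : AlgebraicClosure ℚ) ^ ℓ = (c : AlgebraicClosure ℚ)) :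
    ∃ (A : ValuationSubring (AlgebraicClosure ℚ))
      (σ : AlgebraicClosure ℚ ≃ₐ[ℚ] AlgebraicClosure ℚ),
      A.LiesOverPrime ℓ ∧ A.IsFrobeniusAt σ ℓ :=
  ⟨valuationSubringOfPrime Q, σ, liesOverPrime_valuationSubringOfPrime Q ℓ hℓQ,
    isFrobeniusAt_valuationSubringOfPrime Q ℓ hℓ σ h⟩

end Fermat.Agent.FrobLib
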