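import Mathlib

set_option autoImplicit false

/-!
# Localisation of an integrally closed subring at a prime is a valuation ring

Abstract setting: `B` a commutative ring with an injective map to a field `K`, integrally closed
in `K`, `Q` a prime ideal of `B`, such that every element of `K` is a root of a polynomial over `B`
with some coefficient outside `Q`.  Then `B_Q ⊆ K` is a valuation subring.
-/

namespace Fermat.Agent.FrobLocVal

open Polynomial

variable {B K : Type*} [CommRing B] [Field K] [Algebra B K]

/-- Key lemma (Stacks 00IC-type): a root of a polynomial over `B` having a coefficient outside the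
prime `Q` lies in `B_Q` or its inverse does. -/
theorem frac_or_inv_frac_of_aeval_eq_zero
    (hcl : ∀ x : K, IsIntegral B x → ∃ b : B, algebraMap B K b = x)
    (Q : Ideal B) [Q.IsPrime] (x : K) :
    ∀ (n : ℕ) (f : B[X]), f.natDegree ≤ n → aeval x f = 0 → (∃ i, f.coeff i ∉ Q) →
      (∃ a b : B, b ∉ Q ∧ x * algebraMap B K b = algebraMap B K a) ∨
      (∃ a b : B, b ∉ Q ∧ x * algebraMap B K a = algebraMap B K b) := by
  intro n
  induction n with
  | zero =>
    intro f hf hx hQ
    left
    obtain ⟨i, hi⟩ := hQ
    have hfC : f = C (f.coeff 0) := eq_C_of_natDegree_le_zero hf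
    have hi0 : i = 0 := by
      by_contra h
      apply hi
      rw [hfC, coeff_C, if_neg h]
      exact Q.zero_mem
    subst hi0
    refine ⟨0, f.coeff 0, hi, ?_⟩
    rw [hfC, aeval_C] at hx
    rw [hx, mul_zero, map_zero]
  | succ n ih =>
    intro f hf hx hQ
    by_cases hdeg : f.natDegree ≤ n
    · exact ih f hdeg hx hQ
    have hdeg' : f.natDegree = n + 1 := le_antisymm hf (by omega)
    obtain ⟨y, hy⟩ := hcl _ (isIntegral_leadingCoeff_smul f x hx)
    rw [Algebra.smul_def] at hy
    by_cases hc : f.leadingCoeff ∈ Q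
    · -- the leading coefficient is in `Q`
      set g : B[X] := f.eraseLead + C y * X ^ n with hg
      have hgdeg : g.natDegree ≤ n := by
        refine (natDegree_add_le _ _).trans (max_le ?_ ?_)
        · have := eraseLead_natDegree_le f
          omega
        · exact natDegree_C_mul_X_pow_le y n
      have hfx : aeval x f.eraseLead + algebraMap B K f.leadingCoeff * x ^ (n + 1) = 0 := by
        have h := congrArg (aeval x) (eraseLead_add_C_mul_X_pow f)
        rw [map_add, map_mul, aeval_C, map_pow, aeval_X, hdeg', hx] at h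
        exact h
      have hgx : aeval x g = 0 := by
        rw [hg, map_add, map_mul, aeval_C, map_pow, aeval_X, hy, ← hfx]
        ring
      by_cases hgQ : ∃ i, g.coeff i ∉ Q
      · exact ih g hgdeg hgx hgQ
      · right
        simp only [not_exists, not_not] at hgQ
        refine ⟨f.leadingCoeff, y, ?_, ?_⟩
        · intro hyQ
          obtain ⟨i, hi⟩ := hQ
          apply hi
          by_cases hin : i = n + 1
          · subst hin
            rw [← hdeg']
            exact hc
          · have h1 : f.coeff i = f.eraseLead.coeff i := by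
              rw [eraseLead_coeff, if_neg]
              rw [hdeg']
              exact hin
            have h2 := hgQ i
            rw [hg, coeff_add, coeff_C_mul, coeff_X_pow] at h2
            rw [h1]
            by_cases hin' : i = n
            · rw [if_pos hin', mul_one] at h2
              have := Q.sub_mem h2 hyQ
              simpa using this
            · rw [if_neg hin', mul_zero, add_zero] at h2
              exact h2
        · rw [mul_comm, hy]
    · -- the leading coefficient is not in `Q`
      left
      exact ⟨y, f.leadingCoeff, hc, by rw [mul_comm, hy]⟩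

/-- The carrier of the localisation `B_Q` inside `K`. -/
def locCarrier (Q : Ideal B) : Set K :=
  {x | ∃ a b : B, b ∉ Q ∧ x * algebraMap B K b = algebraMap B K a}

/-- `B_Q` as a subring of `K`. -/
def locSubring (Q : Ideal B) [Q.IsPrime] : Subring K where
  carrier := locCarrier (K := K) Q
  zero_mem' := ⟨0, 1, fun h => (Ideal.IsPrime.ne_top ‹_›) ((Ideal.eq_top_iff_one Q).mpr h),
    by simp⟩
  one_mem' := ⟨1, 1, fun h => (Ideal.IsPrime.ne_top ‹_›) ((Ideal.eq_top_iff_one Q).mpr h),
    by simp⟩
  add_mem' := by
    rintro x x' ⟨a, b, hb, h⟩ ⟨a', b', hb', h'⟩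
    refine ⟨a * b' + a' * b, b * b', fun hbb => ?_, ?_⟩
    · rcases Ideal.IsPrime.mem_or_mem ‹_› hbb with h1 | h1
      · exact hb h1
      · exact hb' h1
    · simp only [map_add, map_mul, ← h, ← h']
      ring
  mul_mem' := by
    rintro x x' ⟨a, b, hb, h⟩ ⟨a', b', hb', h'⟩
    refine ⟨a * a', b * b', fun hbb => ?_, ?_⟩
    · rcases Ideal.IsPrime.mem_or_mem ‹_› hbb with h1 | h1
      · exact hb h1
      · exact hb' h1
    · simp only [map_mul, ← h, ← h']
      ring
  neg_mem' := by
    rintro x ⟨a, b, hb, h⟩
    exact ⟨-a, b, hb, by simp only [map_neg, ← h]; ring⟩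

/-- `B_Q` as a valuation subring of `K`, under the hypotheses that `B` is integrally closed in `K`
and every element of `K` is a root of a polynomial over `B` with a coefficient outside `Q`. -/
def locValuationSubring
    (hcl : ∀ x : K, IsIntegral B x → ∃ b : B, algebraMap B K b = x)
    (Q : Ideal B) [Q.IsPrime]
    (hprim : ∀ x : K, ∃ f : B[X], aeval x f = 0 ∧ ∃ i, f.coeff i ∉ Q) :
    ValuationSubring K :=
  { locSubring (K := K) Q with
    mem_or_inv_mem' := by
      intro x
      obtain ⟨f, hf, hQ⟩ := hprim x
      rcases frac_or_inv_frac_of_aeval_eq_zero hcl Q x f.natDegree f le_rfl hf hQ with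
        h | ⟨a, b, hb, h⟩
      · exact Or.inl h
      · by_cases hx : x = 0
        · left
          subst hx
          exact (locSubring (K := K) Q).zero_mem
        · right
          refine ⟨a, b, hb, ?_⟩
          rw [← h]
          field_simp }

theorem mem_locValuationSubring_iff
    (hcl : ∀ x : K, IsIntegral B x → ∃ b : B, algebraMap B K b = x)
    (Q : Ideal B) [Q.IsPrime]
    (hprim : ∀ x : K, ∃ f : B[X], aeval x f = 0 ∧ ∃ i, f.coeff i ∉ Q) (x : K) :
    x ∈ locValuationSubring hcl Q hprim ↔
      ∃ a b : B, b ∉ Q ∧ x * algebraMap B K b = algebraMap B K a :=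
  Iff.rfl

theorem mem_nonunits_locValuationSubring_iff
    (hinj : Function.Injective (algebraMap B K))
    (hcl : ∀ x : K, IsIntegral B x → ∃ b : B, algebraMap B K b = x)
    (Q : Ideal B) [Q.IsPrime]
    (hprim : ∀ x : K, ∃ f : B[X], aeval x f = 0 ∧ ∃ i, f.coeff i ∉ Q) (x : K) :
    x ∈ (locValuationSubring hcl Q hprim).nonunits ↔
      ∃ a b : B, a ∈ Q ∧ b ∉ Q ∧ x * algebraMap B K b = algebraMap B K a := by
  set V := locValuationSubring hcl Q hprim with hV
  rw [ValuationSubring.mem_nonunits_iff_or]
  constructor
  · intro hx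
    by_cases hx0 : x = 0
    · exact ⟨0, 1, Q.zero_mem,
        fun h => (Ideal.IsPrime.ne_top ‹_›) ((Ideal.eq_top_iff_one Q).mpr h), by simp [hx0]⟩
    have hxinv : x⁻¹ ∉ V := hx.resolve_left hx0
    obtain ⟨f, hf, hQ⟩ := hprim x
    rcases frac_or_inv_frac_of_aeval_eq_zero hcl Q x f.natDegree f le_rfl hf hQ with
      ⟨a, b, hb, h⟩ | ⟨a, b, hb, h⟩
    · refine ⟨a, b, ?_, hb, h⟩
      by_contra ha
      exact hxinv ⟨b, a, ha, by rw [← h]; field_simp⟩
    · exact absurd ⟨a, b, hb, by rw [← h]; field_simp⟩ hxinv
  · rintro ⟨a, b, ha, hb, h⟩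
    by_cases hx0 : x = 0
    · exact Or.inl hx0
    right
    rintro ⟨a', b', hb', h'⟩
    have hbb : b * b' = a * a' := by
      apply hinj
      rw [map_mul, map_mul, ← h, ← h']
      field_simp
    have : b * b' ∈ Q := hbb ▸ Q.mul_mem_right a' ha
    rcases Ideal.IsPrime.mem_or_mem ‹_› this with h1 | h1
    · exact hb h1
    · exact hb' h1

/-- An element of `Q` is a nonunit of `B_Q`. -/
theorem algebraMap_mem_nonunits_locValuationSubring
    (hinj : Function.Injective (algebraMap B K))
    (hcl : ∀ x : K, IsIntegral B x → ∃ b : B, algebraMap B K b = x)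
    (Q : Ideal B) [Q.IsPrime]
    (hprim : ∀ x : K, ∃ f : B[X], aeval x f = 0 ∧ ∃ i, f.coeff i ∉ Q) {q : B} (hq : q ∈ Q) :
    algebraMap B K q ∈ (locValuationSubring hcl Q hprim).nonunits :=
  (mem_nonunits_locValuationSubring_iff hinj hcl Q hprim _).mpr
    ⟨q, 1, hq, fun h => (Ideal.IsPrime.ne_top ‹_›) ((Ideal.eq_top_iff_one Q).mpr h), by simp⟩

end Fermat.Agent.FrobLocVal
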