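import Fermat.Agent.FrobLocVal

set_option autoImplicit false

/-!
# The valuation subring of `ℚ̄` attached to a prime of the ring of all algebraic integers
-/

namespace Fermat.Agent.FrobLib

open Polynomial Fermat.Agent.FrobLocVal

/-- Abbreviation: the ring of all algebraic integers inside `ℚ̄`. -/
noncomputable abbrev ZBar : Subalgebra ℤ (AlgebraicClosure ℚ) := integralClosure ℤ (AlgebraicClosure ℚ)

theorem zbar_closed (x : AlgebraicClosure ℚ) (hx : IsIntegral ZBar x) :
    ∃ b : ZBar, algebraMap ZBar (AlgebraicClosure ℚ) b = x := by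
  have : IsIntegral ℤ x := isIntegral_trans x hx
  exact ⟨⟨x, this⟩, rfl⟩

theorem zbar_algebraMap_injective :
    Function.Injective (algebraMap ZBar (AlgebraicClosure ℚ)) :=
  Subtype.val_injective

theorem zbar_exists_primitive (Q : Ideal ZBar) [Q.IsPrime] (x : AlgebraicClosure ℚ) :
    ∃ f : ZBar[X], aeval x f = 0 ∧ ∃ i, f.coeff i ∉ Q := by
  have : Algebra.IsAlgebraic ℚ (AlgebraicClosure ℚ) := AlgebraicClosure.isAlgebraic ℚ
  have hx : IsAlgebraic ℤ x :=
    (IsFractionRing.isAlgebraic_iff ℤ ℚ (AlgebraicClosure ℚ)).mpr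
      (Algebra.IsAlgebraic.isAlgebraic x)
  obtain ⟨p, hp0, hp⟩ := hx
  have hq0 : aeval x p.primPart = 0 := by
    have h := congrArg (aeval x) p.eq_C_content_mul_primPart
    rw [hp, map_mul, aeval_C] at h
    have hc : algebraMap ℤ (AlgebraicClosure ℚ) p.content ≠ 0 := by
      rw [Ne, map_eq_zero_iff _ (algebraMap ℤ (AlgebraicClosure ℚ)).injective_int]
      exact content_eq_zero_iff.not.mpr hp0
    exact (mul_eq_zero.mp h.symm).resolve_left hc
  refine ⟨p.primPart.map (algebraMap ℤ ZBar), ?_, ?_⟩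
  · rw [aeval_map_algebraMap]
    exact hq0
  · by_contra hall
    simp only [not_exists, not_not, coeff_map] at hall
    -- all coefficients lie in the prime `P = Q ∩ ℤ`
    set P : Ideal ℤ := Q.comap (algebraMap ℤ ZBar) with hP
    have hPprime : P.IsPrime := Ideal.comap_isPrime _ _
    have hmem : ∀ i, p.primPart.coeff i ∈ P := fun i => Ideal.mem_comap.mpr (hall i)
    have hdvd : C (Submodule.IsPrincipal.generator P) ∣ p.primPart := by
      rw [C_dvd_iff_dvd_coeff]
      intro i
      exact (Submodule.IsPrincipal.mem_iff_generator_dvd P).mp (hmem i)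
    have hunit : IsUnit (Submodule.IsPrincipal.generator P) :=
      p.isPrimitive_primPart _ hdvd
    apply hPprime.ne_top
    rw [← Ideal.span_singleton_generator P]
    exact Ideal.span_singleton_eq_top.mpr hunit

/-- The valuation subring `(ℤ̄)_Q` of `ℚ̄` attached to a prime `Q` of `ℤ̄`. -/
noncomputable def valuationSubringOfPrime (Q : Ideal ZBar) [Q.IsPrime] :
    ValuationSubring (AlgebraicClosure ℚ) :=
  locValuationSubring zbar_closed Q (zbar_exists_primitive Q)

theorem mem_valuationSubringOfPrime_iff (Q : Ideal ZBar) [Q.IsPrime] (x : AlgebraicClosure ℚ) :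
    x ∈ valuationSubringOfPrime Q ↔
      ∃ a s : ZBar, s ∉ Q ∧ x * (s : AlgebraicClosure ℚ) = a :=
  Iff.rfl

theorem mem_nonunits_valuationSubringOfPrime_iff (Q : Ideal ZBar) [Q.IsPrime]
    (x : AlgebraicClosure ℚ) :
    x ∈ (valuationSubringOfPrime Q).nonunits ↔
      ∃ a s : ZBar, a ∈ Q ∧ s ∉ Q ∧ x * (s : AlgebraicClosure ℚ) = a :=
  mem_nonunits_locValuationSubring_iff zbar_algebraMap_injective zbar_closed Q
    (zbar_exists_primitive Q) x

theorem coe_mem_nonunits_valuationSubringOfPrime (Q : Ideal ZBar) [Q.IsPrime] {q : ZBar}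
    (hq : q ∈ Q) : (q : AlgebraicClosure ℚ) ∈ (valuationSubringOfPrime Q).nonunits :=
  algebraMap_mem_nonunits_locValuationSubring zbar_algebraMap_injective zbar_closed Q
    (zbar_exists_primitive Q) hq

/-- Interface lemma for the Frobenius-existence argument. -/
theorem exists_valuationSubring_of_prime
    (Q : Ideal (integralClosure ℤ (AlgebraicClosure ℚ))) [Q.IsPrime] :
    ∃ A : ValuationSubring (AlgebraicClosure ℚ), ∀ x, x ∈ A ↔
      ∃ a s : integralClosure ℤ (AlgebraicClosure ℚ), s ∉ Q ∧ x * (s : AlgebraicClosure ℚ) = a :=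
  ⟨valuationSubringOfPrime Q, mem_valuationSubringOfPrime_iff Q⟩

/-- Stronger interface lemma: also describes the nonunits. -/
theorem exists_valuationSubring_of_prime'
    (Q : Ideal (integralClosure ℤ (AlgebraicClosure ℚ))) [Q.IsPrime] :
    ∃ A : ValuationSubring (AlgebraicClosure ℚ),
      (∀ x, x ∈ A ↔
        ∃ a s : integralClosure ℤ (AlgebraicClosure ℚ),
          s ∉ Q ∧ x * (s : AlgebraicClosure ℚ) = a) ∧
      (∀ x, x ∈ A.nonunits ↔
        ∃ a s : integralClosure ℤ (AlgebraicClosure ℚ),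
          a ∈ Q ∧ s ∉ Q ∧ x * (s : AlgebraicClosure ℚ) = a) :=
  ⟨valuationSubringOfPrime Q, mem_valuationSubringOfPrime_iff Q,
    mem_nonunits_valuationSubringOfPrime_iff Q⟩

end Fermat.Agent.FrobLib
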