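import Mathlib

/-!
# S22 helper: abstract finiteness criterion

A `ℤ`-algebra of endomorphisms of a complex vector space `V` generated by operators that act
compatibly on a finitely generated lattice `Λ` inside a torsion-free abelian group `Z`, through a
jointly injective family of additive maps `V → Z` landing in the saturation of `Λ`,
is a finitely generated `ℤ`-module.
-/

set_option autoImplicit false

namespace Fermat.Agent.S22lib

open scoped Classical in
theorem finite_adjoin_of_lattice_action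
    {V : Type*} [AddCommGroup V] [Module ℂ V]
    {Z : Type*} [AddCommGroup Z] [IsAddTorsionFree Z]
    (Λ : AddSubgroup Z) [Module.Finite ℤ Λ]
    {ι : Type*} (ES : ι → V →+ Z)
    (hES_inj : ∀ f, (∀ β, ES β f = 0) → f = 0)
    (hES_mem : ∀ β f, ∃ D : ℕ, 0 < D ∧ D • ES β f ∈ Λ)
    (gens : Set (Module.End ℂ V))
    (hgens : ∀ t ∈ gens, ∃ t' : Z →+ Z, (∀ c ∈ Λ, t' c ∈ Λ) ∧ ∀ β f, ES β (t f) = t' (ES β f)) :
    Module.Finite ℤ (Algebra.adjoin ℤ gens) := by
  -- the subalgebra of compatible pairs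
  let 𝔅 : Subalgebra ℤ (Module.End ℤ Z × Module.End ℂ V) :=
    { carrier := {b | (∀ c ∈ Λ, b.1 c ∈ Λ) ∧ ∀ β f, ES β (b.2 f) = b.1 (ES β f)}
      mul_mem' := by
        rintro ⟨z₁, v₁⟩ ⟨z₂, v₂⟩ ⟨h₁, h₁'⟩ ⟨h₂, h₂'⟩
        refine ⟨fun c hc => h₁ _ (h₂ c hc), fun β f => ?_⟩
        show ES β (v₁ (v₂ f)) = z₁ (z₂ (ES β f))
        rw [h₁', h₂']
      add_mem' := by
        rintro ⟨z₁, v₁⟩ ⟨z₂, v₂⟩ ⟨h₁, h₁'⟩ ⟨h₂, h₂'⟩
        refine ⟨fun c hc => Λ.add_mem (h₁ c hc) (h₂ c hc), fun β f => ?_⟩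
        show ES β (v₁ f + v₂ f) = z₁ (ES β f) + z₂ (ES β f)
        rw [map_add, h₁', h₂']
      algebraMap_mem' := by
        intro n
        refine ⟨fun c hc => ?_, fun β f => ?_⟩
        · show (algebraMap ℤ (Module.End ℤ Z) n) c ∈ Λ
          rw [Module.algebraMap_end_apply]
          exact Λ.zsmul_mem hc n
        · show ES β ((algebraMap ℤ (Module.End ℂ V) n) f) = (algebraMap ℤ (Module.End ℤ Z) n) (ES β f)
          rw [Module.algebraMap_end_apply, Module.algebraMap_end_apply, map_zsmul] }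
  -- restriction to the lattice
  let r : 𝔅 →ₗ[ℤ] Module.End ℤ Λ :=
    { toFun := fun b =>
        { toFun := fun c => ⟨b.1.1 c.1, b.2.1 c.1 c.2⟩
          map_add' := fun c d => Subtype.ext (map_add b.1.1 c.1 d.1)
          map_smul' := fun n c => Subtype.ext (map_zsmul b.1.1 n c.1) }
      map_add' := fun b b' => LinearMap.ext fun c => Subtype.ext rfl
      map_smul' := fun n b => LinearMap.ext fun c => Subtype.ext rfl }
  let π₂ : 𝔅 →ₗ[ℤ] Module.End ℂ V :=
    { toFun := fun b => b.1.2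
      map_add' := fun b b' => rfl
      map_smul' := fun n b => rfl }
  have hker : LinearMap.ker r ≤ LinearMap.ker π₂ := by
    intro b hb
    rw [LinearMap.mem_ker] at hb ⊢
    have hbΛ : ∀ c ∈ Λ, b.1.1 c = 0 := fun c hc =>
      congrArg Subtype.val (LinearMap.congr_fun hb ⟨c, hc⟩)
    refine LinearMap.ext fun f => hES_inj _ fun β => ?_
    show ES β (b.1.2 f) = 0
    rw [b.2.2 β f]
    obtain ⟨D, hD, hDmem⟩ := hES_mem β f
    have h0 : D • b.1.1 (ES β f) = 0 := by
      rw [← map_nsmul]; exact hbΛ _ hDmem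
    have : D • b.1.1 (ES β f) = D • (0 : Z) := by rw [h0, smul_zero]
    exact nsmul_right_injective hD.ne' this
  -- End_ℤ(Λ) is a finite ℤ-module
  have : Module.Free ℤ Λ := Module.free_of_finite_type_torsion_free'
  have : Module.Finite ℤ (Module.End ℤ Λ) := inferInstance
  have : IsNoetherian ℤ (Module.End ℤ Λ) := isNoetherian_of_isNoetherianRing_of_finite ℤ _
  have : Module.Finite ℤ (LinearMap.range r) := Module.Finite.of_injective
    (LinearMap.range r).subtype Subtype.val_injective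
  have : Module.Finite ℤ (𝔅 ⧸ LinearMap.ker r) :=
    Module.Finite.equiv (LinearMap.quotKerEquivRange r).symm
  -- π₂ factors through the quotient
  let φ : (𝔅 ⧸ LinearMap.ker r) →ₗ[ℤ] Module.End ℂ V := (LinearMap.ker r).liftQ π₂ hker
  have : Module.Finite ℤ (LinearMap.range φ) := Module.Finite.range φ
  have : IsNoetherian ℤ (LinearMap.range φ) := isNoetherian_of_isNoetherianRing_of_finite ℤ _
  have hle : ∀ t ∈ Algebra.adjoin ℤ gens, t ∈ LinearMap.range φ := by
    have h1 : Algebra.adjoin ℤ gens ≤ 𝔅.map (AlgHom.snd ℤ (Module.End ℤ Z) (Module.End ℂ V)) := by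
      refine Algebra.adjoin_le fun t ht => ?_
      obtain ⟨t', ht', ht''⟩ := hgens t ht
      exact ⟨(t'.toIntLinearMap, t), ⟨ht', ht''⟩, rfl⟩
    intro t ht
    obtain ⟨b, hb, rfl⟩ := h1 ht
    exact ⟨Submodule.Quotient.mk ⟨b, hb⟩, rfl⟩
  let incl : (Algebra.adjoin ℤ gens) →ₗ[ℤ] LinearMap.range φ :=
    { toFun := fun t => ⟨t.1, hle t.1 t.2⟩
      map_add' := fun _ _ => rfl
      map_smul' := fun _ _ => rfl }
  exact Module.Finite.of_injective incl fun a b hab => Subtype.ext (congrArg (fun x => x.1) hab)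

end Fermat.Agent.S22lib
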