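import Mathlib

/-!
# S22 helper: abstract cocycles and Hecke operators on them

`G` a group, `ι : Γ →* G` a group homomorphism, `M` an abelian group with a right action `act`
of `G` by additive maps. A family of "coset representatives" `α : X → G` with
`α x * ι γ = ι (γ' γ x) * α (σ γ x)`.
-/

set_option autoImplicit false

namespace Fermat.Agent.S22lib

section Abstract

variable {G : Type*} [Group G] {Γ : Type*} [Group Γ] (ι : Γ →* G) {M : Type*} [AddCommGroup M]
  (act : G → M →+ M)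

/-- the cocycle condition for a function `Γ → M` (right action). -/
def IsCoc (c : Γ → M) : Prop := ∀ γ δ : Γ, c (γ * δ) = act (ι δ) (c γ) + c δ

/-- the coboundary-shaped cocycle attached to an element of `M`. -/
def cocOf (F : M) : Γ → M := fun γ => act (ι γ) F - F

variable {ι act}

theorem isCoc_cocOf (hmul : ∀ g h F, act (g * h) F = act h (act g F)) (F : M) :
    IsCoc ι act (cocOf ι act F) := by
  intro γ δ
  simp only [cocOf, map_mul, hmul, map_sub]
  abel

theorem IsCoc.map_one {c : Γ → M} (hc : IsCoc ι act c) (hone : ∀ F, act 1 F = F) : c 1 = 0 := by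
  have h := hc 1 1
  rw [mul_one, MonoidHom.map_one ι, hone] at h
  simpa using h

theorem IsCoc.map_inv {c : Γ → M} (hc : IsCoc ι act c) (hone : ∀ F, act 1 F = F) (γ : Γ) :
    c γ⁻¹ = - act (ι γ⁻¹) (c γ) := by
  have h := hc γ γ⁻¹
  rw [mul_inv_cancel, hc.map_one hone] at h
  exact eq_neg_of_add_eq_zero_right h.symm

/-- A cocycle with values in a `Γ`-stable subgroup on a generating set has values in it. -/
theorem IsCoc.mem_of_mem_generators {c : Γ → M} (hc : IsCoc ι act c) (hone : ∀ F, act 1 F = F)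
    (P : AddSubgroup M) (hP : ∀ γ : Γ, ∀ F ∈ P, act (ι γ) F ∈ P)
    (S : Set Γ) (hS : Subgroup.closure S = ⊤) (hcS : ∀ s ∈ S, c s ∈ P) (γ : Γ) : c γ ∈ P := by
  have hγ : γ ∈ Subgroup.closure S := hS ▸ Subgroup.mem_top γ
  induction hγ using Subgroup.closure_induction with
  | mem x hx => exact hcS x hx
  | one => rw [hc.map_one hone]; exact P.zero_mem
  | mul x y _ _ hx hy => rw [hc x y]; exact P.add_mem (hP _ _ hx) hy
  | inv x _ hx => rw [hc.map_inv hone]; exact P.neg_mem (hP _ _ hx)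

variable (ι act) in
/-- The group of cocycles with values in a subgroup `P`. -/
def cocLattice (P : AddSubgroup M) : AddSubgroup (Γ → M) where
  carrier := {c | IsCoc ι act c ∧ ∀ γ, c γ ∈ P}
  zero_mem' := ⟨fun γ δ => by simp, fun γ => P.zero_mem⟩
  add_mem' := by
    rintro c c' ⟨h, hP⟩ ⟨h', hP'⟩
    refine ⟨fun γ δ => ?_, fun γ => P.add_mem (hP γ) (hP' γ)⟩
    simp only [Pi.add_apply, h γ δ, h' γ δ, map_add]
    abel
  neg_mem' := by
    rintro c ⟨h, hP⟩
    refine ⟨fun γ δ => ?_, fun γ => P.neg_mem (hP γ)⟩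
    simp only [Pi.neg_apply, h γ δ, map_neg]
    abel

theorem mem_cocLattice {P : AddSubgroup M} {c : Γ → M} :
    c ∈ cocLattice ι act P ↔ IsCoc ι act c ∧ ∀ γ, c γ ∈ P := Iff.rfl

/-- Finite generation of the lattice of cocycles. -/
theorem finite_cocLattice [Group.FG Γ] (hone : ∀ F, act 1 F = F)
    (P : AddSubgroup M) [Module.Finite ℤ P] :
    Module.Finite ℤ (cocLattice ι act P) := by
  obtain ⟨S, hS⟩ := Group.fg_def.mp (inferInstance : Group.FG Γ)
  let ev : (cocLattice ι act P) →ₗ[ℤ] ({s // s ∈ S} → P) :=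
    { toFun := fun c s => ⟨c.1 s.1, c.2.2 s.1⟩
      map_add' := fun c c' => rfl
      map_smul' := fun n c => rfl }
  have hinj : Function.Injective ev := by
    rw [injective_iff_map_eq_zero]
    intro c hc
    apply Subtype.ext
    funext γ
    have h0 : ∀ s ∈ (S : Set Γ), c.1 s ∈ (⊥ : AddSubgroup M) := by
      intro s hs
      rw [AddSubgroup.mem_bot]
      exact congrArg Subtype.val (congrFun hc ⟨s, Finset.mem_coe.mp hs⟩)
    have := c.2.1.mem_of_mem_generators hone ⊥ (fun γ F hF => by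
      rw [AddSubgroup.mem_bot] at hF ⊢; rw [hF, map_zero]) (S : Set Γ) hS h0 γ
    simpa using this
  have : IsNoetherian ℤ ({s // s ∈ S} → P) := isNoetherian_of_isNoetherianRing_of_finite ℤ _
  exact Module.Finite.of_injective ev hinj

/-- Saturation: a cocycle with values in the saturation of a `Γ`-stable subgroup `P` has a positive
multiple with values in `P`. -/
theorem exists_nsmul_mem_cocLattice [Group.FG Γ] (hone : ∀ F, act 1 F = F)
    (P : AddSubgroup M) (hP : ∀ γ : Γ, ∀ F ∈ P, act (ι γ) F ∈ P)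
    {c : Γ → M} (hc : IsCoc ι act c) (hsat : ∀ γ, ∃ D : ℕ, 0 < D ∧ D • c γ ∈ P) :
    ∃ D : ℕ, 0 < D ∧ D • c ∈ cocLattice ι act P := by
  classical
  obtain ⟨S, hS⟩ := Group.fg_def.mp (inferInstance : Group.FG Γ)
  choose Dfun hDpos hDmem using hsat
  refine ⟨∏ s ∈ S, Dfun s, Finset.prod_pos fun s _ => hDpos s, ?_⟩
  have hcoc : IsCoc ι act ((∏ s ∈ S, Dfun s) • c) := by
    intro γ δ
    simp only [Pi.smul_apply, hc γ δ, smul_add, map_nsmul]
  refine ⟨hcoc, fun γ => ?_⟩
  refine hcoc.mem_of_mem_generators hone P hP (S : Set Γ) hS (fun s hs => ?_) γ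
  have hs' : s ∈ S := hs
  obtain ⟨k, hk⟩ := Finset.dvd_prod_of_mem Dfun hs'
  rw [Pi.smul_apply, hk, mul_comm, mul_smul]
  exact P.nsmul_mem (hDmem s) k

end Abstract

section Hecke

variable {G : Type*} [Group G] {Γ : Type*} [Group Γ] {ι : Γ →* G} {M : Type*} [AddCommGroup M]
  {act : G → M →+ M}
  {X : Type*} [Fintype X] (α : X → G) (σ : Γ → Equiv.Perm X) (γ' : Γ → X → Γ)

/-- Hecke operator on `M`. -/
def heckeM (act : G → M →+ M) (F : M) : M := ∑ x, act (α x) F

/-- Hecke operator on functions `Γ → M`. -/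
def heckeCoc (act : G → M →+ M) (c : Γ → M) : Γ → M :=
  fun γ => ∑ x, act (α (σ γ x)) (c (γ' γ x))

variable {α σ γ'}

omit [Group G] [Group Γ] in
theorem heckeCoc_add (c c' : Γ → M) :
    heckeCoc α σ γ' act (c + c') = heckeCoc α σ γ' act c + heckeCoc α σ γ' act c' := by
  funext γ
  simp only [heckeCoc, Pi.add_apply, map_add, Finset.sum_add_distrib]

variable (α σ γ') in
/-- Hecke operator on functions as an additive map. -/
def heckeCocHom (act : G → M →+ M) : (Γ → M) →+ (Γ → M) where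
  toFun := heckeCoc α σ γ' act
  map_zero' := by funext γ; simp [heckeCoc]
  map_add' := heckeCoc_add

theorem heckeCoc_cocOf (hmul : ∀ g h F, act (g * h) F = act h (act g F))
    (hrel : ∀ (γ : Γ) (x : X), α x * ι γ = ι (γ' γ x) * α (σ γ x)) (F : M) :
    heckeCoc α σ γ' act (cocOf ι act F) = cocOf ι act (heckeM α act F) := by
  funext γ
  simp only [heckeCoc, cocOf, heckeM, map_sub, map_sum, Finset.sum_sub_distrib]
  congr 1
  · refine Finset.sum_congr rfl fun x _ => ?_
    rw [← hmul, ← hmul, hrel]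
  · exact Equiv.sum_comp (σ γ) (fun x => act (α x) F)

omit [Fintype X] in
theorem γ'_mul (hι : Function.Injective ι)
    (hrel : ∀ (γ : Γ) (x : X), α x * ι γ = ι (γ' γ x) * α (σ γ x))
    (hσ : ∀ (γ δ : Γ) (x : X), σ (γ * δ) x = σ δ (σ γ x)) (γ δ : Γ) (x : X) :
    γ' (γ * δ) x = γ' γ x * γ' δ (σ γ x) := by
  apply hι
  have h1 := hrel (γ * δ) x
  have h2 := hrel γ x
  have h3 := hrel δ (σ γ x)
  rw [hσ] at h1
  rw [map_mul, ← mul_assoc, h2, mul_assoc, h3, ← mul_assoc] at h1
  rw [map_mul]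
  exact (mul_right_cancel h1).symm

theorem IsCoc.heckeCoc (hι : Function.Injective ι)
    (hmul : ∀ g h F, act (g * h) F = act h (act g F))
    (hrel : ∀ (γ : Γ) (x : X), α x * ι γ = ι (γ' γ x) * α (σ γ x))
    (hσ : ∀ (γ δ : Γ) (x : X), σ (γ * δ) x = σ δ (σ γ x))
    {c : Γ → M} (hc : IsCoc ι act c) : IsCoc ι act (heckeCoc α σ γ' act c) := by
  intro γ δ
  simp only [Fermat.Agent.S22lib.heckeCoc, map_sum]
  rw [← Equiv.sum_comp (σ γ) (fun x => act (α (σ δ x)) (c (γ' δ x))), ← Finset.sum_add_distrib]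
  refine Finset.sum_congr rfl fun x _ => ?_
  rw [γ'_mul hι hrel hσ, hc, map_add, hσ]
  congr 1
  rw [← hmul, ← hmul, ← hrel δ (σ γ x)]

theorem heckeCoc_mem_cocLattice (hι : Function.Injective ι)
    (hmul : ∀ g h F, act (g * h) F = act h (act g F))
    (hrel : ∀ (γ : Γ) (x : X), α x * ι γ = ι (γ' γ x) * α (σ γ x))
    (hσ : ∀ (γ δ : Γ) (x : X), σ (γ * δ) x = σ δ (σ γ x))
    (P : AddSubgroup M) (hP : ∀ x, ∀ F ∈ P, act (α x) F ∈ P)
    {c : Γ → M} (hc : c ∈ cocLattice ι act P) :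
    heckeCoc α σ γ' act c ∈ cocLattice ι act P :=
  ⟨hc.1.heckeCoc hι hmul hrel hσ, fun _ => AddSubgroup.sum_mem _ fun _ _ => hP _ _ (hc.2 _)⟩

omit [Group G] [Group Γ] in
/-- Composition with an additive map commuting with the action on the values of `c`. -/
theorem heckeCoc_comp (pr : M →+ M) (c : Γ → M)
    (hpr : ∀ (x : X) (γ : Γ), pr (act (α x) (c γ)) = act (α x) (pr (c γ))) :
    (fun γ => pr (heckeCoc α σ γ' act c γ)) = heckeCoc α σ γ' act (fun γ => pr (c γ)) := by
  funext γ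
  simp only [heckeCoc, map_sum, hpr]

end Hecke

end Fermat.Agent.S22lib
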