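import Mathlib

/-!
# S22 helper: the normalised weight `2 - k` action on functions on the upper half plane and
polynomial functions of degree `≤ m = k - 2`.
-/

set_option autoImplicit false

open UpperHalfPlane ModularForm
open scoped MatrixGroups ModularForm

namespace Fermat.Agent.S22lib

noncomputable section

/-- normalised weight `2 - k` right action of `GL₂(ℝ)` on functions on `ℍ`. -/
def starAct (k : ℤ) (g : GL (Fin 2) ℝ) : (ℍ → ℂ) →+ (ℍ → ℂ) where
  toFun F := ((|g.det.val| : ℝ) : ℂ) ^ (k - 1) • (F ∣[2 - k] g)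
  map_zero' := by simp
  map_add' F F' := by simp [smul_add]

theorem starAct_def (k : ℤ) (g : GL (Fin 2) ℝ) (F : ℍ → ℂ) :
    starAct k g F = ((|g.det.val| : ℝ) : ℂ) ^ (k - 1) • (F ∣[2 - k] g) := rfl

theorem starAct_one (k : ℤ) (F : ℍ → ℂ) : starAct k 1 F = F := by
  simp [starAct_def]

theorem starAct_mul (k : ℤ) (g h : GL (Fin 2) ℝ) (F : ℍ → ℂ) :
    starAct k (g * h) F = starAct k h (starAct k g F) := by
  have h1 : ((|(g * h).det.val| : ℝ) : ℂ) ^ (k - 1)
      = ((|h.det.val| : ℝ) : ℂ) ^ (k - 1) * ((|g.det.val| : ℝ) : ℂ) ^ (k - 1) := by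
    rw [map_mul, Units.val_mul, abs_mul, Complex.ofReal_mul, mul_zpow, mul_comm]
  have h2 : σ h (((|g.det.val| : ℝ) : ℂ) ^ (k - 1)) = ((|g.det.val| : ℝ) : ℂ) ^ (k - 1) := by
    rw [map_zpow₀, σ_ofReal]
  rw [starAct_def, starAct_def, starAct_def, SlashAction.slash_mul, ModularForm.smul_slash, h2,
    h1, smul_smul]

theorem starAct_apply (k : ℤ) (g : GL (Fin 2) ℝ) (F : ℍ → ℂ) (z : ℍ) :
    starAct k g F z = σ g (F (g • z)) * denom g z ^ (k - 2) := by
  have hd : ((|g.det.val| : ℝ) : ℂ) ≠ 0 :=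
    Complex.ofReal_ne_zero.mpr (abs_ne_zero.mpr g.det.ne_zero)
  simp only [starAct_def, Pi.smul_apply, ModularForm.slash_apply, smul_eq_mul]
  rw [show (2 - k - 1 : ℤ) = -(k - 1) by ring, show (-(2 - k) : ℤ) = k - 2 by ring, zpow_neg]
  field_simp

theorem starAct_apply_of_det_pos (k : ℤ) {g : GL (Fin 2) ℝ} (hg : 0 < g.det.val) (F : ℍ → ℂ)
    (z : ℍ) : starAct k g F z = F (g • z) * denom g z ^ (k - 2) := by
  rw [starAct_apply, σ, if_pos hg]
  rfl

theorem starAct_smul_of_det_pos (k : ℤ) {g : GL (Fin 2) ℝ} (hg : 0 < g.det.val) (c : ℂ)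
    (F : ℍ → ℂ) : starAct k g (c • F) = c • starAct k g F := by
  funext z
  simp only [starAct_apply_of_det_pos k hg, Pi.smul_apply, smul_eq_mul, mul_assoc]

/-- polynomial functions of degree `≤ m` on the upper half plane, in terms of coefficients. -/
def polyFun (m : ℕ) : (Fin (m + 1) → ℂ) →ₗ[ℂ] (ℍ → ℂ) where
  toFun v := fun z => ∑ j, v j * (z : ℂ) ^ (j : ℕ)
  map_add' v w := by
    funext z
    simp only [Pi.add_apply, add_mul, Finset.sum_add_distrib]
  map_smul' c v := by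
    funext z
    simp only [Pi.smul_apply, smul_eq_mul, RingHom.id_apply, Finset.mul_sum, mul_assoc]

theorem polyFun_apply (m : ℕ) (v : Fin (m + 1) → ℂ) (z : ℍ) :
    polyFun m v z = ∑ j, v j * (z : ℂ) ^ (j : ℕ) := rfl

theorem polyFun_eq_eval (m : ℕ) (v : Fin (m + 1) → ℂ) (z : ℍ) :
    polyFun m v z = (Polynomial.ofFn (m + 1) v).eval (z : ℂ) := by
  rw [polyFun_apply, Polynomial.ofFn_eq_sum_monomial, Polynomial.eval_finsetSum]
  simp [Polynomial.eval_monomial]

theorem polyFun_injective (m : ℕ) : Function.Injective (polyFun m) := by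
  rw [injective_iff_map_eq_zero]
  intro v hv
  have hroot : ∀ z : ℍ, (Polynomial.ofFn (m + 1) v).IsRoot (z : ℂ) := fun z => by
    rw [Polynomial.IsRoot, ← polyFun_eq_eval, hv]; rfl
  have hinf : Set.Infinite {x : ℂ | (Polynomial.ofFn (m + 1) v).IsRoot x} := by
    refine Set.Infinite.mono (s := Set.range fun n : ℕ => ((n : ℂ) + Complex.I)) ?_ ?_
    · rintro _ ⟨n, rfl⟩
      have him : 0 < ((n : ℂ) + Complex.I).im := by simp
      exact hroot ⟨_, him⟩
    · refine Set.infinite_range_of_injective fun a b hab => ?_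
      have := congrArg Complex.re hab
      simpa using this
  have h0 := Polynomial.eq_zero_of_infinite_isRoot _ hinf
  exact Polynomial.injective_ofFn (m + 1) (h0.trans (Polynomial.ofFn_zero (m + 1)).symm)

/-- a linear left inverse of `polyFun`. -/
def polyCoeff (m : ℕ) : (ℍ → ℂ) →ₗ[ℂ] (Fin (m + 1) → ℂ) :=
  Classical.choose (LinearMap.exists_leftInverse_of_injective (polyFun m)
    (LinearMap.ker_eq_bot.mpr (polyFun_injective m)))

theorem polyCoeff_polyFun (m : ℕ) (v : Fin (m + 1) → ℂ) : polyCoeff m (polyFun m v) = v :=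
  LinearMap.congr_fun (Classical.choose_spec (LinearMap.exists_leftInverse_of_injective (polyFun m)
    (LinearMap.ker_eq_bot.mpr (polyFun_injective m)))) v

/-- matrices in `GL₂(ℝ)` with integer entries and positive determinant. -/
def IsIntMat (g : GL (Fin 2) ℝ) : Prop :=
  0 < g.det.val ∧ ∃ a b c d : ℤ, g 0 0 = a ∧ g 0 1 = b ∧ g 1 0 = c ∧ g 1 1 = d

/-- the integer matrix of the action of an integral matrix on polynomials of degree `≤ m`. -/
def symMat (m : ℕ) (a b c d : ℤ) : Matrix (Fin (m + 1)) (Fin (m + 1)) ℤ :=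
  fun i j => ((Polynomial.C a * Polynomial.X + Polynomial.C b) ^ (j : ℕ) *
    (Polynomial.C c * Polynomial.X + Polynomial.C d) ^ (m - (j : ℕ))).coeff (i : ℕ)

theorem starAct_polyFun_aux (m : ℕ) {g : GL (Fin 2) ℝ} (hg : 0 < g.det.val) {a b c d : ℤ}
    (h00 : g 0 0 = a) (h01 : g 0 1 = b) (h10 : g 1 0 = c) (h11 : g 1 1 = d)
    (v : Fin (m + 1) → ℂ) :
    starAct (m + 2) g (polyFun m v) =
      polyFun m (fun i => ∑ j, ((symMat m a b c d i j : ℤ) : ℂ) * v j) := by
  funext z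
  rw [starAct_apply_of_det_pos _ hg, polyFun_apply, polyFun_apply]
  have hden : denom g z ≠ 0 := denom_ne_zero g z
  have hsm : ((g • z : ℍ) : ℂ) = num g z / denom g z := coe_smul_of_det_pos hg z
  have hnum : num g z = (a : ℂ) * z + b := by simp [num, h00, h01]
  have hdenom : denom g z = (c : ℂ) * z + d := by simp [denom, h10, h11]
  rw [show ((m : ℤ) + 2 - 2) = (m : ℤ) by ring, zpow_natCast, Finset.sum_mul]
  -- each term
  have hterm : ∀ j : Fin (m + 1), v j * ((g • z : ℍ) : ℂ) ^ (j : ℕ) * denom g z ^ m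
      = v j * ∑ i : Fin (m + 1), ((symMat m a b c d i j : ℤ) : ℂ) * (z : ℂ) ^ (i : ℕ) := by
    intro j
    have hj : (j : ℕ) ≤ m := Nat.lt_succ_iff.mp j.2
    set Q : Polynomial ℤ := (Polynomial.C a * Polynomial.X + Polynomial.C b) ^ (j : ℕ) *
      (Polynomial.C c * Polynomial.X + Polynomial.C d) ^ (m - (j : ℕ)) with hQ
    have hdeg : Q.natDegree < m + 1 := by
      have h1 : (Polynomial.C a * Polynomial.X + Polynomial.C b : Polynomial ℤ).natDegree ≤ 1 :=
        Polynomial.natDegree_linear_le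
      have h2 : (Polynomial.C c * Polynomial.X + Polynomial.C d : Polynomial ℤ).natDegree ≤ 1 :=
        Polynomial.natDegree_linear_le
      have h3 : Q.natDegree ≤
          ((Polynomial.C a * Polynomial.X + Polynomial.C b : Polynomial ℤ) ^ (j : ℕ)).natDegree +
          ((Polynomial.C c * Polynomial.X + Polynomial.C d : Polynomial ℤ) ^
            (m - (j : ℕ))).natDegree := Polynomial.natDegree_mul_le
      have h4 := Polynomial.natDegree_pow_le
        (p := (Polynomial.C a * Polynomial.X + Polynomial.C b : Polynomial ℤ)) (n := (j : ℕ))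
      have h5 := Polynomial.natDegree_pow_le
        (p := (Polynomial.C c * Polynomial.X + Polynomial.C d : Polynomial ℤ)) (n := m - (j : ℕ))
      have h6 : (j : ℕ) * (Polynomial.C a * Polynomial.X + Polynomial.C b : Polynomial ℤ).natDegree
          ≤ (j : ℕ) := by nlinarith
      have h7 : (m - (j : ℕ)) *
          (Polynomial.C c * Polynomial.X + Polynomial.C d : Polynomial ℤ).natDegree
          ≤ m - (j : ℕ) := by nlinarith
      omega
    have heval : Polynomial.aeval (z : ℂ) Q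
        = ((a : ℂ) * z + b) ^ (j : ℕ) * ((c : ℂ) * z + d) ^ (m - (j : ℕ)) := by
      simp [hQ]
    have hsum := Polynomial.aeval_eq_sum_range' hdeg (z : ℂ)
    rw [heval, Finset.sum_range] at hsum
    have hpow : ((g • z : ℍ) : ℂ) ^ (j : ℕ) * denom g z ^ m
        = ((a : ℂ) * z + b) ^ (j : ℕ) * ((c : ℂ) * z + d) ^ (m - (j : ℕ)) := by
      rw [hsm, div_pow, ← hnum, ← hdenom]
      have : denom g z ^ m = denom g z ^ (j : ℕ) * denom g z ^ (m - (j : ℕ)) := by
        rw [← pow_add, Nat.add_sub_cancel' hj]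
      rw [this]
      field_simp
    rw [mul_assoc, hpow, hsum]
    congr 1
    refine Finset.sum_congr rfl fun i _ => ?_
    simp [symMat, hQ, zsmul_eq_mul]
  rw [Finset.sum_congr rfl fun j _ => hterm j]
  simp only [Finset.mul_sum, Finset.sum_mul]
  rw [Finset.sum_comm]
  refine Finset.sum_congr rfl fun i _ => Finset.sum_congr rfl fun j _ => ?_
  ring

theorem exists_mat_starAct_polyFun (m : ℕ) {g : GL (Fin 2) ℝ} (hg : IsIntMat g) :
    ∃ A : Matrix (Fin (m + 1)) (Fin (m + 1)) ℤ, ∀ v : Fin (m + 1) → ℂ,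
      starAct (m + 2) g (polyFun m v) = polyFun m (fun i => ∑ j, ((A i j : ℤ) : ℂ) * v j) := by
  obtain ⟨hdet, a, b, c, d, h00, h01, h10, h11⟩ := hg
  exact ⟨symMat m a b c d, starAct_polyFun_aux m hdet h00 h01 h10 h11⟩

/-- polynomial functions with integer coefficients. -/
def polyZHom (m : ℕ) : (Fin (m + 1) → ℤ) →+ (ℍ → ℂ) where
  toFun w := polyFun m (fun j => (w j : ℂ))
  map_zero' := by
    have : (fun j : Fin (m + 1) => (((0 : Fin (m + 1) → ℤ) j : ℤ) : ℂ)) = 0 := by
      funext j; simp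
    rw [this, map_zero]
  map_add' w w' := by
    have : (fun j : Fin (m + 1) => (((w + w') j : ℤ) : ℂ))
        = (fun j => (w j : ℂ)) + (fun j => (w' j : ℂ)) := by
      funext j; simp
    rw [this, map_add]

/-- the lattice of polynomial functions with integer coefficients. -/
def polyZ (m : ℕ) : AddSubgroup (ℍ → ℂ) := (polyZHom m).range

theorem mem_polyZ {m : ℕ} {F : ℍ → ℂ} :
    F ∈ polyZ m ↔ ∃ w : Fin (m + 1) → ℤ, polyFun m (fun j => (w j : ℂ)) = F := Iff.rfl

instance finite_polyZ (m : ℕ) : Module.Finite ℤ (polyZ m) := by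
  let f : (Fin (m + 1) → ℤ) →ₗ[ℤ] (polyZ m) :=
    ((polyZHom m).rangeRestrict).toIntLinearMap
  exact Module.Finite.of_surjective f (polyZHom m).rangeRestrict_surjective

theorem starAct_mem_polyZ (m : ℕ) {g : GL (Fin 2) ℝ} (hg : IsIntMat g) {F : ℍ → ℂ}
    (hF : F ∈ polyZ m) : starAct (m + 2) g F ∈ polyZ m := by
  obtain ⟨w, rfl⟩ := mem_polyZ.mp hF
  obtain ⟨A, hA⟩ := exists_mat_starAct_polyFun m hg
  rw [hA]
  refine mem_polyZ.mpr ⟨fun i => ∑ j, A i j * w j, ?_⟩
  congr 1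
  funext i
  push_cast
  rfl

/-- the coefficientwise projection attached to a `ℚ`-linear functional on `ℂ`. -/
def projQ (m : ℕ) (π : ℂ →ₗ[ℚ] ℚ) : (ℍ → ℂ) →+ (ℍ → ℂ) where
  toFun F := polyFun m (fun j => ((π (polyCoeff m F j) : ℚ) : ℂ))
  map_zero' := by
    have : (fun j : Fin (m + 1) => ((π (polyCoeff m 0 j) : ℚ) : ℂ)) = 0 := by
      funext j; simp
    rw [this, map_zero]
  map_add' F F' := by
    have : (fun j : Fin (m + 1) => ((π (polyCoeff m (F + F') j) : ℚ) : ℂ))
        = (fun j => ((π (polyCoeff m F j) : ℚ) : ℂ)) +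
          (fun j => ((π (polyCoeff m F' j) : ℚ) : ℂ)) := by
      funext j; simp
    rw [this, map_add]

theorem projQ_polyFun (m : ℕ) (π : ℂ →ₗ[ℚ] ℚ) (v : Fin (m + 1) → ℂ) :
    projQ m π (polyFun m v) = polyFun m (fun j => ((π (v j) : ℚ) : ℂ)) := by
  show polyFun m _ = _
  rw [polyCoeff_polyFun]

theorem projQ_starAct (m : ℕ) (π : ℂ →ₗ[ℚ] ℚ) {g : GL (Fin 2) ℝ} (hg : IsIntMat g)
    (v : Fin (m + 1) → ℂ) :
    projQ m π (starAct (m + 2) g (polyFun m v)) = starAct (m + 2) g (projQ m π (polyFun m v)) := by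
  obtain ⟨A, hA⟩ := exists_mat_starAct_polyFun m hg
  rw [hA, projQ_polyFun, projQ_polyFun, hA]
  congr 1
  funext i
  rw [map_sum]
  push_cast
  refine Finset.sum_congr rfl fun j _ => ?_
  have : ((A i j : ℤ) : ℂ) * v j = ((A i j : ℤ) : ℚ) • v j := by
    rw [Rat.smul_def]; push_cast; rfl
  rw [this, map_smul]
  simp

theorem exists_nsmul_projQ_mem_polyZ (m : ℕ) (π : ℂ →ₗ[ℚ] ℚ) (v : Fin (m + 1) → ℂ) :
    ∃ D : ℕ, 0 < D ∧ D • projQ m π (polyFun m v) ∈ polyZ m := by
  refine ⟨∏ j, (π (v j)).den, Finset.prod_pos fun j _ => Rat.den_pos _, ?_⟩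
  rw [projQ_polyFun]
  refine mem_polyZ.mpr
    ⟨fun j => (π (v j)).num * ∏ i ∈ Finset.univ.erase j, ((π (v i)).den : ℤ), ?_⟩
  rw [← Nat.cast_smul_eq_nsmul ℂ, ← map_smul]
  congr 1
  funext j
  simp only [Pi.smul_apply, smul_eq_mul]
  push_cast
  rw [← Finset.mul_prod_erase Finset.univ (fun i => ((π (v i)).den : ℂ)) (Finset.mem_univ j)]
  have hden : (((π (v j)).den : ℕ) : ℂ) ≠ 0 := Nat.cast_ne_zero.mpr (Rat.den_ne_zero _)
  have hq : ((π (v j) : ℚ) : ℂ) = ((π (v j)).num : ℂ) / ((π (v j)).den : ℂ) := by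
    conv_lhs => rw [← Rat.num_div_den (π (v j))]
    push_cast
    rfl
  rw [hq]
  field_simp

theorem polyFun_eq_zero_of_projQ (m : ℕ) {ι : Type*} (b : Module.Basis ι ℚ ℂ)
    (v : Fin (m + 1) → ℂ) (h : ∀ β, projQ m (b.coord β) (polyFun m v) = 0) :
    polyFun m v = 0 := by
  have hv : v = 0 := by
    funext j
    apply b.repr.injective
    ext β
    have h1 := h β
    rw [projQ_polyFun] at h1
    have h2 := polyFun_injective m (h1.trans (map_zero (polyFun m)).symm)
    have h3 := congrFun h2 j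
    simpa using h3
  rw [hv, map_zero]

end

end Fermat.Agent.S22lib
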