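import Mathlib
import Fermat.Prelude.Thm_ModularForm_heckeT_slash_eq_self_of_mem_Gamma0
import Fermat.Agent.S22_Poly

/-!
# S22 helper: coset data for the Hecke operators `T_p`, `U_p` on `Γ₀(N)`
-/

set_option autoImplicit false

open P2MW.S_ModularForm_heckeT_slash_eq_self_of_mem_Gamma0.ModularForm.HeckeSlashInvariance
open Matrix.SpecialLinearGroup CongruenceSubgroup UpperHalfPlane ModularForm
open scoped MatrixGroups ModularForm

namespace Fermat.Agent.S22lib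

noncomputable section

/-- the inclusion `Γ₀(N) → GL₂(ℝ)`. -/
def gamma0Hom (N : ℕ) : (Gamma0 N) →* GL (Fin 2) ℝ := (mapGL ℝ).comp (Gamma0 N).subtype

theorem gamma0Hom_apply (N : ℕ) (γ : Gamma0 N) : gamma0Hom N γ = mapGL ℝ (γ : SL(2, ℤ)) := rfl

theorem gamma0Hom_injective (N : ℕ) : Function.Injective (gamma0Hom N) :=
  (mapGL_injective (R := ℤ) (S := ℝ)).comp Subtype.val_injective

theorem gamma0Hom_mem (N : ℕ) (γ : Gamma0 N) :
    gamma0Hom N γ ∈ ((Gamma0 N : Subgroup SL(2, ℤ)) : Subgroup (GL (Fin 2) ℝ)) :=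
  Subgroup.mem_map_of_mem _ γ.2

instance fg_SL2Z : Group.FG SL(2, ℤ) :=
  Group.fg_iff.mpr ⟨{ModularGroup.S, ModularGroup.T}, SpecialLinearGroup.SL2Z_generators,
    Set.toFinite _⟩

instance fg_Gamma0 (N : ℕ) [NeZero N] : Group.FG (Gamma0 N) := inferInstance

theorem det_mapGL (g : SL(2, ℤ)) : (mapGL ℝ g : GL (Fin 2) ℝ).det.val = 1 := by
  simp

theorem isIntMat_mapGL (g : SL(2, ℤ)) : IsIntMat (mapGL ℝ g) :=
  ⟨by rw [det_mapGL]; exact one_pos, g 0 0, g 0 1, g 1 0, g 1 1, by simp, by simp, by simp, by simp⟩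

theorem isIntMat_heckeMatrix {p : ℕ} (hp : p ≠ 0) (j : ℕ) : IsIntMat (heckeMatrix p j) :=
  ⟨det_heckeMatrix_pos p j, 1, j, 0, p, by simp [val_heckeMatrix hp], by simp [val_heckeMatrix hp],
    by simp [val_heckeMatrix hp], by simp [val_heckeMatrix hp]⟩

theorem isIntMat_heckeDiagMatrix {p : ℕ} (hp : p ≠ 0) : IsIntMat (heckeDiagMatrix p) :=
  ⟨det_heckeDiagMatrix_pos p, p, 0, 0, 1, by simp [val_heckeDiagMatrix hp],
    by simp [val_heckeDiagMatrix hp], by simp [val_heckeDiagMatrix hp],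
    by simp [val_heckeDiagMatrix hp]⟩

theorem isIntMat_heckeRep {p : ℕ} (hp : p ≠ 0) (x : OnePoint (ZMod p)) :
    IsIntMat (heckeRep p x) := by
  induction x using OnePoint.rec with
  | infty => exact isIntMat_heckeDiagMatrix hp
  | coe j => exact isIntMat_heckeMatrix hp _

theorem heckeMatrix_one_zero {p : ℕ} (j : ℕ) : (heckeMatrix p j : GL (Fin 2) ℝ) 1 0 = 0 := by
  rcases eq_or_ne p 0 with rfl | hp
  · simp
  · simp [val_heckeMatrix hp]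

theorem heckeDiagMatrix_one_zero {p : ℕ} : (heckeDiagMatrix p : GL (Fin 2) ℝ) 1 0 = 0 := by
  rcases eq_or_ne p 0 with rfl | hp
  · simp
  · simp [val_heckeDiagMatrix hp]

theorem heckeRep_one_zero {p : ℕ} (x : OnePoint (ZMod p)) :
    (heckeRep p x : GL (Fin 2) ℝ) 1 0 = 0 := by
  induction x using OnePoint.rec with
  | infty => exact heckeDiagMatrix_one_zero
  | coe j => exact heckeMatrix_one_zero _

theorem gamma0_dvd {N : ℕ} (γ : Gamma0 N) : (N : ℤ) ∣ (γ : SL(2, ℤ)) 1 0 :=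
  (ZMod.intCast_zmod_eq_zero_iff_dvd _ _).mp (Gamma0_mem.mp γ.2)

section T

variable {N p : ℕ} [Fact p.Prime]

/-- the permutation of `ℙ¹(𝔽_p)` attached to `γ ∈ Γ₀(N)`. -/
def sigmaT (γ : Gamma0 N) : Equiv.Perm (OnePoint (ZMod p)) :=
  MulAction.toPerm (redMatrix p (γ : SL(2, ℤ)))

/-- the element `γ'` with `α_x γ = γ' α_{σ x}`. -/
def gammaT (hpN : ¬ p ∣ N) (γ : Gamma0 N) (x : OnePoint (ZMod p)) : Gamma0 N :=
  ⟨Classical.choose (heckeRep_mul hpN (γ : SL(2, ℤ)) (gamma0_dvd γ) x),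
    Gamma0_mem.mpr ((ZMod.intCast_zmod_eq_zero_iff_dvd _ _).mpr
      (Classical.choose_spec (heckeRep_mul hpN (γ : SL(2, ℤ)) (gamma0_dvd γ) x)).1)⟩

theorem relT (hpN : ¬ p ∣ N) (γ : Gamma0 N) (x : OnePoint (ZMod p)) :
    heckeRep p x * gamma0Hom N γ = gamma0Hom N (gammaT hpN γ x) * heckeRep p (sigmaT γ x) :=
  (Classical.choose_spec (heckeRep_mul hpN (γ : SL(2, ℤ)) (gamma0_dvd γ) x)).2

theorem redMatrix_mul (g h : SL(2, ℤ)) :
    redMatrix p (g * h) = redMatrix p h * redMatrix p g := by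
  apply Units.ext
  ext i j
  fin_cases i <;> fin_cases j <;>
    simp [redMatrix, Matrix.mul_apply, Fin.sum_univ_two] <;> ring

theorem sigmaT_mul (γ δ : Gamma0 N) (x : OnePoint (ZMod p)) :
    sigmaT (γ * δ) x = sigmaT δ (sigmaT γ x) := by
  simp only [sigmaT, MulAction.toPerm_apply, Subgroup.coe_mul, redMatrix_mul, mul_smul]

end T

section U

variable {N p : ℕ} [NeZero p]

theorem gamma0_cast_eq_zero (hpN : p ∣ N) (γ : Gamma0 N) :
    (((γ : SL(2, ℤ)) 1 0 : ℤ) : ZMod p) = 0 :=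
  (ZMod.intCast_zmod_eq_zero_iff_dvd _ _).mpr
    ((Int.natCast_dvd_natCast.mpr hpN).trans (gamma0_dvd γ))

/-- the permutation of `𝔽_p` attached to `γ ∈ Γ₀(N)`, `p ∣ N`. -/
def sigmaU (hpN : p ∣ N) (γ : Gamma0 N) : Equiv.Perm (ZMod p) :=
  affinePerm (γ : SL(2, ℤ)) (gamma0_cast_eq_zero hpN γ)

theorem gamma0_dvd' (hpN : p ∣ N) (γ : Gamma0 N) : (p : ℤ) ∣ (γ : SL(2, ℤ)) 1 0 :=
  (Int.natCast_dvd_natCast.mpr hpN).trans (gamma0_dvd γ)

/-- the element `γ'` with `α_x γ = γ' α_{σ x}`. -/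
def gammaU (hpN : p ∣ N) (γ : Gamma0 N) (x : ZMod p) : Gamma0 N :=
  ⟨Classical.choose (heckeMatrix_mul_of_dvd (γ : SL(2, ℤ)) (gamma0_dvd' hpN γ) x), by
    have h := (Classical.choose_spec
      (heckeMatrix_mul_of_dvd (γ : SL(2, ℤ)) (gamma0_dvd' hpN γ) x)).1
    rw [Gamma0_mem, h]
    push_cast
    rw [Gamma0_mem.mp γ.2, mul_zero]⟩

theorem relU (hpN : p ∣ N) (γ : Gamma0 N) (x : ZMod p) :
    heckeMatrix p x.val * gamma0Hom N γ
      = gamma0Hom N (gammaU hpN γ x) * heckeMatrix p (sigmaU hpN γ x).val :=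
  (Classical.choose_spec (heckeMatrix_mul_of_dvd (γ : SL(2, ℤ)) (gamma0_dvd' hpN γ) x)).2

theorem sigmaU_mul (hpN : p ∣ N) (γ δ : Gamma0 N) (x : ZMod p) :
    sigmaU hpN (γ * δ) x = sigmaU hpN δ (sigmaU hpN γ x) := by
  simp only [sigmaU, affinePerm_apply, Subgroup.coe_mul]
  have hγ := gamma0_cast_eq_zero hpN γ
  have hδ := gamma0_cast_eq_zero hpN δ
  have hu := unit_of_apply_one_zero_eq_zero (p := p) (γ : SL(2, ℤ)) hγ
  have e11 : ((((γ : SL(2, ℤ)) * (δ : SL(2, ℤ)) : SL(2, ℤ)) 1 1 : ℤ) : ZMod p)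
      = (((γ : SL(2, ℤ)) 1 1 : ℤ) : ZMod p) * (((δ : SL(2, ℤ)) 1 1 : ℤ) : ZMod p) := by
    simp [Matrix.mul_apply, Fin.sum_univ_two, hγ]
  have e01 : ((((γ : SL(2, ℤ)) * (δ : SL(2, ℤ)) : SL(2, ℤ)) 0 1 : ℤ) : ZMod p)
      = (((γ : SL(2, ℤ)) 0 0 : ℤ) : ZMod p) * (((δ : SL(2, ℤ)) 0 1 : ℤ) : ZMod p)
        + (((γ : SL(2, ℤ)) 0 1 : ℤ) : ZMod p) * (((δ : SL(2, ℤ)) 1 1 : ℤ) : ZMod p) := by
    simp [Matrix.mul_apply, Fin.sum_univ_two]
  rw [e11, e01]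
  linear_combination ((((δ : SL(2, ℤ)) 1 1 : ℤ) : ZMod p) *
    (((δ : SL(2, ℤ)) 0 1 : ℤ) : ZMod p)) * hu

end U

end

end Fermat.Agent.S22lib
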