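import Mathlib
import Fermat.Agent.S22_Poly

/-!
# S22 helper: iterated normalised derivative, Bol's identity, polynomial functions
-/

set_option autoImplicit false

open UpperHalfPlane ModularForm Derivative
open scoped MatrixGroups ModularForm Manifold Real Topology

namespace Fermat.Agent.S22lib

noncomputable section

local notation "𝐃" => Derivative.normalizedDerivOfComplex

theorem mdiff_iterD {F : ℍ → ℂ} (hF : MDiff F) (n : ℕ) : MDiff (𝐃^[n] F) := by
  induction n with
  | zero => simpa using hF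
  | succ n ih =>
    rw [Function.iterate_succ_apply']
    exact normalizedDerivOfComplex_mdifferentiable ih

theorem D_zero : 𝐃 (0 : ℍ → ℂ) = 0 := normalizedDerivOfComplex_const 0

theorem iterD_zero (n : ℕ) : 𝐃^[n] (0 : ℍ → ℂ) = 0 := by
  induction n with
  | zero => rfl
  | succ n ih => rw [Function.iterate_succ_apply', ih, D_zero]

theorem iterD_add {F G : ℍ → ℂ} (hF : MDiff F) (hG : MDiff G) (n : ℕ) :
    𝐃^[n] (F + G) = 𝐃^[n] F + 𝐃^[n] G := by
  induction n with
  | zero => rfl
  | succ n ih =>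
    rw [Function.iterate_succ_apply', Function.iterate_succ_apply', Function.iterate_succ_apply',
      ih, normalizedDerivOfComplex_add _ _ (mdiff_iterD hF n) (mdiff_iterD hG n)]

theorem iterD_sub {F G : ℍ → ℂ} (hF : MDiff F) (hG : MDiff G) (n : ℕ) :
    𝐃^[n] (F - G) = 𝐃^[n] F - 𝐃^[n] G := by
  induction n with
  | zero => rfl
  | succ n ih =>
    rw [Function.iterate_succ_apply', Function.iterate_succ_apply', Function.iterate_succ_apply',
      ih, normalizedDerivOfComplex_sub _ _ (mdiff_iterD hF n) (mdiff_iterD hG n)]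

theorem iterD_smul (c : ℂ) {F : ℍ → ℂ} (hF : MDiff F) (n : ℕ) :
    𝐃^[n] (c • F) = c • 𝐃^[n] F := by
  induction n with
  | zero => rfl
  | succ n ih =>
    rw [Function.iterate_succ_apply', Function.iterate_succ_apply',
      ih, normalizedDerivOfComplex_smul _ _ (mdiff_iterD hF n)]

theorem mdiff_sum {ι : Type*} (s : Finset ι) {F : ι → ℍ → ℂ} (hF : ∀ i ∈ s, MDiff (F i)) :
    MDiff (∑ i ∈ s, F i) := by
  classical
  induction s using Finset.induction_on with
  | empty =>
    simp only [Finset.sum_empty]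
    exact mdifferentiable_const
  | insert i t hi ih =>
    rw [Finset.sum_insert hi]
    exact (hF i (Finset.mem_insert_self i t)).add
      (ih fun j hj => hF j (Finset.mem_insert_of_mem hj))

theorem iterD_sum {ι : Type*} (s : Finset ι) {F : ι → ℍ → ℂ} (hF : ∀ i ∈ s, MDiff (F i))
    (n : ℕ) : 𝐃^[n] (∑ i ∈ s, F i) = ∑ i ∈ s, 𝐃^[n] (F i) := by
  classical
  induction s using Finset.induction_on with
  | empty => simp [iterD_zero]
  | insert i t hi ih =>
    rw [Finset.sum_insert hi, Finset.sum_insert hi,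
      iterD_add (hF i (Finset.mem_insert_self i t))
        (mdiff_sum t fun j hj => hF j (Finset.mem_insert_of_mem hj)),
      ih fun j hj => hF j (Finset.mem_insert_of_mem hj)]

/-- the denominator function `z ↦ c z + d` of `g`. -/
def denomFun (g : GL (Fin 2) ℝ) : ℍ → ℂ := fun z => denom g z

theorem mdiff_denomFun (g : GL (Fin 2) ℝ) : MDiff (denomFun g) := mdifferentiable_denom g

theorem D_denomFun (g : GL (Fin 2) ℝ) :
    𝐃 (denomFun g) = fun _ => (2 * π * Complex.I)⁻¹ * (g 1 0 : ℂ) := by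
  funext z
  simp only [normalizedDerivOfComplex]
  congr 1
  have h1 : (denomFun g ∘ ofComplex) =ᶠ[𝓝 (z : ℂ)] fun w => (g 1 0 : ℂ) * w + (g 1 1 : ℂ) := by
    filter_upwards [isOpen_upperHalfPlaneSet.mem_nhds z.im_pos] with w hw
    simp [denomFun, denom, ofComplex_apply_of_im_pos hw]
  rw [h1.deriv_eq]
  simp

/-- Leibniz rule for the product of the linear function `denomFun g` with `G`. -/
theorem iterD_denomFun_mul (g : GL (Fin 2) ℝ) {G : ℍ → ℂ} (hG : MDiff G) (n : ℕ) :
    𝐃^[n + 1] (denomFun g * G) = denomFun g * 𝐃^[n + 1] G +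
      (((n : ℂ) + 1) * ((2 * π * Complex.I)⁻¹ * (g 1 0 : ℂ))) • 𝐃^[n] G := by
  induction n with
  | zero =>
    simp only [Function.iterate_succ, Function.iterate_zero, Function.comp_apply, id_eq]
    rw [normalizedDerivOfComplex_mul _ _ (mdiff_denomFun g) hG, D_denomFun]
    funext z
    simp only [Pi.add_apply, Pi.mul_apply, Pi.smul_apply, smul_eq_mul]
    push_cast
    ring
  | succ n ih =>
    rw [Function.iterate_succ_apply', ih]
    have h1 : MDiff (denomFun g * 𝐃^[n + 1] G) := (mdiff_denomFun g).mul (mdiff_iterD hG _)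
    have h2 : MDiff ((((n : ℂ) + 1) * ((2 * π * Complex.I)⁻¹ * (g 1 0 : ℂ))) • 𝐃^[n] G) :=
      (mdiff_iterD hG n).const_smul _
    rw [normalizedDerivOfComplex_add _ _ h1 h2,
      normalizedDerivOfComplex_mul _ _ (mdiff_denomFun g) (mdiff_iterD hG _),
      normalizedDerivOfComplex_smul _ _ (mdiff_iterD hG n), D_denomFun,
      ← Function.iterate_succ_apply' 𝐃 (n + 1) G, ← Function.iterate_succ_apply' 𝐃 n G]
    funext z
    simp only [Pi.add_apply, Pi.mul_apply, Pi.smul_apply, smul_eq_mul]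
    push_cast
    ring

theorem mdiff_starAct (k : ℤ) (g : GL (Fin 2) ℝ) {F : ℍ → ℂ} (hF : MDiff F) :
    MDiff (starAct k g F) := by
  rw [starAct_def]
  exact (hF.slash _ g).const_smul _

theorem starAct_succ_eq (n : ℕ) {g : GL (Fin 2) ℝ} (hg : 0 < g.det.val) (F : ℍ → ℂ) :
    starAct ((n : ℤ) + 2) g F = denomFun g * starAct ((n : ℤ) + 1) g F := by
  funext z
  rw [Pi.mul_apply, starAct_apply_of_det_pos _ hg, starAct_apply_of_det_pos _ hg, denomFun]
  have hz : denom g z ≠ 0 := denom_ne_zero g z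
  rw [show ((n : ℤ) + 2 - 2) = ((n : ℤ) + 1 - 2) + 1 by ring, zpow_add_one₀ hz]
  ring

/-- **Bol's identity** for matrices of positive determinant. -/
theorem bol (n : ℕ) {g : GL (Fin 2) ℝ} (hg : 0 < g.det.val) {F : ℍ → ℂ} (hF : MDiff F) :
    𝐃^[n] (starAct ((n : ℤ) + 1) g F) = (𝐃^[n] F) ∣[(n : ℤ) + 1] g := by
  induction n generalizing F with
  | zero =>
    simp only [Function.iterate_zero, id_eq, starAct_def]
    norm_num
  | succ n ih =>
    have hdet : g.det.val = g.val.det := Matrix.GeneralLinearGroup.val_det_apply g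
    have hg' : 0 < g.val.det := hdet ▸ hg
    have hG : MDiff (starAct ((n : ℤ) + 1) g F) := mdiff_starAct _ g hF
    rw [show ((n + 1 : ℕ) : ℤ) + 1 = (n : ℤ) + 2 by push_cast; ring, starAct_succ_eq n hg,
      iterD_denomFun_mul g hG n, Function.iterate_succ_apply' 𝐃 n, ih hF,
      normalizedDerivOfComplex_slash (mdiff_iterD hF n) hg',
      ← Function.iterate_succ_apply' 𝐃 n F]
    funext z
    have hz : denom g z ≠ 0 := denom_ne_zero g z
    have hdetℂ : ((|g.det.val| : ℝ) : ℂ) ≠ 0 :=
      Complex.ofReal_ne_zero.mpr (abs_ne_zero.mpr g.det.ne_zero)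
    have habs : |g.det.val| = g.val.det := by rw [abs_of_pos hg, hdet]
    simp only [Pi.add_apply, Pi.mul_apply, Pi.smul_apply, smul_eq_mul, denomFun]
    have e1 : ((𝐃^[n + 1] F) ∣[(n : ℤ) + 1 + 2] g) z
        = (g.val.det : ℂ) * (denom g z)⁻¹ * ((𝐃^[n + 1] F) ∣[(n : ℤ) + 2] g) z := by
      simp only [ModularForm.slash_apply]
      rw [show ((n : ℤ) + 1 + 2 - 1) = ((n : ℤ) + 2 - 1) + 1 by ring,
        show (-((n : ℤ) + 1 + 2)) = (-((n : ℤ) + 2)) - 1 by ring,
        zpow_add_one₀ hdetℂ, zpow_sub_one₀ hz, habs]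
      ring
    rw [e1]
    have hdetne : (g.val.det : ℂ) ≠ 0 := Complex.ofReal_ne_zero.mpr hg'.ne'
    push_cast
    field_simp
    ring

end

end Fermat.Agent.S22lib
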