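import Mathlib
import Fermat.Agent.S22_Deriv

/-!
# S22 helper: holomorphic functions on the upper half plane with vanishing iterated derivative
are polynomial functions; uniqueness statements.
-/

set_option autoImplicit false

open UpperHalfPlane ModularForm Derivative
open scoped MatrixGroups ModularForm Manifold Real Topology

namespace Fermat.Agent.S22lib

noncomputable section

local notation "𝐃" => Derivative.normalizedDerivOfComplex

theorem eq_const_of_D_eq_zero {G : ℍ → ℂ} (hG : MDiff G) (h : 𝐃 G = 0) :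
    ∃ c : ℂ, G = fun _ => c := by
  refine ⟨G I, funext fun z => ?_⟩
  have hdiff : DifferentiableOn ℂ (G ∘ ofComplex) upperHalfPlaneSet :=
    UpperHalfPlane.mdifferentiable_iff.mp hG
  have hderiv : upperHalfPlaneSet.EqOn (deriv (G ∘ ofComplex)) 0 := by
    intro w hw
    have := congrFun h ⟨w, hw⟩
    simp only [normalizedDerivOfComplex, Pi.zero_apply] at this
    have hpi : (2 * (π : ℂ) * Complex.I)⁻¹ ≠ 0 := inv_ne_zero (by simp [Real.pi_ne_zero])
    exact (mul_eq_zero.mp this).resolve_left hpi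
  have := isOpen_upperHalfPlaneSet.is_const_of_deriv_eq_zero
    (Convex.isPreconnected (convex_halfSpace_im_gt 0)) hdiff hderiv z.im_pos I.im_pos
  rw [Function.comp_apply, Function.comp_apply, ofComplex_apply, ofComplex_apply] at this
  exact this

theorem mdiff_polyFun (m : ℕ) (v : Fin (m + 1) → ℂ) : MDiff (polyFun m v) := by
  rw [UpperHalfPlane.mdifferentiable_iff]
  have h : DifferentiableOn ℂ (fun x : ℂ => ∑ j : Fin (m + 1), v j * x ^ (j : ℕ))
      upperHalfPlaneSet := by
    apply Differentiable.differentiableOn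
    fun_prop
  refine h.congr fun w hw => ?_
  simp [polyFun_apply, Function.comp_apply, ofComplex_apply_of_im_pos hw]

theorem const_eq_polyFun (m : ℕ) (c : ℂ) :
    (fun _ : ℍ => c) = polyFun m (Pi.single 0 c) := by
  funext z
  rw [polyFun_apply, Finset.sum_eq_single (0 : Fin (m + 1))]
  · simp
  · intro j _ hj
    simp [Pi.single_eq_of_ne hj]
  · simp

theorem exists_polyFun_D_eq (m : ℕ) (v : Fin (m + 1) → ℂ) :
    ∃ w : Fin (m + 2) → ℂ, 𝐃 (polyFun (m + 1) w) = polyFun m v := by
  refine ⟨Fin.cons 0 (fun j : Fin (m + 1) => (2 * π * Complex.I) * v j / ((j : ℂ) + 1)), ?_⟩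
  funext z
  simp only [normalizedDerivOfComplex]
  set w : Fin (m + 2) → ℂ :=
    Fin.cons 0 (fun j : Fin (m + 1) => (2 * π * Complex.I) * v j / ((j : ℂ) + 1)) with hw
  have h1 : (polyFun (m + 1) w ∘ ofComplex) =ᶠ[𝓝 (z : ℂ)]
      fun x => ∑ j : Fin (m + 2), w j * x ^ (j : ℕ) := by
    filter_upwards [isOpen_upperHalfPlaneSet.mem_nhds z.im_pos] with x hx
    simp [polyFun_apply, Function.comp_apply, ofComplex_apply_of_im_pos hx]
  have h2 : HasDerivAt (fun x : ℂ => ∑ j : Fin (m + 2), w j * x ^ (j : ℕ))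
      (∑ j : Fin (m + 2), w j * ((j : ℕ) * (z : ℂ) ^ ((j : ℕ) - 1))) (z : ℂ) := by
    apply HasDerivAt.fun_sum
    intro j _
    exact (hasDerivAt_pow (j : ℕ) (z : ℂ)).const_mul (w j)
  rw [h1.deriv_eq, h2.deriv, Fin.sum_univ_succ, polyFun_apply]
  have hpi : (2 * (π : ℂ) * Complex.I) ≠ 0 := by simp [Real.pi_ne_zero]
  simp only [hw, Fin.cons_zero, Fin.cons_succ, Fin.val_succ, Nat.add_sub_cancel,
    zero_mul, zero_add]
  rw [Finset.mul_sum]
  refine Finset.sum_congr rfl fun j _ => ?_
  have hj : ((j : ℕ) : ℂ) + 1 ≠ 0 := by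
    have : (((j : ℕ) + 1 : ℕ) : ℂ) ≠ 0 := Nat.cast_ne_zero.mpr (Nat.succ_ne_zero _)
    simpa using this
  push_cast
  field_simp

/-- a holomorphic function on `ℍ` killed by `𝐃^[m+1]` is a polynomial function of degree `≤ m`. -/
theorem exists_eq_polyFun_of_iterD_eq_zero (m : ℕ) {G : ℍ → ℂ} (hG : MDiff G)
    (h : 𝐃^[m + 1] G = 0) : ∃ v : Fin (m + 1) → ℂ, G = polyFun m v := by
  induction m generalizing G with
  | zero =>
    obtain ⟨c, rfl⟩ := eq_const_of_D_eq_zero hG (by simpa using h)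
    exact ⟨_, const_eq_polyFun 0 c⟩
  | succ m ih =>
    rw [Function.iterate_succ_apply] at h
    obtain ⟨v, hv⟩ := ih (normalizedDerivOfComplex_mdifferentiable hG) h
    obtain ⟨w, hw⟩ := exists_polyFun_D_eq m v
    have hH : 𝐃 (G - polyFun (m + 1) w) = 0 := by
      rw [normalizedDerivOfComplex_sub _ _ hG (mdiff_polyFun _ _), hv, hw, sub_self]
    obtain ⟨c, hc⟩ := eq_const_of_D_eq_zero (hG.sub (mdiff_polyFun _ _)) hH
    refine ⟨w + Pi.single 0 c, ?_⟩
    rw [map_add, ← const_eq_polyFun, ← hc]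
    abel

/-- a periodic polynomial function is constant. -/
theorem eq_const_of_iterD_eq_zero_of_periodic (m : ℕ) {G : ℍ → ℂ} (hG : MDiff G)
    (h : 𝐃^[m + 1] G = 0) {t : ℝ} (ht : t ≠ 0) (hper : ∀ z : ℍ, G (t +ᵥ z) = G z) :
    ∃ c : ℂ, G = fun _ => c := by
  obtain ⟨v, rfl⟩ := exists_eq_polyFun_of_iterD_eq_zero m hG h
  set P := Polynomial.ofFn (m + 1) v with hP
  have hperN : ∀ n : ℕ, polyFun m v (((n : ℝ) * t) +ᵥ I) = polyFun m v I := by
    intro n
    induction n with
    | zero => simp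
    | succ n ih =>
      rw [← ih, ← hper ((((n : ℝ) * t)) +ᵥ I)]
      have : ((((n + 1 : ℕ) : ℝ) * t) +ᵥ I : ℍ) = t +ᵥ ((((n : ℝ) * t)) +ᵥ I) := by
        apply UpperHalfPlane.ext
        simp only [UpperHalfPlane.coe_vadd]
        push_cast
        ring
      rw [this]
  have hroot : Set.Infinite {x : ℂ | (P - Polynomial.C (polyFun m v I)).IsRoot x} := by
    refine Set.Infinite.mono (s := Set.range fun n : ℕ => (((n : ℝ) * t : ℝ) : ℂ) + Complex.I) ?_ ?_
    · rintro _ ⟨n, rfl⟩
      have h1 := hperN n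
      rw [polyFun_eq_eval] at h1
      simp only [Set.mem_ofPred_eq, Polynomial.IsRoot, Polynomial.eval_sub, Polynomial.eval_C,
        sub_eq_zero]
      rw [← h1]
      congr 1
    · refine Set.infinite_range_of_injective fun a b hab => ?_
      have := congrArg Complex.re hab
      simp only [Complex.add_re, Complex.ofReal_re, Complex.I_re, add_zero] at this
      exact_mod_cast mul_right_cancel₀ ht this
  have h0 := Polynomial.eq_zero_of_infinite_isRoot _ hroot
  refine ⟨polyFun m v I, funext fun z => ?_⟩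
  rw [polyFun_eq_eval, ← hP, sub_eq_zero.mp h0, Polynomial.eval_C]

/-- a polynomial function vanishing at `i∞` is zero. -/
theorem eq_zero_of_iterD_eq_zero_of_isZeroAtImInfty (m : ℕ) {G : ℍ → ℂ} (hG : MDiff G)
    (h : 𝐃^[m + 1] G = 0) (hzero : IsZeroAtImInfty G) : G = 0 := by
  obtain ⟨v, rfl⟩ := exists_eq_polyFun_of_iterD_eq_zero m hG h
  set P := Polynomial.ofFn (m + 1) v with hP
  have hfun : (polyFun m v) = fun z : ℍ => P.eval (z : ℂ) := funext fun z => polyFun_eq_eval m v z
  have hnorm : Filter.Tendsto (fun z : ℍ => ‖(z : ℂ)‖) atImInfty Filter.atTop := by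
    refine Filter.tendsto_atTop_mono (fun z => Complex.abs_im_le_norm (z : ℂ)) ?_
    refine Filter.tendsto_atTop_mono (fun z => le_abs_self _) ?_
    exact Filter.tendsto_comap
  by_cases hdeg : 0 < P.degree
  · exfalso
    have h1 := P.tendsto_norm_atTop hdeg hnorm
    have h2 : Filter.Tendsto (fun z : ℍ => ‖P.eval (z : ℂ)‖) atImInfty (𝓝 0) := by
      have := hzero.norm
      rw [hfun] at this
      simpa using this
    exact not_tendsto_atTop_of_tendsto_nhds h2 h1
  · have hC : P = Polynomial.C (P.coeff 0) :=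
      Polynomial.eq_C_of_degree_le_zero (not_lt.mp hdeg)
    have h2 : Filter.Tendsto (fun _ : ℍ => P.coeff 0) atImInfty (𝓝 0) := by
      have : (fun z : ℍ => P.eval (z : ℂ)) = fun _ => P.coeff 0 := by
        funext z; rw [hC]; simp
      rw [← this, ← hfun]
      exact hzero
    have h3 : P.coeff 0 = 0 := tendsto_nhds_unique tendsto_const_nhds h2
    rw [hfun]
    funext z
    rw [hC, h3]
    simp

end

end Fermat.Agent.S22lib
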