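import Mathlib
import Fermat.Agent.S22_PolyD

/-!
# S22 helper: periodic primitives vanishing at `i∞` (Eichler integrals)
-/

set_option autoImplicit false

open UpperHalfPlane ModularForm Derivative Function
open scoped MatrixGroups ModularForm Manifold Real Topology

namespace Fermat.Agent.S22lib

noncomputable section

local notation "𝐃" => Derivative.normalizedDerivOfComplex
local notation "𝕢" => Periodic.qParam

theorem hasDerivAt_qParam (h : ℝ) (z : ℂ) :
    HasDerivAt (𝕢 h) (2 * π * Complex.I / h * 𝕢 h z) z := by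
  unfold Periodic.qParam
  have h1 : HasDerivAt (fun w : ℂ => 2 * π * Complex.I * w / h) (2 * π * Complex.I / h) z := by
    have := ((hasDerivAt_id z).const_mul (2 * π * Complex.I)).div_const (h : ℂ)
    simpa using this
  exact h1.cexp.congr_deriv (mul_comm _ _)

theorem qParam_add_period {h : ℝ} (hh : h ≠ 0) (z : ℂ) : 𝕢 h (z + h) = 𝕢 h z := by
  unfold Periodic.qParam
  have hh' : (h : ℂ) ≠ 0 := Complex.ofReal_ne_zero.mpr hh
  rw [show 2 * π * Complex.I * (z + h) / h = 2 * π * Complex.I * z / h + 2 * π * Complex.I by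
    field_simp, Complex.exp_add, Complex.exp_two_pi_mul_I, mul_one]

/-- a periodic holomorphic function vanishing at `i∞` has a primitive of the same kind. -/
theorem exists_primitive {g : ℍ → ℂ} (hg : MDiff g) {h : ℝ} (hh : 0 < h)
    (hper : Periodic (g ∘ ofComplex) h) (hzero : IsZeroAtImInfty g) :
    ∃ G : ℍ → ℂ, MDiff G ∧ Periodic (G ∘ ofComplex) h ∧ IsZeroAtImInfty G ∧ 𝐃 G = g := by
  have hbdd : IsBoundedAtImInfty g := hzero.isBoundedAtImInfty
  set F := cuspFunction h g with hF
  have hFdiff : DifferentiableOn ℂ F (Metric.ball 0 1) :=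
    differentiableOn_cuspFunction_ball hh hper hg hbdd
  have hF0 : F 0 = 0 :=
    (cuspFunction_apply_zero hh (analyticAt_cuspFunction_zero hh hper hg hbdd) hper).trans
      hzero.valueAtInfty_eq_zero
  have hF1 : DifferentiableOn ℂ (dslope F 0) (Metric.ball 0 1) :=
    (Complex.differentiableOn_dslope (Metric.ball_mem_nhds 0 one_pos)).mpr hFdiff
  have hF1' : DifferentiableOn ℂ (fun q => (h : ℂ) * dslope F 0 q) (Metric.ball 0 1) :=
    hF1.const_mul _
  obtain ⟨P, hP0, hP⟩ := hF1'.isExactOn_ball.with_val_at 0 0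
  have hq_mem : ∀ w : ℂ, 0 < w.im → 𝕢 h w ∈ Metric.ball (0 : ℂ) 1 := fun w hw => by
    rw [mem_ball_zero_iff]; exact Periodic.norm_qParam_lt_one hh hw
  -- derivative of the composite
  have hderiv : ∀ w : ℂ, 0 < w.im →
      HasDerivAt (fun x => P (𝕢 h x)) (2 * π * Complex.I * g (ofComplex w)) w := by
    intro w hw
    have h1 := (hP (𝕢 h w) (hq_mem w hw)).comp w (hasDerivAt_qParam h w)
    have h2 : (h : ℂ) * dslope F 0 (𝕢 h w) * (2 * π * Complex.I / h * 𝕢 h w)
        = 2 * π * Complex.I * g (ofComplex w) := by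
      have h3 : 𝕢 h w * dslope F 0 (𝕢 h w) = F (𝕢 h w) := by
        have := sub_smul_dslope F 0 (𝕢 h w)
        rwa [sub_zero, hF0, sub_zero, smul_eq_mul] at this
      have h4 : F (𝕢 h w) = g (ofComplex w) := by
        have := eq_cuspFunction (h := h) (f := g) ⟨w, hw⟩ hh.ne' hper
        rw [hF, ofComplex_apply_of_im_pos hw]
        exact this
      have hh' : (h : ℂ) ≠ 0 := Complex.ofReal_ne_zero.mpr hh.ne'
      rw [← h4, ← h3]
      field_simp
    rw [h2] at h1
    exact h1
  refine ⟨fun z => P (𝕢 h z), ?_, ?_, ?_, ?_⟩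
  · rw [UpperHalfPlane.mdifferentiable_iff]
    intro w hw
    have h1 : DifferentiableAt ℂ (fun x => P (𝕢 h x)) w := (hderiv w hw).differentiableAt
    refine (h1.differentiableWithinAt).congr (fun x hx => ?_) ?_
    · simp [Function.comp_apply, ofComplex_apply_of_im_pos hx]
    · simp [Function.comp_apply, ofComplex_apply_of_im_pos hw]
  · intro w
    by_cases hw : 0 < w.im
    · have hw' : 0 < (w + h).im := by simpa using hw
      simp only [Function.comp_apply, ofComplex_apply_of_im_pos hw',
        ofComplex_apply_of_im_pos hw]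
      exact congrArg P (qParam_add_period hh.ne' w)
    · have hw1 : w.im ≤ 0 := not_lt.mp hw
      have hw' : (w + h).im ≤ 0 := by simpa using hw1
      simp only [Function.comp_apply, ofComplex_apply_of_im_nonpos hw',
        ofComplex_apply_of_im_nonpos hw1]
  · have hcont : ContinuousAt P 0 := (hP 0 (Metric.mem_ball_self one_pos)).continuousAt
    have := hcont.tendsto.comp (qParam_tendsto_atImInfty hh)
    rw [hP0] at this
    exact this
  · funext z
    simp only [normalizedDerivOfComplex]
    have h1 : ((fun z : ℍ => P (𝕢 h z)) ∘ ofComplex) =ᶠ[𝓝 (z : ℂ)] fun x => P (𝕢 h x) := by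
      filter_upwards [isOpen_upperHalfPlaneSet.mem_nhds z.im_pos] with x hx
      simp [Function.comp_apply, ofComplex_apply_of_im_pos hx]
    rw [h1.deriv_eq, (hderiv z z.im_pos).deriv, ofComplex_apply]
    have hpi : (2 * (π : ℂ) * Complex.I) ≠ 0 := by simp [Real.pi_ne_zero]
    field_simp

/-- iterated version: an `n`-fold primitive. -/
theorem exists_iter_primitive (n : ℕ) {g : ℍ → ℂ} (hg : MDiff g) {h : ℝ} (hh : 0 < h)
    (hper : Periodic (g ∘ ofComplex) h) (hzero : IsZeroAtImInfty g) :
    ∃ G : ℍ → ℂ, MDiff G ∧ Periodic (G ∘ ofComplex) h ∧ IsZeroAtImInfty G ∧ 𝐃^[n] G = g := by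
  induction n with
  | zero => exact ⟨g, hg, hper, hzero, rfl⟩
  | succ n ih =>
    obtain ⟨G, hG, hGper, hGzero, hGD⟩ := ih
    obtain ⟨G', hG', hG'per, hG'zero, hG'D⟩ := exists_primitive hG hh hGper hGzero
    exact ⟨G', hG', hG'per, hG'zero, by rw [Function.iterate_succ_apply, hG'D, hGD]⟩

end

end Fermat.Agent.S22lib
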