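import Mathlib
import Fermat.Prelude.Def_CuspForm_HeckeAlgebra
import Fermat.Prelude.Thm_CongruenceSubgroup_one_mem_strictPeriods_Gamma0
import Fermat.Prelude.Thm_Subgroup_IsArithmetic_exists_nat_mem_strictPeriods_conj
import Fermat.Agent.S22_Prim
import Fermat.Agent.S22_Coset
import Fermat.Agent.S22_Cocycle

/-!
# S22 helper: the Eichler integral of a cusp form on `Γ₀(N)` and its period cocycle
-/

set_option autoImplicit false

open P2MW.S_ModularForm_heckeT_slash_eq_self_of_mem_Gamma0.ModularForm.HeckeSlashInvariance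
open Matrix.SpecialLinearGroup CongruenceSubgroup UpperHalfPlane ModularForm Derivative Function
open scoped MatrixGroups ModularForm Manifold Real Topology

namespace Fermat.Agent.S22lib

noncomputable section

local notation "𝐃" => Derivative.normalizedDerivOfComplex

variable {N : ℕ} [NeZero N] {m : ℕ}

theorem exists_eichler (f : CuspForm (Gamma0 N) ((m : ℤ) + 2)) :
    ∃ G : ℍ → ℂ, MDiff G ∧ Periodic (G ∘ ofComplex) (1 : ℝ) ∧ IsZeroAtImInfty G ∧
      𝐃^[m + 1] G = ⇑f :=
  exists_iter_primitive (m + 1) (CuspFormClass.holo f) one_pos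
    (SlashInvariantFormClass.periodic_comp_ofComplex f
      (CongruenceSubgroup.one_mem_strictPeriods_Gamma0 N))
    (CuspFormClass.zero_at_infty f)

/-- the Eichler integral of a cusp form of weight `m + 2`. -/
def eichler (f : CuspForm (Gamma0 N) ((m : ℤ) + 2)) : ℍ → ℂ :=
  Classical.choose (exists_eichler f)

theorem mdiff_eichler (f : CuspForm (Gamma0 N) ((m : ℤ) + 2)) : MDiff (eichler f) :=
  (Classical.choose_spec (exists_eichler f)).1

theorem periodic_eichler (f : CuspForm (Gamma0 N) ((m : ℤ) + 2)) :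
    Periodic (eichler f ∘ ofComplex) (1 : ℝ) :=
  (Classical.choose_spec (exists_eichler f)).2.1

theorem isZeroAtImInfty_eichler (f : CuspForm (Gamma0 N) ((m : ℤ) + 2)) :
    IsZeroAtImInfty (eichler f) :=
  (Classical.choose_spec (exists_eichler f)).2.2.1

theorem iterD_eichler (f : CuspForm (Gamma0 N) ((m : ℤ) + 2)) :
    𝐃^[m + 1] (eichler f) = ⇑f :=
  (Classical.choose_spec (exists_eichler f)).2.2.2

theorem isZeroAtImInfty_sub {F G : ℍ → ℂ} (hF : IsZeroAtImInfty F) (hG : IsZeroAtImInfty G) :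
    IsZeroAtImInfty (F - G) := by
  have := Filter.ZeroAtFilter.add hF (Filter.ZeroAtFilter.neg hG)
  rwa [← sub_eq_add_neg] at this

theorem eichler_unique (f : CuspForm (Gamma0 N) ((m : ℤ) + 2)) {G : ℍ → ℂ} (hG : MDiff G)
    (hzero : IsZeroAtImInfty G) (hD : 𝐃^[m + 1] G = ⇑f) : G = eichler f := by
  have h := eq_zero_of_iterD_eq_zero_of_isZeroAtImInfty m (hG.sub (mdiff_eichler f))
    (by rw [iterD_sub hG (mdiff_eichler f), hD, iterD_eichler, sub_self])
    (isZeroAtImInfty_sub hzero (isZeroAtImInfty_eichler f))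
  exact sub_eq_zero.mp h

theorem eichler_add (f g : CuspForm (Gamma0 N) ((m : ℤ) + 2)) :
    eichler (f + g) = eichler f + eichler g :=
  (eichler_unique (f + g) ((mdiff_eichler f).add (mdiff_eichler g))
    (Filter.ZeroAtFilter.add (isZeroAtImInfty_eichler f) (isZeroAtImInfty_eichler g))
    (by rw [iterD_add (mdiff_eichler f) (mdiff_eichler g), iterD_eichler, iterD_eichler]; rfl)).symm

/-- Bol's identity in the form used here. -/
theorem bol' (m : ℕ) {g : GL (Fin 2) ℝ} (hg : 0 < g.det.val) {F : ℍ → ℂ} (hF : MDiff F) :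
    𝐃^[m + 1] (starAct ((m : ℤ) + 2) g F) = (𝐃^[m + 1] F) ∣[(m : ℤ) + 2] g := by
  have := bol (m + 1) hg hF
  rwa [show ((m + 1 : ℕ) : ℤ) + 1 = (m : ℤ) + 2 by push_cast; ring] at this

omit [NeZero N] in
theorem det_gamma0Hom_pos (γ : Gamma0 N) : 0 < (gamma0Hom N γ).det.val := by
  rw [gamma0Hom_apply, det_mapGL]; exact one_pos

omit [NeZero N] in
theorem slash_gamma0Hom (f : CuspForm (Gamma0 N) ((m : ℤ) + 2)) (γ : Gamma0 N) :
    (⇑f) ∣[(m : ℤ) + 2] (gamma0Hom N γ) = ⇑f :=
  SlashInvariantFormClass.slash_action_eq f _ (gamma0Hom_mem N γ)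

/-- the period function of the Eichler integral is a polynomial function of degree `≤ m`. -/
theorem exists_polyFun_cocOf (f : CuspForm (Gamma0 N) ((m : ℤ) + 2)) (γ : Gamma0 N) :
    ∃ v : Fin (m + 1) → ℂ,
      cocOf (gamma0Hom N) (starAct ((m : ℤ) + 2)) (eichler f) γ = polyFun m v := by
  have hF := mdiff_eichler f
  have hS : MDiff (starAct ((m : ℤ) + 2) (gamma0Hom N γ) (eichler f)) := mdiff_starAct _ _ hF
  refine exists_eq_polyFun_of_iterD_eq_zero m (hS.sub hF) ?_
  show 𝐃^[m + 1] (starAct ((m : ℤ) + 2) (gamma0Hom N γ) (eichler f) - eichler f) = 0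
  rw [iterD_sub hS hF, bol' m (det_gamma0Hom_pos γ) hF, iterD_eichler, slash_gamma0Hom, sub_self]

section Hecke

theorem isZeroAtImInfty_starAct (k : ℤ) {g : GL (Fin 2) ℝ} (hg : g 1 0 = 0) {F : ℍ → ℂ}
    (hF : IsZeroAtImInfty F) : IsZeroAtImInfty (starAct k g F) := by
  rw [starAct_def]
  have h1 : IsZeroAtImInfty (F ∣[2 - k] g) := hF.slash _ hg
  exact Filter.ZeroAtFilter.smul (((|g.det.val| : ℝ) : ℂ) ^ (k - 1)) h1

theorem isZeroAtImInfty_sum {ι : Type*} (s : Finset ι) {F : ι → ℍ → ℂ}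
    (hF : ∀ i ∈ s, IsZeroAtImInfty (F i)) : IsZeroAtImInfty (∑ i ∈ s, F i) := by
  classical
  induction s using Finset.induction_on with
  | empty =>
    simp only [Finset.sum_empty]
    exact Filter.zero_zeroAtFilter _
  | insert i t hi ih =>
    rw [Finset.sum_insert hi]
    exact Filter.ZeroAtFilter.add (hF i (Finset.mem_insert_self i t))
      (ih fun j hj => hF j (Finset.mem_insert_of_mem hj))

/-- general Hecke compatibility of the Eichler integral. -/
theorem eichler_hecke_aux {X : Type*} [Fintype X] (α : X → GL (Fin 2) ℝ)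
    (hα : ∀ x, 0 < (α x).det.val) (hα' : ∀ x, (α x) 1 0 = 0)
    (f g : CuspForm (Gamma0 N) ((m : ℤ) + 2))
    (hg : (⇑g : ℍ → ℂ) = ∑ x, (⇑f) ∣[(m : ℤ) + 2] (α x)) :
    eichler g = heckeM α (starAct ((m : ℤ) + 2)) (eichler f) := by
  symm
  have hF := mdiff_eichler f
  refine eichler_unique g ?_ ?_ ?_
  · exact mdiff_sum _ fun x _ => mdiff_starAct _ _ hF
  · exact isZeroAtImInfty_sum _ fun x _ =>
      isZeroAtImInfty_starAct _ (hα' x) (isZeroAtImInfty_eichler f)
  · rw [heckeM, iterD_sum _ fun x _ => mdiff_starAct _ _ hF, hg]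
    refine Finset.sum_congr rfl fun x _ => ?_
    rw [bol' m (hα x) hF, iterD_eichler]

theorem eichler_heckeT {p : ℕ} [Fact p.Prime] (hp : p.Prime) (hpN : ¬ p ∣ N)
    (f : CuspForm (Gamma0 N) ((m : ℤ) + 2)) :
    eichler (CuspForm.heckeTLin ((m : ℤ) + 2) hp hpN f)
      = heckeM (heckeRep p) (starAct ((m : ℤ) + 2)) (eichler f) := by
  have : NeZero p := ⟨hp.ne_zero⟩
  refine eichler_hecke_aux (heckeRep p) (fun x => (isIntMat_heckeRep hp.ne_zero x).1)
    (fun x => heckeRep_one_zero x) f _ ?_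
  rw [CuspForm.coe_heckeTLin_apply, heckeT_eq_sum_onePoint]

theorem eichler_heckeU {p : ℕ} [NeZero p] (hpN : p ∣ N)
    (f : CuspForm (Gamma0 N) ((m : ℤ) + 2)) :
    eichler (CuspForm.heckeULin ((m : ℤ) + 2) hpN f)
      = heckeM (fun x : ZMod p => heckeMatrix p x.val) (starAct ((m : ℤ) + 2)) (eichler f) := by
  refine eichler_hecke_aux (fun x : ZMod p => heckeMatrix p x.val)
    (fun x => (isIntMat_heckeMatrix (NeZero.ne p) _).1)
    (fun x => heckeMatrix_one_zero _) f _ ?_
  rw [CuspForm.coe_heckeULin_apply, heckeU_eq_sum_zmod]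

end Hecke

end

end Fermat.Agent.S22lib
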