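import Mathlib
import Fermat.Agent.S22_Eichler

/-!
# S22 helper: injectivity of the Eichler–Shimura cocycle map
-/

set_option autoImplicit false

open Matrix.SpecialLinearGroup CongruenceSubgroup UpperHalfPlane ModularForm Derivative Function
open scoped MatrixGroups ModularForm Manifold Real Topology

namespace Fermat.Agent.S22lib

noncomputable section

local notation "𝐃" => Derivative.normalizedDerivOfComplex

variable {N : ℕ} [NeZero N] {m : ℕ}

theorem starAct_mapGL (m : ℕ) (g : SL(2, ℤ)) (F : ℍ → ℂ) :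
    starAct ((m : ℤ) + 2) (mapGL ℝ g) F = F ∣[-(m : ℤ)] (mapGL ℝ g) := by
  rw [starAct_def, det_mapGL, abs_one, Complex.ofReal_one, one_zpow, one_smul]
  congr 1
  ring

/-- the Eichler integral as a slash invariant form of weight `-m`, if its period cocycle
vanishes. -/
def eichlerSIF (f : CuspForm (Gamma0 N) ((m : ℤ) + 2))
    (hinv : ∀ γ : Gamma0 N, starAct ((m : ℤ) + 2) (gamma0Hom N γ) (eichler f) = eichler f) :
    SlashInvariantForm ((Gamma0 N : Subgroup SL(2, ℤ)) : Subgroup (GL (Fin 2) ℝ)) (-(m : ℤ)) where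
  toFun := eichler f
  slash_action_eq' := by
    rintro γ ⟨g, hg, rfl⟩
    have := hinv ⟨g, hg⟩
    rwa [gamma0Hom_apply, starAct_mapGL] at this

theorem periodic_vadd_of_comp {G : ℍ → ℂ} {t : ℝ} (h : Periodic (G ∘ ofComplex) t) (z : ℍ) :
    G (t +ᵥ z) = G z := by
  have h1 := h (z : ℂ)
  simp only [Function.comp_apply, ofComplex_apply] at h1
  rw [← h1]
  congr 1
  apply UpperHalfPlane.ext
  rw [ofComplex_apply_of_im_pos (by simpa using z.im_pos)]
  simp [UpperHalfPlane.coe_vadd, add_comm]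

open ConjAct Pointwise in
theorem isBoundedAtImInfty_slash_eichler (f : CuspForm (Gamma0 N) ((m : ℤ) + 2))
    (hinv : ∀ γ : Gamma0 N, starAct ((m : ℤ) + 2) (gamma0Hom N γ) (eichler f) = eichler f)
    (γ₀ : SL(2, ℤ)) : IsBoundedAtImInfty ((eichler f) ∣[-(m : ℤ)] (mapGL ℝ γ₀)) := by
  obtain ⟨M, hMpos, hM⟩ := Subgroup.IsArithmetic.exists_nat_mem_strictPeriods_conj
    ((Gamma0 N : Subgroup SL(2, ℤ)) : Subgroup (GL (Fin 2) ℝ))
  have hM' : (M : ℝ) ∈ (toConjAct (mapGL ℝ γ₀)⁻¹ •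
      ((Gamma0 N : Subgroup SL(2, ℤ)) : Subgroup (GL (Fin 2) ℝ))).strictPeriods := by
    have := hM γ₀⁻¹
    rwa [map_inv] at this
  have hMpos' : (0 : ℝ) < M := by exact_mod_cast hMpos
  -- the translated cusp form
  set f₀ : ℍ → ℂ := (⇑f) ∣[(m : ℤ) + 2] (mapGL ℝ γ₀) with hf₀
  have hf₀_mdiff : MDiff f₀ := (CuspFormClass.holo f).slash _ _
  have hf₀_zero : IsZeroAtImInfty f₀ := CuspFormClass.zero_at_infty_slash f γ₀
  have hf₀_per : Periodic (f₀ ∘ ofComplex) (M : ℝ) :=
    SlashInvariantFormClass.periodic_comp_ofComplex (SlashInvariantForm.translate f (mapGL ℝ γ₀)) hM'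
  obtain ⟨F₀, hF₀_mdiff, hF₀_per, hF₀_zero, hF₀_D⟩ :=
    exists_iter_primitive (m + 1) hf₀_mdiff hMpos' hf₀_per hf₀_zero
  -- the translated Eichler integral
  set G : ℍ → ℂ := (eichler f) ∣[-(m : ℤ)] (mapGL ℝ γ₀) with hG
  have hG_mdiff : MDiff G := (mdiff_eichler f).slash _ _
  have hG_D : 𝐃^[m + 1] G = f₀ := by
    rw [hG, ← starAct_mapGL, bol' m (by rw [det_mapGL]; exact one_pos) (mdiff_eichler f),
      iterD_eichler]
  have hG_per : ∀ z : ℍ, G ((M : ℝ) +ᵥ z) = G z := fun z =>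
    SlashInvariantForm.vAdd_apply_of_mem_strictPeriods
      (SlashInvariantForm.translate (eichlerSIF f hinv) (mapGL ℝ γ₀)) z hM'
  -- the difference is a periodic polynomial, hence constant
  have hQ_D : 𝐃^[m + 1] (G - F₀) = 0 := by
    rw [iterD_sub hG_mdiff hF₀_mdiff, hG_D, hF₀_D, sub_self]
  have hQ_per : ∀ z : ℍ, (G - F₀) ((M : ℝ) +ᵥ z) = (G - F₀) z := fun z => by
    rw [Pi.sub_apply, Pi.sub_apply, hG_per z, periodic_vadd_of_comp hF₀_per z]
  obtain ⟨c, hc⟩ := eq_const_of_iterD_eq_zero_of_periodic m (hG_mdiff.sub hF₀_mdiff) hQ_D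
    hMpos'.ne' hQ_per
  have hGeq : G = F₀ + fun _ => c := by
    rw [← hc]; abel
  rw [hGeq]
  exact hF₀_zero.isBoundedAtImInfty.add (Filter.const_boundedAtFilter _ c)

/-- the Eichler integral as a modular form of weight `-m`, if its period cocycle vanishes. -/
def eichlerMF (f : CuspForm (Gamma0 N) ((m : ℤ) + 2))
    (hinv : ∀ γ : Gamma0 N, starAct ((m : ℤ) + 2) (gamma0Hom N γ) (eichler f) = eichler f) :
    ModularForm ((Gamma0 N : Subgroup SL(2, ℤ)) : Subgroup (GL (Fin 2) ℝ)) (-(m : ℤ)) where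
  toSlashInvariantForm := eichlerSIF f hinv
  holo' := mdiff_eichler f
  bdd_at_cusps' := fun {c} hc =>
    (OnePoint.isBoundedAt_iff_forall_SL2Z
      ((Subgroup.IsArithmetic.isCusp_iff_isCusp_SL2Z _).mp hc)).mpr
      fun γ₀ _ => isBoundedAtImInfty_slash_eichler f hinv γ₀

theorem eichler_const_of_invariant (f : CuspForm (Gamma0 N) ((m : ℤ) + 2))
    (hinv : ∀ γ : Gamma0 N, starAct ((m : ℤ) + 2) (gamma0Hom N γ) (eichler f) = eichler f) :
    ∃ c : ℂ, eichler f = fun _ => c := by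
  rcases Nat.eq_zero_or_pos m with hm | hm
  · have h0 : -(m : ℤ) = 0 := by rw [hm]; simp
    obtain ⟨c, hc⟩ := ModularForm.eq_const_of_weight_zero (ModularForm.mcast h0 (eichlerMF f hinv))
    exact ⟨c, hc⟩
  · have hneg : -(m : ℤ) < 0 := by
      have : (0 : ℤ) < m := by exact_mod_cast hm
      linarith
    have h0 := ModularForm.isZero_of_neg_weight hneg (eichlerMF f hinv)
    refine ⟨0, ?_⟩
    have : (⇑(eichlerMF f hinv) : ℍ → ℂ) = 0 := by rw [h0]; rfl
    exact this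

/-- **Injectivity**: a cusp form whose Eichler period cocycle vanishes is zero. -/
theorem eq_zero_of_eichler_invariant (f : CuspForm (Gamma0 N) ((m : ℤ) + 2))
    (hinv : ∀ γ : Gamma0 N, starAct ((m : ℤ) + 2) (gamma0Hom N γ) (eichler f) = eichler f) :
    f = 0 := by
  obtain ⟨c, hc⟩ := eichler_const_of_invariant f hinv
  have h1 : 𝐃^[m + 1] (eichler f) = 0 := by
    rw [Function.iterate_succ_apply, hc, normalizedDerivOfComplex_const, iterD_zero]
  rw [iterD_eichler] at h1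
  exact DFunLike.coe_injective h1

end

end Fermat.Agent.S22lib
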