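import Mathlib
import Fermat.Agent.S22_Inj
import Fermat.Agent.S22_Algebra

/-!
# S22 helper: finiteness of the Hecke algebra in weight `m + 2`
-/

set_option autoImplicit false

open P2MW.S_ModularForm_heckeT_slash_eq_self_of_mem_Gamma0.ModularForm.HeckeSlashInvariance
open Matrix.SpecialLinearGroup CongruenceSubgroup UpperHalfPlane ModularForm Function
open scoped MatrixGroups ModularForm Manifold Topology

namespace Fermat.Agent.S22lib

noncomputable section

variable {N : ℕ} [NeZero N] {m : ℕ}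

/-- the period cocycle of a cusp form. -/
def periodCoc (f : CuspForm (Gamma0 N) ((m : ℤ) + 2)) : Gamma0 N → ℍ → ℂ :=
  cocOf (gamma0Hom N) (starAct ((m : ℤ) + 2)) (eichler f)

theorem periodCoc_add (f g : CuspForm (Gamma0 N) ((m : ℤ) + 2)) :
    periodCoc (f + g) = periodCoc f + periodCoc g := by
  funext γ
  simp only [periodCoc, cocOf, eichler_add, map_add, Pi.add_apply]
  abel

theorem exists_polyFun_periodCoc (f : CuspForm (Gamma0 N) ((m : ℤ) + 2)) (γ : Gamma0 N) :
    ∃ v : Fin (m + 1) → ℂ, periodCoc f γ = polyFun m v :=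
  exists_polyFun_cocOf f γ

theorem isCoc_periodCoc (f : CuspForm (Gamma0 N) ((m : ℤ) + 2)) :
    IsCoc (gamma0Hom N) (starAct ((m : ℤ) + 2)) (periodCoc f) :=
  isCoc_cocOf (starAct_mul _) _

/-- the rational coordinates of the period cocycle. -/
def esMap (π : ℂ →ₗ[ℚ] ℚ) :
    CuspForm (Gamma0 N) ((m : ℤ) + 2) →+ (Gamma0 N → ℍ → ℂ) where
  toFun f := fun γ => projQ m π (periodCoc f γ)
  map_zero' := by
    funext γ
    have h : periodCoc (0 : CuspForm (Gamma0 N) ((m : ℤ) + 2)) = 0 := by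
      have := periodCoc_add (0 : CuspForm (Gamma0 N) ((m : ℤ) + 2)) 0
      rw [add_zero] at this
      exact add_eq_left.mp this.symm
    rw [h]
    simp
  map_add' f g := by
    funext γ
    simp only [periodCoc_add, Pi.add_apply, map_add]

theorem esMap_apply (π : ℂ →ₗ[ℚ] ℚ) (f : CuspForm (Gamma0 N) ((m : ℤ) + 2)) (γ : Gamma0 N) :
    esMap π f γ = projQ m π (periodCoc f γ) := rfl

theorem isCoc_esMap (π : ℂ →ₗ[ℚ] ℚ) (f : CuspForm (Gamma0 N) ((m : ℤ) + 2)) :
    IsCoc (gamma0Hom N) (starAct ((m : ℤ) + 2)) (esMap π f) := by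
  intro γ δ
  simp only [esMap_apply]
  rw [isCoc_periodCoc f γ δ, map_add]
  obtain ⟨v, hv⟩ := exists_polyFun_periodCoc f γ
  rw [hv, gamma0Hom_apply, projQ_starAct m π (isIntMat_mapGL _)]

theorem exists_nsmul_esMap_mem (π : ℂ →ₗ[ℚ] ℚ) (f : CuspForm (Gamma0 N) ((m : ℤ) + 2)) :
    ∃ D : ℕ, 0 < D ∧
      D • esMap π f ∈ cocLattice (gamma0Hom N) (starAct ((m : ℤ) + 2)) (polyZ m) := by
  refine exists_nsmul_mem_cocLattice (ι := gamma0Hom N) (starAct_one _) (polyZ m)
    (fun γ F hF => by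
      rw [gamma0Hom_apply]
      exact starAct_mem_polyZ m (isIntMat_mapGL _) hF) (isCoc_esMap π f) fun γ => ?_
  obtain ⟨v, hv⟩ := exists_polyFun_periodCoc f γ
  rw [esMap_apply, hv]
  exact exists_nsmul_projQ_mem_polyZ m π v

theorem eq_zero_of_esMap_eq_zero {ι : Type*} (b : Module.Basis ι ℚ ℂ)
    (f : CuspForm (Gamma0 N) ((m : ℤ) + 2)) (h : ∀ β, esMap (b.coord β) f = 0) : f = 0 := by
  refine eq_zero_of_eichler_invariant f fun γ => ?_
  obtain ⟨v, hv⟩ := exists_polyFun_periodCoc f γ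
  have h0 : polyFun m v = 0 := polyFun_eq_zero_of_projQ m b v fun β => by
    have := congrFun (h β) γ
    rwa [esMap_apply, hv] at this
  rw [h0] at hv
  exact sub_eq_zero.mp hv

/-- compatibility of `esMap` with a Hecke operator given by coset data. -/
theorem esMap_hecke_aux {X : Type*} [Fintype X] (α : X → GL (Fin 2) ℝ)
    (σ : Gamma0 N → Equiv.Perm X) (γ' : Gamma0 N → X → Gamma0 N)
    (hα : ∀ x, IsIntMat (α x))
    (hrel : ∀ (γ : Gamma0 N) (x : X), α x * gamma0Hom N γ = gamma0Hom N (γ' γ x) * α (σ γ x))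
    (π : ℂ →ₗ[ℚ] ℚ) (f g : CuspForm (Gamma0 N) ((m : ℤ) + 2))
    (hg : eichler g = heckeM α (starAct ((m : ℤ) + 2)) (eichler f)) :
    esMap π g = heckeCocHom α σ γ' (starAct ((m : ℤ) + 2)) (esMap π f) := by
  have h1 : periodCoc g = heckeCoc α σ γ' (starAct ((m : ℤ) + 2)) (periodCoc f) := by
    rw [periodCoc, hg, periodCoc, heckeCoc_cocOf (starAct_mul _) hrel]
  have h2 := heckeCoc_comp (α := α) (σ := σ) (γ' := γ') (act := starAct ((m : ℤ) + 2))
    (projQ m π) (periodCoc f) (fun x γ => by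
      obtain ⟨v, hv⟩ := exists_polyFun_periodCoc f γ
      rw [hv, projQ_starAct m π (hα x)])
  funext γ
  rw [esMap_apply, h1]
  exact congrFun h2 γ

instance torsionFree_fun : IsAddTorsionFree (Gamma0 N → ℍ → ℂ) := inferInstance

/-- **Finiteness of the Hecke algebra** in weight `m + 2`. -/
theorem finite_heckeAlgebra_add_two (N : ℕ) [NeZero N] (m : ℕ) (S : Set ℕ) :
    Module.Finite ℤ (CuspForm.heckeAlgebra N ((m : ℤ) + 2) S) := by
  have : Module.Finite ℤ (cocLattice (gamma0Hom N) (starAct ((m : ℤ) + 2)) (polyZ m)) :=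
    finite_cocLattice (starAct_one _) (polyZ m)
  let b := Module.Basis.ofVectorSpace ℚ ℂ
  refine finite_adjoin_of_lattice_action
    (cocLattice (gamma0Hom N) (starAct ((m : ℤ) + 2)) (polyZ m))
    (fun β => esMap (N := N) (m := m) (b.coord β))
    (fun f h => eq_zero_of_esMap_eq_zero b f h)
    (fun β f => exists_nsmul_esMap_mem (b.coord β) f)
    (CuspForm.heckeGenerators N ((m : ℤ) + 2) S) ?_
  rintro t (⟨ℓ, hℓ, hℓN, -, rfl⟩ | ⟨q, hqN, hq, -, rfl⟩)
  · have : Fact ℓ.Prime := ⟨hℓ⟩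
    refine ⟨heckeCocHom (heckeRep ℓ) sigmaT (gammaT hℓN) (starAct ((m : ℤ) + 2)),
      fun c hc => ?_, fun β f => ?_⟩
    · exact heckeCoc_mem_cocLattice (gamma0Hom_injective N) (starAct_mul _) (relT hℓN)
        sigmaT_mul (polyZ m)
        (fun x F hF => starAct_mem_polyZ m (isIntMat_heckeRep hℓ.ne_zero x) hF) hc
    · exact esMap_hecke_aux (heckeRep ℓ) sigmaT (gammaT hℓN)
        (fun x => isIntMat_heckeRep hℓ.ne_zero x) (relT hℓN) (b.coord β) f _
        (eichler_heckeT hℓ hℓN f)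
  · have : NeZero q := ⟨hq.ne_zero⟩
    refine ⟨heckeCocHom (fun x : ZMod q => heckeMatrix q x.val) (sigmaU hqN) (gammaU hqN)
      (starAct ((m : ℤ) + 2)), fun c hc => ?_, fun β f => ?_⟩
    · exact heckeCoc_mem_cocLattice (gamma0Hom_injective N) (starAct_mul _) (relU hqN)
        (sigmaU_mul hqN) (polyZ m)
        (fun x F hF => starAct_mem_polyZ m (isIntMat_heckeMatrix hq.ne_zero _) hF) hc
    · exact esMap_hecke_aux (fun x : ZMod q => heckeMatrix q x.val) (sigmaU hqN) (gammaU hqN)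
        (fun x => isIntMat_heckeMatrix hq.ne_zero _) (relU hqN) (b.coord β) f _
        (eichler_heckeU hqN f)

end

end Fermat.Agent.S22lib
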