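import Mathlib
import Fermat.Prelude.Def_CuspForm_HeckeAlgebra
import Fermat.Prelude.Thm_ModularForm_sturm_bound_Gamma0

/-!
# S22 helper: weights `k ≤ 1`, where there are no nonzero cusp forms on `Γ₀(N)`
-/

set_option autoImplicit false

open Matrix.SpecialLinearGroup CongruenceSubgroup UpperHalfPlane ModularForm
open scoped MatrixGroups ModularForm

namespace Fermat.Agent.S22lib

theorem cuspForm_eq_zero_of_nonpos (N : ℕ) [NeZero N] {k : ℤ} (hk : k ≤ 0)
    (f : CuspForm (Gamma0 N) k) : f = 0 := by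
  have h1 : (1 : ℝ) ∈ (Gamma0 N : Subgroup (GL (Fin 2) ℝ)).strictPeriods := by
    simp [CongruenceSubgroup.strictPeriods_Gamma0]
  have key : (ModularFormClass.modularForm f : ModularForm (Gamma0 N) k) = 0 := by
    refine ModularForm.sturm_bound_Gamma0 N _ (fun n hn => ?_)
    have hn0 : n = 0 := by
      have hle : k * ((Gamma0 N).index : ℤ) ≤ 0 :=
        mul_nonpos_of_nonpos_of_nonneg hk (Int.natCast_nonneg _)
      have : (k * ((Gamma0 N).index : ℤ)).toNat = 0 := Int.toNat_eq_zero.mpr hle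
      rw [this] at hn
      simpa using hn
    subst hn0
    exact CuspFormClass.qExpansion_coeff_zero f one_pos h1
  ext z
  have := congrArg (fun g : ModularForm (Gamma0 N) k => g z) key
  simpa using this

theorem neg_one_mem_Gamma0 (N : ℕ) : (-1 : SL(2, ℤ)) ∈ Gamma0 N := by
  rw [Gamma0_mem]
  simp

theorem cuspForm_eq_zero_of_odd (N : ℕ) {k : ℤ} (hk : Odd k)
    (f : CuspForm (Gamma0 N) k) : f = 0 := by
  ext z
  have h1 : (⇑f) ∣[k] (-1 : SL(2, ℤ)) = ⇑f :=
    SlashInvariantFormClass.slash_action_eq f (mapGL ℝ (-1 : SL(2, ℤ)))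
      (Subgroup.mem_map_of_mem _ (neg_one_mem_Gamma0 N))
  have h2 := congrFun h1 z
  rw [ModularForm.SL_slash_apply] at h2
  have hsm : ((-1 : SL(2, ℤ)) • z) = z := by
    apply UpperHalfPlane.ext
    rw [UpperHalfPlane.specialLinearGroup_apply]
    simp
  have hden : denom (-1 : SL(2, ℤ)) z = -1 := by
    simp [denom]
  rw [hsm, hden, zpow_neg, hk.neg_one_zpow] at h2
  have h3 : f z * (-1) = f z := by simpa using h2
  have h4 : (2 : ℂ) * f z = 0 := by linear_combination -h3
  simpa using h4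

theorem cuspForm_eq_zero_of_le_one (N : ℕ) [NeZero N] {k : ℤ} (hk : k ≤ 1)
    (f : CuspForm (Gamma0 N) k) : f = 0 := by
  rcases eq_or_lt_of_le hk with h1 | h1
  · exact cuspForm_eq_zero_of_odd N (h1 ▸ odd_one) f
  · exact cuspForm_eq_zero_of_nonpos N (by omega) f

theorem finite_heckeAlgebra_of_le_one (N : ℕ) [NeZero N] {k : ℤ} (hk : k ≤ 1) (S : Set ℕ) :
    Module.Finite ℤ (CuspForm.heckeAlgebra N k S) := by
  have h1 : Subsingleton (CuspForm (Gamma0 N) k) :=
    ⟨fun a b => (cuspForm_eq_zero_of_le_one N hk a).trans (cuspForm_eq_zero_of_le_one N hk b).symm⟩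
  have h2 : Subsingleton (Module.End ℂ (CuspForm (Gamma0 N) k)) :=
    ⟨fun a b => LinearMap.ext fun x => Subsingleton.elim _ _⟩
  have h3 : Subsingleton (CuspForm.heckeAlgebra N k S) :=
    ⟨fun a b => Subtype.ext (Subsingleton.elim _ _)⟩
  have h4 : Finite (CuspForm.heckeAlgebra N k S) := Finite.of_subsingleton
  exact Module.Finite.of_finite

end Fermat.Agent.S22lib
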