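import Fermat.Statements.S22
import Fermat.Agent.S22_Main
import Fermat.Agent.S22_Small

set_option autoImplicit false
open CuspForm

namespace Fermat.Agent.S22

theorem result (N : ℕ) [NeZero N] (k : ℤ) (S : Set ℕ) :
    Module.Finite ℤ (CuspForm.heckeAlgebra N k S) := by
  rcases le_or_gt 2 k with hk | hk
  · obtain ⟨m, rfl⟩ : ∃ m : ℕ, k = (m : ℤ) + 2 := ⟨(k - 2).toNat, by omega⟩
    exact Fermat.Agent.S22lib.finite_heckeAlgebra_add_two N m S
  · exact Fermat.Agent.S22lib.finite_heckeAlgebra_of_le_one N (by omega) S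

end Fermat.Agent.S22
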