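import Mathlib
import Fermat.Prelude.Def_FLTPrelim_Modularity
import Fermat.Prelude.Def_FormalHecke_Eigensystem
import Fermat.Prelude.Def_ModularForm_HeckeOperatorForms
import Fermat.Prelude.Thm_ModularFormClass_qCoeff_heckeT
import Fermat.Prelude.Thm_ModularFormClass_qCoeff_heckeU

/-!
# S49, part (E): from a common Hecke eigenvector to a normalized eigenform

* `Fermat.Agent.S49norm.isRecursive_of_isEigensystem`: the formal Hecke relations
  `a (ℓ n) + e ℓ · a (n / ℓ) = a ℓ · a n` imply multiplicativity and the prime power recursion.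
* `Fermat.Agent.S49norm.exists_normalizedEigenform_of_eigenvector`: a nonzero common eigenvector
  of all `T_ℓ` (`ℓ ∤ N`) and `U_q` (`q ∣ N`) in `S₂(Γ₀(N))` can be rescaled to a normalized
  eigenform whose prime coefficients are the eigenvalues.
-/

set_option autoImplicit false

namespace Fermat.Agent.S49norm

open FormalHecke

section Formal

variable {R : Type*} [CommRing R] {e a : ℕ → R}

/-- The prime power recursion from the formal Hecke relations. -/
theorem prime_pow_rec_of_isEigensystem (h : IsEigensystem e a) {ℓ : ℕ} (hℓ : ℓ.Prime) (r : ℕ) :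
    a (ℓ ^ (r + 2)) = a ℓ * a (ℓ ^ (r + 1)) - e ℓ * a (ℓ ^ r) := by
  have h1 := h.2 ℓ hℓ (ℓ ^ (r + 1))
  have hdvd : ℓ ∣ ℓ ^ (r + 1) := dvd_pow_self ℓ (Nat.succ_ne_zero r)
  have hdiv : ℓ ^ (r + 1) / ℓ = ℓ ^ r := by
    rw [pow_succ, Nat.mul_div_cancel _ hℓ.pos]
  rw [if_pos hdvd, hdiv] at h1
  have h2 : ℓ * ℓ ^ (r + 1) = ℓ ^ (r + 2) := by ring
  rw [h2] at h1
  linear_combination h1

/-- Multiplicativity against prime powers. -/
theorem mul_prime_pow_of_isEigensystem (h : IsEigensystem e a) {ℓ : ℕ} (hℓ : ℓ.Prime) :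
    ∀ (k n : ℕ), ¬ ℓ ∣ n → a (ℓ ^ k * n) = a (ℓ ^ k) * a n := by
  intro k
  induction k using Nat.strong_induction_on with
  | _ k ih =>
    intro n hn
    match k, ih with
    | 0, _ => simp [h.1]
    | 1, _ =>
      have h1 := h.2 ℓ hℓ n
      rw [if_neg hn, mul_zero, add_zero] at h1
      simpa using h1
    | (k + 2), ih =>
      have h1 := h.2 ℓ hℓ (ℓ ^ (k + 1) * n)
      have hdvd : ℓ ∣ ℓ ^ (k + 1) * n :=
        Dvd.dvd.mul_right (dvd_pow_self ℓ (Nat.succ_ne_zero k)) n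
      have hdiv : ℓ ^ (k + 1) * n / ℓ = ℓ ^ k * n := by
        rw [pow_succ, mul_comm (ℓ ^ k) ℓ, mul_assoc, Nat.mul_div_cancel_left _ hℓ.pos]
      rw [if_pos hdvd, hdiv] at h1
      have h2 : ℓ * (ℓ ^ (k + 1) * n) = ℓ ^ (k + 2) * n := by ring
      rw [h2, ih (k + 1) (by omega) n hn, ih k (by omega) n hn] at h1
      rw [prime_pow_rec_of_isEigensystem h hℓ k]
      linear_combination h1

/-- The formal Hecke relations imply multiplicativity and the prime power recursion. -/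
theorem isRecursive_of_isEigensystem (h : IsEigensystem e a) : IsRecursive e a := by
  refine ⟨h.1, ?_, fun ℓ r hℓ => prime_pow_rec_of_isEigensystem h hℓ r⟩
  intro m
  induction m using Nat.recOnPrimeCoprime with
  | zero =>
    intro n hn
    have : n = 1 := by simpa using hn
    subst this
    simp [h.1]
  | prime_pow p k hp =>
    intro n hn
    rcases Nat.eq_zero_or_pos k with hk | hk
    · subst hk
      simp [h.1]
    · have hpn : ¬ p ∣ n := by
        intro hdvd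
        have h1 : p ∣ Nat.gcd (p ^ k) n :=
          Nat.dvd_gcd (dvd_pow_self p (Nat.pos_iff_ne_zero.1 hk)) hdvd
        rw [Nat.Coprime] at hn
        rw [hn] at h1
        exact hp.one_lt.ne' (Nat.dvd_one.1 h1)
      exact mul_prime_pow_of_isEigensystem h hp k n hpn
  | coprime x y hx hy hxy ihx ihy =>
    intro n hn
    have hxn : x.Coprime n := Nat.Coprime.coprime_mul_right hn
    have hyn : y.Coprime n := Nat.Coprime.coprime_mul_left hn
    have hxyn : x.Coprime (y * n) := Nat.Coprime.mul_right hxy hxn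
    rw [mul_assoc, ihx (y * n) hxyn, ihy n hyn, ihx y hxy, mul_assoc]

end Formal


section Modular

open CongruenceSubgroup ModularFormClass UpperHalfPlane

variable {N : ℕ}

theorem one_mem_strictPeriods_Gamma0' (N : ℕ) :
    (1 : ℝ) ∈ ((Gamma0 N : Subgroup (GL (Fin 2) ℝ))).strictPeriods := by
  simp [CongruenceSubgroup.strictPeriods_Gamma0]

/-- `qCoeff` of a scalar multiple of a cusp form. -/
theorem qCoeff_smul_cuspForm (c : ℂ) (g : CuspForm (Gamma0 N) 2) (n : ℕ) :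
    qCoeff (⇑(c • g)) n = c * qCoeff (⇑g) n := by
  have h1 : (⇑(c • g) : ℍ → ℂ) = c • ⇑g := FunLike.coe_smul c g
  rw [h1]
  unfold qCoeff
  rw [ModularForm.qExpansion_smul one_pos (one_mem_strictPeriods_Gamma0' N) c g]
  simp

/-- `qCoeff 0` of a cusp form vanishes. -/
theorem qCoeff_zero_cuspForm (g : CuspForm (Gamma0 N) 2) : qCoeff (⇑g) 0 = 0 :=
  CuspFormClass.qExpansion_coeff_zero g one_pos (one_mem_strictPeriods_Gamma0' N)

/-- A cusp form all of whose `q`-coefficients vanish is zero. -/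
theorem cuspForm_eq_zero_of_qCoeff (g : CuspForm (Gamma0 N) 2)
    (h : ∀ n : ℕ, qCoeff (⇑g) n = 0) : g = 0 := by
  have hΓ := one_mem_strictPeriods_Gamma0' N
  have hcusp : Fact (IsCusp OnePoint.infty (Gamma0 N : Subgroup (GL (Fin 2) ℝ))) :=
    ⟨Subgroup.isCusp_of_mem_strictPeriods one_pos hΓ⟩
  have h0 : qExpansion 1 (⇑g) = 0 := by
    ext n
    simpa [qCoeff] using h n
  have h1 : (⇑g : ℍ → ℂ) = 0 :=
    (UpperHalfPlane.qExpansion_eq_zero_iff one_pos
      (by simpa using SlashInvariantFormClass.periodic_comp_ofComplex g hΓ)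
      (ModularFormClass.holo g) (ModularFormClass.bdd_at_infty g)).1 h0
  exact DFunLike.coe_injective h1

/-- The coefficient relation satisfied by a common eigenvector of the Hecke operators. -/
theorem qCoeff_relation_of_eigenvector [NeZero N] (g : CuspForm (Gamma0 N) 2) (lam : ℕ → ℂ)
    (hT : ∀ (ℓ : ℕ) (hℓ : ℓ.Prime) (hℓN : ¬ ℓ ∣ N), CuspForm.heckeTLin 2 hℓ hℓN g = lam ℓ • g)
    (hU : ∀ (q : ℕ) (_ : q.Prime) (hqN : q ∣ N), CuspForm.heckeULin 2 hqN g = lam q • g)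
    (ℓ : ℕ) (hℓ : ℓ.Prime) (n : ℕ) :
    qCoeff (⇑g) (ℓ * n) + (if ℓ ∣ N then (0 : ℂ) else (ℓ : ℂ)) *
        (if ℓ ∣ n then qCoeff (⇑g) (n / ℓ) else 0) = lam ℓ * qCoeff (⇑g) n := by
  have hΓ := one_mem_strictPeriods_Gamma0' N
  by_cases hℓN : ℓ ∣ N
  · have h1 := congrArg (fun f : CuspForm (Gamma0 N) 2 => qCoeff (⇑f) n) (hU ℓ hℓ hℓN)
    simp only [CuspForm.coe_heckeULin_apply, qCoeff_smul_cuspForm] at h1
    rw [ModularFormClass.qCoeff_heckeU g hΓ hℓ.ne_zero n, ModularForm.coeffHeckeU_apply] at h1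
    rw [if_pos hℓN, zero_mul, add_zero, mul_comm ℓ n]
    exact h1
  · have h1 := congrArg (fun f : CuspForm (Gamma0 N) 2 => qCoeff (⇑f) n) (hT ℓ hℓ hℓN)
    simp only [CuspForm.coe_heckeTLin_apply, qCoeff_smul_cuspForm] at h1
    rw [ModularFormClass.qCoeff_heckeT g hΓ hℓ.ne_zero n, ModularForm.coeffHeckeT_apply] at h1
    rw [if_neg hℓN, mul_comm ℓ n, ← h1]
    congr 1
    split_ifs
    · norm_num
    · simp

/-- The first coefficient of a nonzero common eigenvector is nonzero. -/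
theorem qCoeff_one_ne_zero_of_eigenvector [NeZero N] (g : CuspForm (Gamma0 N) 2) (hg : g ≠ 0)
    (lam : ℕ → ℂ)
    (hT : ∀ (ℓ : ℕ) (hℓ : ℓ.Prime) (hℓN : ¬ ℓ ∣ N), CuspForm.heckeTLin 2 hℓ hℓN g = lam ℓ • g)
    (hU : ∀ (q : ℕ) (_ : q.Prime) (hqN : q ∣ N), CuspForm.heckeULin 2 hqN g = lam q • g) :
    qCoeff (⇑g) 1 ≠ 0 := by
  intro h1
  apply hg
  apply cuspForm_eq_zero_of_qCoeff
  intro n
  induction n using Nat.strong_induction_on with
  | _ n ih =>
    rcases Nat.lt_or_ge n 2 with hn | hn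
    · interval_cases n
      · exact qCoeff_zero_cuspForm g
      · exact h1
    · obtain ⟨ℓ, hℓ, hdvd⟩ := Nat.exists_prime_and_dvd (show n ≠ 1 by omega)
      obtain ⟨m, rfl⟩ := hdvd
      have hm : 0 < m := Nat.pos_of_ne_zero (by rintro rfl; omega)
      have hlt : m < ℓ * m := by
        have := hℓ.one_lt
        nlinarith
      have hrel := qCoeff_relation_of_eigenvector g lam hT hU ℓ hℓ m
      rw [ih m hlt, mul_zero] at hrel
      have h2 : (if ℓ ∣ m then qCoeff (⇑g) (m / ℓ) else 0) = 0 := by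
        split_ifs with hd
        · exact ih (m / ℓ) (lt_of_le_of_lt (Nat.div_le_self m ℓ) hlt)
        · rfl
      rw [h2, mul_zero, add_zero] at hrel
      exact hrel

/-- A nonzero common eigenvector of all `T_ℓ` (`ℓ ∤ N`) and `U_q` (`q ∣ N`) on `S₂(Γ₀(N))` can be
rescaled to a normalized eigenform whose prime coefficients are the eigenvalues. -/
theorem exists_normalizedEigenform_of_eigenvector [NeZero N] (g : CuspForm (Gamma0 N) 2)
    (hg : g ≠ 0) (lam : ℕ → ℂ)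
    (hT : ∀ (ℓ : ℕ) (hℓ : ℓ.Prime) (hℓN : ¬ ℓ ∣ N), CuspForm.heckeTLin 2 hℓ hℓN g = lam ℓ • g)
    (hU : ∀ (q : ℕ) (_ : q.Prime) (hqN : q ∣ N), CuspForm.heckeULin 2 hqN g = lam q • g) :
    ∃ f : CuspForm (Gamma0 N) 2, f.IsNormalizedEigenform ∧
      ∀ ℓ : ℕ, ℓ.Prime → qCoeff (⇑f) ℓ = lam ℓ := by
  have ha1 := qCoeff_one_ne_zero_of_eigenvector g hg lam hT hU
  set c : ℂ := (qCoeff (⇑g) 1)⁻¹ with hc
  have hT' : ∀ (ℓ : ℕ) (hℓ : ℓ.Prime) (hℓN : ¬ ℓ ∣ N),
      CuspForm.heckeTLin 2 hℓ hℓN (c • g) = lam ℓ • (c • g) := by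
    intro ℓ hℓ hℓN
    rw [map_smul, hT ℓ hℓ hℓN, smul_comm]
  have hU' : ∀ (q : ℕ) (_ : q.Prime) (hqN : q ∣ N),
      CuspForm.heckeULin 2 hqN (c • g) = lam q • (c • g) := by
    intro q hq hqN
    rw [map_smul, hU q hq hqN, smul_comm]
  have hone : qCoeff (⇑(c • g)) 1 = 1 := by
    rw [qCoeff_smul_cuspForm, hc, inv_mul_cancel₀ ha1]
  have hrel := qCoeff_relation_of_eigenvector (c • g) lam hT' hU'
  have hlam : ∀ ℓ : ℕ, ℓ.Prime → qCoeff (⇑(c • g)) ℓ = lam ℓ := by
    intro ℓ hℓ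
    have h1 := hrel ℓ hℓ 1
    have hnd : ¬ ℓ ∣ 1 := fun h => hℓ.one_lt.ne' (Nat.dvd_one.1 h)
    rw [if_neg hnd, mul_zero, add_zero, mul_one, hone, mul_one] at h1
    exact h1
  have heig : IsEigensystem (fun ℓ : ℕ => if ℓ ∣ N then (0 : ℂ) else (ℓ : ℂ))
      (fun n => qCoeff (⇑(c • g)) n) := by
    refine ⟨hone, fun ℓ hℓ n => ?_⟩
    have h1 := hrel ℓ hℓ n
    rw [← hlam ℓ hℓ] at h1
    exact h1
  have hrec := isRecursive_of_isEigensystem heig
  refine ⟨c • g, ⟨hone, fun m n hmn => hrec.2.1 m n hmn, ?_, ?_⟩, hlam⟩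
  · intro p r hp hpN
    have := hrec.2.2 p r hp
    simpa [if_neg hpN] using this
  · intro p r hp hpN
    have := hrec.2.2 p r hp
    simpa [if_pos hpN] using this

end Modular

end Fermat.Agent.S49norm
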