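/-
S23 library, piece P1 (helper28): Galois descent from ℂ to ℚ.

* `exists_rat_of_fixed`    : a complex number fixed by every ring automorphism of ℂ is rational.
* `span_rational_eq_top`   : a finite-dimensional space of complex sequences which is stable under
                             coefficientwise conjugation by every automorphism of ℂ is spanned by
                             its rational points.
-/
import Mathlib

set_option autoImplicit false

namespace Fermat.Agent.S23lib

open MvPolynomial Module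

/-- Any ring automorphism of `MvPolynomial ι A` extends, along a transcendence basis `v`,
to a ring automorphism of the algebraically closed field `K`. -/
theorem descent_exists_ringEquiv_of_mvPolynomial_ringEquiv {A K : Type*} [Field A] [Field K]
    [Algebra A K] [IsAlgClosed K] {ι : Type*} (v : ι → K) (hv : IsTranscendenceBasis A v)
    (φ : MvPolynomial ι A ≃+* MvPolynomial ι A) :
    ∃ σ : K ≃+* K, ∀ p : MvPolynomial ι A, σ (aeval v p) = aeval v (φ p) := by
  have := IsAlgClosed.isAlgClosure_of_transcendence_basis v hv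
  let e₀ : MvPolynomial ι A ≃ₐ[A] Algebra.adjoin A (Set.range v) := hv.1.aevalEquiv
  let e : Algebra.adjoin A (Set.range v) ≃+* Algebra.adjoin A (Set.range v) :=
    e₀.symm.toRingEquiv.trans (φ.trans e₀.toRingEquiv)
  have h1 : ∀ p : MvPolynomial ι A,
      aeval v p = algebraMap (Algebra.adjoin A (Set.range v)) K (e₀ p) := by
    intro p
    simp [e₀]
  refine ⟨IsAlgClosure.equivOfEquiv K K e, fun p => ?_⟩
  rw [h1, IsAlgClosure.equivOfEquiv_algebraMap, h1]
  simp [e]

/-- The translation automorphism `X i ↦ X i + 1` of a polynomial ring. -/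
noncomputable def descentShift (ι : Type*) (R : Type*) [CommRing R] :
    MvPolynomial ι R ≃ₐ[R] MvPolynomial ι R :=
  AlgEquiv.ofAlgHom (aeval fun i => X i + 1) (aeval fun i => X i - 1)
    (by ext i; simp) (by ext i; simp)

theorem descentShift_X (ι : Type*) (R : Type*) [CommRing R] (i : ι) :
    descentShift ι R (X i) = X i + 1 := by
  simp [descentShift]

/-- A transcendental complex number is moved by some ring automorphism of `ℂ`. -/
theorem descent_exists_ringEquiv_ne_of_transcendental (x : ℂ) (hx : Transcendental ℚ x) :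
    ∃ σ : ℂ ≃+* ℂ, σ x ≠ x := by
  have hind : AlgebraicIndepOn ℚ id ({x} : Set ℂ) := by
    have : AlgebraicIndependent ℚ (fun i : ({x} : Set ℂ) => id (i : ℂ)) :=
      (algebraicIndependent_singleton_iff (R := ℚ) (x := fun i : ({x} : Set ℂ) => id (i : ℂ))
        ⟨x, rfl⟩).mpr hx
    exact this
  obtain ⟨t, hxt, ht⟩ := exists_isTranscendenceBasis_superset hind
  obtain ⟨σ, hσ⟩ := descent_exists_ringEquiv_of_mvPolynomial_ringEquiv (A := ℚ) (K := ℂ)
    ((↑) : t → ℂ) ht (descentShift t ℚ).toRingEquiv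
  refine ⟨σ, ?_⟩
  have hx' : x ∈ t := hxt rfl
  have h := hσ (X ⟨x, hx'⟩)
  simp only [aeval_X, AlgEquiv.coe_ringEquiv, descentShift_X, map_add, map_one] at h
  rw [h]
  simp

/-- An algebraic irrational complex number is moved by some ring automorphism of `ℂ`. -/
theorem descent_exists_ringEquiv_ne_of_isAlgebraic (x : ℂ) (hx : IsAlgebraic ℚ x)
    (hx' : ∀ r : ℚ, x ≠ (r : ℂ)) : ∃ σ : ℂ ≃+* ℂ, σ x ≠ x := by
  have hxA : x ∈ algebraicClosure ℚ ℂ := (mem_algebraicClosure_iff (F := ℚ) (E := ℂ)).mpr hx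
  have hcl : IsAlgClosure ℚ ↥(algebraicClosure ℚ ℂ) := by
    exact @algebraicClosure.isAlgClosure ℚ ℂ _ _ _ _
  have hgal : IsGalois ℚ ↥(algebraicClosure ℚ ℂ) :=
    IsAlgClosure.isGalois ℚ (algebraicClosure ℚ ℂ)
  have hnot : (⟨x, hxA⟩ : algebraicClosure ℚ ℂ) ∉
      Set.range (algebraMap ℚ (algebraicClosure ℚ ℂ)) := by
    rintro ⟨r, hr⟩
    apply hx' r
    have := congrArg (fun a : algebraicClosure ℚ ℂ => (a : ℂ)) hr
    simpa using this.symm
  rw [InfiniteGalois.mem_range_algebraMap_iff_fixed] at hnot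
  push Not at hnot
  obtain ⟨τ, hτ⟩ := hnot
  obtain ⟨ι, v, hv⟩ := exists_isTranscendenceBasis' (algebraicClosure ℚ ℂ) ℂ
  obtain ⟨σ, hσ⟩ := descent_exists_ringEquiv_of_mvPolynomial_ringEquiv
    (A := algebraicClosure ℚ ℂ) (K := ℂ) v hv
    (MvPolynomial.mapEquiv ι τ.toRingEquiv)
  refine ⟨σ, fun h => hτ ?_⟩
  have h2 := hσ (C ⟨x, hxA⟩)
  simp only [aeval_C, mapEquiv_apply, map_C] at h2
  apply Subtype.ext
  have h3 : algebraMap (algebraicClosure ℚ ℂ) ℂ ⟨x, hxA⟩ = x := rfl
  rw [h3, h] at h2
  exact h2.symm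

/-- P1a: elements of ℂ fixed by all ring automorphisms are rational. -/
theorem exists_rat_of_fixed (x : ℂ) (hx : ∀ σ : ℂ ≃+* ℂ, σ x = x) : ∃ r : ℚ, x = (r : ℂ) := by
  by_contra hne
  push Not at hne
  by_cases halg : IsAlgebraic ℚ x
  · obtain ⟨σ, hσ⟩ := descent_exists_ringEquiv_ne_of_isAlgebraic x halg hne
    exact hσ (hx σ)
  · obtain ⟨σ, hσ⟩ := descent_exists_ringEquiv_ne_of_transcendental x halg
    exact hσ (hx σ)

/-- The coordinate functionals of an injective map into sequences span the dual. -/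
theorem descent_span_coord_eq_top {V : Type*} [AddCommGroup V] [Module ℂ V]
    [FiniteDimensional ℂ V] (q : V →ₗ[ℂ] (ℕ → ℂ)) (hq : Function.Injective q) :
    Submodule.span ℂ (Set.range fun n : ℕ => (LinearMap.proj n).comp q) =
      (⊤ : Submodule ℂ (Dual ℂ V)) := by
  set W : Subspace ℂ (Dual ℂ V) :=
    Submodule.span ℂ (Set.range fun n : ℕ => (LinearMap.proj n).comp q) with hW
  have hco : W.dualCoannihilator = ⊥ := by
    rw [eq_bot_iff]
    intro v hv
    rw [Submodule.mem_dualCoannihilator] at hv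
    rw [Submodule.mem_bot]
    apply hq
    rw [map_zero]
    funext n
    exact hv _ (Submodule.subset_span ⟨n, rfl⟩)
  have h1 := Subspace.finrank_add_finrank_dualCoannihilator_eq W
  rw [hco, finrank_bot, add_zero] at h1
  apply Submodule.eq_top_of_finrank_eq
  rw [h1, Subspace.dual_finrank_eq]

/-- P1b: Galois descent for a finite-dimensional space of sequences. -/
theorem span_rational_eq_top {V : Type*} [AddCommGroup V] [Module ℂ V] [FiniteDimensional ℂ V]
    (q : V →ₗ[ℂ] (ℕ → ℂ)) (hq : Function.Injective q)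
    (hσ : ∀ (σ : ℂ ≃+* ℂ) (v : V), ∃ w : V, ∀ n, q w n = σ (q v n)) :
    Submodule.span ℂ {v : V | ∀ n, ∃ r : ℚ, q v n = (r : ℂ)} = ⊤ := by
  classical
  obtain ⟨b, hbS, hbspan, hbli⟩ := exists_linearIndependent ℂ
    (Set.range fun n : ℕ => (LinearMap.proj n).comp q : Set (Dual ℂ V))
  rw [descent_span_coord_eq_top q hq] at hbspan
  let B : Basis b ℂ (Dual ℂ V) := Basis.mk hbli (by rw [Subtype.range_coe]; exact hbspan.ge)
  have hBcoe : ∀ i : b, B i = (i : Dual ℂ V) := fun i => by simp [B]
  have : Finite b := Module.Finite.finite_basis B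
  let _ : Fintype b := Fintype.ofFinite b
  let b' : Basis b ℂ V := B.dualBasis.map (evalEquiv ℂ V).symm
  have hb' : ∀ i j : b, B i (b' j) = if i = j then 1 else 0 := by
    intro i j
    have h1 : evalEquiv ℂ V (b' j) = B.dualBasis j := by simp [b']
    have h2 : B i (b' j) = (evalEquiv ℂ V (b' j)) (B i) := by simp
    rw [h2, h1, Basis.dualBasis_apply_self]
  -- the pivot of each basis functional
  have hpiv : ∀ i : b, ∃ n : ℕ, ∀ v : V, B i v = q v n := by
    intro i
    obtain ⟨n, hn⟩ := hbS i.2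
    refine ⟨n, fun v => ?_⟩
    rw [hBcoe, ← hn]
    rfl
  choose piv hpiv using hpiv
  -- functionals in B separate points
  have hsep : ∀ u : V, (∀ i : b, B i u = 0) → u = 0 := by
    intro u hu
    have : ∀ φ : Dual ℂ V, φ u = 0 := by
      intro φ
      have hφ := B.sum_repr φ
      calc φ u = (∑ i, B.repr φ i • B i) u := by rw [hφ]
        _ = ∑ i, (B.repr φ i • B i) u := LinearMap.sum_apply _ _ _
        _ = 0 := Finset.sum_eq_zero (fun i _ => by rw [LinearMap.smul_apply, hu, smul_zero])
    apply hq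
    rw [map_zero]
    funext n
    exact this ((LinearMap.proj n).comp q)
  have hrat : ∀ j : b, b' j ∈ {v : V | ∀ n, ∃ r : ℚ, q v n = (r : ℂ)} := by
    intro j n
    apply exists_rat_of_fixed
    intro σ
    obtain ⟨w, hw⟩ := hσ σ (b' j)
    have hwj : w = b' j := by
      rw [← sub_eq_zero]
      apply hsep
      intro i
      rw [map_sub, hpiv, hw, ← hpiv, hb']
      split_ifs <;> simp
    rw [← hw, hwj]
  rw [eq_top_iff, ← b'.span_eq]
  apply Submodule.span_mono
  rintro _ ⟨j, rfl⟩
  exact hrat j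

end Fermat.Agent.S23lib
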