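import Mathlib

set_option autoImplicit false

namespace Fermat.Agent.S49lib

open Module

/-- A commuting family of endomorphisms of a finite-dimensional vector space over an algebraically
closed field has a common eigenvector inside any nonzero stable subspace. -/
theorem exists_common_eigenvector_in
    {K V : Type*} [Field K] [IsAlgClosed K] [AddCommGroup V] [Module K V] [FiniteDimensional K V]
    {ι : Type*} (T : ι → Module.End K V) (hcomm : ∀ i j, Commute (T i) (T j))
    (W : Submodule K V) (hW : W ≠ ⊥) (hstab : ∀ i, ∀ w ∈ W, T i w ∈ W) :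
    ∃ (g : V) (χ : ι → K), g ∈ W ∧ g ≠ 0 ∧ ∀ i, T i g = χ i • g := by
  induction hn : finrank K W using Nat.strong_induction_on generalizing W with
  | _ n ih =>
    by_cases hsc : ∀ i, ∃ c : K, ∀ w ∈ W, T i w = c • w
    · choose χ hχ using hsc
      obtain ⟨g, hgW, hg0⟩ := (Submodule.ne_bot_iff W).1 hW
      exact ⟨g, χ, hgW, hg0, fun i => hχ i g hgW⟩
    · push Not at hsc
      obtain ⟨i, hi⟩ := hsc
      have hWnt : Nontrivial W := (Submodule.nontrivial_iff_ne_bot).2 hW
      obtain ⟨μ, hμ⟩ := Module.End.exists_eigenvalue ((T i).restrict (hstab i))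
      obtain ⟨v, hv⟩ := hμ.exists_hasEigenvector
      let W' : Submodule K V := W ⊓ LinearMap.ker (T i - μ • (1 : Module.End K V))
      have hvW' : (v : V) ∈ W' := by
        refine ⟨v.2, ?_⟩
        have h1 := hv.apply_eq_smul
        have h2 : T i (v : V) = μ • (v : V) := by
          have := congrArg (Subtype.val) h1
          simpa using this
        simp [LinearMap.mem_ker, h2]
      have hv0 : (v : V) ≠ 0 := by
        intro h
        exact hv.2 (Subtype.ext h)
      have hW'ne : W' ≠ ⊥ := by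
        intro h
        rw [h] at hvW'
        exact hv0 ((Submodule.mem_bot K).1 hvW')
      have hW'le : W' ≤ W := inf_le_left
      have hW'lt : W' < W := by
        refine lt_of_le_of_ne hW'le ?_
        intro h
        obtain ⟨w, hwW, hw⟩ := hi μ
        apply hw
        have : w ∈ W' := h ▸ hwW
        have h3 : w ∈ LinearMap.ker (T i - μ • (1 : Module.End K V)) := this.2
        rw [LinearMap.mem_ker, LinearMap.sub_apply, LinearMap.smul_apply,
          Module.End.one_apply] at h3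
        exact sub_eq_zero.1 h3
      have hstab' : ∀ j, ∀ w ∈ W', T j w ∈ W' := by
        intro j w hw
        refine ⟨hstab j w hw.1, ?_⟩
        have h3 : w ∈ LinearMap.ker (T i - μ • (1 : Module.End K V)) := hw.2
        rw [LinearMap.mem_ker, LinearMap.sub_apply, LinearMap.smul_apply,
          Module.End.one_apply] at h3
        show T j w ∈ LinearMap.ker (T i - μ • (1 : Module.End K V))
        rw [LinearMap.mem_ker, LinearMap.sub_apply, LinearMap.smul_apply,
          Module.End.one_apply]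
        have hc : T i (T j w) = T j (T i w) := by
          have := (hcomm i j).eq
          exact congrArg (fun f => f w) this
        rw [hc, sub_eq_zero.1 h3, map_smul, sub_self]
      have hlt : finrank K W' < n := hn ▸ Submodule.finrank_lt_finrank_of_lt hW'lt
      obtain ⟨g, χ, hgW', hg0, hg⟩ := ih _ hlt W' hW'ne hstab' rfl
      exact ⟨g, χ, hW'le hgW', hg0, hg⟩


/-- The restriction of an endomorphism to a stable `ℤ`-lattice. -/
noncomputable def latticeRestrict {V : Type*} [AddCommGroup V] [Module ℂ V]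
    (M : Submodule ℤ V) (t : Module.End ℂ V) (hstab : ∀ m ∈ M, t m ∈ M) : M →ₗ[ℤ] M :=
  (AddMonoidHom.mk' (fun m : M => (⟨t m, hstab m m.2⟩ : M))
    (by intro a b; ext; simp)).toIntLinearMap

theorem latticeRestrict_apply {V : Type*} [AddCommGroup V] [Module ℂ V]
    (M : Submodule ℤ V) (t : Module.End ℂ V) (hstab : ∀ m ∈ M, t m ∈ M) (m : M) :
    ((latticeRestrict M t hstab m : M) : V) = t m := rfl

theorem latticeRestrict_pow_apply {V : Type*} [AddCommGroup V] [Module ℂ V]
    (M : Submodule ℤ V) (t : Module.End ℂ V) (hstab : ∀ m ∈ M, t m ∈ M) (n : ℕ) (m : M) :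
    ((((latticeRestrict M t hstab) ^ n) m : M) : V) = (t ^ n) m := by
  induction n generalizing m with
  | zero => simp
  | succ n ih =>
    rw [pow_succ, pow_succ, Module.End.mul_apply, Module.End.mul_apply, ih, latticeRestrict_apply]

theorem latticeRestrict_aeval_apply {V : Type*} [AddCommGroup V] [Module ℂ V]
    (M : Submodule ℤ V) (t : Module.End ℂ V) (hstab : ∀ m ∈ M, t m ∈ M)
    (q : Polynomial ℤ) (m : M) :
    (((Polynomial.aeval (latticeRestrict M t hstab) q) m : M) : V)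
      = (Polynomial.aeval t q) m := by
  induction q using Polynomial.induction_on' with
  | add p q hp hq =>
    simp only [map_add, LinearMap.add_apply, Submodule.coe_add, hp, hq]
  | monomial n a =>
    rw [Polynomial.aeval_monomial, Polynomial.aeval_monomial]
    simp only [Algebra.algebraMap_eq_smul_one, smul_mul_assoc, one_mul, LinearMap.smul_apply,
      Submodule.coe_smul, latticeRestrict_pow_apply]

/-- An endomorphism of a complex vector space preserving a finitely generated spanning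
`ℤ`-lattice is killed by a monic integer polynomial. -/
theorem exists_monic_aeval_eq_zero_of_lattice
    {V : Type*} [AddCommGroup V] [Module ℂ V]
    (M : Submodule ℤ V) (hfg : M.FG) (hspan : Submodule.span ℂ (M : Set V) = ⊤)
    (t : Module.End ℂ V) (hstab : ∀ m ∈ M, t m ∈ M) :
    ∃ p : Polynomial ℤ, p.Monic ∧ Polynomial.aeval t p = 0 := by
  have : Module.Finite ℤ M := Module.Finite.iff_fg.2 hfg
  obtain ⟨p, hp, hp0⟩ := LinearMap.exists_monic_and_aeval_eq_zero ℤ (latticeRestrict M t hstab)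
  refine ⟨p, hp, ?_⟩
  apply LinearMap.ext_on hspan
  intro m hm
  have h := latticeRestrict_aeval_apply M t hstab p ⟨m, hm⟩
  rw [hp0] at h
  simpa using h.symm

/-- An eigenvalue of an endomorphism killed by a monic integer polynomial is an algebraic
integer. -/
theorem isIntegral_of_eigen {V : Type*} [AddCommGroup V] [Module ℂ V]
    (t : Module.End ℂ V) (p : Polynomial ℤ) (hp : p.Monic) (hp0 : Polynomial.aeval t p = 0)
    (g : V) (hg : g ≠ 0) (c : ℂ) (hc : t g = c • g) : IsIntegral ℤ c := by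
  refine ⟨p, hp, ?_⟩
  have hev : t.HasEigenvector c g := ⟨Module.End.mem_eigenspace_iff.2 hc, hg⟩
  have h1 := Module.End.aeval_apply_of_hasEigenvector (p := p.map (algebraMap ℤ ℂ)) hev
  rw [Polynomial.aeval_map_algebraMap, hp0, LinearMap.zero_apply] at h1
  have h2 : Polynomial.eval c (p.map (algebraMap ℤ ℂ)) = 0 := by
    rcases smul_eq_zero.1 h1.symm with h | h
    · exact h
    · exact absurd h hg
  rwa [Polynomial.eval_map] at h2


/-- Abstract Deligne–Serre lifting lemma, ring form. -/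
theorem deligneSerre_ring
    {V : Type*} [AddCommGroup V] [Module ℂ V] [FiniteDimensional ℂ V]
    {R : Type*} [CommRing R] (ρ : R →+* Module.End ℂ V)
    (M : Submodule ℤ V) (hfg : M.FG) (hspan : Submodule.span ℂ (M : Set V) = ⊤)
    (hstab : ∀ r, ∀ m ∈ M, ρ r m ∈ M)
    (f : V) (hfM : f ∈ M) (hf3 : ∀ g ∈ M, f ≠ (3 : ℤ) • g)
    (hc : ∀ r, ∃ c : ℤ, ∃ g ∈ M, ρ r f - c • f = (3 : ℤ) • g) :
    ∃ (g : V) (χ : R →+* integralClosure ℤ ℂ) (𝔪' : Ideal (integralClosure ℤ ℂ)),
      g ≠ 0 ∧ 𝔪'.IsMaximal ∧ ((3 : ℕ) : integralClosure ℤ ℂ) ∈ 𝔪' ∧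
      (∀ r, ρ r g = ((χ r : integralClosure ℤ ℂ) : ℂ) • g) ∧
      ∀ r (c : ℤ), (∃ g ∈ M, ρ r f - c • f = (3 : ℤ) • g) →
        χ r - (c : integralClosure ℤ ℂ) ∈ 𝔪' := by
  classical
  -- the maximal ideal
  let 𝔪 : Ideal R :=
    { carrier := {r | ∃ g ∈ M, ρ r f = (3 : ℤ) • g}
      zero_mem' := ⟨0, M.zero_mem, by simp⟩
      add_mem' := by
        rintro a b ⟨ga, hga, ha⟩ ⟨gb, hgb, hb⟩
        exact ⟨ga + gb, M.add_mem hga hgb, by simp [map_add, ha, hb, smul_add]⟩
      smul_mem' := by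
        rintro s r ⟨g, hg, hr⟩
        refine ⟨ρ s g, hstab s g hg, ?_⟩
        rw [smul_eq_mul, map_mul, Module.End.mul_apply, hr, map_zsmul] }
  have hmem : ∀ r, r ∈ 𝔪 ↔ ∃ g ∈ M, ρ r f = (3 : ℤ) • g := fun r => Iff.rfl
  have hcast : ∀ (c : ℤ) (v : V), ρ (c : R) v = c • v := by
    intro c v
    rw [map_intCast]
    simp
  have h1 : (1 : R) ∉ 𝔪 := by
    rintro ⟨g, hg, h⟩
    rw [map_one, Module.End.one_apply] at h
    exact hf3 g hg h
  have hmax : 𝔪.IsMaximal := by
    rw [Ideal.isMaximal_iff]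
    refine ⟨h1, ?_⟩
    intro J x hJ hx hxJ
    obtain ⟨c, g, hg, hcx⟩ := hc x
    have hc3 : ¬ (3 : ℤ) ∣ c := by
      rintro ⟨k, rfl⟩
      apply hx
      refine ⟨k • f + g, M.add_mem (M.smul_mem k hfM) hg, ?_⟩
      rw [sub_eq_iff_eq_add] at hcx
      rw [hcx, smul_add, smul_smul]
      abel
    have hcop : IsCoprime c 3 := by
      have h3 : Prime (3 : ℤ) := Int.prime_three
      exact ((h3.coprime_iff_not_dvd).2 hc3).symm
    obtain ⟨c', k, hck⟩ := hcop
    have hkey : (1 : R) - (c' : R) * x ∈ 𝔪 := by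
      refine ⟨k • f - c' • g, M.sub_mem (M.smul_mem k hfM) (M.smul_mem c' hg), ?_⟩
      rw [map_sub, map_one, map_mul, LinearMap.sub_apply, Module.End.one_apply,
        Module.End.mul_apply, hcast]
      rw [sub_eq_iff_eq_add] at hcx
      rw [hcx]
      have e1 : f = (c' * c + k * 3) • f := by rw [hck, one_smul]
      calc f - c' • ((3 : ℤ) • g + c • f)
          = (c' * c + k * 3) • f - c' • ((3 : ℤ) • g + c • f) := by rw [← e1]
        _ = (3 : ℤ) • (k • f - c' • g) := by module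
    have : (1 : R) = ((1 : R) - (c' : R) * x) + (c' : R) * x := by ring
    rw [this]
    exact J.add_mem (hJ hkey) (J.mul_mem_left _ hxJ)
  have hprime : 𝔪.IsPrime := hmax.isPrime
  -- choose `s₀ ∉ 𝔪` of minimal rank
  let P : ℕ → Prop := fun n => ∃ s : R, s ∉ 𝔪 ∧ finrank ℂ (LinearMap.range (ρ s)) = n
  have hP : ∃ n, P n := ⟨_, 1, h1, rfl⟩
  obtain ⟨s₀, hs₀, hrk⟩ := Nat.find_spec hP
  have hmin : ∀ s, s ∉ 𝔪 → Nat.find hP ≤ finrank ℂ (LinearMap.range (ρ s)) :=
    fun s hs => Nat.find_min' hP ⟨s, hs, rfl⟩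
  let W : Submodule ℂ V := LinearMap.range (ρ s₀)
  have hcommρ : ∀ a b : R, ∀ v : V, ρ a (ρ b v) = ρ b (ρ a v) := by
    intro a b v
    rw [← Module.End.mul_apply, ← Module.End.mul_apply, ← map_mul, ← map_mul, mul_comm]
  have hWstab : ∀ r, ∀ w ∈ W, ρ r w ∈ W := by
    rintro r w ⟨v, rfl⟩
    exact ⟨ρ r v, hcommρ _ _ _⟩
  have hWne : W ≠ ⊥ := by
    intro h
    have hf0 : ρ s₀ f ∈ W := ⟨f, rfl⟩
    rw [h, Submodule.mem_bot] at hf0
    exact hs₀ ⟨0, M.zero_mem, by rw [hf0, smul_zero]⟩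
  have hinj : ∀ s, s ∉ 𝔪 → ∀ w ∈ W, ρ s w = 0 → w = 0 := by
    intro s hs w hw hsw
    have hss : s * s₀ ∉ 𝔪 := fun h => (hprime.mem_or_mem h).elim hs hs₀
    have hle : LinearMap.range (ρ (s * s₀)) ≤ W := by
      rintro _ ⟨v, rfl⟩
      rw [map_mul, Module.End.mul_apply]
      exact hWstab s _ ⟨v, rfl⟩
    have heq : LinearMap.range (ρ (s * s₀)) = W := by
      apply Submodule.eq_of_le_of_finrank_le hle
      have := hmin _ hss
      rw [← hrk] at this
      exact this
    have hsurj : Function.Surjective ((ρ s).restrict (hWstab s)) := by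
      rintro ⟨y, hy⟩
      have hy' : y ∈ LinearMap.range (ρ (s * s₀)) := by rw [heq]; exact hy
      obtain ⟨v, hv⟩ := hy'
      refine ⟨⟨ρ s₀ v, ⟨v, rfl⟩⟩, ?_⟩
      apply Subtype.ext
      show ρ s (ρ s₀ v) = y
      rw [← hv, map_mul, Module.End.mul_apply]
    have hinj' : Function.Injective ((ρ s).restrict (hWstab s)) :=
      LinearMap.injective_iff_surjective.2 hsurj
    have h0 : (ρ s).restrict (hWstab s) ⟨w, hw⟩ = (ρ s).restrict (hWstab s) 0 := by
      apply Subtype.ext
      rw [map_zero]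
      exact hsw
    have := hinj' h0
    exact congrArg Subtype.val this
  -- common eigenvector in `W`
  obtain ⟨g, χ₀, hgW, hg0, hg⟩ := exists_common_eigenvector_in (fun r : R => ρ r)
    (fun a b => by
      show ρ a * ρ b = ρ b * ρ a
      rw [← map_mul, ← map_mul, mul_comm]) W hWne hWstab
  have hsinj : Function.Injective (fun c : ℂ => c • g) := smul_left_injective ℂ hg0
  let χ₁ : R →+* ℂ :=
    { toFun := χ₀
      map_one' := by
        apply hsinj
        show χ₀ 1 • g = (1 : ℂ) • g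
        rw [← hg, map_one, Module.End.one_apply, one_smul]
      map_mul' := by
        intro a b
        apply hsinj
        show χ₀ (a * b) • g = (χ₀ a * χ₀ b) • g
        rw [← hg, map_mul, Module.End.mul_apply, hg b, map_smul, hg a, smul_smul, mul_comm]
      map_zero' := by
        apply hsinj
        show χ₀ 0 • g = (0 : ℂ) • g
        rw [← hg, map_zero, LinearMap.zero_apply, zero_smul]
      map_add' := by
        intro a b
        apply hsinj
        show χ₀ (a + b) • g = (χ₀ a + χ₀ b) • g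
        rw [← hg, map_add, LinearMap.add_apply, hg a, hg b, add_smul] }
  have hχ₁ : ∀ r, χ₁ r = χ₀ r := fun r => rfl
  have hint : ∀ r, χ₁ r ∈ integralClosure ℤ ℂ := by
    intro r
    obtain ⟨p, hp, hp0⟩ := exists_monic_aeval_eq_zero_of_lattice M hfg hspan (ρ r) (hstab r)
    exact isIntegral_of_eigen (ρ r) p hp hp0 g hg0 (χ₀ r) (hg r)
  let χ : R →+* integralClosure ℤ ℂ := χ₁.codRestrict (integralClosure ℤ ℂ) hint
  have hχ : ∀ r, ((χ r : integralClosure ℤ ℂ) : ℂ) = χ₀ r := fun r => rfl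
  have hker : RingHom.ker χ ≤ 𝔪 := by
    intro r hr
    by_contra hrm
    have h0 : χ₀ r = 0 := by
      rw [← hχ, (RingHom.mem_ker).1 hr]
      rfl
    apply hg0
    apply hinj r hrm g hgW
    rw [hg, h0, zero_smul]
  letI : Algebra R (integralClosure ℤ ℂ) := χ.toAlgebra
  haveI : Algebra.IsIntegral R (integralClosure ℤ ℂ) := by
    constructor
    intro x
    have hx : IsIntegral ℤ x := integralClosure.isIntegral x
    exact hx.tower_top
  obtain ⟨𝔪', h𝔪'max, h𝔪'⟩ := Ideal.exists_ideal_over_maximal_of_isIntegral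
    (S := integralClosure ℤ ℂ) 𝔪 hker
  have hmem' : ∀ r, r ∈ 𝔪 → χ r ∈ 𝔪' := by
    intro r hr
    rw [← h𝔪'] at hr
    exact hr
  refine ⟨g, χ, 𝔪', hg0, h𝔪'max, ?_, ?_, ?_⟩
  · have h3 : (((3 : ℕ) : ℤ) : R) ∈ 𝔪 := ⟨f, hfM, hcast _ f⟩
    have h3' := hmem' _ h3
    rw [map_intCast] at h3'
    exact_mod_cast h3'
  · intro r
    rw [hχ, hg]
  · rintro r c ⟨g', hg', h⟩
    have hrc : r - (c : R) ∈ 𝔪 := by
      refine ⟨g', hg', ?_⟩
      rw [map_sub, LinearMap.sub_apply, hcast, h]
    have := hmem' _ hrc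
    simpa using this


open scoped IsMulCommutative in
/-- Abstract Deligne–Serre lifting lemma for a commuting family of endomorphisms preserving a
finitely generated spanning lattice. -/
theorem deligneSerre_family
    {V : Type*} [AddCommGroup V] [Module ℂ V] [FiniteDimensional ℂ V]
    {ι : Type*} (T : ι → Module.End ℂ V) (hcomm : ∀ i j, Commute (T i) (T j))
    (M : Submodule ℤ V) (hfg : M.FG) (hspan : Submodule.span ℂ (M : Set V) = ⊤)
    (hstab : ∀ i, ∀ m ∈ M, T i m ∈ M)
    (f : V) (hfM : f ∈ M) (hf3 : ∀ g ∈ M, f ≠ (3 : ℤ) • g)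
    (a : ι → ℤ) (ha : ∀ i, ∃ g ∈ M, T i f - a i • f = (3 : ℤ) • g) :
    ∃ (g : V) (c : ι → integralClosure ℤ ℂ) (𝔪' : Ideal (integralClosure ℤ ℂ)),
      g ≠ 0 ∧ 𝔪'.IsMaximal ∧ ((3 : ℕ) : integralClosure ℤ ℂ) ∈ 𝔪' ∧
      ∀ i, T i g = ((c i : integralClosure ℤ ℂ) : ℂ) • g ∧
        c i - (a i : integralClosure ℤ ℂ) ∈ 𝔪' := by
  have hcomm' : ∀ x ∈ Set.range T, ∀ y ∈ Set.range T, x * y = y * x := by
    rintro _ ⟨i, rfl⟩ _ ⟨j, rfl⟩
    exact (hcomm i j).eq
  have hC := Algebra.isMulCommutative_adjoin ℤ hcomm'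
  let ρ : Algebra.adjoin ℤ (Set.range T) →+* Module.End ℂ V :=
    (Algebra.adjoin ℤ (Set.range T)).val.toRingHom
  have hρ : ∀ r : Algebra.adjoin ℤ (Set.range T), ρ r = (r : Module.End ℂ V) := fun r => rfl
  -- every element of the adjoin preserves `M` and acts on `f` as an integer mod `3M`
  have hboth : ∀ t ∈ Algebra.adjoin ℤ (Set.range T),
      (∀ m ∈ M, t m ∈ M) ∧ ∃ c : ℤ, ∃ g ∈ M, t f - c • f = (3 : ℤ) • g := by
    intro t ht
    induction ht using Algebra.adjoin_induction with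
    | mem x hx =>
      obtain ⟨i, rfl⟩ := hx
      exact ⟨hstab i, a i, ha i⟩
    | algebraMap n =>
      refine ⟨fun m hm => ?_, n, 0, M.zero_mem, ?_⟩
      · rw [Algebra.algebraMap_eq_smul_one, LinearMap.smul_apply, Module.End.one_apply]
        exact M.smul_mem n hm
      · rw [Algebra.algebraMap_eq_smul_one, LinearMap.smul_apply, Module.End.one_apply,
          sub_self, smul_zero]
    | add x y _ _ hx hy =>
      obtain ⟨hx1, cx, gx, hgx, hx2⟩ := hx
      obtain ⟨hy1, cy, gy, hgy, hy2⟩ := hy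
      refine ⟨fun m hm => ?_, cx + cy, gx + gy, M.add_mem hgx hgy, ?_⟩
      · rw [LinearMap.add_apply]
        exact M.add_mem (hx1 m hm) (hy1 m hm)
      · rw [LinearMap.add_apply, add_smul, smul_add, ← hx2, ← hy2]
        abel
    | mul x y _ _ hx hy =>
      obtain ⟨hx1, cx, gx, hgx, hx2⟩ := hx
      obtain ⟨hy1, cy, gy, hgy, hy2⟩ := hy
      refine ⟨fun m hm => ?_, cx * cy, cy • gx + x gy,
        M.add_mem (M.smul_mem cy hgx) (hx1 gy hgy), ?_⟩
      · rw [Module.End.mul_apply]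
        exact hx1 _ (hy1 m hm)
      · rw [Module.End.mul_apply]
        rw [sub_eq_iff_eq_add] at hx2 hy2
        rw [hy2, map_add, map_zsmul, map_zsmul, hx2]
        module
  obtain ⟨g, χ, 𝔪', hg0, hmax, h3, hg, hcong⟩ := deligneSerre_ring ρ M hfg hspan
    (fun r => (hboth r r.2).1) f hfM hf3 (fun r => (hboth r r.2).2)
  refine ⟨g, fun i => χ ⟨T i, Algebra.subset_adjoin ⟨i, rfl⟩⟩, 𝔪', hg0, hmax, h3, fun i => ?_⟩
  exact ⟨hg ⟨T i, Algebra.subset_adjoin ⟨i, rfl⟩⟩,
    hcong ⟨T i, Algebra.subset_adjoin ⟨i, rfl⟩⟩ (a i) (ha i)⟩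

end Fermat.Agent.S49lib
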