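/-
S23 library: "nice" functions on the upper half plane (holomorphic, 1-periodic, bounded at i∞)
form a ℂ-subalgebra on which the q-expansion is an injective algebra homomorphism.
-/
import Mathlib

set_option autoImplicit false

open UpperHalfPlane Function
open scoped MatrixGroups ModularForm Manifold

noncomputable section

namespace Fermat.Agent.S23lib

/-- A function on `ℍ` that is holomorphic, `1`-periodic and bounded at `i∞`. -/
structure IsNice (F : ℍ → ℂ) : Prop where
  mdiff : MDiff F
  periodic : Periodic (F ∘ ofComplex) 1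
  bdd : IsBoundedAtImInfty F

namespace IsNice

variable {F G : ℍ → ℂ}

lemma analyticAt (hF : IsNice F) : AnalyticAt ℂ (cuspFunction 1 F) 0 :=
  analyticAt_cuspFunction_zero one_pos hF.periodic hF.mdiff hF.bdd

lemma const (c : ℂ) : IsNice (fun _ => c) where
  mdiff := mdifferentiable_const
  periodic := fun _ => rfl
  bdd := by
    simpa using! Filter.const_boundedAtFilter atImInfty c

lemma one : IsNice (1 : ℍ → ℂ) := const 1

lemma zero : IsNice (0 : ℍ → ℂ) := const 0

lemma add (hF : IsNice F) (hG : IsNice G) : IsNice (F + G) where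
  mdiff := hF.mdiff.add hG.mdiff
  periodic := hF.periodic.add hG.periodic
  bdd := hF.bdd.add hG.bdd

lemma mul (hF : IsNice F) (hG : IsNice G) : IsNice (F * G) where
  mdiff := hF.mdiff.mul hG.mdiff
  periodic := hF.periodic.mul hG.periodic
  bdd := hF.bdd.mul hG.bdd

lemma smul (c : ℂ) (hF : IsNice F) : IsNice (c • F) := by
  have : c • F = (fun _ => c) * F := by ext z; simp
  rw [this]
  exact (const c).mul hF

lemma neg (hF : IsNice F) : IsNice (-F) := by
  have : -F = (-1 : ℂ) • F := by ext z; simp
  rw [this]
  exact hF.smul _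

lemma sub (hF : IsNice F) (hG : IsNice G) : IsNice (F - G) := by
  rw [sub_eq_add_neg]
  exact hF.add hG.neg

end IsNice

/-- The subalgebra of nice functions. -/
def niceAlg : Subalgebra ℂ (ℍ → ℂ) where
  carrier := {F | IsNice F}
  mul_mem' := fun hF hG => hF.mul hG
  add_mem' := fun hF hG => hF.add hG
  algebraMap_mem' := fun c => IsNice.const c

lemma mem_niceAlg {F : ℍ → ℂ} : F ∈ niceAlg ↔ IsNice F := Iff.rfl

/-- q-expansion as an algebra homomorphism on nice functions. -/
def qExpHom : niceAlg →ₐ[ℂ] PowerSeries ℂ where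
  toFun F := qExpansion 1 (F : ℍ → ℂ)
  map_one' := qExpansion_one 1
  map_mul' F G := qExpansion_mul (mem_niceAlg.1 F.2).analyticAt (mem_niceAlg.1 G.2).analyticAt
  map_zero' := qExpansion_zero 1
  map_add' F G := qExpansion_add (mem_niceAlg.1 F.2).analyticAt (mem_niceAlg.1 G.2).analyticAt
  commutes' c := by
    have h1 : ((algebraMap ℂ niceAlg c : niceAlg) : ℍ → ℂ) = c • (1 : ℍ → ℂ) := by
      ext z; simp
    simp only [h1]
    rw [qExpansion_smul IsNice.one.analyticAt, qExpansion_one]
    ext n
    simp [PowerSeries.coeff_C, PowerSeries.coeff_one]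

@[simp] lemma qExpHom_apply (F : niceAlg) : qExpHom F = qExpansion 1 (F : ℍ → ℂ) := rfl

lemma qExpHom_injective : Function.Injective qExpHom := by
  rw [injective_iff_map_eq_zero]
  intro F hF
  have hn := mem_niceAlg.1 F.2
  have := (qExpansion_eq_zero_iff one_pos hn.periodic hn.mdiff hn.bdd).1 hF
  exact Subtype.ext this

lemma qExpansion_eq_zero_of_nice {F : ℍ → ℂ} (hF : IsNice F) (h : qExpansion 1 F = 0) : F = 0 :=
  (qExpansion_eq_zero_iff one_pos hF.periodic hF.mdiff hF.bdd).1 h

/-- Level-one modular forms are nice. -/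
lemma isNice_levelOne {k : ℤ} (F : ModularForm 𝒮ℒ k) : IsNice F where
  mdiff := ModularFormClass.holo F
  periodic := SlashInvariantFormClass.periodic_comp_ofComplex F one_mem_strictPeriods_SL
  bdd := ModularFormClass.bdd_at_infty F

end Fermat.Agent.S23lib
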