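/-
S23 library: conjugate families indexed by cosets `SL(2,ℤ) ⧸ Γ₀`, their symmetric functions are
level-one modular forms.
-/
import Mathlib

set_option autoImplicit false

open UpperHalfPlane Function ModularForm
open scoped MatrixGroups ModularForm Manifold

noncomputable section

namespace Fermat.Agent.S23lib

variable (Γ₀ : Subgroup SL(2, ℤ))

/-- A family of functions indexed by the cosets `SL(2,ℤ) ⧸ Γ₀` which is permuted by the weight `w`
slash action, each member being holomorphic and bounded at `i∞`. -/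
structure IsConjFamily (w : ℤ) (Φ : SL(2, ℤ) ⧸ Γ₀ → ℍ → ℂ) : Prop where
  slash : ∀ (h : SL(2, ℤ)) (q : SL(2, ℤ) ⧸ Γ₀), Φ q ∣[w] h = Φ (h⁻¹ • q)
  mdiff : ∀ q, MDiff (Φ q)
  bdd : ∀ q, IsBoundedAtImInfty (Φ q)

variable {Γ₀}

namespace IsConjFamily

variable {w w' : ℤ} {Φ Ψ : SL(2, ℤ) ⧸ Γ₀ → ℍ → ℂ}

lemma mul (hΦ : IsConjFamily Γ₀ w Φ) (hΨ : IsConjFamily Γ₀ w' Ψ) :
    IsConjFamily Γ₀ (w + w') (fun q => Φ q * Ψ q) where
  slash h q := by rw [mul_slash_SL2, hΦ.slash, hΨ.slash]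
  mdiff q := (hΦ.mdiff q).mul (hΨ.mdiff q)
  bdd q := (hΦ.bdd q).mul (hΨ.bdd q)

lemma one : IsConjFamily Γ₀ 0 (fun _ => (1 : ℍ → ℂ)) where
  slash h q := is_invariant_one h
  mdiff q := mdifferentiable_const
  bdd q := by simpa using! Filter.const_boundedAtFilter atImInfty (1 : ℂ)

lemma pow (hΦ : IsConjFamily Γ₀ w Φ) (m : ℕ) :
    IsConjFamily Γ₀ (w * m) (fun q => Φ q ^ m) := by
  induction m with
  | zero => simpa using (one : IsConjFamily Γ₀ 0 _)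
  | succ m ih =>
    have := ih.mul hΦ
    have e : w * (m : ℤ) + w = w * ((m + 1 : ℕ) : ℤ) := by push_cast; ring
    rw [e] at this
    simpa [pow_succ] using this

lemma congr_weight (hΦ : IsConjFamily Γ₀ w Φ) (h : w = w') : IsConjFamily Γ₀ w' Φ := h ▸ hΦ

end IsConjFamily

end Fermat.Agent.S23lib

namespace Fermat.Agent.S23lib

variable {Γ₀ : Subgroup SL(2, ℤ)}

lemma isBoundedAtImInfty_one : IsBoundedAtImInfty (1 : ℍ → ℂ) := by
  simpa using! Filter.const_boundedAtFilter atImInfty (1 : ℂ)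

lemma isBoundedAtImInfty_sum {ι : Type*} (s : Finset ι) (f : ι → ℍ → ℂ)
    (hf : ∀ i ∈ s, IsBoundedAtImInfty (f i)) : IsBoundedAtImInfty (∑ i ∈ s, f i) := by
  classical
  induction s using Finset.induction_on with
  | empty => simpa using! Filter.const_boundedAtFilter atImInfty (0 : ℂ)
  | insert a t ha ih =>
    rw [Finset.sum_insert ha]
    exact (hf a (Finset.mem_insert_self _ _)).add
      (ih fun i hi => hf i (Finset.mem_insert_of_mem hi))

lemma isBoundedAtImInfty_prod {ι : Type*} (s : Finset ι) (f : ι → ℍ → ℂ)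
    (hf : ∀ i ∈ s, IsBoundedAtImInfty (f i)) : IsBoundedAtImInfty (∏ i ∈ s, f i) := by
  classical
  induction s using Finset.induction_on with
  | empty => simpa using isBoundedAtImInfty_one
  | insert a t ha ih =>
    rw [Finset.prod_insert ha]
    exact (hf a (Finset.mem_insert_self _ _)).mul
      (ih fun i hi => hf i (Finset.mem_insert_of_mem hi))

lemma isZeroAtImInfty_sum {ι : Type*} (s : Finset ι) (f : ι → ℍ → ℂ)
    (hf : ∀ i ∈ s, IsZeroAtImInfty (f i)) : IsZeroAtImInfty (∑ i ∈ s, f i) := by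
  classical
  induction s using Finset.induction_on with
  | empty => simpa using! Filter.zero_zeroAtFilter atImInfty (β := ℂ)
  | insert a t ha ih =>
    rw [Finset.sum_insert ha]
    exact (hf a (Finset.mem_insert_self _ _)).add
      (ih fun i hi => hf i (Finset.mem_insert_of_mem hi))

lemma isZeroAtImInfty_prod {ι : Type*} (s : Finset ι) (f : ι → ℍ → ℂ) (hs : s.Nonempty)
    (hf : ∀ i ∈ s, IsZeroAtImInfty (f i)) : IsZeroAtImInfty (∏ i ∈ s, f i) := by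
  classical
  obtain ⟨a, ha⟩ := hs
  rw [← Finset.mul_prod_erase s f ha]
  have h1 : IsBoundedAtImInfty (∏ i ∈ s.erase a, f i) :=
    isBoundedAtImInfty_prod _ _ fun i hi => (hf i (Finset.mem_of_mem_erase hi)).boundedAtFilter
  exact (hf a ha).mul_boundedAtFilter h1  -- zero * bounded

lemma prod_slash_SL {ι : Type*} (k : ℤ) (h : SL(2, ℤ)) (f : ι → ℍ → ℂ) (s : Finset ι) :
    (∏ i ∈ s, f i) ∣[k * (s.card : ℤ)] h = ∏ i ∈ s, f i ∣[k] h := by
  rw [SL_slash, prod_slash]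
  simp [SL_slash]

section esymm

variable [Fintype (SL(2, ℤ) ⧸ Γ₀)] [DecidableEq (SL(2, ℤ) ⧸ Γ₀)]

/-- The `j`-th elementary symmetric function of a family. -/
def esymmFun (Φ : SL(2, ℤ) ⧸ Γ₀ → ℍ → ℂ) (j : ℕ) : ℍ → ℂ :=
  ∑ S ∈ Finset.powersetCard j (Finset.univ : Finset (SL(2, ℤ) ⧸ Γ₀)), ∏ q ∈ S, Φ q

variable {w : ℤ} {Φ : SL(2, ℤ) ⧸ Γ₀ → ℍ → ℂ}

lemma esymmFun_slash (hΦ : IsConjFamily Γ₀ w Φ) (j : ℕ) (h : SL(2, ℤ)) :
    esymmFun Φ j ∣[w * (j : ℤ)] h = esymmFun Φ j := by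
  unfold esymmFun
  rw [SlashAction.sum_slash]
  have key : ∀ S ∈ Finset.powersetCard j (Finset.univ : Finset (SL(2, ℤ) ⧸ Γ₀)),
      (∏ q ∈ S, Φ q) ∣[w * (j : ℤ)] h = ∏ q ∈ S.map (MulAction.toPerm h⁻¹).toEmbedding, Φ q := by
    intro S hS
    have hc : S.card = j := (Finset.mem_powersetCard.1 hS).2
    rw [← hc, prod_slash_SL, Finset.prod_map]
    refine Finset.prod_congr rfl fun q _ => ?_
    rw [hΦ.slash]
    rfl
  rw [Finset.sum_congr rfl key]
  refine Finset.sum_bij' (fun S _ => S.map (MulAction.toPerm h⁻¹).toEmbedding)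
    (fun S _ => S.map (MulAction.toPerm h).toEmbedding) ?_ ?_ ?_ ?_ ?_
  · intro S hS
    simp only [Finset.mem_powersetCard, Finset.subset_univ, true_and, Finset.card_map] at hS ⊢
    exact hS
  · intro S hS
    simp only [Finset.mem_powersetCard, Finset.subset_univ, true_and, Finset.card_map] at hS ⊢
    exact hS
  · intro S _
    ext q
    simp [Finset.mem_map]
  · intro S _
    ext q
    simp [Finset.mem_map]
  · intro S _
    rfl

lemma esymmFun_mdiff (hΦ : IsConjFamily Γ₀ w Φ) (j : ℕ) : MDiff (esymmFun Φ j) := by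
  unfold esymmFun
  exact MDifferentiable.sum fun S _ => MDifferentiable.prod fun q _ => hΦ.mdiff q

lemma esymmFun_bdd (hΦ : IsConjFamily Γ₀ w Φ) (j : ℕ) : IsBoundedAtImInfty (esymmFun Φ j) := by
  unfold esymmFun
  exact isBoundedAtImInfty_sum _ _ fun S _ => isBoundedAtImInfty_prod _ _ fun q _ => hΦ.bdd q

end esymm

end Fermat.Agent.S23lib

namespace Fermat.Agent.S23lib

/-- Build a level-one modular form from a function. -/
lemma exists_modularForm_levelOne (w : ℤ) (F : ℍ → ℂ) (hs : ∀ γ : SL(2, ℤ), F ∣[w] γ = F)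
    (hd : MDiff F) (hb : IsBoundedAtImInfty F) : ∃ G : ModularForm 𝒮ℒ w, ⇑G = F := by
  refine ⟨{ toFun := F
            slash_action_eq' := ?_
            holo' := hd
            bdd_at_cusps' := ?_ }, rfl⟩
  · rintro _ ⟨γ, rfl⟩
    exact hs γ
  · intro c hc
    rw [OnePoint.isBoundedAt_iff_forall_SL2Z hc]
    intro γ _
    rw [hs γ]
    exact hb

/-- Build a level-one cusp form from a function. -/
lemma exists_cuspForm_levelOne (w : ℤ) (F : ℍ → ℂ) (hs : ∀ γ : SL(2, ℤ), F ∣[w] γ = F)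
    (hd : MDiff F) (hz : IsZeroAtImInfty F) : ∃ G : CuspForm 𝒮ℒ w, ⇑G = F := by
  refine ⟨{ toFun := F
            slash_action_eq' := ?_
            holo' := hd
            zero_at_cusps' := ?_ }, rfl⟩
  · rintro _ ⟨γ, rfl⟩
    exact hs γ
  · intro c hc
    rw [OnePoint.isZeroAt_iff_forall_SL2Z hc]
    intro γ _
    rw [hs γ]
    exact hz

/-- Build a modular form on a finite-index subgroup from a function. -/
lemma exists_modularForm_of_subgroup (Γ₀ : Subgroup SL(2, ℤ))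
    [(Γ₀ : Subgroup (GL (Fin 2) ℝ)).IsArithmetic] (w : ℤ) (F : ℍ → ℂ)
    (hs : ∀ γ ∈ Γ₀, F ∣[w] γ = F) (hd : MDiff F)
    (hb : ∀ γ : SL(2, ℤ), IsBoundedAtImInfty (F ∣[w] γ)) :
    ∃ G : ModularForm (Γ₀ : Subgroup (GL (Fin 2) ℝ)) w, ⇑G = F := by
  refine ⟨{ toFun := F
            slash_action_eq' := ?_
            holo' := hd
            bdd_at_cusps' := ?_ }, rfl⟩
  · rintro _ ⟨γ, hγ, rfl⟩
    exact hs γ hγ
  · intro c hc
    rw [Subgroup.IsArithmetic.isCusp_iff_isCusp_SL2Z] at hc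
    rw [OnePoint.isBoundedAt_iff_forall_SL2Z hc]
    intro γ _
    exact hb γ

/-- Build a cusp form on a finite-index subgroup from a function. -/
lemma exists_cuspForm_of_subgroup (Γ₀ : Subgroup SL(2, ℤ))
    [(Γ₀ : Subgroup (GL (Fin 2) ℝ)).IsArithmetic] (w : ℤ) (F : ℍ → ℂ)
    (hs : ∀ γ ∈ Γ₀, F ∣[w] γ = F) (hd : MDiff F)
    (hz : ∀ γ : SL(2, ℤ), IsZeroAtImInfty (F ∣[w] γ)) :
    ∃ G : CuspForm (Γ₀ : Subgroup (GL (Fin 2) ℝ)) w, ⇑G = F := by
  refine ⟨{ toFun := F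
            slash_action_eq' := ?_
            holo' := hd
            zero_at_cusps' := ?_ }, rfl⟩
  · rintro _ ⟨γ, hγ, rfl⟩
    exact hs γ hγ
  · intro c hc
    rw [Subgroup.IsArithmetic.isCusp_iff_isCusp_SL2Z] at hc
    rw [OnePoint.isZeroAt_iff_forall_SL2Z hc]
    intro γ _
    exact hz γ

end Fermat.Agent.S23lib

namespace Fermat.Agent.S23lib

section conjFam

variable (Γ₀ : Subgroup SL(2, ℤ))

/-- The conjugates `F ∣[k] g⁻¹`, `g ∈ SL(2,ℤ) ⧸ Γ₀`. -/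
def conjFam (k : ℤ) (F : ℍ → ℂ) : SL(2, ℤ) ⧸ Γ₀ → ℍ → ℂ :=
  fun q => F ∣[k] (Quotient.out q)⁻¹

variable {Γ₀} {k : ℤ} {F : ℍ → ℂ}

lemma conjFam_mk (hF : ∀ γ ∈ Γ₀, F ∣[k] γ = F) (g : SL(2, ℤ)) :
    conjFam Γ₀ k F (g : SL(2, ℤ) ⧸ Γ₀) = F ∣[k] g⁻¹ := by
  obtain ⟨h, hh⟩ := QuotientGroup.mk_out_eq_mul Γ₀ g
  unfold conjFam
  rw [hh, mul_inv_rev, SlashAction.slash_mul, hF _ (inv_mem h.2)]

lemma conjFam_one (hF : ∀ γ ∈ Γ₀, F ∣[k] γ = F) :
    conjFam Γ₀ k F ((1 : SL(2, ℤ)) : SL(2, ℤ) ⧸ Γ₀) = F := by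
  rw [conjFam_mk hF]
  simp

lemma isConjFamily_conjFam (hF : ∀ γ ∈ Γ₀, F ∣[k] γ = F) (hd : MDiff F)
    (hb : ∀ γ : SL(2, ℤ), IsBoundedAtImInfty (F ∣[k] γ)) :
    IsConjFamily Γ₀ k (conjFam Γ₀ k F) where
  slash h q := by
    induction q using QuotientGroup.induction_on with
    | H g =>
      have : h⁻¹ • (g : SL(2, ℤ) ⧸ Γ₀) = ((h⁻¹ * g : SL(2, ℤ)) : SL(2, ℤ) ⧸ Γ₀) := rfl
      rw [this, conjFam_mk hF, conjFam_mk hF, ← SlashAction.slash_mul]
      congr 1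
      group
  mdiff q := hd.slash k _
  bdd q := hb _

lemma conjFam_isZeroAtImInfty (hz : ∀ γ : SL(2, ℤ), IsZeroAtImInfty (F ∣[k] γ))
    (q : SL(2, ℤ) ⧸ Γ₀) : IsZeroAtImInfty (conjFam Γ₀ k F q) := hz _

end conjFam

section vieta

variable {Γ₀ : Subgroup SL(2, ℤ)} [Fintype (SL(2, ℤ) ⧸ Γ₀)] [DecidableEq (SL(2, ℤ) ⧸ Γ₀)]

lemma esymmFun_isZeroAtImInfty {Φ : SL(2, ℤ) ⧸ Γ₀ → ℍ → ℂ}
    (hz : ∀ q, IsZeroAtImInfty (Φ q)) {j : ℕ} (hj : 0 < j) :
    IsZeroAtImInfty (esymmFun Φ j) := by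
  unfold esymmFun
  refine isZeroAtImInfty_sum _ _ fun S hS => isZeroAtImInfty_prod _ _ ?_ fun q _ => hz q
  rw [← Finset.card_pos, (Finset.mem_powersetCard.1 hS).2]
  exact hj

/-- Vieta: each member of the family is a root of the monic polynomial with coefficients
`± esymmFun`. -/
lemma vieta (Φ : SL(2, ℤ) ⧸ Γ₀ → ℍ → ℂ) (q₀ : SL(2, ℤ) ⧸ Γ₀) :
    (Φ q₀) ^ (Fintype.card (SL(2, ℤ) ⧸ Γ₀)) +
      ∑ i : Fin (Fintype.card (SL(2, ℤ) ⧸ Γ₀)),
        ((-1 : ℂ) ^ (Fintype.card (SL(2, ℤ) ⧸ Γ₀) - (i : ℕ)) •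
          esymmFun Φ (Fintype.card (SL(2, ℤ) ⧸ Γ₀) - (i : ℕ))) * (Φ q₀) ^ (i : ℕ) = 0 := by
  classical
  set n := Fintype.card (SL(2, ℤ) ⧸ Γ₀) with hn
  let s : Multiset (ℍ → ℂ) := (Finset.univ : Finset (SL(2, ℤ) ⧸ Γ₀)).val.map Φ
  have hcard : Multiset.card s = n := by simp [s, hn]
  have h1 := congrArg (Polynomial.eval (Φ q₀)) (Multiset.prod_X_sub_X_eq_sum_esymm s)
  have h0 : Polynomial.eval (Φ q₀) (s.map fun t => Polynomial.X - Polynomial.C t).prod = 0 := by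
    rw [Polynomial.eval_multiset_prod]
    apply Multiset.prod_eq_zero
    simp only [Multiset.map_map, Multiset.mem_map, Function.comp_apply, s]
    exact ⟨q₀, Finset.mem_univ_val _, by simp⟩
  rw [h0, hcard] at h1
  simp only [Polynomial.eval_finsetSum, Polynomial.eval_mul, Polynomial.eval_pow,
    Polynomial.eval_neg, Polynomial.eval_one, Polynomial.eval_C, Polynomial.eval_X] at h1
  rw [Finset.sum_range_succ', ← Finset.sum_range_reflect] at h1
  have he : ∀ j, s.esymm j = esymmFun Φ j := fun j => Finset.esymm_map_val Φ Finset.univ j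
  rw [Fin.sum_univ_eq_sum_range (fun i => ((-1 : ℂ) ^ (n - i) • esymmFun Φ (n - i)) * (Φ q₀) ^ i) n]
  rw [add_comm]
  rw [h1]
  congr 1
  · refine Finset.sum_congr rfl fun i hi => ?_
    have hi' : i < n := Finset.mem_range.1 hi
    have e1 : n - 1 - i + 1 = n - i := by omega
    have e2 : n - (n - i) = i := by omega
    rw [e1, e2, he]
    ext z
    simp [mul_assoc]
  · simp [he, esymmFun]

end vieta

end Fermat.Agent.S23lib

namespace Fermat.Agent.S23lib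

section sums

variable {Γ₀ : Subgroup SL(2, ℤ)} [Fintype (SL(2, ℤ) ⧸ Γ₀)]

lemma sum_slash_of_isConjFamily {w : ℤ} {Ψ : SL(2, ℤ) ⧸ Γ₀ → ℍ → ℂ}
    (hΨ : IsConjFamily Γ₀ w Ψ) (h : SL(2, ℤ)) : (∑ q, Ψ q) ∣[w] h = ∑ q, Ψ q := by
  rw [SlashAction.sum_slash]
  simp_rw [hΨ.slash]
  exact Equiv.sum_comp (MulAction.toPerm h⁻¹) Ψ

/-- The sum of a conjugate family is a level-one modular form. -/
lemma sum_levelOne {w : ℤ} {Ψ : SL(2, ℤ) ⧸ Γ₀ → ℍ → ℂ} (hΨ : IsConjFamily Γ₀ w Ψ) :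
    ∃ G : ModularForm 𝒮ℒ w, ⇑G = ∑ q, Ψ q :=
  exists_modularForm_levelOne w _ (sum_slash_of_isConjFamily hΨ)
    (MDifferentiable.sum fun q _ => hΨ.mdiff q)
    (isBoundedAtImInfty_sum _ _ fun q _ => hΨ.bdd q)

end sums

section det

/-- Slash of a finite product with varying weights, for `SL(2,ℤ)`. -/
lemma prod_slash_sum_weights_SL {ι : Type*} (k : ι → ℤ) (h : SL(2, ℤ)) (f : ι → ℍ → ℂ)
    (s : Finset ι) : (∏ i ∈ s, f i) ∣[∑ i ∈ s, k i] h = ∏ i ∈ s, f i ∣[k i] h := by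
  rw [SL_slash, prod_slash_sum_weights]
  simp [SL_slash]

/-- Determinant of a matrix of functions with `M a b` slash-invariant of weight `α a + β b`. -/
lemma det_slash {n : ℕ} (M : Matrix (Fin n) (Fin n) (ℍ → ℂ)) (α β : Fin n → ℤ) (h : SL(2, ℤ))
    (hM : ∀ a b, M a b ∣[α a + β b] h = M a b) :
    M.det ∣[∑ a, α a + ∑ b, β b] h = M.det := by
  rw [Matrix.det_apply, SlashAction.sum_slash]
  refine Finset.sum_congr rfl fun p _ => ?_
  have hw : ∑ a, α a + ∑ b, β b = ∑ a : Fin n, (α (p a) + β a) := by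
    rw [Finset.sum_add_distrib, Equiv.sum_comp p α]
  rw [hw]
  have h1 : (∏ a, M (p a) a) ∣[∑ a : Fin n, (α (p a) + β a)] h = ∏ a, M (p a) a := by
    rw [prod_slash_sum_weights_SL]
    exact Finset.prod_congr rfl fun a _ => hM _ _
  rcases Int.units_eq_one_or (Equiv.Perm.sign p) with hs | hs
  · rw [hs, one_smul, h1]
  · rw [hs, Units.neg_smul, one_smul, SlashAction.neg_slash, h1]

end det

end Fermat.Agent.S23lib
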