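/-
S23 library: the trace-form identity `det(P) * f = ∑ i, cramer(P, s) i * t ^ i`.
-/
import Fermat.Agent.S23_ConjFamily

set_option autoImplicit false

open UpperHalfPlane Function ModularForm Matrix
open scoped MatrixGroups ModularForm Manifold

noncomputable section

namespace Fermat.Agent.S23lib

section matrix

variable {n : Type*} [Fintype n] [DecidableEq n] {R : Type*} [CommRing R]

/-- Pure matrix identity behind the trace form argument. -/
lemma mulVec_cramer_transpose_mul (V : Matrix n n R) (v : n → R) :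
    V *ᵥ (cramer (Vᵀ * V) (Vᵀ *ᵥ v)) = (Vᵀ * V).det • v := by
  have h : V * (adjugate (Vᵀ * V)) * Vᵀ = (Vᵀ * V).det • (1 : Matrix n n R) := by
    rw [adjugate_mul_distrib, ← Matrix.mul_assoc, mul_adjugate, Matrix.mul_assoc, adjugate_mul,
      det_mul, det_transpose]
    simp only [Matrix.smul_mul, Matrix.mul_smul, Matrix.one_mul, smul_smul]
  rw [cramer_eq_adjugate_mulVec, mulVec_mulVec, mulVec_mulVec, h,
    Matrix.smul_mulVec, Matrix.one_mulVec]

end matrix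

section trace

variable {Γ₀ : Subgroup SL(2, ℤ)} [Fintype (SL(2, ℤ) ⧸ Γ₀)]

/-- The matrix of power sums `∑ q, T q ^ (a + b)`. -/
def Pmat (T : SL(2, ℤ) ⧸ Γ₀ → ℍ → ℂ) (n : ℕ) : Matrix (Fin n) (Fin n) (ℍ → ℂ) :=
  fun a b => ∑ q, T q ^ ((a : ℕ) + (b : ℕ))

/-- The vector `∑ q, Φ q * T q ^ a`. -/
def svec (T Φ : SL(2, ℤ) ⧸ Γ₀ → ℍ → ℂ) (n : ℕ) : Fin n → (ℍ → ℂ) :=
  fun a => ∑ q, Φ q * T q ^ (a : ℕ)

lemma trace_identity (T Φ : SL(2, ℤ) ⧸ Γ₀ → ℍ → ℂ) (q₀ : SL(2, ℤ) ⧸ Γ₀) :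
    (Pmat T (Fintype.card (SL(2, ℤ) ⧸ Γ₀))).det * Φ q₀ =
      ∑ i : Fin (Fintype.card (SL(2, ℤ) ⧸ Γ₀)),
        cramer (Pmat T (Fintype.card (SL(2, ℤ) ⧸ Γ₀)))
          (svec T Φ (Fintype.card (SL(2, ℤ) ⧸ Γ₀))) i * T q₀ ^ (i : ℕ) := by
  classical
  set n := Fintype.card (SL(2, ℤ) ⧸ Γ₀) with hn
  let e : (SL(2, ℤ) ⧸ Γ₀) ≃ Fin n := Fintype.equivFin _
  let V : Matrix (Fin n) (Fin n) (ℍ → ℂ) := fun a i => T (e.symm a) ^ (i : ℕ)
  let v : Fin n → (ℍ → ℂ) := fun a => Φ (e.symm a)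
  have hP : Pmat T n = Vᵀ * V := by
    refine Matrix.ext fun a b => ?_
    simp only [Pmat, Matrix.mul_apply, Matrix.transpose_apply, V]
    rw [← Equiv.sum_comp e.symm (fun q => T q ^ ((a : ℕ) + (b : ℕ)))]
    refine Finset.sum_congr rfl fun i _ => ?_
    rw [pow_add]
  have hs : svec T Φ n = Vᵀ *ᵥ v := by
    refine funext fun a => ?_
    simp only [svec, Matrix.mulVec, dotProduct, Matrix.transpose_apply, V, v]
    rw [← Equiv.sum_comp e.symm (fun q => Φ q * T q ^ (a : ℕ))]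
    refine Finset.sum_congr rfl fun i _ => ?_
    rw [mul_comm]
  have key := congrFun (mulVec_cramer_transpose_mul V v) (e q₀)
  rw [← hP, ← hs] at key
  simp only [Matrix.mulVec, dotProduct, Pi.smul_apply, smul_eq_mul, V, v,
    Equiv.symm_apply_apply] at key
  rw [← key]
  refine Finset.sum_congr rfl fun i _ => ?_
  rw [mul_comm]

lemma det_Pmat_eq (T : SL(2, ℤ) ⧸ Γ₀ → ℍ → ℂ) :
    (Pmat T (Fintype.card (SL(2, ℤ) ⧸ Γ₀))).det =
      (∏ i : Fin (Fintype.card (SL(2, ℤ) ⧸ Γ₀)), ∏ j ∈ Finset.Ioi i,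
        (T ((Fintype.equivFin (SL(2, ℤ) ⧸ Γ₀)).symm j) -
          T ((Fintype.equivFin (SL(2, ℤ) ⧸ Γ₀)).symm i))) ^ 2 := by
  classical
  set n := Fintype.card (SL(2, ℤ) ⧸ Γ₀) with hn
  let e : (SL(2, ℤ) ⧸ Γ₀) ≃ Fin n := Fintype.equivFin _
  let V : Matrix (Fin n) (Fin n) (ℍ → ℂ) := Matrix.vandermonde fun a => T (e.symm a)
  have hP : Pmat T n = Vᵀ * V := by
    refine Matrix.ext fun a b => ?_
    simp only [Pmat, Matrix.mul_apply, Matrix.transpose_apply, V, Matrix.vandermonde_apply]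
    rw [← Equiv.sum_comp e.symm (fun q => T q ^ ((a : ℕ) + (b : ℕ)))]
    refine Finset.sum_congr rfl fun i _ => ?_
    rw [pow_add]
  rw [hP, det_mul, det_transpose, Matrix.det_vandermonde, sq]

/-- If the members of the family `T` are holomorphic and pairwise distinct, `det P ≠ 0`. -/
lemma det_Pmat_ne_zero (T : SL(2, ℤ) ⧸ Γ₀ → ℍ → ℂ) (hT : ∀ q, MDiff (T q))
    (hinj : Function.Injective T) :
    (Pmat T (Fintype.card (SL(2, ℤ) ⧸ Γ₀))).det ≠ 0 := by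
  classical
  rw [det_Pmat_eq]
  refine pow_ne_zero 2 ?_
  intro h0
  rw [UpperHalfPlane.prod_eq_zero_iff] at h0
  · obtain ⟨i, -, hi⟩ := h0
    rw [UpperHalfPlane.prod_eq_zero_iff] at hi
    · obtain ⟨j, hj, hij⟩ := hi
      have := hinj (sub_eq_zero.1 hij)
      have hne : i ≠ j := (Finset.mem_Ioi.1 hj).ne
      exact hne ((Equiv.injective _ this).symm)
    · intro j _
      exact (hT _).sub (hT _)
  · intro i _
    exact MDifferentiable.prod fun j _ => (hT _).sub (hT _)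

end trace

end Fermat.Agent.S23lib
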