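/-
S23 library: the algebraic data attached to a cusp form `f` on `Γ₀(N)`:
`det(P) * f = ∑ i, cramer(P, s) i * t ^ i` and `f ^ n + ∑ i, c i * f ^ i = 0`
with `P`, `s`, `c` level-one modular forms.
-/
import Fermat.Agent.S23_TraceId
import Fermat.Agent.S23_Nice
import Fermat.Prelude.Thm_CongruenceSubgroup_one_mem_strictPeriods_Gamma0

set_option autoImplicit false

open UpperHalfPlane Function ModularForm Matrix CongruenceSubgroup
open scoped MatrixGroups ModularForm Manifold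

noncomputable section

namespace Fermat.Agent.S23lib

variable (N : ℕ) [NeZero N] {k : ℤ}

/-- A `Fintype` structure on the coset space. -/
abbrev qFintype : Fintype (SL(2, ℤ) ⧸ Gamma0 N) := Fintype.ofFinite _

variable {N}

lemma slash_eq_of_mem_Gamma0 {F : Type*} [FunLike F ℍ ℂ]
    [SlashInvariantFormClass F (Gamma0 N) k] (f : F) {γ : SL(2, ℤ)} (hγ : γ ∈ Gamma0 N) :
    (⇑f) ∣[k] γ = ⇑f :=
  SlashInvariantFormClass.slash_action_eq f _ ⟨γ, hγ, rfl⟩

lemma isNice_Gamma0 {F : Type*} [FunLike F ℍ ℂ] [ModularFormClass F (Gamma0 N) k] (f : F) :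
    IsNice (⇑f) where
  mdiff := ModularFormClass.holo f
  periodic := SlashInvariantFormClass.periodic_comp_ofComplex f
    (CongruenceSubgroup.one_mem_strictPeriods_Gamma0 N)
  bdd := ModularFormClass.bdd_at_infty f

lemma isNice_Gamma0_cusp (f : CuspForm (Gamma0 N) k) : IsNice (⇑f) where
  mdiff := CuspFormClass.holo f
  periodic := SlashInvariantFormClass.periodic_comp_ofComplex f
    (CongruenceSubgroup.one_mem_strictPeriods_Gamma0 N)
  bdd := (CuspFormClass.zero_at_infty f).boundedAtFilter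

lemma isConjFamily_of_modularForm (t : ModularForm (Gamma0 N) k) :
    IsConjFamily (Gamma0 N) k (conjFam (Gamma0 N) k t) :=
  isConjFamily_conjFam (fun _ hγ => slash_eq_of_mem_Gamma0 t hγ) (ModularFormClass.holo t)
    (fun γ => ModularFormClass.bdd_at_infty_slash t γ)

lemma isConjFamily_of_cuspForm (f : CuspForm (Gamma0 N) k) :
    IsConjFamily (Gamma0 N) k (conjFam (Gamma0 N) k f) :=
  isConjFamily_conjFam (fun _ hγ => slash_eq_of_mem_Gamma0 f hγ) (CuspFormClass.holo f)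
    (fun γ => (CuspFormClass.zero_at_infty_slash f γ).boundedAtFilter)

lemma conjFam_injective (t : ModularForm (Gamma0 N) k)
    (ht : ∀ γ : SL(2, ℤ), γ ∉ Gamma0 N → (⇑t) ∣[k] γ ≠ ⇑t) :
    Function.Injective (conjFam (Gamma0 N) k t) := by
  have hinv : ∀ γ ∈ Gamma0 N, (⇑t) ∣[k] γ = ⇑t := fun _ hγ => slash_eq_of_mem_Gamma0 t hγ
  intro q q' h
  induction q using QuotientGroup.induction_on with
  | H g =>
    induction q' using QuotientGroup.induction_on with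
    | H g' =>
      rw [conjFam_mk hinv, conjFam_mk hinv] at h
      rw [QuotientGroup.eq]
      by_contra hne
      apply ht _ hne
      have := congrArg (fun F => F ∣[k] g') h
      simp only [← SlashAction.slash_mul] at this
      rw [inv_mul_cancel, SlashAction.slash_one] at this
      exact this


/-- The algebraic data attached to a cusp form `f` and a "separating" form `t`. -/
theorem exists_data (t : ModularForm (Gamma0 N) 4)
    (ht : ∀ γ : SL(2, ℤ), γ ∉ Gamma0 N → (⇑t) ∣[(4 : ℤ)] γ ≠ ⇑t)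
    (f : CuspForm (Gamma0 N) k) :
    ∃ (n : ℕ) (P : Matrix (Fin n) (Fin n) (ℍ → ℂ)) (s : Fin n → ℍ → ℂ) (c : Fin n → ℍ → ℂ),
      (∀ a b : Fin n, ∃ G : ModularForm 𝒮ℒ (4 * (((a : ℕ) + (b : ℕ) : ℕ) : ℤ)), ⇑G = P a b) ∧
      (∀ a : Fin n, ∃ G : ModularForm 𝒮ℒ (k + 4 * ((a : ℕ) : ℤ)), ⇑G = s a) ∧
      (∀ i : Fin n, ∃ G : CuspForm 𝒮ℒ (k * ((n - (i : ℕ) : ℕ) : ℤ)), ⇑G = c i) ∧
      P.det ≠ 0 ∧
      P.det * ⇑f = ∑ i, cramer P s i * (⇑t) ^ (i : ℕ) ∧
      (⇑f) ^ n + ∑ i, c i * (⇑f) ^ (i : ℕ) = 0 := by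
  classical
  let _inst := qFintype N
  set T := conjFam (Gamma0 N) 4 t with hT
  set Φ := conjFam (Gamma0 N) k f with hΦ
  have hTf : IsConjFamily (Gamma0 N) 4 T := isConjFamily_of_modularForm t
  have hΦf : IsConjFamily (Gamma0 N) k Φ := isConjFamily_of_cuspForm f
  have hT1 : T ((1 : SL(2, ℤ)) : SL(2, ℤ) ⧸ Gamma0 N) = ⇑t :=
    conjFam_one fun _ hγ => slash_eq_of_mem_Gamma0 t hγ
  have hΦ1 : Φ ((1 : SL(2, ℤ)) : SL(2, ℤ) ⧸ Gamma0 N) = ⇑f :=
    conjFam_one fun _ hγ => slash_eq_of_mem_Gamma0 f hγ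
  have hΦz : ∀ q, IsZeroAtImInfty (Φ q) :=
    conjFam_isZeroAtImInfty fun γ => CuspFormClass.zero_at_infty_slash f γ
  set n := Fintype.card (SL(2, ℤ) ⧸ Gamma0 N) with hn
  refine ⟨n, Pmat T n, svec T Φ n,
    fun i => ((-1 : ℂ) ^ (n - (i : ℕ)) • esymmFun Φ (n - (i : ℕ))), ?_, ?_, ?_, ?_, ?_, ?_⟩
  · intro a b
    exact sum_levelOne (hTf.pow ((a : ℕ) + (b : ℕ)))
  · intro a
    exact sum_levelOne (hΦf.mul (hTf.pow (a : ℕ)))
  · intro i
    have hpos : 0 < n - (i : ℕ) := Nat.sub_pos_of_lt i.2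
    refine exists_cuspForm_levelOne _ _ (fun γ => ?_) ?_ ?_
    · rw [SL_smul_slash, esymmFun_slash hΦf]
    · exact (esymmFun_mdiff hΦf _).const_smul _
    · exact (esymmFun_isZeroAtImInfty hΦz hpos).smul _
  · exact det_Pmat_ne_zero T hTf.mdiff (conjFam_injective t ht)
  · have := trace_identity T Φ ((1 : SL(2, ℤ)) : SL(2, ℤ) ⧸ Gamma0 N)
    rw [hT1, hΦ1] at this
    exact this
  · have := vieta Φ ((1 : SL(2, ℤ)) : SL(2, ℤ) ⧸ Gamma0 N)
    rw [hΦ1] at this
    exact this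

end Fermat.Agent.S23lib
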