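/-
S23 library, piece P6 (helper16): holomorphic division from an integrality equation, and
boundedness / vanishing at `i∞` of roots of monic polynomials.
-/
import Mathlib

set_option autoImplicit false

open UpperHalfPlane Filter Topology
open scoped MatrixGroups ModularForm Manifold

namespace Fermat.Agent.S23lib

/-- Cauchy's bound: a root of a monic polynomial is bounded by `1 + ∑ ‖a j‖`. -/
theorem norm_le_of_monic_root (n : ℕ) (x : ℂ) (a : Fin n → ℂ)
    (h : x ^ n + ∑ j : Fin n, a j * x ^ (j : ℕ) = 0) : ‖x‖ ≤ 1 + ∑ j : Fin n, ‖a j‖ := by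
  have hsum_nonneg : 0 ≤ ∑ j : Fin n, ‖a j‖ := Finset.sum_nonneg fun j _ => norm_nonneg _
  by_contra hlt
  push Not at hlt
  have hx1 : 1 < ‖x‖ := by linarith
  have hx0 : 0 < ‖x‖ := by linarith
  rcases Nat.eq_zero_or_pos n with hn | hn
  · subst hn
    simp at h
  have hxn : x ^ n = -∑ j : Fin n, a j * x ^ (j : ℕ) := eq_neg_of_add_eq_zero_left h
  have h1 : ‖x‖ ^ n ≤ (∑ j : Fin n, ‖a j‖) * ‖x‖ ^ (n - 1) := by
    calc ‖x‖ ^ n = ‖x ^ n‖ := (norm_pow x n).symm
      _ = ‖∑ j : Fin n, a j * x ^ (j : ℕ)‖ := by rw [hxn, norm_neg]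
      _ ≤ ∑ j : Fin n, ‖a j * x ^ (j : ℕ)‖ := norm_sum_le _ _
      _ ≤ ∑ j : Fin n, ‖a j‖ * ‖x‖ ^ (n - 1) := by
          refine Finset.sum_le_sum fun j _ => ?_
          rw [norm_mul, norm_pow]
          refine mul_le_mul_of_nonneg_left ?_ (norm_nonneg _)
          exact pow_le_pow_right₀ hx1.le (by have := j.2; omega)
      _ = (∑ j : Fin n, ‖a j‖) * ‖x‖ ^ (n - 1) := by rw [Finset.sum_mul]
  have h2 : ‖x‖ ^ n = ‖x‖ * ‖x‖ ^ (n - 1) := by
    rw [← pow_succ']
    congr 1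
    omega
  rw [h2] at h1
  have h3 : ‖x‖ ≤ ∑ j : Fin n, ‖a j‖ := le_of_mul_le_mul_right h1 (pow_pos hx0 _)
  linarith

/-- P6b: a root of a monic polynomial with coefficients bounded at `i∞` is bounded at `i∞`. -/
theorem isBoundedAtImInfty_of_monic (n : ℕ) (g : ℍ → ℂ) (c : Fin n → ℍ → ℂ)
    (hc : ∀ j, IsBoundedAtImInfty (c j))
    (h : ∀ z : ℍ, g z ^ n + ∑ j : Fin n, c j z * g z ^ (j : ℕ) = 0) :
    IsBoundedAtImInfty g := by
  simp only [isBoundedAtImInfty_iff] at hc ⊢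
  choose M A hMA using hc
  refine ⟨1 + ∑ j : Fin n, M j, Finset.univ.sup' ?_ A, ?_⟩
  · rcases Nat.eq_zero_or_pos n with hn | hn
    · subst hn
      have := h UpperHalfPlane.I
      simp at this
    · exact ⟨⟨0, hn⟩, Finset.mem_univ _⟩
  · intro z hz
    refine (norm_le_of_monic_root n (g z) (fun j => c j z) (h z)).trans ?_
    have : ∑ j : Fin n, ‖c j z‖ ≤ ∑ j : Fin n, M j := by
      refine Finset.sum_le_sum fun j _ => hMA j z ?_
      exact (Finset.le_sup' A (Finset.mem_univ j)).trans hz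
    linarith


/-- A root of a monic polynomial whose lower coefficients are all `≤ δ` in norm, with
`n * δ < ε ^ n` and `ε ≤ 1`, has norm `≤ ε`. -/
theorem norm_le_of_monic_root_small (n : ℕ) (x : ℂ) (a : Fin n → ℂ)
    (h : x ^ n + ∑ j : Fin n, a j * x ^ (j : ℕ) = 0) {ε δ : ℝ} (hε : 0 < ε) (hε1 : ε ≤ 1)
    (hδ : ∀ j, ‖a j‖ ≤ δ) (hnδ : n * δ < ε ^ n) : ‖x‖ ≤ ε := by
  by_contra hlt
  push Not at hlt
  rcases Nat.eq_zero_or_pos n with hn | hn
  · subst hn
    simp at h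
  have hδ0 : 0 ≤ δ := (norm_nonneg _).trans (hδ ⟨0, hn⟩)
  have hxn : x ^ n = -∑ j : Fin n, a j * x ^ (j : ℕ) := eq_neg_of_add_eq_zero_left h
  -- bound `‖x‖ ^ j ≤ max 1 ‖x‖ ^ (n - 1)`
  set B : ℝ := max 1 ‖x‖ with hB
  have hB1 : 1 ≤ B := le_max_left _ _
  have hxB : ‖x‖ ≤ B := le_max_right _ _
  have h1 : ‖x‖ ^ n ≤ n * δ * B ^ (n - 1) := by
    calc ‖x‖ ^ n = ‖x ^ n‖ := (norm_pow x n).symm
      _ = ‖∑ j : Fin n, a j * x ^ (j : ℕ)‖ := by rw [hxn, norm_neg]
      _ ≤ ∑ j : Fin n, ‖a j * x ^ (j : ℕ)‖ := norm_sum_le _ _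
      _ ≤ ∑ _j : Fin n, δ * B ^ (n - 1) := by
          refine Finset.sum_le_sum fun j _ => ?_
          rw [norm_mul, norm_pow]
          refine mul_le_mul (hδ j) ?_ (by positivity) hδ0
          calc ‖x‖ ^ (j : ℕ) ≤ B ^ (j : ℕ) := pow_le_pow_left₀ (norm_nonneg _) hxB _
            _ ≤ B ^ (n - 1) := pow_le_pow_right₀ hB1 (by have := j.2; omega)
      _ = n * δ * B ^ (n - 1) := by
          rw [Finset.sum_const, Finset.card_univ, Fintype.card_fin, nsmul_eq_mul, mul_assoc]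
  rcases le_or_gt ‖x‖ 1 with hx1 | hx1
  · -- `B = 1`
    have hB' : B = 1 := max_eq_left hx1
    rw [hB', one_pow, mul_one] at h1
    have h2 : ε ^ n < ‖x‖ ^ n := pow_lt_pow_left₀ hlt hε.le hn.ne'
    linarith
  · -- `B = ‖x‖ > 1`
    have hB' : B = ‖x‖ := max_eq_right hx1.le
    rw [hB'] at h1
    have hx0 : 0 < ‖x‖ := by linarith
    have h2 : ‖x‖ ^ n = ‖x‖ * ‖x‖ ^ (n - 1) := by
      rw [← pow_succ']
      congr 1
      omega
    rw [h2] at h1
    have h3 : ‖x‖ ≤ n * δ := le_of_mul_le_mul_right h1 (pow_pos hx0 _)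
    have h4 : ε ^ n ≤ 1 := pow_le_one₀ hε.le hε1
    linarith

/-- P6c: a root of a monic polynomial with coefficients vanishing at `i∞` vanishes at `i∞`. -/
theorem isZeroAtImInfty_of_monic (n : ℕ) (g : ℍ → ℂ) (c : Fin n → ℍ → ℂ)
    (hc : ∀ j, IsZeroAtImInfty (c j))
    (h : ∀ z : ℍ, g z ^ n + ∑ j : Fin n, c j z * g z ^ (j : ℕ) = 0) :
    IsZeroAtImInfty g := by
  simp only [isZeroAtImInfty_iff] at hc ⊢
  intro ε hε
  rcases Nat.eq_zero_or_pos n with hn | hn
  · subst hn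
    have := h UpperHalfPlane.I
    simp at this
  set ε' : ℝ := min ε 1 with hε'
  have hε'0 : 0 < ε' := lt_min hε one_pos
  have hε'1 : ε' ≤ 1 := min_le_right _ _
  set δ : ℝ := ε' ^ n / (n + 1) with hδ
  have hδ0 : 0 < δ := by positivity
  have hnδ : (n : ℝ) * δ < ε' ^ n := by
    rw [hδ, ← mul_div_assoc, div_lt_iff₀ (by positivity)]
    have : 0 < ε' ^ n := by positivity
    nlinarith
  choose A hA using fun j => hc j δ hδ0
  refine ⟨Finset.univ.sup' ⟨⟨0, hn⟩, Finset.mem_univ _⟩ A, fun z hz => ?_⟩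
  have hz' : ∀ j, ‖c j z‖ ≤ δ := fun j =>
    hA j z ((Finset.le_sup' A (Finset.mem_univ j)).trans hz)
  exact (norm_le_of_monic_root_small n (g z) (fun j => c j z) (h z) hε'0 hε'1 hz' hnδ).trans
    (min_le_left _ _)


/-- Dividing the integrality equation by `d ^ n`. -/
theorem div_monic_eq (n : ℕ) (e d : ℂ) (a : Fin n → ℂ) (hd : d ≠ 0)
    (h : e ^ n + ∑ j : Fin n, a j * d ^ (n - (j : ℕ)) * e ^ (j : ℕ) = 0) :
    (e / d) ^ n + ∑ j : Fin n, a j * (e / d) ^ (j : ℕ) = 0 := by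
  have hdn : d ^ n ≠ 0 := pow_ne_zero n hd
  have key : ((e / d) ^ n + ∑ j : Fin n, a j * (e / d) ^ (j : ℕ)) * d ^ n =
      e ^ n + ∑ j : Fin n, a j * d ^ (n - (j : ℕ)) * e ^ (j : ℕ) := by
    rw [add_mul, Finset.sum_mul, div_pow, div_mul_cancel₀ _ hdn]
    congr 1
    refine Finset.sum_congr rfl fun j _ => ?_
    have hj : (j : ℕ) ≤ n := j.2.le
    have h1 : d ^ n = d ^ (n - (j : ℕ)) * d ^ (j : ℕ) := (pow_sub_mul_pow d hj).symm
    have h2 : (e / d) ^ (j : ℕ) * d ^ (j : ℕ) = e ^ (j : ℕ) := by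
      rw [div_pow, div_mul_cancel₀ _ (pow_ne_zero _ hd)]
    rw [h1]
    calc a j * (e / d) ^ (j : ℕ) * (d ^ (n - (j : ℕ)) * d ^ (j : ℕ))
        = a j * d ^ (n - (j : ℕ)) * ((e / d) ^ (j : ℕ) * d ^ (j : ℕ)) := by ring
      _ = a j * d ^ (n - (j : ℕ)) * e ^ (j : ℕ) := by rw [h2]
  rw [h] at key
  exact (mul_eq_zero.1 key).resolve_right hdn

/-- The numerator vanishes wherever the denominator does. -/
theorem num_eq_zero_of_den_eq_zero (n : ℕ) (e d : ℂ) (a : Fin n → ℂ) (hd : d = 0)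
    (h : e ^ n + ∑ j : Fin n, a j * d ^ (n - (j : ℕ)) * e ^ (j : ℕ) = 0) : e = 0 := by
  subst hd
  have h0 : ∑ j : Fin n, a j * (0 : ℂ) ^ (n - (j : ℕ)) * e ^ (j : ℕ) = 0 := by
    refine Finset.sum_eq_zero fun j _ => ?_
    have : n - (j : ℕ) ≠ 0 := by have := j.2; omega
    rw [zero_pow this, mul_zero, zero_mul]
  rw [h0, add_zero] at h
  have hn : n ≠ 0 := by
    rintro rfl
    simp at h
  exact (pow_eq_zero_iff hn).1 h

/-- P6a: holomorphic division from an integrality equation. -/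
theorem exists_mdiff_div (n : ℕ) (E D : ℍ → ℂ) (c : Fin n → ℍ → ℂ)
    (hE : MDiff E) (hD : MDiff D) (hc : ∀ j, MDiff (c j)) (hD0 : D ≠ 0)
    (h : ∀ z : ℍ, E z ^ n + ∑ j : Fin n, c j z * D z ^ (n - (j : ℕ)) * E z ^ (j : ℕ) = 0) :
    ∃ g : ℍ → ℂ, MDiff g ∧ (∀ z, g z * D z = E z) ∧
      ∀ z : ℍ, g z ^ n + ∑ j : Fin n, c j z * g z ^ (j : ℕ) = 0 := by
  classical
  -- transport everything to the open upper half plane in `ℂ`
  set U : Set ℂ := {z | 0 < z.im} with hU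
  have hUo : IsOpen U := isOpen_upperHalfPlaneSet
  have hUc : IsPreconnected U := (convex_halfSpace_im_gt 0).isPreconnected
  set E' : ℂ → ℂ := E ∘ ofComplex with hE'
  set D' : ℂ → ℂ := D ∘ ofComplex with hD'
  set c' : Fin n → ℂ → ℂ := fun j => c j ∘ ofComplex with hc'
  have hE'd : DifferentiableOn ℂ E' U := UpperHalfPlane.mdifferentiable_iff.1 hE
  have hD'd : DifferentiableOn ℂ D' U := UpperHalfPlane.mdifferentiable_iff.1 hD
  have hc'd : ∀ j, DifferentiableOn ℂ (c' j) U := fun j =>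
    UpperHalfPlane.mdifferentiable_iff.1 (hc j)
  have hcoe : ∀ z : ℍ, ofComplex (z : ℂ) = z := fun z => ofComplex_apply z
  have heq : ∀ w ∈ U, E' w ^ n + ∑ j : Fin n, c' j w * D' w ^ (n - (j : ℕ)) * E' w ^ (j : ℕ) = 0 :=
    fun w _ => h (ofComplex w)
  -- `D'` has isolated zeros in `U`
  obtain ⟨z₁, hz₁⟩ : ∃ z₁ : ℍ, D z₁ ≠ 0 := by
    by_contra hcon
    push Not at hcon
    exact hD0 (funext hcon)
  have hD'an : AnalyticOnNhd ℂ D' U := hD'd.analyticOnNhd hUo
  have hiso : ∀ w ∈ U, ∀ᶠ z in 𝓝[≠] w, D' z ≠ 0 := by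
    intro w hw
    by_contra hcon
    rw [Filter.not_eventually] at hcon
    have hfreq : ∃ᶠ z in 𝓝[≠] w, D' z = 0 := hcon.mono fun z hz => not_not.1 hz
    have hzero := hD'an.eqOn_zero_of_preconnected_of_frequently_eq_zero hUc hw hfreq
    have := hzero (show (z₁ : ℂ) ∈ U from z₁.im_pos)
    simp only [hD', Function.comp_apply, hcoe, Pi.zero_apply] at this
    exact hz₁ this
  -- the quotient and its extension
  set q : ℂ → ℂ := fun z => E' z / D' z with hq
  set G : ℂ → ℂ := fun w => limUnder (𝓝[≠] w) q with hG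
  have hqd : ∀ w ∈ U, D' w ≠ 0 → DifferentiableAt ℂ q w := fun w hw hw0 =>
    ((hE'd w hw).differentiableAt (hUo.mem_nhds hw)).div
      ((hD'd w hw).differentiableAt (hUo.mem_nhds hw)) hw0
  have hGq : ∀ w ∈ U, D' w ≠ 0 → G w = q w := by
    intro w hw hw0
    have hcont : ContinuousAt q w := (hqd w hw hw0).continuousAt
    exact (hcont.tendsto.mono_left nhdsWithin_le_nhds).limUnder_eq
  have hqroot : ∀ w ∈ U, D' w ≠ 0 → q w ^ n + ∑ j : Fin n, c' j w * q w ^ (j : ℕ) = 0 :=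
    fun w hw hw0 => div_monic_eq n (E' w) (D' w) (fun j => c' j w) hw0 (heq w hw)
  -- `G` is differentiable at every point of `U`
  have hGd : ∀ w ∈ U, DifferentiableAt ℂ G w := by
    intro w hw
    have h1 : ∀ᶠ z in 𝓝 w, z ∈ U := hUo.mem_nhds hw
    have h2 : ∀ᶠ z in 𝓝 w, z ≠ w → D' z ≠ 0 := eventually_nhdsWithin_iff.1 (hiso w hw)
    have h3 : ∀ᶠ z in 𝓝 w, ∀ j, ‖c' j z‖ ≤ ‖c' j w‖ + 1 := by
      rw [Filter.eventually_all]
      intro j
      have hcj : ContinuousAt (c' j) w :=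
        ((hc'd j w hw).differentiableAt (hUo.mem_nhds hw)).continuousAt
      have := hcj.norm.eventually (eventually_le_nhds (lt_add_one ‖c' j w‖))
      exact this
    obtain ⟨r, hr, hball⟩ := Metric.eventually_nhds_iff_ball.1 (h1.and (h2.and h3))
    set s : Set ℂ := Metric.ball w r with hs
    have hsw : s ∈ 𝓝 w := Metric.ball_mem_nhds w hr
    have hds : DifferentiableOn ℂ q (s \ {w}) := by
      intro z hz
      have hzs := hball z hz.1
      exact (hqd z hzs.1 (hzs.2.1 hz.2)).differentiableWithinAt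
    have hbd : BddAbove (norm ∘ q '' (s \ {w})) := by
      refine ⟨1 + ∑ j : Fin n, (‖c' j w‖ + 1), ?_⟩
      rintro _ ⟨z, hz, rfl⟩
      have hzs := hball z hz.1
      have hroot := hqroot z hzs.1 (hzs.2.1 hz.2)
      refine (norm_le_of_monic_root n (q z) (fun j => c' j z) hroot).trans ?_
      have : ∑ j : Fin n, ‖c' j z‖ ≤ ∑ j : Fin n, (‖c' j w‖ + 1) :=
        Finset.sum_le_sum fun j _ => hzs.2.2 j
      linarith
    have hupd := Complex.differentiableOn_update_limUnder_of_bddAbove hsw hds hbd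
    have hcongr : ∀ z ∈ s, G z = Function.update q w (limUnder (𝓝[≠] w) q) z := by
      intro z hz
      by_cases hzw : z = w
      · subst hzw
        simp [hG]
      · rw [Function.update_of_ne hzw]
        have hzs := hball z hz
        exact hGq z hzs.1 (hzs.2.1 hzw)
    exact ((hupd.congr hcongr) w (Metric.mem_ball_self hr)).differentiableAt hsw
  -- the root equation for `G` on all of `U`
  have hGroot : ∀ w ∈ U, G w ^ n + ∑ j : Fin n, c' j w * G w ^ (j : ℕ) = 0 := by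
    intro w hw
    by_cases hw0 : D' w ≠ 0
    · rw [hGq w hw hw0]
      exact hqroot w hw hw0
    · set F : ℂ → ℂ := fun z => G z ^ n + ∑ j : Fin n, c' j z * G z ^ (j : ℕ) with hF
      have hFc : ContinuousAt F w := by
        have hGc : ContinuousAt G w := (hGd w hw).continuousAt
        refine (hGc.pow n).add ?_
        refine tendsto_finsetSum _ fun j _ => ?_
        have hcj : ContinuousAt (c' j) w :=
          ((hc'd j w hw).differentiableAt (hUo.mem_nhds hw)).continuousAt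
        exact hcj.mul (hGc.pow _)
      have hF0 : ∀ᶠ z in 𝓝[≠] w, F z = 0 := by
        have h1 : ∀ᶠ z in 𝓝[≠] w, z ∈ U := nhdsWithin_le_nhds (hUo.mem_nhds hw)
        filter_upwards [h1, hiso w hw] with z hzU hz0
        simp only [hF]
        rw [hGq z hzU hz0]
        exact hqroot z hzU hz0
      have ht1 : Tendsto F (𝓝[≠] w) (𝓝 (F w)) := hFc.tendsto.mono_left nhdsWithin_le_nhds
      have ht2 : Tendsto F (𝓝[≠] w) (𝓝 0) :=
        tendsto_const_nhds.congr' (hF0.mono fun z hz => hz.symm)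
      exact tendsto_nhds_unique ht1 ht2
  -- assemble
  refine ⟨fun z => G (z : ℂ), ?_, ?_, ?_⟩
  · rw [UpperHalfPlane.mdifferentiable_iff]
    have hcongr : ∀ w ∈ U, ((fun z : ℍ => G (z : ℂ)) ∘ ofComplex) w = G w := by
      intro w hw
      simp only [Function.comp_apply]
      rw [ofComplex_apply_of_im_pos hw]
    exact (fun w hw => ((hGd w hw).differentiableWithinAt).congr hcongr (hcongr w hw))
  · intro z
    have hzU : (z : ℂ) ∈ U := z.im_pos
    have hE'z : E' (z : ℂ) = E z := by simp [hE', hcoe]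
    have hD'z : D' (z : ℂ) = D z := by simp [hD', hcoe]
    by_cases hz0 : D z = 0
    · have := num_eq_zero_of_den_eq_zero n (E z) (D z) (fun j => c j z) hz0 (h z)
      rw [this, hz0, mul_zero]
    · have hz0' : D' (z : ℂ) ≠ 0 := by rwa [hD'z]
      change G (z : ℂ) * D z = E z
      rw [hGq _ hzU hz0', hq]
      simp only [hE'z, hD'z]
      exact div_mul_cancel₀ _ hz0
  · intro z
    have hzU : (z : ℂ) ∈ U := z.im_pos
    have := hGroot (z : ℂ) hzU
    simpa [hc', hcoe] using this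

end Fermat.Agent.S23lib
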