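/-
S23 library: consequences of P3 (level-one forms are spanned by forms with bounded-denominator
rational q-expansion): conjugation by `σ ∈ Aut(ℂ)` on level-one forms, membership of
q-expansions in `Algebra.adjoin ℂ BddRat`.
-/
import Fermat.Agent.S23_LevelOne
import Fermat.Agent.S23_Nice

set_option autoImplicit false

open UpperHalfPlane Function ModularForm
open scoped MatrixGroups ModularForm Manifold

noncomputable section

namespace Fermat.Agent.S23lib

lemma map_eq_self_of_bddRat (σ : ℂ ≃+* ℂ) {φ : PowerSeries ℂ} (h : φ ∈ BddRat) :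
    PowerSeries.map (σ : ℂ →+* ℂ) φ = φ := by
  obtain ⟨M, hM, hφ⟩ := h
  ext n
  obtain ⟨m, hm⟩ := hφ n
  have hM0 : (M : ℂ) ≠ 0 := Nat.cast_ne_zero.2 hM.ne'
  have hc : PowerSeries.coeff n φ = (m : ℂ) / (M : ℂ) := by
    field_simp
    linear_combination hm
  rw [PowerSeries.coeff_map, hc]
  simp

lemma one_mem_bddRat : (1 : PowerSeries ℂ) ∈ BddRat := by
  refine ⟨1, one_pos, fun n => ?_⟩
  by_cases hn : n = 0
  · exact ⟨1, by simp [hn]⟩
  · exact ⟨0, by simp [PowerSeries.coeff_one, hn]⟩

/-- `σ`-conjugate of a level-one modular form. -/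
lemma levelOne_conj (σ : ℂ ≃+* ℂ) (k : ℤ) (G : ModularForm 𝒮ℒ k) :
    ∃ G' : ModularForm 𝒮ℒ k,
      qExpansion 1 G' = PowerSeries.map (σ : ℂ →+* ℂ) (qExpansion 1 G) := by
  have hG := levelOne_mem_span_bddRat k G
  induction hG using Submodule.span_induction with
  | mem H hH => exact ⟨H, (map_eq_self_of_bddRat σ hH).symm⟩
  | zero => exact ⟨0, by simp [qExpansion_zero]⟩
  | add G₁ G₂ _ _ h₁ h₂ =>
    obtain ⟨G₁', h₁'⟩ := h₁
    obtain ⟨G₂', h₂'⟩ := h₂
    refine ⟨G₁' + G₂', ?_⟩
    rw [FunLike.coe_add, FunLike.coe_add,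
      qExpansion_add (isNice_levelOne G₁').analyticAt (isNice_levelOne G₂').analyticAt,
      qExpansion_add (isNice_levelOne G₁).analyticAt (isNice_levelOne G₂).analyticAt,
      map_add, h₁', h₂']
  | smul c G₁ _ h₁ =>
    obtain ⟨G₁', h₁'⟩ := h₁
    refine ⟨σ c • G₁', ?_⟩
    rw [FunLike.coe_smul, FunLike.coe_smul,
      qExpansion_smul (isNice_levelOne G₁').analyticAt,
      qExpansion_smul (isNice_levelOne G₁).analyticAt, h₁']
    ext n
    simp [PowerSeries.coeff_map]

/-- q-expansions of level-one forms lie in the algebra generated by bounded-denominator series. -/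
lemma levelOne_qExp_mem (k : ℤ) (G : ModularForm 𝒮ℒ k) :
    qExpansion 1 G ∈ Algebra.adjoin ℂ BddRat := by
  have hG := levelOne_mem_span_bddRat k G
  induction hG using Submodule.span_induction with
  | mem H hH => exact Algebra.subset_adjoin hH
  | zero => simp [qExpansion_zero]
  | add G₁ G₂ _ _ h₁ h₂ =>
    rw [FunLike.coe_add,
      qExpansion_add (isNice_levelOne G₁).analyticAt (isNice_levelOne G₂).analyticAt]
    exact Subalgebra.add_mem _ h₁ h₂
  | smul c G₁ _ h₁ =>
    rw [FunLike.coe_smul, qExpansion_smul (isNice_levelOne G₁).analyticAt]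
    exact Subalgebra.smul_mem _ h₁ c

end Fermat.Agent.S23lib
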