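/-
S23 library: (A) the space of cusp forms on `Γ₀(N)` is stable under `Aut(ℂ)` acting on
q-expansion coefficients.
-/
import Fermat.Agent.S23_AlgData
import Fermat.Agent.S23_LevelOneConj
import Fermat.Agent.S23_Div
import Fermat.Agent.TForm_Main

set_option autoImplicit false

open UpperHalfPlane Function ModularForm Matrix CongruenceSubgroup
open scoped MatrixGroups ModularForm Manifold

noncomputable section

namespace Fermat.Agent.S23lib

section ringhom

variable {R S : Type*} [CommRing R] [CommRing S] {n : ℕ}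

lemma map_det_eq_of_entries (f g : R →+* S) (M M' : Matrix (Fin n) (Fin n) R)
    (h : ∀ a b, f (M' a b) = g (M a b)) : f M'.det = g M.det := by
  rw [RingHom.map_det, RingHom.map_det]
  congr 1
  ext a b
  simpa using h a b

lemma map_cramer_eq_of_entries (f g : R →+* S) (M M' : Matrix (Fin n) (Fin n) R)
    (b b' : Fin n → R) (h : ∀ a c, f (M' a c) = g (M a c)) (hb : ∀ a, f (b' a) = g (b a))
    (i : Fin n) : f (cramer M' b' i) = g (cramer M b i) := by
  rw [cramer_apply, cramer_apply]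
  refine map_det_eq_of_entries f g _ _ fun a c => ?_
  rw [updateCol_apply, updateCol_apply]
  split_ifs
  · exact hb a
  · exact h a c

end ringhom

section slash

variable {n : ℕ}

/-- Slash invariance of `cramer M b i`, where `M a c` has weight `α a + β c` and `b a` has weight
`α a + κ`. -/
lemma cramer_slash (M : Matrix (Fin n) (Fin n) (ℍ → ℂ)) (b : Fin n → ℍ → ℂ) (α β : Fin n → ℤ)
    (κ : ℤ) (h : SL(2, ℤ)) (hM : ∀ a c, M a c ∣[α a + β c] h = M a c)
    (hb : ∀ a, b a ∣[α a + κ] h = b a) (i : Fin n) :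
    cramer M b i ∣[∑ a, α a + ∑ c, β c + κ - β i] h = cramer M b i := by
  classical
  rw [cramer_apply]
  have key := det_slash (M.updateCol i b) α (Function.update β i κ) h ?_
  · have hw : ∑ a, α a + ∑ c, Function.update β i κ c = ∑ a, α a + ∑ c, β c + κ - β i := by
      rw [Finset.sum_update_of_mem (Finset.mem_univ i)]
      have := Finset.add_sum_erase Finset.univ β (Finset.mem_univ i)
      have h2 : (Finset.univ : Finset (Fin n)) \ {i} = Finset.univ.erase i := by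
        ext x; simp
      rw [h2]
      linarith
    rw [hw] at key
    exact key
  · intro a c
    rw [updateCol_apply]
    by_cases hc : c = i
    · subst hc
      simp only [if_true, Function.update_self]
      exact hb a
    · simp only [hc, if_false, Function.update_of_ne hc]
      exact hM a c

end slash

section levelOneCusp

/-- `σ`-conjugate of a level-one cusp form: a level-one form, zero at `i∞`. -/
lemma levelOne_cusp_conj (σ : ℂ ≃+* ℂ) (k : ℤ) (G : CuspForm 𝒮ℒ k) :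
    ∃ G' : ModularForm 𝒮ℒ k,
      qExpansion 1 G' = PowerSeries.map (σ : ℂ →+* ℂ) (qExpansion 1 G) ∧
        IsZeroAtImInfty (⇑G') := by
  obtain ⟨G₀, hG₀⟩ := exists_modularForm_levelOne k (⇑G)
    (fun γ => SlashInvariantFormClass.slash_action_eq G _ ⟨γ, rfl⟩) (CuspFormClass.holo G)
    (CuspFormClass.zero_at_infty G).boundedAtFilter
  obtain ⟨G', hG'⟩ := levelOne_conj σ k G₀
  rw [hG₀] at hG'
  refine ⟨G', hG', ?_⟩
  have h0 : (qExpansion 1 G').coeff 0 = 0 := by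
    rw [hG', PowerSeries.coeff_map,
      CuspFormClass.qExpansion_coeff_zero G one_pos one_mem_strictPeriods_SL, map_zero]
  have := CuspFormClass.zero_at_infty (ModularForm.toCuspForm G' h0)
  have e : (⇑(ModularForm.toCuspForm G' h0) : ℍ → ℂ) = ⇑G' :=
    funext fun z => ModularForm.toCuspForm_apply G' h0 z
  rwa [e] at this

end levelOneCusp

section transfer

variable {A B : Type*} [CommRing A] [CommRing B] {n : ℕ}

lemma integrality_mul (D E f : A) (c : Fin n → A) (hDf : D * f = E)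
    (hint : f ^ n + ∑ i : Fin n, c i * f ^ (i : ℕ) = 0) :
    E ^ n + ∑ i : Fin n, c i * D ^ (n - (i : ℕ)) * E ^ (i : ℕ) = 0 := by
  have h1 : E ^ n + ∑ i : Fin n, c i * D ^ (n - (i : ℕ)) * E ^ (i : ℕ) =
      D ^ n * (f ^ n + ∑ i : Fin n, c i * f ^ (i : ℕ)) := by
    rw [mul_add, Finset.mul_sum, ← hDf, mul_pow]
    congr 1
    refine Finset.sum_congr rfl fun i _ => ?_
    have hi : D ^ n = D ^ (n - (i : ℕ)) * D ^ (i : ℕ) := by
      rw [← pow_add, Nat.sub_add_cancel i.2.le]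
    rw [mul_pow, hi]
    ring
  rw [h1, hint, mul_zero]

lemma integrality_transfer (ψ φ : A →+* B) (hψ : Function.Injective ψ)
    (D E f D' E' : A) (c c' : Fin n → A) (hDf : D * f = E)
    (hint : f ^ n + ∑ i : Fin n, c i * f ^ (i : ℕ) = 0)
    (hD : ψ D' = φ D) (hE : ψ E' = φ E) (hc : ∀ i, ψ (c' i) = φ (c i)) :
    E' ^ n + ∑ i : Fin n, c' i * D' ^ (n - (i : ℕ)) * E' ^ (i : ℕ) = 0 := by
  apply hψ
  have h := congrArg φ (integrality_mul D E f c hDf hint)
  simp only [map_add, map_pow, map_sum, map_mul, map_zero] at h ⊢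
  simp only [hD, hE, hc]
  exact h

lemma quotient_transfer [IsDomain B] (ψ φ : A →+* B)
    (D E f D' E' g : A) (hDf : D * f = E) (hg : g * D' = E')
    (hD : ψ D' = φ D) (hE : ψ E' = φ E) (hD0 : φ D ≠ 0) : ψ g = φ f := by
  have h1 : ψ g * φ D = φ f * φ D := by
    rw [← hD, ← map_mul, hg, hE, ← hDf, map_mul, hD, mul_comm]
  exact mul_right_cancel₀ hD0 h1

end transfer

section main

variable {N : ℕ} [NeZero N] {k : ℤ}

lemma slash_levelOne {w w' : ℤ} (G : ModularForm 𝒮ℒ w) (γ : SL(2, ℤ)) (h : w = w') :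
    (⇑G) ∣[w'] γ = ⇑G := by
  subst h
  exact SlashInvariantFormClass.slash_action_eq G _ ⟨γ, rfl⟩

lemma pow_slash_of_inv {F : ℍ → ℂ} {w : ℤ} {γ : SL(2, ℤ)} (h : F ∣[w] γ = F) (m : ℕ) (w' : ℤ)
    (hw : w' = w * m) : (F ^ m) ∣[w'] γ = F ^ m := by
  subst hw
  induction m with
  | zero => simpa using is_invariant_one γ
  | succ m ih =>
    have e : w * ((m + 1 : ℕ) : ℤ) = w * (m : ℤ) + w := by push_cast; ring
    rw [e, pow_succ, mul_slash_SL2, ih, h]

/-- The slash-translate of a root of a monic polynomial with level-one coefficients is again a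
root. -/
lemma monic_slash {n : ℕ} (g : ℍ → ℂ) (c : Fin n → ℍ → ℂ) (γ : SL(2, ℤ))
    (hc : ∀ i : Fin n, c i ∣[k * ((n - (i : ℕ) : ℕ) : ℤ)] γ = c i)
    (h : ∀ z : ℍ, g z ^ n + ∑ i : Fin n, c i z * g z ^ (i : ℕ) = 0) (z : ℍ) :
    (g ∣[k] γ) z ^ n + ∑ i : Fin n, c i z * (g ∣[k] γ) z ^ (i : ℕ) = 0 := by
  have hd : denom γ z ≠ 0 := denom_ne_zero γ z
  set d := denom γ z with hdd
  have hz := h (γ • z)
  have hci : ∀ i : Fin n, c i (γ • z) = c i z * d ^ (k * ((n - (i : ℕ) : ℕ) : ℤ)) := by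
    intro i
    have := congrFun (hc i) z
    rw [SL_slash_apply] at this
    rw [← this, mul_assoc, ← zpow_add₀ hd]
    simp
  rw [SL_slash_apply]
  have hmul : (g (γ • z) * d ^ (-k)) ^ n + ∑ i : Fin n, c i z * (g (γ • z) * d ^ (-k)) ^ (i : ℕ)
      = (d ^ (-k)) ^ n * (g (γ • z) ^ n + ∑ i : Fin n, c i (γ • z) * g (γ • z) ^ (i : ℕ)) := by
    rw [mul_add, Finset.mul_sum, mul_pow, mul_comm]
    congr 1
    refine Finset.sum_congr rfl fun i _ => ?_
    rw [hci i, mul_pow]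
    have e : (d ^ (-k)) ^ n * d ^ (k * ((n - (i : ℕ) : ℕ) : ℤ)) = (d ^ (-k)) ^ (i : ℕ) := by
      rw [← zpow_natCast, ← zpow_natCast, ← _root_.zpow_mul, ← _root_.zpow_mul, ← zpow_add₀ hd]
      congr 1
      have : ((n - (i : ℕ) : ℕ) : ℤ) = (n : ℤ) - (i : ℕ) := by
        rw [Nat.cast_sub i.2.le]
      rw [this]
      ring
    rw [← e]
    ring
  rw [hmul, hz, mul_zero]

/-- evaluation at a point as a ring hom on `niceAlg`. -/
def evNice (z : ℍ) : niceAlg →+* ℂ :=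
  (Pi.evalRingHom (fun _ : ℍ => ℂ) z).comp niceAlg.val.toRingHom

@[simp] lemma evNice_apply (z : ℍ) (F : niceAlg) : evNice z F = (F : ℍ → ℂ) z := rfl

lemma coe_det_niceAlg {n : ℕ} (M : Matrix (Fin n) (Fin n) niceAlg) :
    ((M.det : niceAlg) : ℍ → ℂ) = (Matrix.of fun a b => ((M a b : niceAlg) : ℍ → ℂ)).det := by
  have := RingHom.map_det niceAlg.val.toRingHom M
  simp only [AlgHom.toRingHom_eq_coe, RingHom.coe_coe, Subalgebra.coe_val] at this
  rw [this]
  congr 1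

lemma coe_cramer_niceAlg {n : ℕ} (M : Matrix (Fin n) (Fin n) niceAlg) (b : Fin n → niceAlg)
    (i : Fin n) :
    ((cramer M b i : niceAlg) : ℍ → ℂ) =
      cramer (Matrix.of fun a c => ((M a c : niceAlg) : ℍ → ℂ)) (fun a => (b a : ℍ → ℂ)) i := by
  classical
  rw [cramer_apply, cramer_apply, coe_det_niceAlg]
  congr 1
  ext a c : 2
  simp only [Matrix.of_apply, updateCol_apply]
  split_ifs <;> rfl

theorem conj_of_data (σ : ℂ ≃+* ℂ) (f : CuspForm (Gamma0 N) k) (t : ModularForm (Gamma0 N) 4)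
    (ht : PowerSeries.map (σ : ℂ →+* ℂ) (qExpansion 1 t) = qExpansion 1 t)
    (n : ℕ) (P : Matrix (Fin n) (Fin n) (ℍ → ℂ)) (s : Fin n → ℍ → ℂ) (c : Fin n → ℍ → ℂ)
    (hP : ∀ a b : Fin n, ∃ G : ModularForm 𝒮ℒ (4 * (((a : ℕ) + (b : ℕ) : ℕ) : ℤ)), ⇑G = P a b)
    (hs : ∀ a : Fin n, ∃ G : ModularForm 𝒮ℒ (k + 4 * ((a : ℕ) : ℤ)), ⇑G = s a)
    (hc : ∀ i : Fin n, ∃ G : CuspForm 𝒮ℒ (k * ((n - (i : ℕ) : ℕ) : ℤ)), ⇑G = c i)
    (hdet : P.det ≠ 0)
    (hid : P.det * ⇑f = ∑ i, cramer P s i * (⇑t) ^ (i : ℕ))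
    (hint : (⇑f) ^ n + ∑ i, c i * (⇑f) ^ (i : ℕ) = 0) :
    ∃ g : CuspForm (Gamma0 N) k,
      qExpansion 1 g = PowerSeries.map (σ : ℂ →+* ℂ) (qExpansion 1 f) := by
  classical
  choose GP hGP using hP
  choose Gs hGs using hs
  choose Gc hGc using hc
  choose GP' hGP' using fun a b => levelOne_conj σ _ (GP a b)
  choose Gs' hGs' using fun a => levelOne_conj σ _ (Gs a)
  choose Gc' hGc' hGc'z using fun i => levelOne_cusp_conj σ _ (Gc i)
  have hcnice : ∀ i, IsNice (⇑(Gc i)) := fun i =>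
    { mdiff := CuspFormClass.holo (Gc i)
      periodic := SlashInvariantFormClass.periodic_comp_ofComplex (Gc i) one_mem_strictPeriods_SL
      bdd := (CuspFormClass.zero_at_infty (Gc i)).boundedAtFilter }
  -- lift everything to `niceAlg`
  let PN : Matrix (Fin n) (Fin n) niceAlg := fun a b => ⟨⇑(GP a b), isNice_levelOne _⟩
  let PN' : Matrix (Fin n) (Fin n) niceAlg := fun a b => ⟨⇑(GP' a b), isNice_levelOne _⟩
  let sN : Fin n → niceAlg := fun a => ⟨⇑(Gs a), isNice_levelOne _⟩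
  let sN' : Fin n → niceAlg := fun a => ⟨⇑(Gs' a), isNice_levelOne _⟩
  let cN : Fin n → niceAlg := fun i => ⟨⇑(Gc i), hcnice i⟩
  let cN' : Fin n → niceAlg := fun i => ⟨⇑(Gc' i), isNice_levelOne _⟩
  let tN : niceAlg := ⟨⇑t, isNice_Gamma0 t⟩
  let fN : niceAlg := ⟨⇑f, isNice_Gamma0_cusp f⟩
  let ψ : niceAlg →+* PowerSeries ℂ := qExpHom.toRingHom
  let φ : niceAlg →+* PowerSeries ℂ := (PowerSeries.map (σ : ℂ →+* ℂ)).comp ψ
  have hψinj : Function.Injective ψ := qExpHom_injective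
  set DN : niceAlg := PN.det with hDN
  set DN' : niceAlg := PN'.det with hDN'
  set EN : niceAlg := ∑ i, cramer PN sN i * tN ^ (i : ℕ) with hEN
  set EN' : niceAlg := ∑ i, cramer PN' sN' i * tN ^ (i : ℕ) with hEN'
  have hψP : ∀ a b, ψ (PN' a b) = φ (PN a b) := fun a b => hGP' a b
  have hψs : ∀ a, ψ (sN' a) = φ (sN a) := fun a => hGs' a
  have hψc : ∀ i, ψ (cN' i) = φ (cN i) := fun i => hGc' i
  have hψt : ψ tN = φ tN := ht.symm
  have hD : ψ DN' = φ DN := map_det_eq_of_entries ψ φ PN PN' hψP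
  have hE : ψ EN' = φ EN := by
    simp only [hEN, hEN', map_sum, map_mul, map_pow]
    refine Finset.sum_congr rfl fun i _ => ?_
    rw [map_cramer_eq_of_entries ψ φ PN PN' sN sN' hψP hψs i, hψt]
  -- identities in `niceAlg`
  have hPcoe : (Matrix.of fun a b => ((PN a b : niceAlg) : ℍ → ℂ)) = P :=
    Matrix.ext fun a b => hGP a b
  have hscoe : (fun a => ((sN a : niceAlg) : ℍ → ℂ)) = s := funext hGs
  have hDcoe : ((DN : niceAlg) : ℍ → ℂ) = P.det := by rw [hDN, coe_det_niceAlg, hPcoe]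
  have hEcoe : ((EN : niceAlg) : ℍ → ℂ) = ∑ i, cramer P s i * (⇑t) ^ (i : ℕ) := by
    rw [hEN]
    simp only [AddSubmonoidClass.coe_finsetSum, MulMemClass.coe_mul, SubmonoidClass.coe_pow,
      coe_cramer_niceAlg, hPcoe, hscoe]
    rfl
  have hDf : DN * fN = EN := by
    apply Subtype.ext
    rw [MulMemClass.coe_mul, hDcoe, hEcoe, ← hid]
  have hintN : fN ^ n + ∑ i, cN i * fN ^ (i : ℕ) = 0 := by
    apply Subtype.ext
    simp only [AddMemClass.coe_add, AddSubmonoidClass.coe_finsetSum, MulMemClass.coe_mul,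
      SubmonoidClass.coe_pow, ZeroMemClass.coe_zero]
    rw [← hint]
    congr 1
    refine Finset.sum_congr rfl fun i _ => ?_
    show ⇑(Gc i) * (⇑f) ^ (i : ℕ) = c i * (⇑f) ^ (i : ℕ)
    rw [hGc i]
  have hint' := integrality_transfer ψ φ hψinj DN EN fN DN' EN' cN cN' hDf hintN hD hE hψc
  have hDN0 : DN ≠ 0 := by
    intro h0
    apply hdet
    rw [← hDcoe, h0]
    rfl
  have hφD0 : φ DN ≠ 0 := by
    intro h0
    apply hDN0
    apply hψinj
    have hσinj : Function.Injective (PowerSeries.map (σ : ℂ →+* ℂ)) := by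
      intro x y hxy
      ext m
      have := congrArg (PowerSeries.coeff m) hxy
      simpa using this
    rw [map_zero]
    apply hσinj
    rw [map_zero]
    exact h0
  have hDN'0 : ((DN' : niceAlg) : ℍ → ℂ) ≠ 0 := by
    intro h0
    apply hφD0
    rw [← hD]
    have : DN' = 0 := Subtype.ext h0
    rw [this, map_zero]
  -- analysis: holomorphic division
  obtain ⟨g, hg_md, hgD, hg_int⟩ := exists_mdiff_div n (EN' : ℍ → ℂ) (DN' : ℍ → ℂ)
    (fun i => ⇑(Gc' i)) (mem_niceAlg.1 EN'.2).mdiff (mem_niceAlg.1 DN'.2).mdiff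
    (fun i => ModularFormClass.holo (Gc' i)) hDN'0
    (fun z => by
      have := congrArg (evNice z) hint'
      simpa [map_sum] using this)
  -- slash invariance of `D'` and `E'`
  set wD : ℤ := ∑ a : Fin n, (4 : ℤ) * ((a : ℕ) : ℤ) + ∑ b : Fin n, (4 : ℤ) * ((b : ℕ) : ℤ)
    with hwD
  have hP'inv : ∀ (γ : SL(2, ℤ)) (a b : Fin n),
      (Matrix.of fun a b => ((PN' a b : niceAlg) : ℍ → ℂ)) a b
        ∣[(4 : ℤ) * ((a : ℕ) : ℤ) + (4 : ℤ) * ((b : ℕ) : ℤ)] γ =
      (Matrix.of fun a b => ((PN' a b : niceAlg) : ℍ → ℂ)) a b := by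
    intro γ a b
    exact slash_levelOne (GP' a b) γ (by push_cast; ring)
  have hs'inv : ∀ (γ : SL(2, ℤ)) (a : Fin n),
      ((sN' a : niceAlg) : ℍ → ℂ) ∣[(4 : ℤ) * ((a : ℕ) : ℤ) + k] γ = ((sN' a : niceAlg) : ℍ → ℂ) := by
    intro γ a
    exact slash_levelOne (Gs' a) γ (by ring)
  have hD'inv : ∀ γ : SL(2, ℤ), ((DN' : niceAlg) : ℍ → ℂ) ∣[wD] γ = ((DN' : niceAlg) : ℍ → ℂ) := by
    intro γ
    rw [hDN', coe_det_niceAlg]
    exact det_slash _ _ _ γ (hP'inv γ)
  have hE'inv : ∀ γ ∈ Gamma0 N,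
      ((EN' : niceAlg) : ℍ → ℂ) ∣[wD + k] γ = ((EN' : niceAlg) : ℍ → ℂ) := by
    intro γ hγ
    have hEN'coe : ((EN' : niceAlg) : ℍ → ℂ) =
        ∑ i, cramer (Matrix.of fun a b => ((PN' a b : niceAlg) : ℍ → ℂ))
          (fun a => ((sN' a : niceAlg) : ℍ → ℂ)) i * (⇑t) ^ (i : ℕ) := by
      rw [hEN']
      simp only [AddSubmonoidClass.coe_finsetSum, MulMemClass.coe_mul, SubmonoidClass.coe_pow,
        coe_cramer_niceAlg]
      rfl
    rw [hEN'coe, SlashAction.sum_slash]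
    refine Finset.sum_congr rfl fun i _ => ?_
    have hw : wD + k = (wD + k - (4 : ℤ) * ((i : ℕ) : ℤ)) + (4 : ℤ) * ((i : ℕ) : ℤ) := by ring
    rw [hw, mul_slash_SL2]
    congr 1
    · exact cramer_slash _ _ _ _ k γ (hP'inv γ) (hs'inv γ) i
    · exact pow_slash_of_inv (slash_eq_of_mem_Gamma0 t hγ) _ _ rfl
  have hgDfun : g * ((DN' : niceAlg) : ℍ → ℂ) = ((EN' : niceAlg) : ℍ → ℂ) := funext hgD
  have hg_inv : ∀ γ ∈ Gamma0 N, g ∣[k] γ = g := by
    intro γ hγ
    have h1 : (g * ((DN' : niceAlg) : ℍ → ℂ)) ∣[k + wD] γ =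
        (g ∣[k] γ) * ((DN' : niceAlg) : ℍ → ℂ) := by
      rw [mul_slash_SL2, hD'inv γ]
    have h2 : (g ∣[k] γ - g) * ((DN' : niceAlg) : ℍ → ℂ) = 0 := by
      rw [sub_mul, ← h1, hgDfun, add_comm k wD, hE'inv γ hγ, ← hgDfun, sub_self]
    rcases (UpperHalfPlane.mul_eq_zero_iff ((hg_md.slash k _).sub hg_md)
      (mem_niceAlg.1 DN'.2).mdiff).1 h2 with h3 | h3
    · exact sub_eq_zero.1 h3
    · exact absurd h3 hDN'0
  -- vanishing at the cusps
  have hzero : ∀ γ : SL(2, ℤ), IsZeroAtImInfty (g ∣[k] γ) := by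
    intro γ
    refine isZeroAtImInfty_of_monic n (g ∣[k] γ) (fun i => ⇑(Gc' i)) hGc'z ?_
    exact monic_slash g (fun i => ⇑(Gc' i)) γ (fun i => slash_levelOne (Gc' i) γ rfl) hg_int
  obtain ⟨G, hG⟩ := exists_cuspForm_of_subgroup (Gamma0 N) k g hg_inv hg_md hzero
  refine ⟨G, ?_⟩
  have hgnice : IsNice g := hG ▸ isNice_Gamma0_cusp G
  let gN : niceAlg := ⟨g, hgnice⟩
  have hgN : gN * DN' = EN' := Subtype.ext hgDfun
  have := quotient_transfer ψ φ DN EN fN DN' EN' gN hDf hgN hD hE hφD0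
  rw [hG]
  exact this

/-- (A) The space of cusp forms on `Γ₀(N)` is stable under `Aut(ℂ)` acting on the coefficients
of q-expansions. -/
theorem exists_conj (N : ℕ) [NeZero N] (k : ℤ) (σ : ℂ ≃+* ℂ) (f : CuspForm (Gamma0 N) k) :
    ∃ g : CuspForm (Gamma0 N) k, ∀ n : ℕ,
      PowerSeries.coeff n (qExpansion 1 g) = σ (PowerSeries.coeff n (qExpansion 1 f)) := by
  obtain ⟨t, ht_int, ht_ne⟩ := Fermat.Agent.TForm.exists_tForm N
  obtain ⟨n, P, s, c, hP, hs, hc, hdet, hid, hint⟩ := exists_data t ht_ne f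
  have ht : PowerSeries.map (σ : ℂ →+* ℂ) (qExpansion 1 t) = qExpansion 1 t := by
    ext m
    obtain ⟨z, hz⟩ := ht_int m
    rw [PowerSeries.coeff_map, hz]
    simp
  obtain ⟨g, hg⟩ := conj_of_data σ f t ht n P s c hP hs hc hdet hid hint
  refine ⟨g, fun m => ?_⟩
  rw [hg, PowerSeries.coeff_map]
  rfl

end main

end Fermat.Agent.S23lib
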