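/-
S23 library, piece (F) (helper9): final assembly.

* `qCoeffLin`                     : the ℂ-linear q-expansion coefficient map on cusp forms of level `Γ₀(N)`.
* `qCoeffLin_injective`           : it is injective.
* `finiteDimensional_cuspForm`    : `CuspForm (Gamma0 N) k` is finite-dimensional (Sturm bound).
* `hasIntegralStructure_of`       : Aut(ℂ)-stability + bounded denominators ⇒ `HasIntegralStructure N k`.
-/
import Mathlib
import Fermat.Prelude.Def_CuspForm_IntegralStructure
import Fermat.Prelude.Thm_ModularForm_sturm_bound_Gamma0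
import Fermat.Agent.S23_Defs
import Fermat.Agent.S23_Descent

set_option autoImplicit false

open UpperHalfPlane ModularForm CongruenceSubgroup
open scoped MatrixGroups ModularForm Manifold

namespace Fermat.Agent.S23lib

variable (N : ℕ) [NeZero N] (k : ℤ)

omit [NeZero N] in
lemma final_one_mem_strictPeriods :
    (1 : ℝ) ∈ (Gamma0 N : Subgroup (GL (Fin 2) ℝ)).strictPeriods := by
  simp [CongruenceSubgroup.strictPeriods_Gamma0]

/-- The `ℂ`-linear map sending a cusp form to its sequence of `q`-expansion coefficients. -/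
noncomputable def qCoeffLin : CuspForm (Gamma0 N) k →ₗ[ℂ] (ℕ → ℂ) where
  toFun f n := PowerSeries.coeff n (qExpansion 1 f)
  map_add' f g := by
    funext n
    have h := ModularForm.qExpansion_add one_pos (final_one_mem_strictPeriods N) f g
    rw [FunLike.coe_add, h]
    simp
  map_smul' c f := by
    funext n
    have h := ModularForm.qExpansion_smul one_pos (final_one_mem_strictPeriods N) c f
    rw [FunLike.coe_smul, h]
    simp

@[simp] lemma qCoeffLin_apply (f : CuspForm (Gamma0 N) k) (n : ℕ) :
    qCoeffLin N k f n = PowerSeries.coeff n (qExpansion 1 f) := rfl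

/-- A cusp form on `Γ₀(N)` whose first `(k * index).toNat / 12 + 1` coefficients vanish is zero. -/
lemma cuspForm_eq_zero_of_coeff_eq_zero (f : CuspForm (Gamma0 N) k)
    (h : ∀ n : ℕ, n ≤ (k * (Gamma0 N).index).toNat / 12 →
      PowerSeries.coeff n (qExpansion 1 f) = 0) : f = 0 := by
  have key : (ModularFormClass.modularForm f : ModularForm (Gamma0 N) k) = 0 :=
    ModularForm.sturm_bound_Gamma0 N _ (fun n hn => h n hn)
  ext z
  have := congrArg (fun g : ModularForm (Gamma0 N) k => g z) key
  simpa using this

lemma qCoeffLin_injective : Function.Injective (qCoeffLin N k) := by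
  rw [← LinearMap.ker_eq_bot, LinearMap.ker_eq_bot']
  intro f hf
  refine cuspForm_eq_zero_of_coeff_eq_zero N k f fun n _ => ?_
  have := congrFun hf n
  simpa using this

/-- Cusp forms of level `Γ₀(N)` form a finite-dimensional space (Sturm bound). -/
theorem finiteDimensional_cuspForm : FiniteDimensional ℂ (CuspForm (Gamma0 N) k) := by
  set B : ℕ := (k * (Gamma0 N).index).toNat / 12 with hB
  let T : CuspForm (Gamma0 N) k →ₗ[ℂ] (Fin (B + 1) → ℂ) :=
    (LinearMap.funLeft ℂ ℂ (fun i : Fin (B + 1) => (i : ℕ))).comp (qCoeffLin N k)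
  have hT : Function.Injective T := by
    rw [← LinearMap.ker_eq_bot, LinearMap.ker_eq_bot']
    intro f hf
    refine cuspForm_eq_zero_of_coeff_eq_zero N k f fun n hn => ?_
    have := congrFun hf ⟨n, Nat.lt_succ_of_le hn⟩
    simpa [T, LinearMap.funLeft_apply] using this
  exact FiniteDimensional.of_injective T hT

/-- Final assembly of S23: if cusp forms of level `Γ₀(N)` and weight `k` are stable under
coefficientwise conjugation by `Aut(ℂ)` and rational cusp forms have bounded denominators, then
the space has an integral structure. -/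
theorem hasIntegralStructure_of
    (hconj : ∀ (σ : ℂ ≃+* ℂ) (f : CuspForm (Gamma0 N) k),
      ∃ g : CuspForm (Gamma0 N) k, ∀ n : ℕ,
        PowerSeries.coeff n (qExpansion 1 g) = σ (PowerSeries.coeff n (qExpansion 1 f)))
    (hbdd : ∀ f : CuspForm (Gamma0 N) k,
      (∀ n : ℕ, ∃ r : ℚ, PowerSeries.coeff n (qExpansion 1 f) = (r : ℂ)) →
        qExpansion 1 f ∈ BddRat) :
    CuspForm.HasIntegralStructure N k := by
  have := finiteDimensional_cuspForm N k
  have hspan := span_rational_eq_top (qCoeffLin N k) (qCoeffLin_injective N k)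
    (fun σ f => by
      obtain ⟨g, hg⟩ := hconj σ f
      exact ⟨g, fun n => by simpa using hg n⟩)
  unfold CuspForm.HasIntegralStructure
  rw [eq_top_iff, ← hspan]
  refine Submodule.span_le.mpr ?_
  intro f hf
  obtain ⟨M, hM, hMf⟩ := hbdd f (fun n => by simpa using hf n)
  have hM0 : (M : ℂ) ≠ 0 := by exact_mod_cast hM.ne'
  -- `M • f` has integral coefficients
  have hmem : (M : ℂ) • f ∈ (CuspForm.intLattice N k : Set (CuspForm (Gamma0 N) k)) := by
    refine Submodule.subset_span ?_
    intro n
    obtain ⟨m, hm⟩ := hMf n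
    refine ⟨m, ?_⟩
    show qCoeffLin N k ((M : ℂ) • f) n = (m : ℂ)
    rw [map_smul, Pi.smul_apply, smul_eq_mul, qCoeffLin_apply, hm]
  have : f = (M : ℂ)⁻¹ • ((M : ℂ) • f) := by
    rw [smul_smul, inv_mul_cancel₀ hM0, one_smul]
  rw [this]
  exact Submodule.smul_mem _ _ (Submodule.subset_span hmem)

end Fermat.Agent.S23lib
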