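import Mathlib

/-!
# Formal Hecke recursion (helper for S49)

A sequence `b : ℕ → ℂ` satisfying the formal Hecke relations
`b (n * ℓ) + [ℓ ∣ n] e ℓ * b (n / ℓ) = lam ℓ * b n` for all primes `ℓ`.
-/

set_option autoImplicit false

namespace Fermat.Agent.S49lib

/-- The formal Hecke relation with "character" `e` and eigenvalues `lam`. -/
def FormalRel (e lam b : ℕ → ℂ) : Prop :=
  ∀ ℓ : ℕ, ℓ.Prime → ∀ n : ℕ,
    b (n * ℓ) + (if ℓ ∣ n then e ℓ * b (n / ℓ) else 0) = lam ℓ * b n

theorem FormalRel.eq_zero_of_one {e lam b : ℕ → ℂ} (h : FormalRel e lam b) (h1 : b 1 = 0) :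
    ∀ n : ℕ, 1 ≤ n → b n = 0 := by
  intro n
  induction n using Nat.strong_induction_on with
  | _ n ih =>
    intro hn
    rcases Nat.eq_or_lt_of_le hn with rfl | hn1
    · exact h1
    · have hℓ : (Nat.minFac n).Prime := Nat.minFac_prime (by omega)
      obtain ⟨m, hm⟩ := Nat.minFac_dvd n
      have hℓ2 : 2 ≤ Nat.minFac n := hℓ.two_le
      have hm0 : m ≠ 0 := by
        rintro rfl
        simp at hm
        omega
      have hmlt : m < n := by
        rw [hm]
        nlinarith [Nat.pos_of_ne_zero hm0]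
      have key := h _ hℓ m
      have hbm : b m = 0 := ih m hmlt (Nat.pos_of_ne_zero hm0)
      have hsecond : (if Nat.minFac n ∣ m then e (Nat.minFac n) * b (m / Nat.minFac n) else 0)
          = 0 := by
        split_ifs with hd
        · obtain ⟨k, hk⟩ := hd
          have hk0 : k ≠ 0 := by
            rintro rfl
            simp at hk
            exact hm0 hk
          have : m / Nat.minFac n = k := by
            rw [hk]
            exact Nat.mul_div_cancel_left k hℓ.pos
          rw [this]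
          have hklt : k < n := by
            have : k ≤ m := by
              rw [hk]
              exact Nat.le_mul_of_pos_left k hℓ.pos
            omega
          rw [ih k hklt (Nat.pos_of_ne_zero hk0), mul_zero]
        · rfl
      rw [hsecond, hbm, mul_zero, add_zero] at key
      rw [hm, mul_comm]
      exact key

theorem FormalRel.lam_eq {e lam b : ℕ → ℂ} (h : FormalRel e lam b) (h1 : b 1 = 1)
    {ℓ : ℕ} (hℓ : ℓ.Prime) : lam ℓ = b ℓ := by
  have key := h ℓ hℓ 1
  have hnd : ¬ ℓ ∣ 1 := by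
    intro hd
    exact hℓ.one_lt.ne' (Nat.dvd_one.mp hd)
  rw [if_neg hnd, add_zero, one_mul, h1, mul_one] at key
  exact key.symm

theorem FormalRel.prime_pow {e lam b : ℕ → ℂ} (h : FormalRel e lam b) (h1 : b 1 = 1)
    {ℓ : ℕ} (hℓ : ℓ.Prime) (r : ℕ) :
    b (ℓ ^ (r + 2)) = b ℓ * b (ℓ ^ (r + 1)) - e ℓ * b (ℓ ^ r) := by
  have key := h ℓ hℓ (ℓ ^ (r + 1))
  have hd : ℓ ∣ ℓ ^ (r + 1) := dvd_pow_self ℓ (Nat.succ_ne_zero r)
  have hdiv : ℓ ^ (r + 1) / ℓ = ℓ ^ r := by
    rw [pow_succ]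
    exact Nat.mul_div_cancel _ hℓ.pos
  rw [if_pos hd, hdiv, h.lam_eq h1 hℓ, ← pow_succ] at key
  rw [← key]
  ring

/-- For `ℓ ∤ k`: `b (ℓ^r * k) = b (ℓ^r) * b k`. -/
theorem FormalRel.prime_pow_mul {e lam b : ℕ → ℂ} (h : FormalRel e lam b) (h1 : b 1 = 1)
    {ℓ : ℕ} (hℓ : ℓ.Prime) {k : ℕ} (hk : ¬ ℓ ∣ k) :
    ∀ r : ℕ, b (ℓ ^ r * k) = b (ℓ ^ r) * b k := by
  have hlam := h.lam_eq h1 hℓ
  have step1 : b (ℓ ^ 1 * k) = b (ℓ ^ 1) * b k := by
    have key := h ℓ hℓ k
    rw [if_neg hk, add_zero, hlam] at key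
    rw [pow_one, mul_comm ℓ k]
    exact key
  intro r
  induction r using Nat.twoStepInduction with
  | zero => simp [h1]
  | one => exact step1
  | more r ih0 ih1 =>
    have key := h ℓ hℓ (ℓ ^ (r + 1) * k)
    have hd : ℓ ∣ ℓ ^ (r + 1) * k := Dvd.dvd.mul_right (dvd_pow_self ℓ (Nat.succ_ne_zero r)) k
    have hdiv : ℓ ^ (r + 1) * k / ℓ = ℓ ^ r * k := by
      rw [pow_succ, mul_assoc, mul_comm ℓ k, ← mul_assoc]
      exact Nat.mul_div_cancel _ hℓ.pos
    rw [if_pos hd, hdiv, hlam, ih0, ih1] at key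
    have e1 : ℓ ^ (r + 2) * k = ℓ ^ (r + 1) * k * ℓ := by ring
    rw [e1, h.prime_pow h1 hℓ r]
    linear_combination key

theorem FormalRel.mul_of_coprime {e lam b : ℕ → ℂ} (h : FormalRel e lam b) (h1 : b 1 = 1) :
    ∀ m n : ℕ, m.Coprime n → b (m * n) = b m * b n := by
  intro m
  induction m using Nat.recOnPosPrimePosCoprime with
  | prime_pow p r hp hr =>
    intro n hcop
    have hpn : ¬ p ∣ n := by
      intro hd
      have : p ∣ Nat.gcd (p ^ r) n := Nat.dvd_gcd (dvd_pow_self p hr.ne') hd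
      rw [Nat.Coprime] at hcop
      rw [hcop] at this
      exact hp.one_lt.ne' (Nat.dvd_one.mp this)
    exact h.prime_pow_mul h1 hp hpn r
  | zero =>
    intro n hcop
    have : n = 1 := by simpa using hcop
    subst this
    simp [h1]
  | one =>
    intro n _
    simp [h1]
  | coprime a c _ _ hac iha ihc =>
    intro n hcop
    have hcn : c.Coprime n := Nat.Coprime.coprime_mul_left hcop
    have han : a.Coprime n := Nat.Coprime.coprime_mul_right hcop
    have hacn : a.Coprime (c * n) := Nat.Coprime.mul_right hac han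
    rw [mul_assoc, iha (c * n) hacn, ihc n hcn, iha c hac]
    ring

end Fermat.Agent.S49lib
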