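import Fermat.Statements.S49
import Fermat.Prelude.Def_CuspForm_HeckeAlgebra
import Fermat.Prelude.Def_CuspForm_IntegralStructure
import Fermat.Prelude.Thm_CuspForm_intLattice_fg
import Fermat.Prelude.Thm_CuspForm_mem_intLattice_of_coe_eq_heckeT
import Fermat.Prelude.Thm_CuspForm_mem_intLattice_of_coe_eq_heckeU
import Fermat.Prelude.Thm_ModularFormClass_qCoeff_heckeT
import Fermat.Prelude.Thm_ModularFormClass_qCoeff_heckeU
import Fermat.Prelude.Thm_CongruenceSubgroup_one_mem_strictPeriods_Gamma0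
import Fermat.Agent.S49_Formal

/-!
# Modular side of S49 (Deligne–Serre lifting lemma)
-/

set_option autoImplicit false

open CuspForm EisensteinWeightOne CongruenceSubgroup ModularFormClass UpperHalfPlane

namespace Fermat.Agent.S49lib

noncomputable section

variable {N : ℕ} {k : ℤ}

theorem one_mem_strictPeriods (N : ℕ) :
    (1 : ℝ) ∈ (Subgroup.map (Matrix.SpecialLinearGroup.mapGL ℝ) (Gamma0 N)).strictPeriods :=
  CongruenceSubgroup.one_mem_strictPeriods_Gamma0 N

/-- The `n`-th `q`-coefficient as a `ℂ`-linear functional on cusp forms. -/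
def qCoeffLin (N : ℕ) (k : ℤ) (n : ℕ) : CuspForm (Gamma0 N) k →ₗ[ℂ] ℂ where
  toFun f := qCoeff f n
  map_add' f g := by
    simp only [qCoeff, FunLike.coe_add]
    rw [ModularForm.qExpansion_add one_pos (one_mem_strictPeriods N) f g, map_add]
  map_smul' c f := by
    have h1 : ⇑(c • f) = c • ⇑f := rfl
    simp only [qCoeff, h1]
    rw [ModularForm.qExpansion_smul one_pos (one_mem_strictPeriods N) c f]
    simp

@[simp] theorem qCoeffLin_apply (n : ℕ) (f : CuspForm (Gamma0 N) k) :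
    qCoeffLin N k n f = qCoeff f n := rfl

theorem qCoeff_zero_index (f : CuspForm (Gamma0 N) k) : qCoeff f 0 = 0 := by
  simp only [qCoeff]
  exact CuspFormClass.qExpansion_coeff_zero f one_pos (one_mem_strictPeriods N)

theorem eq_zero_of_forall_qCoeff (f : CuspForm (Gamma0 N) k) (h : ∀ n, qCoeff f n = 0) :
    f = 0 := by
  have hper := SlashInvariantFormClass.periodic_comp_ofComplex f (one_mem_strictPeriods N)
  have : Fact (IsCusp OnePoint.infty
      (Subgroup.map (Matrix.SpecialLinearGroup.mapGL ℝ) (Gamma0 N))) :=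
    ⟨Subgroup.isCusp_of_mem_strictPeriods one_pos (one_mem_strictPeriods N)⟩
  have hq : qExpansion 1 f = 0 := by
    ext n
    simpa [qCoeff] using h n
  have := (UpperHalfPlane.qExpansion_eq_zero_iff one_pos hper (CuspFormClass.holo f)
    (ModularFormClass.bdd_at_infty f)).mp hq
  exact DFunLike.coe_injective (by simpa using this)

/-! ## Hecke operators indexed by primes -/

/-- The Hecke operator at the prime `ℓ` on weight-2 cusp forms of level `N`:
`T_ℓ` if `ℓ ∤ N`, `U_ℓ` if `ℓ ∣ N`. -/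
def heckeOp (N : ℕ) [NeZero N] (ℓ : {ℓ : ℕ // ℓ.Prime}) :
    Module.End ℂ (CuspForm (Gamma0 N) 2) :=
  if h : (ℓ : ℕ) ∣ N then CuspForm.heckeULin 2 h else CuspForm.heckeTLin 2 ℓ.2 h

/-- The "character" factor in the Hecke relation: `ℓ` if `ℓ ∤ N`, `0` if `ℓ ∣ N`. -/
def heckeChar (N : ℕ) (ℓ : ℕ) : ℂ := if ℓ ∣ N then 0 else (ℓ : ℂ)

theorem heckeOp_mem_heckeGenerators (N : ℕ) [NeZero N] (ℓ : {ℓ : ℕ // ℓ.Prime}) :
    heckeOp N ℓ ∈ CuspForm.heckeGenerators N 2 ∅ := by
  unfold heckeOp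
  split_ifs with h
  · exact CuspForm.heckeULin_mem_heckeGenerators ℓ.2 h (Set.notMem_empty _)
  · exact CuspForm.heckeTLin_mem_heckeGenerators ℓ.2 h (Set.notMem_empty _)

theorem heckeOp_commute (N : ℕ) [NeZero N] (ℓ ℓ' : {ℓ : ℕ // ℓ.Prime}) :
    Commute (heckeOp N ℓ) (heckeOp N ℓ') :=
  CuspForm.commute_of_mem_heckeGenerators (heckeOp_mem_heckeGenerators N ℓ)
    (heckeOp_mem_heckeGenerators N ℓ')

theorem qCoeff_heckeOp (N : ℕ) [NeZero N] (ℓ : {ℓ : ℕ // ℓ.Prime})
    (f : CuspForm (Gamma0 N) 2) (n : ℕ) :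
    qCoeff (heckeOp N ℓ f) n =
      qCoeff f (n * ℓ) + (if (ℓ : ℕ) ∣ n then heckeChar N ℓ * qCoeff f (n / ℓ) else 0) := by
  unfold heckeOp heckeChar
  split_ifs with h h' h'
  · rw [CuspForm.coe_heckeULin_apply,
      ModularFormClass.qCoeff_heckeU f (one_mem_strictPeriods N) ℓ.2.ne_zero n,
      ModularForm.coeffHeckeU_apply]
    simp
  · rw [CuspForm.coe_heckeULin_apply,
      ModularFormClass.qCoeff_heckeU f (one_mem_strictPeriods N) ℓ.2.ne_zero n,
      ModularForm.coeffHeckeU_apply]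
    simp
  · rw [CuspForm.coe_heckeTLin_apply,
      ModularFormClass.qCoeff_heckeT f (one_mem_strictPeriods N) ℓ.2.ne_zero n,
      ModularForm.coeffHeckeT_apply, if_pos h']
    norm_num
  · rw [CuspForm.coe_heckeTLin_apply,
      ModularFormClass.qCoeff_heckeT f (one_mem_strictPeriods N) ℓ.2.ne_zero n,
      ModularForm.coeffHeckeT_apply, if_neg h']

/-! ## The integral lattice -/

theorem mem_intLattice_iff' (f : CuspForm (Gamma0 N) k) :
    f ∈ CuspForm.intLattice N k ↔ ∀ n : ℕ, ∃ m : ℤ, qCoeff f n = (m : ℂ) := by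
  constructor
  · intro hf
    unfold CuspForm.intLattice at hf
    induction hf using Submodule.span_induction with
    | mem x hx => exact hx
    | zero =>
      intro n
      exact ⟨0, by simpa using (qCoeffLin N k n).map_zero⟩
    | add x y _ _ hx hy =>
      intro n
      obtain ⟨a, ha⟩ := hx n
      obtain ⟨b, hb⟩ := hy n
      refine ⟨a + b, ?_⟩
      have := (qCoeffLin N k n).map_add x y
      simp only [qCoeffLin_apply] at this
      rw [this, ha, hb]
      push_cast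
      ring
    | smul c x _ hx =>
      intro n
      obtain ⟨a, ha⟩ := hx n
      refine ⟨c * a, ?_⟩
      have := (qCoeffLin N k n).map_smul (c : ℂ) x
      simp only [qCoeffLin_apply, smul_eq_mul] at this
      rw [← Int.cast_smul_eq_zsmul ℂ c x, this, ha]
      push_cast
      ring
  · intro hf
    exact Submodule.subset_span hf

theorem heckeOp_mem_intLattice (N : ℕ) [NeZero N] (ℓ : {ℓ : ℕ // ℓ.Prime})
    {f : CuspForm (Gamma0 N) 2} (hf : f ∈ CuspForm.intLattice N 2) :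
    heckeOp N ℓ f ∈ CuspForm.intLattice N 2 := by
  unfold heckeOp
  split_ifs with h
  · exact CuspForm.mem_intLattice_of_coe_eq_heckeU ℓ.2.ne_zero
      (CuspForm.coe_heckeULin_apply 2 h f) hf
  · exact CuspForm.mem_intLattice_of_coe_eq_heckeT (by norm_num) ℓ.2.ne_zero
      (CuspForm.coe_heckeTLin_apply 2 ℓ.2 h f) hf

theorem qIntegralSet_subset_intLattice (N : ℕ) :
    CuspForm.qIntegralSet N ⊆ (CuspForm.intLattice N 2 : Set (CuspForm (Gamma0 N) 2)) := by
  intro f hf
  rw [SetLike.mem_coe, mem_intLattice_iff']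
  intro n
  obtain ⟨m, hm⟩ := Subring.mem_bot.mp (hf n)
  exact ⟨m, hm.symm⟩

theorem span_intLattice_eq_top {N : ℕ} (h : CuspForm.HasIntegralBasis N) :
    Submodule.span ℂ ((CuspForm.intLattice N 2 : Submodule ℤ (CuspForm (Gamma0 N) 2)) :
      Set (CuspForm (Gamma0 N) 2)) = ⊤ := by
  rw [eq_top_iff, ← h]
  exact Submodule.span_mono (qIntegralSet_subset_intLattice N)

theorem finiteDimensional_of_hasIntegralBasis {N : ℕ} [NeZero N]
    (h : CuspForm.HasIntegralBasis N) : FiniteDimensional ℂ (CuspForm (Gamma0 N) 2) := by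
  obtain ⟨S, hS⟩ := CuspForm.intLattice_fg N 2
  refine Module.finite_def.mpr ⟨S, ?_⟩
  rw [eq_top_iff, ← span_intLattice_eq_top h, Submodule.span_le, ← hS]
  exact Submodule.span_subset_span ℤ ℂ _

/-! ## Congruences mod 3 -/

theorem e1Chi3_map_zmod3 : PowerSeries.map (Int.castRingHom (ZMod 3)) e1Chi3 = 1 := by
  ext n
  simp only [e1Chi3, PowerSeries.coeff_map, PowerSeries.coeff_mk, PowerSeries.coeff_one]
  split_ifs with h
  · simp
  · have h6 : (6 : ZMod 3) = 0 := by decide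
    simp only [map_mul, eq_intCast, Int.cast_ofNat, h6, zero_mul]

theorem bridgeProduct_coeff_zmod3 (a : ℕ → ℤ) (n : ℕ) :
    (((bridgeProduct a).coeff n : ℤ) : ZMod 3) = (a n : ZMod 3) := by
  have h1 : PowerSeries.map (Int.castRingHom (ZMod 3)) (bridgeProduct a) =
      PowerSeries.map (Int.castRingHom (ZMod 3)) (PowerSeries.mk a) := by
    unfold bridgeProduct e1Chi3In
    rw [map_mul]
    have : PowerSeries.map (Int.castRingHom (ZMod 3))
        (PowerSeries.map (Int.castRingHom ℤ) e1Chi3) = 1 := by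
      have hid : Int.castRingHom ℤ = RingHom.id ℤ := by ext; simp
      rw [hid, PowerSeries.map_id]
      exact e1Chi3_map_zmod3
    rw [this, mul_one]
  have h2 := congrArg (PowerSeries.coeff n) h1
  simpa [PowerSeries.coeff_map] using h2

theorem natCast_eq_chiNegThree_zmod3 (ℓ : ℕ) :
    ((ℓ : ℤ) : ZMod 3) = ((chiNegThree ℓ : ℤ) : ZMod 3) := by
  have hℓ : ((ℓ : ℤ) : ZMod 3) = ((ℓ % 3 : ℕ) : ZMod 3) := by
    simp
  rw [hℓ]
  unfold chiNegThree
  have h3 : ℓ % 3 < 3 := Nat.mod_lt _ (by norm_num)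
  interval_cases h : ℓ % 3 <;> (simp; try decide)

/-- Data extracted from `IsLatticeRealized`. -/
theorem exists_form_of_isLatticeRealized {N : ℕ} {a : ℕ → ℤ}
    (hreal : CuspForm.IsLatticeRealized N a) :
    ∃ (f : CuspForm (Gamma0 N) 2) (af : ℕ → ℤ),
      (∀ n, qCoeff f n = (af n : ℂ)) ∧ ∀ n, ((af n : ℤ) : ZMod 3) = (a n : ZMod 3) := by
  obtain ⟨f, -, af, haf, hcong⟩ := hreal
  refine ⟨f, af, fun n => (haf n).symm, fun n => ?_⟩
  rw [← bridgeProduct_coeff_zmod3 a n]
  have := (ZMod.intCast_eq_intCast_iff_dvd_sub ((bridgeProduct a).coeff n) (af n) 3).mpr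
    (by simpa using hcong n)
  exact this.symm

/-- The integer version of the Hecke "character" factor. -/
def heckeCharInt (N : ℕ) (ℓ : ℕ) : ℤ := if ℓ ∣ N then 0 else (ℓ : ℤ)

theorem heckeChar_eq_intCast (N ℓ : ℕ) : heckeChar N ℓ = ((heckeCharInt N ℓ : ℤ) : ℂ) := by
  unfold heckeChar heckeCharInt
  split_ifs <;> simp

theorem hecke_congruence {N : ℕ} {a af : ℕ → ℤ}
    (heig : FormalHecke.IsEigensystem
      (fun ℓ => if ℓ ∣ N then 0 else ((chiNegThree ℓ : ℤ) : ℤ)) a)
    (haf : ∀ n, ((af n : ℤ) : ZMod 3) = (a n : ZMod 3)) {ℓ : ℕ} (hℓ : ℓ.Prime) (n : ℕ) :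
    ∃ m : ℤ, af (n * ℓ) + (if ℓ ∣ n then heckeCharInt N ℓ * af (n / ℓ) else 0) - a ℓ * af n
      = 3 * m := by
  have key := congrArg (Int.cast : ℤ → ZMod 3) (heig.2 ℓ hℓ n)
  have hz : (((af (n * ℓ) + (if ℓ ∣ n then heckeCharInt N ℓ * af (n / ℓ) else 0)
      - a ℓ * af n : ℤ)) : ZMod 3) = 0 := by
    unfold heckeCharInt
    rw [mul_comm ℓ n] at key
    by_cases hn : ℓ ∣ n
    · by_cases hN : ℓ ∣ N
      · simp only [hn, hN, if_true, zero_mul, add_zero] at key ⊢
        push_cast at key ⊢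
        rw [haf, haf, ← key]
        ring
      · simp only [hn, hN, if_true, if_false] at key ⊢
        push_cast at key ⊢
        rw [haf, haf, haf, ← key]
        have := natCast_eq_chiNegThree_zmod3 ℓ
        push_cast at this
        rw [this]
        ring
    · simp only [hn, if_false, mul_zero, add_zero] at key ⊢
      push_cast at key ⊢
      rw [haf, haf, ← key]
      ring
  obtain ⟨m, hm⟩ := (ZMod.intCast_zmod_eq_zero_iff_dvd _ 3).mp hz
  exact ⟨m, by simpa using hm⟩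

theorem qCoeff_zsmul' (c : ℤ) (f : CuspForm (Gamma0 N) k) (n : ℕ) :
    qCoeff (⇑(c • f : CuspForm (Gamma0 N) k)) n = (c : ℂ) * qCoeff f n := by
  have := (qCoeffLin N k n).map_smul (c : ℂ) f
  simp only [qCoeffLin_apply, smul_eq_mul] at this
  rw [← Int.cast_smul_eq_zsmul ℂ c f, this]

theorem qCoeff_smul' (c : ℂ) (f : CuspForm (Gamma0 N) k) (n : ℕ) :
    qCoeff (⇑(c • f : CuspForm (Gamma0 N) k)) n = c * qCoeff f n := by
  have := (qCoeffLin N k n).map_smul c f
  simpa only [qCoeffLin_apply, smul_eq_mul] using this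

theorem qCoeff_sub' (f g : CuspForm (Gamma0 N) k) (n : ℕ) :
    qCoeff (⇑(f - g : CuspForm (Gamma0 N) k)) n = qCoeff f n - qCoeff g n := by
  have := (qCoeffLin N k n).map_sub f g
  simpa only [qCoeffLin_apply] using this

/-- The realised form is not divisible by `3` in the lattice. -/
theorem not_three_smul_of_realized {N : ℕ} {a af : ℕ → ℤ} (ha1 : a 1 = 1)
    {f : CuspForm (Gamma0 N) 2} (hf : ∀ n, qCoeff f n = (af n : ℂ))
    (haf : ∀ n, ((af n : ℤ) : ZMod 3) = (a n : ZMod 3)) :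
    ∀ g ∈ CuspForm.intLattice N 2, f ≠ (3 : ℤ) • g := by
  intro g hg hfg
  obtain ⟨m, hm⟩ := (mem_intLattice_iff' g).mp hg 1
  have h1 : qCoeff f 1 = ((3 * m : ℤ) : ℂ) := by
    rw [hfg, qCoeff_zsmul', hm]
    push_cast
    ring
  rw [hf 1] at h1
  have h2 : af 1 = 3 * m := by exact_mod_cast h1
  have h3 := haf 1
  rw [h2, ha1] at h3
  have h30 : ((3 : ℤ) : ZMod 3) = 0 := by decide
  push_cast at h3
  rw [show (3 : ZMod 3) = 0 by decide, zero_mul] at h3
  exact absurd h3 (by decide)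

/-- The realised form is a Hecke eigenvector modulo `3` times the lattice. -/
theorem heckeOp_sub_mem_three_smul {N : ℕ} [NeZero N] {a af : ℕ → ℤ}
    (heig : FormalHecke.IsEigensystem
      (fun ℓ => if ℓ ∣ N then 0 else ((chiNegThree ℓ : ℤ) : ℤ)) a)
    {f : CuspForm (Gamma0 N) 2} (hf : ∀ n, qCoeff f n = (af n : ℂ))
    (haf : ∀ n, ((af n : ℤ) : ZMod 3) = (a n : ZMod 3)) (ℓ : {ℓ : ℕ // ℓ.Prime}) :
    ∃ g ∈ CuspForm.intLattice N 2, heckeOp N ℓ f - a ℓ • f = (3 : ℤ) • g := by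
  refine ⟨(3 : ℂ)⁻¹ • (heckeOp N ℓ f - a ℓ • f), ?_, ?_⟩
  · rw [mem_intLattice_iff']
    intro n
    obtain ⟨m, hm⟩ := hecke_congruence heig haf ℓ.2 n
    refine ⟨m, ?_⟩
    rw [qCoeff_smul', qCoeff_sub', qCoeff_zsmul', qCoeff_heckeOp, heckeChar_eq_intCast]
    simp only [hf]
    have hm' : ((af (n * ℓ) + (if (ℓ : ℕ) ∣ n then heckeCharInt N ℓ * af (n / ℓ) else 0)
        - a ℓ * af n : ℤ) : ℂ) = ((3 * m : ℤ) : ℂ) := by rw [hm]
    have h3 : (3 : ℂ) ≠ 0 := by norm_num
    by_cases hn : (ℓ : ℕ) ∣ n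
    · simp only [hn, if_true] at hm' ⊢
      push_cast at hm'
      rw [hm']
      field_simp
    · simp only [hn, if_false, add_zero] at hm' ⊢
      push_cast at hm'
      rw [hm']
      field_simp
  · rw [← Int.cast_smul_eq_zsmul ℂ (3 : ℤ), smul_smul]
    norm_num

/-! ## From a common eigenvector to a normalised eigenform -/

theorem FormalRel.const_mul {e lam b : ℕ → ℂ} (h : FormalRel e lam b) (c : ℂ) :
    FormalRel e lam (fun n => c * b n) := by
  intro ℓ hℓ n
  have key := h ℓ hℓ n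
  by_cases hn : ℓ ∣ n
  · simp only [hn, if_true] at key ⊢
    linear_combination c * key
  · simp only [hn, if_false, add_zero] at key ⊢
    linear_combination c * key

theorem exists_normalizedEigenform_of_eigenvector {N : ℕ} [NeZero N]
    (g : CuspForm (Gamma0 N) 2) (hg : g ≠ 0) (c : {ℓ : ℕ // ℓ.Prime} → ℂ)
    (hc : ∀ ℓ, heckeOp N ℓ g = c ℓ • g) :
    ∃ f : CuspForm (Gamma0 N) 2, f.IsNormalizedEigenform ∧
      ∀ ℓ : {ℓ : ℕ // ℓ.Prime}, qCoeff f ℓ = c ℓ := by
  classical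
  set lam : ℕ → ℂ := fun ℓ => if h : ℓ.Prime then c ⟨ℓ, h⟩ else 0 with hlam
  have hrel : FormalRel (heckeChar N) lam (fun n => qCoeff g n) := by
    intro ℓ hℓ n
    have h1 := qCoeff_heckeOp N ⟨ℓ, hℓ⟩ g n
    rw [hc ⟨ℓ, hℓ⟩, qCoeff_smul'] at h1
    simp only [hlam, hℓ, dif_pos]
    exact h1.symm
  have hb1 : qCoeff g 1 ≠ 0 := by
    intro h1
    apply hg
    apply eq_zero_of_forall_qCoeff
    intro n
    rcases Nat.eq_zero_or_pos n with rfl | hn
    · exact qCoeff_zero_index g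
    · exact hrel.eq_zero_of_one h1 n hn
  set f : CuspForm (Gamma0 N) 2 := (qCoeff g 1)⁻¹ • g with hf
  have hfq : ∀ n, qCoeff f n = (qCoeff g 1)⁻¹ * qCoeff g n := fun n => qCoeff_smul' _ g n
  have hrel' : FormalRel (heckeChar N) lam (fun n => qCoeff f n) := by
    have := hrel.const_mul (qCoeff g 1)⁻¹
    simpa only [hfq] using this
  have hf1 : qCoeff f 1 = 1 := by
    rw [hfq, inv_mul_cancel₀ hb1]
  refine ⟨f, ⟨hf1, hrel'.mul_of_coprime hf1, ?_, ?_⟩, ?_⟩
  · intro p r hp hpN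
    have := hrel'.prime_pow hf1 hp r
    simp only [heckeChar, hpN, if_false] at this
    exact this
  · intro p r hp hpN
    have := hrel'.prime_pow hf1 hp r
    simp only [heckeChar, hpN, if_true, zero_mul, sub_zero] at this
    exact this
  · intro ℓ
    have := hrel'.lam_eq hf1 ℓ.2
    simp only [hlam, ℓ.2, dif_pos] at this
    exact this.symm

end

end Fermat.Agent.S49lib
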