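-- Statement S18 (row 17): a point of J₀(N) killed by some m prime to ℓ whose reduction mod ℓ
-- vanishes is zero.  Proof: Fermat/Agent/S18lib (normalisation, abstract crux on the constant
-- reduction at an auxiliary level, transfer down) + Fermat/Agent/GM (genus inequality (G_M)).
import Fermat.Statements.S18
import Fermat.Agent.S18lib.Final
import Fermat.Agent.GM.Main
import Fermat.Agent.GM.RedMain
import Fermat.Agent.GM.HredM

set_option autoImplicit false
open ModularCurve

namespace Fermat.Agent.S18

theorem result (N : ℕ) [NeZero N] {ℓ : ℕ}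
    [Fact ℓ.Prime] (hℓN : ¬ ℓ ∣ N) (A : ValuationSubring (AlgebraicClosure ℚ)) (hA : A.LiesOverPrime ℓ)
    (h : ModularCurve.ReductionInputsModL A N) (m : ℕ) (hm : ¬ ℓ ∣ m) (z : ModularCurve.JZero N)
    (hmz : m • z = 0) (hz : ModularCurve.reductionModL A N z = 0) :
    z = 0 := by
  haveI : IsAlgClosed (IsLocalRing.ResidueField A) :=
    Fermat.Agent.GoodRed.isAlgClosed_residueField A
  exact Fermat.Agent.S18lib.s18_of_inputs N hℓN A hA
    (fun M _ hℓM => Fermat.Agent.GM.hred_modL_of_fiberData M A
      (Fermat.Agent.GM.exists_fiberData_modL' M hℓM A hA))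
    (fun M _ hAux => Fermat.Agent.GM.genusFF_le_modL_of_fiberData M hAux
      (Fermat.Agent.GM.exists_fiberData_modL' (Fermat.Agent.GM.baseLevel ℓ)
        (Fermat.Agent.GM.not_dvd_baseLevel hAux) A hA)
      (Fermat.Agent.GM.exists_fiberData_modL' M hAux.1 A hA))
    h m hm z hmz hz

end Fermat.Agent.S18
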