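-- Statement S37 (row 36): the Eichler–Shimura congruence relation in the packaged form
-- `SpecializationExists`.  Proof: Fermat/Agent/S37lib (assembly, bounded homomorphisms, Frobenius
-- on `Pic⁰`, Galois compatibility of the reduction map, Eichler–Shimura on `Pic⁰`), with the good
-- reduction of `X₀(N)` at every `ℓ ∤ N` (Fermat/Agent/GoodRed, GM) and the statement S18.
import Fermat.Statements.S37
import Fermat.Agent.S37lib.Wiring
import Fermat.Agent.S18
import Fermat.Agent.GoodRed.GoodRedFinal

set_option autoImplicit false
open ModularCurve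

namespace Fermat.Agent.S37

theorem result (N p : ℕ) [NeZero N] (hcomm : ModularCurve.HeckeOperatorsCommuteBar N) : letI := ModularCurve.heckeModuleBar N; ∀ (_ : SMulCommClass (AlgebraicClosure ℚ ≃ₐ[ℚ] AlgebraicClosure ℚ) ModularCurve.HeckeAlg (ModularCurve.JZero N)), ModularCurve.SpecializationExists (K := ℚ) (L := AlgebraicClosure ℚ) N p (ModularCurve.JZero N) :=
  Fermat.Agent.S37lib.specializationExists_of_goodRed_S18 N p
    (Fermat.Agent.GoodRed.goodRedStatement N) (Fermat.Agent.S18.result N) hcomm

end Fermat.Agent.S37
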