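import Mathlib.NumberTheory.FLT.Four
import Mathlib.NumberTheory.FLT.Three
import Fermat.Prelude.Def_FLTPrelim_FreyPackage

set_option autoImplicit false

namespace Fermat.Agent.S01lib

/-- Wiring of the root statement: Fermat's Last Theorem follows from
(S02) "a counterexample for a prime `p ≥ 5` yields a Frey package" and
(S03) "there is no Frey package", together with the cases `n = 3` and `n = 4` from Mathlib. -/
theorem flt_of_frey
    (h2 : ∀ (a b c : ℤ), a ≠ 0 → b ≠ 0 → c ≠ 0 → ∀ p : ℕ, p.Prime → 5 ≤ p →
      a ^ p + b ^ p = c ^ p → Nonempty FreyPackage)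
    (h3 : FreyPackage → False)
    (n : ℕ) (hn : 3 ≤ n) (a b c : ℕ) (ha : 0 < a) (hb : 0 < b) (hc : 0 < c) :
    a ^ n + b ^ n ≠ c ^ n := by
  have key : FermatLastTheorem := by
    apply FermatLastTheorem.of_odd_primes
    intro p pp hodd
    by_cases h3p : p = 3
    · subst h3p
      exact fermatLastTheoremThree
    · have hp5 : 5 ≤ p := by
        have h2p : 2 ≤ p := pp.two_le
        have hne2 : p ≠ 2 := by
          rintro rfl
          exact absurd hodd (by decide)
        have hne4 : p ≠ 4 := by
          rintro rfl
          exact absurd pp (by decide)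
        omega
      rw [fermatLastTheoremFor_iff_int]
      intro x y z hx hy hz H
      obtain ⟨P⟩ := h2 x y z hx hy hz p pp hp5 H
      exact h3 P
  exact key n hn a b c ha.ne' hb.ne' hc.ne'

end Fermat.Agent.S01lib
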