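import Fermat.Statements.S02

set_option autoImplicit false
open FreyPackage

namespace Fermat.Agent.S02

/-- Coprime case, with `b` even and `a` odd. -/
theorem frey_of_coprime_b_even {a b c : ℤ} (ha : a ≠ 0) (hb : b ≠ 0) (hc : c ≠ 0)
    (hab : gcd a b = 1) (p : ℕ) (pp : p.Prime) (hp5 : 5 ≤ p) (H : a ^ p + b ^ p = c ^ p)
    (hb2 : (b : ZMod 2) = 0) : Nonempty FreyPackage := by
  have p_odd : Odd p := pp.odd_of_ne_two (by omega)
  -- a is odd
  have hb2' : (2 : ℤ) ∣ b := (ZMod.intCast_zmod_eq_zero_iff_dvd b 2).1 hb2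
  have ha_odd : ¬ (2 : ℤ) ∣ a := by
    intro h2a
    have h2 : (2 : ℤ) ∣ gcd a b := dvd_gcd h2a hb2'
    rw [hab] at h2
    exact absurd h2 (by decide)
  have ha4 : a % 4 = 1 ∨ a % 4 = 3 := by
    have : a % 2 = 1 := by omega
    omega
  rcases ha4 with h1 | h3
  · -- use (-a, -b, -c)
    refine ⟨⟨-a, -b, -c, neg_ne_zero.2 ha, neg_ne_zero.2 hb, neg_ne_zero.2 hc, p, pp, hp5, ?_, ?_, ?_, ?_⟩⟩
    · rw [p_odd.neg_pow, p_odd.neg_pow, p_odd.neg_pow, ← H]; ring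
    · rw [gcd_neg, neg_gcd]; exact hab
    · have : ((-a : ℤ) : ZMod 4) = ((3 : ℤ) : ZMod 4) := by
        rw [ZMod.intCast_eq_intCast_iff_dvd_sub]
        push_cast
        omega
      simpa using this
    · have : (2 : ℤ) ∣ -b := (dvd_neg).2 hb2'
      exact_mod_cast (ZMod.intCast_zmod_eq_zero_iff_dvd (-b) 2).2 this
  · refine ⟨⟨a, b, c, ha, hb, hc, p, pp, hp5, H, hab, ?_, hb2⟩⟩
    have : ((a : ℤ) : ZMod 4) = ((3 : ℤ) : ZMod 4) := by
      rw [ZMod.intCast_eq_intCast_iff_dvd_sub]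
      push_cast
      omega
    simpa using this

/-- Coprime case. -/
theorem frey_of_coprime {a b c : ℤ} (ha : a ≠ 0) (hb : b ≠ 0) (hc : c ≠ 0)
    (hab : gcd a b = 1) (p : ℕ) (pp : p.Prime) (hp5 : 5 ≤ p) (H : a ^ p + b ^ p = c ^ p) :
    Nonempty FreyPackage := by
  have p_odd : Odd p := pp.odd_of_ne_two (by omega)
  have hp0 : 0 < p := by omega
  by_cases hb2 : (2 : ℤ) ∣ b
  · exact frey_of_coprime_b_even ha hb hc hab p pp hp5 H
      ((ZMod.intCast_zmod_eq_zero_iff_dvd b 2).2 hb2)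
  by_cases ha2 : (2 : ℤ) ∣ a
  · refine frey_of_coprime_b_even hb ha hc ?_ p pp hp5 (by rw [add_comm]; exact H)
      ((ZMod.intCast_zmod_eq_zero_iff_dvd a 2).2 ha2)
    rw [gcd_comm]; exact hab
  · -- both odd, so c is even
    have hc2 : (2 : ℤ) ∣ c := by
      have h1 : ¬ (2 : ℤ) ∣ a ^ p := fun h => ha2 (Int.prime_two.dvd_of_dvd_pow h)
      have h2 : ¬ (2 : ℤ) ∣ b ^ p := fun h => hb2 (Int.prime_two.dvd_of_dvd_pow h)
      have h3 : (2 : ℤ) ∣ c ^ p := by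
        rw [← H]; omega
      exact Int.prime_two.dvd_of_dvd_pow h3
    -- a^p + (-c)^p = (-b)^p
    refine frey_of_coprime_b_even (a := a) (b := -c) (c := -b) ha (neg_ne_zero.2 hc)
      (neg_ne_zero.2 hb) ?_ p pp hp5 ?_ ?_
    · rw [gcd_neg, ← gcdab_eq_gcdac hp0 H]; exact hab
    · rw [p_odd.neg_pow, p_odd.neg_pow, ← H]; ring
    · have : (2 : ℤ) ∣ -c := (dvd_neg).2 hc2
      exact_mod_cast (ZMod.intCast_zmod_eq_zero_iff_dvd (-c) 2).2 this

theorem result (a b c : ℤ) (ha : a ≠ 0) (hb : b ≠ 0) (hc : c ≠ 0) (p : ℕ) (pp : p.Prime) (hp5 : 5 ≤ p) (H : a ^ p + b ^ p = c ^ p) : Nonempty FreyPackage := by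
  have hp0 : 0 < p := by omega
  -- divide by gcd
  obtain ⟨a', ha'⟩ : ((Int.gcd a b : ℤ)) ∣ a := Int.gcd_dvd_left a b
  obtain ⟨b', hb'⟩ : ((Int.gcd a b : ℤ)) ∣ b := Int.gcd_dvd_right a b
  have hd0 : (Int.gcd a b : ℤ) ≠ 0 := by
    intro h
    rw [h, zero_mul] at ha'
    exact ha ha'
  have hdc : (Int.gcd a b : ℤ) ∣ c := by
    rw [← Int.pow_dvd_pow_iff hp0.ne', ← H]
    exact dvd_add (pow_dvd_pow_of_dvd (Int.gcd_dvd_left a b) p)
      (pow_dvd_pow_of_dvd (Int.gcd_dvd_right a b) p)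
  obtain ⟨c', hc'⟩ := hdc
  have ha'0 : a' ≠ 0 := by rintro rfl; exact ha (by rw [ha', mul_zero])
  have hb'0 : b' ≠ 0 := by rintro rfl; exact hb (by rw [hb', mul_zero])
  have hc'0 : c' ≠ 0 := by rintro rfl; exact hc (by rw [hc', mul_zero])
  have H' : a' ^ p + b' ^ p = c' ^ p := by
    have hdp : ((Int.gcd a b : ℤ)) ^ p ≠ 0 := pow_ne_zero p hd0
    apply mul_left_cancel₀ hdp
    rw [mul_add, ← mul_pow, ← mul_pow, ← mul_pow, ← ha', ← hb', ← hc']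
    exact H
  have hgcd : gcd a' b' = 1 := by
    have hpos : 0 < Int.gcd a b := Int.gcd_pos_of_ne_zero_left b ha
    have h1 : Int.gcd a b * Int.gcd a' b' = Int.gcd a b * 1 := by
      have h0 : Int.gcd ((Int.gcd a b : ℤ) * a') ((Int.gcd a b : ℤ) * b')
          = Int.gcd a b * Int.gcd a' b' := by
        rw [Int.gcd_mul_left]; simp
      rw [← h0, ← ha', ← hb', mul_one]
    have h2 : Int.gcd a' b' = 1 := Nat.eq_of_mul_eq_mul_left hpos h1
    change ((Int.gcd a' b' : ℕ) : ℤ) = 1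
    rw [h2]; rfl
  exact frey_of_coprime ha'0 hb'0 hc'0 hgcd p pp hp5 H'

end Fermat.Agent.S02
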