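import Mathlib
import Fermat.Prelude.Thm_ModularForm_sturm_bound_Gamma0

set_option autoImplicit false

namespace Fermat.Agent.S07lib

open UpperHalfPlane ModularForm CongruenceSubgroup
open scoped MatrixGroups

/-- The first column of a matrix in `SL(2, ℤ)` reduced mod `2`. -/
def firstColModTwo (g : SL(2, ℤ)) : ZMod 2 × ZMod 2 :=
  (((g 0 0 : ℤ) : ZMod 2), ((g 1 0 : ℤ) : ZMod 2))

lemma firstColModTwo_eq_imp (g h : SL(2, ℤ)) (hgh : firstColModTwo g = firstColModTwo h) :
    g⁻¹ * h ∈ Gamma0 2 := by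
  rw [Gamma0_mem]
  simp only [firstColModTwo, Prod.mk.injEq] at hgh
  obtain ⟨h0, h1⟩ := hgh
  rw [Matrix.SpecialLinearGroup.coe_mul, Matrix.SpecialLinearGroup.coe_inv,
    Matrix.adjugate_fin_two, Matrix.mul_apply]
  simp only [Fin.sum_univ_two, Matrix.of_apply, Matrix.cons_val_zero, Matrix.cons_val_one,
    Matrix.cons_val', Matrix.cons_val_fin_one]
  push_cast
  rw [← h0, ← h1]
  ring

lemma Gamma0_two_index_le : (Gamma0 2).index ≤ 4 := by
  classical
  have hinj : Function.Injective
      (fun q : SL(2, ℤ) ⧸ Gamma0 2 => firstColModTwo q.out) := by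
    intro q q' hqq'
    have := firstColModTwo_eq_imp _ _ hqq'
    rw [← QuotientGroup.eq] at this
    simpa using this
  have h := Nat.card_le_card_of_injective _ hinj
  have h4 : Nat.card (ZMod 2 × ZMod 2) = 4 := by
    simp
  rw [h4] at h
  exact h

lemma Gamma0_one_index : (Gamma0 1).index = 1 := by
  rw [Subgroup.index_eq_one]
  ext g
  simp [Gamma0_mem, Subsingleton.elim (_ : ZMod 1) 0]

/-- A weight-2 cusp form on `Γ₀(N)` vanishes as soon as the index of `Γ₀(N)` is at most `5`. -/
theorem cuspForm_weight_two_eq_zero_of_index_le (N : ℕ) [NeZero N]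
    (hN : (Gamma0 N).index ≤ 5) (f : CuspForm (Gamma0 N) 2) : f = 0 := by
  have h1 : (1 : ℝ) ∈ (Gamma0 N : Subgroup (GL (Fin 2) ℝ)).strictPeriods := by
    simp [CongruenceSubgroup.strictPeriods_Gamma0]
  have key : (ModularFormClass.modularForm f : ModularForm (Gamma0 N) 2) = 0 := by
    refine ModularForm.sturm_bound_Gamma0 N _ (fun n hn => ?_)
    have hn0 : n = 0 := by
      have : ((2 : ℤ) * ((Gamma0 N).index : ℤ)).toNat / 12 = 0 := by
        apply Nat.div_eq_of_lt
        omega
      omega
    subst hn0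
    exact CuspFormClass.qExpansion_coeff_zero f one_pos h1
  ext z
  have := congrArg (fun g : ModularForm (Gamma0 N) 2 => g z) key
  simpa using this

end Fermat.Agent.S07lib
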