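import Fermat.Agent.S05_Frey

/-!
# S05 wiring: assembly
-/

set_option autoImplicit false
set_option linter.unusedSectionVars false

namespace Fermat.Agent.S05wire

open WeierstrassCurve WeierstrassCurve.Affine Fermat.Agent.S05lib

section Data

variable {K : Type*} [Field K] [DecidableEq K] [Algebra ℚ K] [IsAlgClosed K]

theorem fixed_of_data (E : WeierstrassCurve ℚ) (h₁ : E.a₁ = 1) (h₃ : E.a₃ = 0) (h₆ : E.a₆ = 0)
    (e : ℚ) (he : e ^ 3 + (E.a₂ + 1 / 4) * e ^ 2 + E.a₄ * e = 0)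
    (A : ValuationSubring K) {q : ℕ} (hq : q.Prime) (hA : (q : K) ∈ A.nonunits) (hq2 : q ≠ 2)
    {p : ℕ} (hp : p.Prime) (hqp : q ≠ p)
    (σ : K ≃ₐ[ℚ] K) (hσ : σ ∈ A.inertiaSubgroupIn ℚ)
    (n₂ n₄ : ℤ) (hn₂ : (shapeOf E e).a₂ * 4 = (n₂ : ℚ)) (hn₄ : (shapeOf E e).a₄ * 16 = (n₄ : ℚ))
    (hred : (¬ (q : ℤ) ∣ n₄ ∧ ¬ (q : ℤ) ∣ (n₂ ^ 2 - 4 * n₄)) ∨
      (¬ (q : ℤ) ∣ n₂ ∧ (q : ℤ) ∣ n₄ ∧ n₄ ≠ 0 ∧ ∃ w : ℤ, w ^ p = n₄ ^ 2))
    (x : (E.toAffine⁄K).Point) (hx : p • x = 0) :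
    Point.map (W' := E.toAffine) σ.toAlgHom x = x := by
  classical
  set S := shapeOf E e with hS
  have hqi := Nat.prime_iff_prime_int.mp hq
  -- valuations of small integers
  have hq2' : ¬ (q : ℤ) ∣ 2 := by
    intro h
    have h' : q ∣ 2 := by exact_mod_cast h
    exact hq2 ((Nat.prime_dvd_prime_iff_eq hq Nat.prime_two).mp h')
  have hq4 : ¬ (q : ℤ) ∣ 4 := by
    intro h
    have h4 : (4 : ℤ) = 2 ^ 2 := by norm_num
    rw [h4] at h
    exact hq2' (hqi.dvd_of_dvd_pow h)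
  have hq16 : ¬ (q : ℤ) ∣ 16 := by
    intro h
    have h16 : (16 : ℤ) = 2 ^ 4 := by norm_num
    rw [h16] at h
    exact hq2' (hqi.dvd_of_dvd_pow h)
  have hqp' : ¬ (q : ℤ) ∣ (p : ℤ) := by
    intro h
    have h' : q ∣ p := by exact_mod_cast h
    exact hqp ((Nat.prime_dvd_prime_iff_eq hq hp).mp h')
  have v2 : A.valuation (2 : K) = 1 := by
    have := val_intCast_eq_one A hq hA hq2'
    simpa using this
  have v4 : A.valuation ((4 : ℤ) : K) = 1 := val_intCast_eq_one A hq hA hq4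
  have v16 : A.valuation ((16 : ℤ) : K) = 1 := val_intCast_eq_one A hq hA hq16
  have vp : A.valuation (p : K) = 1 := by
    have := val_intCast_eq_one A hq hA hqp'
    simpa using this
  -- the shape curve over K
  have hsh : IsShear (S.baseChange K) (E.baseChange K)
      (algebraMap ℚ K (-e)) (algebraMap ℚ K (1 / 2)) (algebraMap ℚ K 0) :=
    (isShear_shapeOf E e h₁ h₃ h₆ he).baseChange K
  have hW : Shape (S.baseChange K) := shape_shapeOf_baseChange K E e
  have ha₂ : (S.baseChange K).a₂ = algebraMap ℚ K S.a₂ := rfl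
  have ha₄ : (S.baseChange K).a₄ = algebraMap ℚ K S.a₄ := rfl
  have key₂ : (S.baseChange K).a₂ * ((4 : ℤ) : K) = ((n₂ : ℤ) : K) := by
    rw [ha₂]
    have := congrArg (algebraMap ℚ K) hn₂
    rw [map_mul, map_intCast, map_ofNat] at this
    rw [← this]; push_cast; rfl
  have key₄ : (S.baseChange K).a₄ * ((16 : ℤ) : K) = ((n₄ : ℤ) : K) := by
    rw [ha₄]
    have := congrArg (algebraMap ℚ K) hn₄
    rw [map_mul, map_intCast, map_ofNat] at this
    rw [← this]; push_cast; rfl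
  have val₂ : A.valuation (S.baseChange K).a₂ = A.valuation ((n₂ : ℤ) : K) :=
    val_eq_of_mul_eq A v4 key₂
  have val₄ : A.valuation (S.baseChange K).a₄ = A.valuation ((n₄ : ℤ) : K) :=
    val_eq_of_mul_eq A v16 key₄
  have hB : A.valuation (S.baseChange K).a₂ ≤ 1 := val₂ ▸ val_intCast_le_one A n₂
  have hC : A.valuation (S.baseChange K).a₄ ≤ 1 := val₄ ▸ val_intCast_le_one A n₄
  have hσI : IsInertial A.valuation ((σ : K ≃ₐ[ℚ] K) : K →+* K) :=
    isInertial_of_mem_inertiaSubgroupIn A hσ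
  have hσB : ((σ : K ≃ₐ[ℚ] K) : K →+* K) (S.baseChange K).a₂ = (S.baseChange K).a₂ := by
    rw [ha₂]; exact σ.commutes _
  have hσC : ((σ : K ≃ₐ[ℚ] K) : K →+* K) (S.baseChange K).a₄ = (S.baseChange K).a₄ := by
    rw [ha₄]; exact σ.commutes _
  have hred' : (A.valuation (S.baseChange K).a₄ = 1 ∧
        A.valuation ((S.baseChange K).a₂ ^ 2 - 4 * (S.baseChange K).a₄) = 1) ∨
      (A.valuation (S.baseChange K).a₂ = 1 ∧ A.valuation (S.baseChange K).a₄ < 1 ∧
        (S.baseChange K).a₄ ≠ 0 ∧ ∃ ϖ : K, ((σ : K ≃ₐ[ℚ] K) : K →+* K) ϖ = ϖ ∧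
          A.valuation ϖ ^ p = A.valuation (S.baseChange K).a₄ ^ 2) := by
    rcases hred with ⟨g4, gd⟩ | ⟨m2, m4, m40, w, hw⟩
    · left
      refine ⟨val₄.trans (val_intCast_eq_one A hq hA g4), ?_⟩
      have keyd : ((S.baseChange K).a₂ ^ 2 - 4 * (S.baseChange K).a₄) * ((16 : ℤ) : K) =
          ((n₂ ^ 2 - 4 * n₄ : ℤ) : K) := by
        push_cast
        push_cast at key₂ key₄
        linear_combination ((S.baseChange K).a₂ * 4 + (n₂ : K)) * key₂ - 4 * key₄
      rw [val_eq_of_mul_eq A v16 keyd]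
      exact val_intCast_eq_one A hq hA gd
    · right
      refine ⟨val₂.trans (val_intCast_eq_one A hq hA m2),
        val₄ ▸ val_intCast_lt_one A hA m4, ?_, ((w : ℤ) : K), ?_, ?_⟩
      · intro h0
        rw [h0, zero_mul] at key₄
        have h00 : (n₄ : K) = 0 := key₄.symm
        have hcz : CharZero K := algebraRat.charZero K
        exact m40 (Int.cast_eq_zero.mp h00)
      · exact map_intCast _ w
      · rw [val₄, ← map_pow, ← map_pow]
        congr 1
        exact_mod_cast congrArg (Int.cast : ℤ → K) hw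
  -- the point maps
  let Φ := shearMap hsh
  have hΦx : p • Φ x = 0 := by rw [← map_nsmul, hx, map_zero]
  have hφ : ∀ (x y : K) (h : (S.baseChange K).toAffine.Nonsingular x y),
      ∃ h' : (S.baseChange K).toAffine.Nonsingular (((σ : K ≃ₐ[ℚ] K) : K →+* K) x)
        (((σ : K ≃ₐ[ℚ] K) : K →+* K) y),
        Point.map (W' := S.toAffine) σ.toAlgHom (Point.some x y h) =
          Point.some (((σ : K ≃ₐ[ℚ] K) : K →+* K) x) (((σ : K ≃ₐ[ℚ] K) : K →+* K) y) h' := by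
    intro x y h
    exact ⟨_, Point.map_some (W' := S.toAffine) σ.toAlgHom h⟩
  have hfix := unramified_of_shape A.valuation hW hB hC v2 hp vp
    ((σ : K ≃ₐ[ℚ] K) : K →+* K) hσI hσB hσC (Point.map (W' := S.toAffine) σ.toAlgHom) hφ hred'
    (Φ x) hΦx
  have hequiv := shearMap_equivariant E S (-e) (1 / 2) 0 hsh σ x
  apply shearMap_injective hsh
  rw [hequiv]
  exact hfix

end Data

end Fermat.Agent.S05wire
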