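import Fermat.Statements.S05
import Fermat.Agent.S05_Assemble

set_option autoImplicit false
open WeierstrassCurve WeierstrassCurve.Affine WeierstrassCurve.Affine.Point
open CuspForm ModularFormClass UpperHalfPlane
open FreyPackage

namespace Fermat.Agent.S05

open Fermat.Agent.S05wire in
/-- An inertia element at an odd prime `q ≠ p` fixes every `p`-torsion point of the Frey curve. -/
theorem frey_fixed (P : FreyPackage) {q : ℕ} (hq : q.Prime) (hq2 : q ≠ 2) (hqp : q ≠ P.p)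
    (A : ValuationSubring (AlgebraicClosure ℚ)) (hA : A.LiesOverPrime q)
    (σ : AlgebraicClosure ℚ ≃ₐ[ℚ] AlgebraicClosure ℚ) (hσ : σ ∈ A.inertiaSubgroupIn ℚ)
    (x : (P.freyCurve.toAffine⁄(AlgebraicClosure ℚ)).Point) (hx : P.p • x = 0) :
    Point.map (W' := P.freyCurve.toAffine) σ.toAlgHom x = x := by
  have hqi := Nat.prime_iff_prime_int.mp hq
  have hFLT : ((P.a : ℚ)) ^ P.p + (P.b : ℚ) ^ P.p = (P.c : ℚ) ^ P.p := by
    exact_mod_cast congrArg (Int.cast : ℤ → ℚ) P.hFLT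
  have ha₂ : P.freyCurve.a₂ = ((P.b : ℚ) ^ P.p - 1 - (P.a : ℚ) ^ P.p) / 4 := rfl
  have ha₄ : P.freyCurve.a₄ = -((P.a : ℚ) ^ P.p) * ((P.b : ℚ) ^ P.p) / 16 := rfl
  by_cases hc : (q : ℤ) ∣ P.c
  · -- `q ∣ c`: translate the 2-torsion point `(a^p/4, *)` to the origin
    refine fixed_of_data P.freyCurve rfl rfl rfl ((P.a : ℚ) ^ P.p / 4) ?_ A hq hA hq2 P.pp hqp
      σ hσ (P.a ^ P.p + P.c ^ P.p) (P.a ^ P.p * P.c ^ P.p) ?_ ?_ ?_ x hx
    · rw [ha₂, ha₄]; ring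
    · simp only [shapeOf, ha₂]
      push_cast
      linear_combination hFLT
    · simp only [shapeOf, ha₂, ha₄]
      push_cast
      linear_combination ((P.a : ℚ) ^ P.p) * hFLT
    · right
      refine ⟨frey_mult_c_n2 P hq hc, dvd_mul_of_dvd_right (dvd_pow hc P.hp0) _,
        mul_ne_zero (pow_ne_zero _ P.ha0) (pow_ne_zero _ P.hc0), (P.a * P.c) ^ 2, ?_⟩
      ring
  · have hcp : ¬ (q : ℤ) ∣ P.c ^ P.p := frey_not_dvd_pow hq _ hc
    have hn₂ : (shapeOf P.freyCurve 0).a₂ * 4 = ((P.b ^ P.p - P.a ^ P.p : ℤ) : ℚ) := by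
      simp only [shapeOf, ha₂]
      push_cast
      ring
    have hn₄ : (shapeOf P.freyCurve 0).a₄ * 16 = ((-(P.a ^ P.p * P.b ^ P.p) : ℤ) : ℚ) := by
      simp only [shapeOf, ha₄]
      push_cast
      ring
    refine fixed_of_data P.freyCurve rfl rfl rfl 0 (by ring) A hq hA hq2 P.pp hqp
      σ hσ (P.b ^ P.p - P.a ^ P.p) (-(P.a ^ P.p * P.b ^ P.p)) hn₂ hn₄ ?_ x hx
    by_cases hab : (q : ℤ) ∣ P.a * P.b
    · right
      refine ⟨frey_mult_ab_n2 P hq hab, ?_, ?_, (P.a * P.b) ^ 2, ?_⟩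
      · rw [dvd_neg]
        rcases hqi.dvd_or_dvd hab with h | h
        · exact dvd_mul_of_dvd_left (dvd_pow h P.hp0) _
        · exact dvd_mul_of_dvd_right (dvd_pow h P.hp0) _
      · exact neg_ne_zero.mpr (mul_ne_zero (pow_ne_zero _ P.ha0) (pow_ne_zero _ P.hb0))
      · ring
    · left
      refine ⟨frey_good_n4 P hq hab, ?_⟩
      have h1 : (P.b ^ P.p - P.a ^ P.p) ^ 2 - 4 * -(P.a ^ P.p * P.b ^ P.p) = (P.c ^ P.p) ^ 2 := by
        rw [← P.hFLT]; ring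
      rw [h1]
      exact frey_not_dvd_pow hq _ hcp

theorem result (P : FreyPackage) {q : ℕ} (hq : q.Prime) (hq2 : q ≠ 2) (hqp : q ≠ P.p) : P.GaloisRepUnramifiedAt q := by
  intro A hA σ hσ x
  apply Subtype.ext
  have hx : P.p • x.1 = 0 := by
    have h := x.2
    rw [Submodule.mem_torsionBy_iff] at h
    rw [← h, natCast_zsmul]
  exact frey_fixed P hq hq2 hqp A hA σ hσ x.1 hx

end Fermat.Agent.S05
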