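import Fermat.Agent.S05_CompA

/-!
# S05 helper library: component computation, case (b): `v x ≤ v C`
See NOTES/triage/S05_comp_plan.md.  Use `comp_rel` for the relations (R1)–(R4).
-/

set_option autoImplicit false
set_option linter.unusedSectionVars false
set_option linter.unusedVariables false

namespace Fermat.Agent.S05lib

variable {K : Type*} [Field K]
  {Γ₀ : Type*} [LinearOrderedCommGroupWithZero Γ₀] (v : Valuation K Γ₀)
  {B C β x y x₀ y₀ x₃ y₃ ℓ n : K}

/-- Case (b), subcase `x = 0`. -/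
theorem compB_zero (H : CompHyp v B C β x₀ y₀) (D : ChordData B C 0 y x₀ y₀ x₃ y₃ ℓ n) :
    v x₃ * v x₀ = v C ∧ v (y₃ / x₃ + β) < 1 := by
  obtain ⟨hx₀0, hvβ, hvt₀, hv2t₀, hCx₀, et₀⟩ := H.basic v
  have hy : y = 0 := by
    have h := D.e
    have : y ^ 2 = 0 := by rw [h]; ring
    exact pow_eq_zero_iff (by norm_num) |>.mp this
  have hn : n = 0 := by
    have h := D.l₁
    rw [hy] at h
    linear_combination -h
  have hxx : x₀ * x₃ = C := by
    have h := D.v₂
    rw [hn] at h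
    linear_combination h
  have hx₃0 : x₃ ≠ 0 := by
    rintro rfl
    rw [mul_zero] at hxx
    exact H.hC0 hxx.symm
  refine ⟨by rw [← map_mul, mul_comm, hxx], ?_⟩
  have hℓ : ℓ = y₀ / x₀ := by
    have h := D.l₂
    rw [hn, add_zero] at h
    rw [h]; field_simp
  have ht₃ : y₃ / x₃ = -(y₀ / x₀) := by
    have h := D.l₃
    rw [hn, add_zero, hℓ] at h
    rw [div_eq_iff hx₃0]
    linear_combination -h
  have : y₃ / x₃ + β = -(y₀ / x₀ - β) := by rw [ht₃]; ring
  rw [this, Valuation.map_neg]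
  exact H.hs₀

/-- Case (b), subcase `x ≠ 0`. -/
theorem compB_ne_zero (H : CompHyp v B C β x₀ y₀) (D : ChordData B C x y x₀ y₀ x₃ y₃ ℓ n)
    (hx0 : x ≠ 0) (hx : v x ≤ v C) : v x₃ * v x₀ = v C ∧ v (y₃ / x₃ + β) < 1 := by
  obtain ⟨hx₀0, hvβ, hvt₀, hv2t₀, hCx₀, et₀⟩ := H.basic v
  have hvx₀pos : 0 < v x₀ := lt_of_le_of_lt zero_le H.hx₀
  have hvxpos : 0 < v x := lt_of_le_of_ne zero_le (Ne.symm ((v.ne_zero_iff).mpr hx0))
  have hvCpos : 0 < v C := lt_of_lt_of_le hvxpos hx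
  obtain ⟨R1, R2, R3, R4, R4'⟩ := comp_rel hx0 hx₀0 D.e D.e₀ D.l₁ D.l₂ D.l₃ D.v₁ D.v₂ D.v₃
  have et : (y / x) ^ 2 = x + B + C / x := by
    field_simp
    linear_combination D.e
  have hkey : (y / x - y₀ / x₀) * (y / x + y₀ / x₀) = (x - x₀) * (1 - C / (x * x₀)) := by
    have h1 : (y / x - y₀ / x₀) * (y / x + y₀ / x₀) = (y / x) ^ 2 - (y₀ / x₀) ^ 2 := by ring
    rw [h1, et, et₀]
    field_simp
    ring
  have hxx₀ : v x < v x₀ := lt_of_le_of_lt hx H.hx₀
  have hvsub : v (x - x₀) = v x₀ := v.map_sub_eq_of_lt_right hxx₀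
  -- g := v (C / (x x₀)) > 1
  have hg : v (C / (x * x₀)) * (v x * v x₀) = v C := by
    rw [← map_mul, ← map_mul]
    congr 1
    field_simp
  have hg1 : 1 < v (C / (x * x₀)) := by
    by_contra hcon
    rw [not_lt] at hcon
    have h1 : v C ≤ v x * v x₀ := by
      rw [← hg]
      exact mul_le_of_le_one_left' hcon
    have h2 : v x * v x₀ < v x * 1 := by
      exact mul_lt_mul_of_pos_left H.hx₀1 hvxpos
    rw [mul_one] at h2
    exact absurd (lt_of_le_of_lt h1 h2) (not_lt.mpr hx)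
  have hu : v (1 - C / (x * x₀)) = v (C / (x * x₀)) :=
    v.map_sub_eq_of_lt_right (by rw [map_one]; exact hg1)
  -- product of the two factors
  have hprod : v (y / x - y₀ / x₀) * v (y / x + y₀ / x₀) * v x = v C := by
    rw [← map_mul, hkey, map_mul, hvsub, hu, ← hg]
    simp only [mul_comm, mul_left_comm]
  have hprod1 : 1 ≤ v (y / x - y₀ / x₀) * v (y / x + y₀ / x₀) := by
    by_contra hcon
    rw [not_le] at hcon
    have : v (y / x - y₀ / x₀) * v (y / x + y₀ / x₀) * v x < 1 * v x :=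
      mul_lt_mul_of_pos_right hcon hvxpos
    rw [hprod, one_mul] at this
    exact absurd this (not_lt.mpr hx)
  obtain ⟨hss, hs1⟩ := compA_pm v hv2t₀ hprod1
  rw [← hss] at hprod
  set s := v (y / x - y₀ / x₀) with hs
  have hspos : 0 < s := lt_of_lt_of_le zero_lt_one hs1
  have ht_ne : y / x - y₀ / x₀ ≠ 0 := (v.ne_zero_iff).mp hspos.ne'
  -- valuation of δ
  have hδ : v (-n / (x * x₀)) * v x₀ = s := by
    rw [← hvsub, ← map_mul, R3]
  have hδpos : 0 < v (-n / (x * x₀)) := by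
    rcases eq_or_lt_of_le (zero_le (a := v (-n / (x * x₀)))) with h | h
    · rw [← h, zero_mul] at hδ; exact absurd hδ hspos.ne
    · exact h
  have hδ0 : -n / (x * x₀) ≠ 0 := (v.ne_zero_iff).mp hδpos.ne'
  have hvx₃ : v x₃ * v x₀ = v C := by
    rw [R1, map_mul, map_mul, map_pow, ← hprod, ← hδ, pow_two]
    simp only [mul_comm, mul_left_comm]
  refine ⟨hvx₃, ?_⟩
  have hx₃0 : x₃ ≠ 0 := by
    rintro rfl
    rw [map_zero, zero_mul] at hvx₃
    exact hvCpos.ne hvx₃
  have ht₃ := R4' hx₃0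
  -- v (1/δ) < 1
  have hinv : v (1 / (-n / (x * x₀))) < 1 := by
    rw [map_div₀, map_one, div_lt_one₀ hδpos]
    by_contra hcon
    rw [not_lt] at hcon
    have h1 : v (-n / (x * x₀)) * v x₀ ≤ 1 * v x₀ := by gcongr
    rw [hδ, one_mul] at h1
    exact absurd (lt_of_le_of_lt h1 H.hx₀1) (not_lt.mpr hs1)
  -- v (x δ) < 1
  have hxδ : v (x * (-n / (x * x₀))) < 1 := by
    by_contra hcon
    rw [not_lt] at hcon
    -- v(xδ) · v x₀ = v x · s ≤ v x · s · s = v C < v x₀
    have h1 : v (x * (-n / (x * x₀))) * v x₀ = v x * s := by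
      rw [map_mul, mul_assoc, hδ]
    have h2 : v x * s ≤ v C := by
      rw [← hprod]
      calc v x * s = v x * s * 1 := (mul_one _).symm
        _ ≤ v x * s * s := by gcongr
        _ = s * s * v x := by simp only [mul_comm, mul_left_comm]
    have h3 : 1 * v x₀ ≤ v (x * (-n / (x * x₀))) * v x₀ := by gcongr
    rw [one_mul, h1] at h3
    exact absurd (lt_of_le_of_lt (h3.trans h2) H.hx₀) (lt_irrefl _)
  have : y₃ / x₃ + β =
      (1 / (-n / (x * x₀)) - x * (-n / (x * x₀))) - (y₀ / x₀ - β) := by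
    rw [ht₃]; ring
  rw [this]
  exact v.map_sub_lt (v.map_sub_lt hinv hxδ) H.hs₀

/-- Case (b): `v x ≤ v C` (including `x = 0`): the sum has type `-` with `v x₃ · v x₀ = v C`. -/
theorem comp_case_b (H : CompHyp v B C β x₀ y₀) (D : ChordData B C x y x₀ y₀ x₃ y₃ ℓ n)
    (hx : v x ≤ v C) : v x₃ * v x₀ = v C ∧ v (y₃ / x₃ + β) < 1 := by
  by_cases hx0 : x = 0
  · subst hx0
    exact compB_zero v H D
  · exact compB_ne_zero v H D hx0 hx

end Fermat.Agent.S05lib
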