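import Fermat.Agent.S05_CompDefs

/-!
# S05 helper library: component computation, case (c): type `+`
See NOTES/triage/S05_comp_plan.md.  Use `comp_rel` for the relations (R1)–(R4).
-/

set_option autoImplicit false
set_option linter.unusedSectionVars false
set_option linter.unusedVariables false

namespace Fermat.Agent.S05lib

variable {K : Type*} [Field K]
  {Γ₀ : Type*} [LinearOrderedCommGroupWithZero Γ₀] (v : Valuation K Γ₀)
  {B C β x y x₀ y₀ x₃ y₃ ℓ n : K}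

/-- Case (c): `Q` of type `+` (`v C < v x < 1`, `y/x ≡ β`). -/
theorem comp_case_c (H : CompHyp v B C β x₀ y₀) (D : ChordData B C x y x₀ y₀ x₃ y₃ ℓ n)
    (hx : v C < v x) (hx1 : v x < 1) (hs : v (y / x - β) < 1) :
    (v C < v x * v x₀ → v x₃ = v x * v x₀ ∧ v (y₃ / x₃ - β) < 1) ∧
    (v x * v x₀ < v C → v x₃ * (v x * v x₀) = v C ^ 2 ∧ v (y₃ / x₃ + β) < 1) ∧
    (v x * v x₀ = v C → v x₃ ≤ v C) := by
  have hx0 : x ≠ 0 := by
    rintro rfl; rw [map_zero] at hx; exact not_lt_zero hx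
  have hx₀0 : x₀ ≠ 0 := by
    rintro rfl
    have := H.hx₀
    rw [map_zero] at this; exact not_lt_zero this
  have hvx0 : v x ≠ 0 := (v.ne_zero_iff).mpr hx0
  have hvx₀0 : v x₀ ≠ 0 := (v.ne_zero_iff).mpr hx₀0
  have hvC0 : v C ≠ 0 := (v.ne_zero_iff).mpr H.hC0
  have hprod0 : v x * v x₀ ≠ 0 := mul_ne_zero hvx0 hvx₀0
  have hvβ : v β = 1 := by
    have : v β ^ 2 = 1 := by rw [← map_pow, H.hβ, H.hB]
    exact (pow_eq_one_iff_of_nonneg zero_le (by norm_num)).mp this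
  have h2β : v (2 * β) = 1 := by rw [map_mul, H.h2, hvβ, one_mul]
  obtain ⟨R1, R2, R3, R4, R4'⟩ := comp_rel hx0 hx₀0 D.e D.e₀ D.l₁ D.l₂ D.l₃ D.v₁ D.v₂ D.v₃
  set δ := -n / (x * x₀) with hδ
  -- `t + t₀` is a unit
  have htt : v (y / x + y₀ / x₀) = 1 := by
    have e : y / x + y₀ / x₀ = ((y / x - β) + (y₀ / x₀ - β)) + 2 * β := by ring
    rw [e, v.map_add_eq_of_lt_right (by rw [h2β]; exact v.map_add_lt hs H.hs₀), h2β]
  have hvδ : v δ = v (1 - C / (x * x₀)) := by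
    rw [← R2, map_mul, htt, mul_one]
  have hvq : v (C / (x * x₀)) = v C / (v x * v x₀) := by
    rw [map_div₀, map_mul]
  have hvx₃ : v x₃ = v x * v x₀ * v δ ^ 2 := by
    rw [R1, map_mul, map_mul, map_pow]
  refine ⟨?_, ?_, ?_⟩
  · intro hlt
    have hq : v (C / (x * x₀)) < 1 := by
      rw [hvq, div_lt_one₀ (zero_lt_iff.mpr hprod0)]; exact hlt
    have hδ1 : v δ = 1 := by rw [hvδ]; exact v.map_one_sub_of_lt hq
    have hδne : δ ≠ 0 := (v.ne_zero_iff).mp (by rw [hδ1]; exact one_ne_zero)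
    have hx₃0 : x₃ ≠ 0 := by
      rw [R1]; exact mul_ne_zero (mul_ne_zero hx0 hx₀0) (pow_ne_zero 2 hδne)
    refine ⟨by rw [hvx₃, hδ1, one_pow, mul_one], ?_⟩
    have e : y₃ / x₃ - β = (C / (x * x₀)) / δ + (y₀ / x₀ - β) - x₀ * δ := by
      rw [R4 hx₃0]
      have : 1 / δ = (y / x + y₀ / x₀) + (C / (x * x₀)) / δ := by
        field_simp
        have := R2
        field_simp at this
        linear_combination -this
      rw [this]; ring
    rw [e]
    refine v.map_sub_lt (v.map_add_lt ?_ H.hs₀) ?_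
    · rw [map_div₀, hδ1, div_one]; exact hq
    · rw [map_mul, hδ1, mul_one]; exact H.hx₀1
  · intro hlt
    have hq : 1 < v (C / (x * x₀)) := by
      rw [hvq, lt_div_iff₀ (zero_lt_iff.mpr hprod0), one_mul]; exact hlt
    have hδv : v δ = v C / (v x * v x₀) := by
      rw [hvδ, v.map_sub_eq_of_lt_right (by rw [map_one]; exact hq), hvq]
    have hδ0 : v δ ≠ 0 := by rw [hδv]; exact div_ne_zero hvC0 hprod0
    have hδne : δ ≠ 0 := (v.ne_zero_iff).mp hδ0
    have hx₃0 : x₃ ≠ 0 := by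
      rw [R1]; exact mul_ne_zero (mul_ne_zero hx0 hx₀0) (pow_ne_zero 2 hδne)
    refine ⟨by rw [hvx₃, hδv]; field_simp, ?_⟩
    have e : y₃ / x₃ + β = 1 / δ - (y / x - β) - x₀ * δ := by rw [R4 hx₃0]; ring
    rw [e]
    refine v.map_sub_lt (v.map_sub_lt ?_ hs) ?_
    · rw [map_div₀, map_one, hδv, one_div, inv_div, div_lt_one₀ (zero_lt_iff.mpr hvC0)]
      exact hlt
    · rw [map_mul, hδv]
      have : v x₀ * (v C / (v x * v x₀)) = v C / v x := by field_simp
      rw [this, div_lt_one₀ (zero_lt_iff.mpr hvx0)]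
      exact hx
  · intro heq
    have hq : v (C / (x * x₀)) = 1 := by
      rw [hvq, heq]; exact div_self hvC0
    have hδ1 : v δ ≤ 1 := by
      rw [hvδ]; exact v.map_sub_le (by rw [map_one]) hq.le
    rw [hvx₃, heq]
    calc v C * v δ ^ 2 ≤ v C * 1 := by gcongr; exact pow_le_one₀ zero_le hδ1
      _ = v C := mul_one _

end Fermat.Agent.S05lib
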