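import Fermat.Agent.S05_CompDefs

/-!
# S05 helper library: component computation, case (d): type `-`
See NOTES/triage/S05_comp_plan.md.  Use `comp_rel` for the relations (R1)–(R4).
-/

set_option autoImplicit false
set_option linter.unusedSectionVars false
set_option linter.unusedVariables false

namespace Fermat.Agent.S05lib

variable {K : Type*} [Field K]
  {Γ₀ : Type*} [LinearOrderedCommGroupWithZero Γ₀] (v : Valuation K Γ₀)
  {B C β x y x₀ y₀ x₃ y₃ ℓ n : K}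

/-- Case (d): `Q` of type `-` (`v C < v x < 1`, `y/x ≡ -β`). -/
theorem comp_case_d (H : CompHyp v B C β x₀ y₀) (D : ChordData B C x y x₀ y₀ x₃ y₃ ℓ n)
    (hx : v C < v x) (hx1 : v x < 1) (hs : v (y / x + β) < 1) :
    (v x < v x₀ → v x₃ * v x₀ = v x ∧ v (y₃ / x₃ + β) < 1) ∧
    (v x₀ < v x → v x₃ * v x = v x₀ ∧ v (y₃ / x₃ - β) < 1) ∧
    (v x = v x₀ → 1 ≤ v x₃) := by
  have hx0 : x ≠ 0 := by
    rintro rfl; rw [map_zero] at hx; exact not_lt_zero hx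
  have hx₀0 : x₀ ≠ 0 := by
    rintro rfl
    have := H.hx₀
    rw [map_zero] at this; exact not_lt_zero this
  have hvx0 : v x ≠ 0 := (v.ne_zero_iff).mpr hx0
  have hvx₀0 : v x₀ ≠ 0 := (v.ne_zero_iff).mpr hx₀0
  have hvβ : v β = 1 := by
    have : v β ^ 2 = 1 := by rw [← map_pow, H.hβ, H.hB]
    exact (pow_eq_one_iff_of_nonneg zero_le (by norm_num)).mp this
  have h2β : v (2 * β) = 1 := by rw [map_mul, H.h2, hvβ, one_mul]
  obtain ⟨R1, R2, R3, R4, R4'⟩ := comp_rel hx0 hx₀0 D.e D.e₀ D.l₁ D.l₂ D.l₃ D.v₁ D.v₂ D.v₃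
  set δ := -n / (x * x₀) with hδ
  -- `t - t₀` is a unit
  have htt : v (y / x - y₀ / x₀) = 1 := by
    have e : y / x - y₀ / x₀ = ((y / x + β) - (y₀ / x₀ - β)) - 2 * β := by ring
    rw [e, v.map_sub_eq_of_lt_right (by rw [h2β]; exact v.map_sub_lt hs H.hs₀), h2β]
  have hδx : v δ * v (x - x₀) = 1 := by rw [← map_mul, R3, htt]
  have hδ0 : v δ ≠ 0 := fun h => by rw [h, zero_mul] at hδx; exact zero_ne_one hδx
  have hd0 : v (x - x₀) ≠ 0 := fun h => by rw [h, mul_zero] at hδx; exact zero_ne_one hδx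
  have hvδ : v δ = (v (x - x₀))⁻¹ := eq_inv_of_mul_eq_one_left hδx
  have hvx₃ : v x₃ = v x * v x₀ * v δ ^ 2 := by
    rw [R1, map_mul, map_mul, map_pow]
  have hδne : δ ≠ 0 := (v.ne_zero_iff).mp hδ0
  have hx₃0 : x₃ ≠ 0 := by
    rw [R1]; exact mul_ne_zero (mul_ne_zero hx0 hx₀0) (pow_ne_zero 2 hδne)
  refine ⟨?_, ?_, ?_⟩
  · intro hlt
    have hd : v (x - x₀) = v x₀ := v.map_sub_eq_of_lt_right hlt
    rw [hd] at hvδ
    refine ⟨?_, ?_⟩
    · rw [hvx₃, hvδ]; field_simp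
    · have e : y₃ / x₃ + β = 1 / δ - (y₀ / x₀ - β) - x * δ := by rw [R4' hx₃0]; ring
      rw [e]
      refine v.map_sub_lt (v.map_sub_lt ?_ H.hs₀) ?_
      · rw [map_div₀, map_one, hvδ, one_div, inv_inv]; exact H.hx₀1
      · rw [map_mul, hvδ, ← div_eq_mul_inv, div_lt_one₀ (zero_lt_iff.mpr hvx₀0)]; exact hlt
  · intro hlt
    have hd : v (x - x₀) = v x := v.map_sub_eq_of_lt_left hlt
    rw [hd] at hvδ
    refine ⟨?_, ?_⟩
    · rw [hvx₃, hvδ]; field_simp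
    · have e : y₃ / x₃ - β = 1 / δ - (y / x + β) - x₀ * δ := by rw [R4 hx₃0]; ring
      rw [e]
      refine v.map_sub_lt (v.map_sub_lt ?_ hs) ?_
      · rw [map_div₀, map_one, hvδ, one_div, inv_inv]; exact hx1
      · rw [map_mul, hvδ, ← div_eq_mul_inv, div_lt_one₀ (zero_lt_iff.mpr hvx0)]; exact hlt
  · intro heq
    have hd : v (x - x₀) ≤ v x₀ := v.map_sub_le heq.le le_rfl
    rw [hvx₃, hvδ, heq, inv_pow, ← div_eq_mul_inv, le_div_iff₀ (pow_pos (zero_lt_iff.mpr hd0) 2),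
      one_mul, ← pow_two]
    exact pow_le_pow_left₀ zero_le hd 2

end Fermat.Agent.S05lib
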