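import Fermat.Agent.S05_CompA
import Fermat.Agent.S05_CompB
import Fermat.Agent.S05_CompC
import Fermat.Agent.S05_CompD

/-!
# S05 helper library: the component valuation of a torsion point (multiplicative reduction)

Curve `y² = x³ + B x² + C x`, `v B = 1`, `v C < 1`, `β² = B`, `t = y / x`.
"sign · v(x)" is additive modulo `v(C)²`; induction on `n` gives `comp_torsion`.
-/

set_option autoImplicit false
set_option linter.unusedSectionVars false
set_option linter.unusedVariables false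

namespace Fermat.Agent.S05lib

open WeierstrassCurve WeierstrassCurve.Affine

variable {K : Type*} [Field K] [DecidableEq K]
  {Γ₀ : Type*} [LinearOrderedCommGroupWithZero Γ₀] (v : Valuation K Γ₀)
  {W : WeierstrassCurve K}

/-- `g` and `h` differ by an even power of `c`. -/
def CompRel (c g h : Γ₀) : Prop := ∃ k : ℤ, g = h * c ^ (2 * k)

theorem CompRel.mul_right {c g h : Γ₀} (a : Γ₀) (H : CompRel c g h) :
    CompRel c (g * a) (h * a) := by
  obtain ⟨k, rfl⟩ := H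
  exact ⟨k, by rw [mul_right_comm]⟩

theorem CompRel.of_eq {c g h h' : Γ₀} (e : h = h') (H : CompRel c g h) : CompRel c g h' := e ▸ H

theorem CompRel.mul_sq {c g h : Γ₀} (hc : c ≠ 0) (H : CompRel c g (h * c ^ 2)) :
    CompRel c g h := by
  obtain ⟨k, rfl⟩ := H
  refine ⟨k + 1, ?_⟩
  rw [mul_add, mul_one, zpow_add₀ hc, show c ^ (2 : ℤ) = c ^ (2 : ℕ) from zpow_ofNat c 2,
    mul_assoc, mul_comm (c ^ 2)]

/-- The component predicate: `Comp v β Q g` says that `g` represents the component of `Q`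
modulo even powers of `v C`. -/
def Comp (β : K) : W.toAffine.Point → Γ₀ → Prop
  | .zero, g => CompRel (v W.a₄) g 1
  | .some x y _, g =>
      (1 ≤ v x ∧ CompRel (v W.a₄) g 1) ∨ (v x ≤ v W.a₄ ∧ CompRel (v W.a₄) g (v W.a₄)) ∨
      (v W.a₄ < v x ∧ v x < 1 ∧ v (y / x - β) < 1 ∧ CompRel (v W.a₄) g (v x)) ∨
      (v W.a₄ < v x ∧ v x < 1 ∧ v (y / x + β) < 1 ∧ CompRel (v W.a₄) g (v x)⁻¹)

theorem comp_step (hW : Shape W) {β x₀ y₀ : K} (H : CompHyp v W.a₂ W.a₄ β x₀ y₀)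
    (h₀ : W.toAffine.Nonsingular x₀ y₀) (Q : W.toAffine.Point) (g : Γ₀)
    (hQ : Comp v β Q g) : Comp v β (Q + Point.some x₀ y₀ h₀) (g * v x₀) := by
  have hc0 : v W.a₄ ≠ 0 := (v.ne_zero_iff).mpr H.hC0
  have hx₀0 : x₀ ≠ 0 := by
    rintro rfl
    have := H.hx₀
    rw [map_zero] at this
    exact not_lt_zero this
  have ha0 : v x₀ ≠ 0 := (v.ne_zero_iff).mpr hx₀0
  have hvβ : v β = 1 := by
    have : v β ^ 2 = 1 := by rw [← map_pow, H.hβ, H.hB]
    exact (pow_eq_one_iff_of_nonneg zero_le (by norm_num)).mp this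
  have h2β : v (2 * β) = 1 := by rw [map_mul, H.h2, hvβ, one_mul]
  rcases Q with _ | ⟨x, y, h⟩
  · change Comp v β ((0 : W.toAffine.Point) + Point.some x₀ y₀ h₀) (g * v x₀)
    rw [zero_add]
    have hg : CompRel (v W.a₄) g 1 := hQ
    refine Or.inr (Or.inr (Or.inl ⟨H.hx₀, H.hx₀1, H.hs₀, ?_⟩))
    exact (hg.mul_right (v x₀)).of_eq (one_mul _)
  by_cases hne : x = x₀ ∧ y = -y₀
  · have hsum : Point.some x y h + Point.some x₀ y₀ h₀ = 0 :=
      Point.add_of_Y_eq hne.1 (by rw [hW.negY]; exact hne.2)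
    rw [hsum]
    change CompRel (v W.a₄) (g * v x₀) 1
    obtain ⟨rfl, rfl⟩ := hne
    rcases hQ with ⟨h1, -⟩ | ⟨h1, -⟩ | ⟨-, -, h1, -⟩ | ⟨-, -, -, hg⟩
    · exact absurd (lt_of_le_of_lt h1 H.hx₀1) (lt_irrefl _)
    · exact absurd (lt_of_le_of_lt h1 H.hx₀) (lt_irrefl _)
    · exfalso
      have e1 : 2 * β = (y₀ / x - β) - (-y₀ / x - β) - 2 * (y₀ / x - β) + 2 * (y₀ / x - β)
          - 2 * (y₀ / x) + 2 * β := by ring
      have e2 : 2 * β = -((-y₀ / x - β) + (y₀ / x - β)) := by ring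
      have : v (2 * β) < 1 := by
        rw [e2, Valuation.map_neg]
        exact v.map_add_lt h1 H.hs₀
      rw [h2β] at this
      exact lt_irrefl _ this
    · exact (hg.mul_right (v x)).of_eq (inv_mul_cancel₀ ha0)
  obtain ⟨ℓ, n, x₃, y₃, h₃, hsum, l₁, l₂, l₃, v₁, v₂, v₃⟩ := hW.add_collinear h h₀ hne
  rw [hsum]
  have D : ChordData W.a₂ W.a₄ x y x₀ y₀ x₃ y₃ ℓ n :=
    ⟨(hW.equation_iff x y).mp h.1, H.e₀, (hW.equation_iff x₃ y₃).mp h₃.1, l₁, l₂, l₃, v₁, v₂, v₃⟩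
  rcases hQ with ⟨h1, hg⟩ | ⟨h1, hg⟩ | ⟨h1, h1', hs, hg⟩ | ⟨h1, h1', hs, hg⟩
  · obtain ⟨e3, s3⟩ := comp_case_a v H D h1
    refine Or.inr (Or.inr (Or.inl ⟨e3 ▸ H.hx₀, e3 ▸ H.hx₀1, s3, ?_⟩))
    exact (hg.mul_right (v x₀)).of_eq (by rw [one_mul, e3])
  · obtain ⟨e3, s3⟩ := comp_case_b v H D h1
    have e3' : v x₃ = v W.a₄ / v x₀ := by rw [← e3]; field_simp
    refine Or.inr (Or.inr (Or.inr ⟨?_, ?_, s3, ?_⟩))
    · rw [e3', lt_div_iff₀ (zero_lt_iff.mpr ha0)]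
      calc v W.a₄ * v x₀ < v W.a₄ * 1 :=
            mul_lt_mul_of_pos_left H.hx₀1 (zero_lt_iff.mpr hc0)
        _ = v W.a₄ := mul_one _
    · rw [e3', div_lt_one₀ (zero_lt_iff.mpr ha0)]
      exact H.hx₀
    · apply CompRel.mul_sq hc0
      refine (hg.mul_right (v x₀)).of_eq ?_
      rw [e3']
      field_simp
  · obtain ⟨c1, c2, c3⟩ := comp_case_c v H D h1 h1' hs
    have hx0 : v x ≠ 0 := fun h0 => by rw [h0] at h1; exact not_lt_zero h1
    rcases lt_trichotomy (v W.a₄) (v x * v x₀) with hlt | heq | hgt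
    · obtain ⟨e3, s3⟩ := c1 hlt
      refine Or.inr (Or.inr (Or.inl ⟨e3 ▸ hlt, ?_, s3, ?_⟩))
      · rw [e3]; exact mul_lt_one_of_lt_of_le h1' H.hx₀1.le
      · exact (hg.mul_right (v x₀)).of_eq e3.symm
    · have e3 := c3 heq.symm
      refine Or.inr (Or.inl ⟨e3, ?_⟩)
      exact (hg.mul_right (v x₀)).of_eq heq.symm
    · obtain ⟨e3, s3⟩ := c2 hgt
      have hprod0 : v x * v x₀ ≠ 0 := mul_ne_zero hx0 ha0
      have e3' : v x₃ = v W.a₄ ^ 2 / (v x * v x₀) := by rw [← e3]; field_simp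
      have hx₃0 : v x₃ ≠ 0 := by
        rw [e3']; exact div_ne_zero (pow_ne_zero 2 hc0) hprod0
      refine Or.inr (Or.inr (Or.inr ⟨?_, ?_, s3, ?_⟩))
      · rw [e3', lt_div_iff₀ (zero_lt_iff.mpr hprod0), pow_two]
        exact mul_lt_mul_of_pos_left hgt (zero_lt_iff.mpr hc0)
      · rw [e3', div_lt_one₀ (zero_lt_iff.mpr hprod0), pow_two]
        calc v W.a₄ * v W.a₄ < v x * v W.a₄ :=
              mul_lt_mul_of_pos_right h1 (zero_lt_iff.mpr hc0)
          _ ≤ v x * v x₀ := by gcongr; exact H.hx₀.le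
      · apply CompRel.mul_sq hc0
        refine (hg.mul_right (v x₀)).of_eq ?_
        rw [e3']
        field_simp
  · obtain ⟨d1, d2, d3⟩ := comp_case_d v H D h1 h1' hs
    have hx0 : v x ≠ 0 := fun h0 => by rw [h0] at h1; exact not_lt_zero h1
    rcases lt_trichotomy (v x) (v x₀) with hlt | heq | hgt
    · obtain ⟨e3, s3⟩ := d1 hlt
      have e3' : v x₃ = v x / v x₀ := by rw [← e3]; field_simp
      refine Or.inr (Or.inr (Or.inr ⟨?_, ?_, s3, ?_⟩))
      · rw [e3', lt_div_iff₀ (zero_lt_iff.mpr ha0)]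
        calc v W.a₄ * v x₀ ≤ v W.a₄ * 1 := by gcongr; exact H.hx₀1.le
          _ = v W.a₄ := mul_one _
          _ < v x := h1
      · rw [e3', div_lt_one₀ (zero_lt_iff.mpr ha0)]
        exact hlt
      · refine (hg.mul_right (v x₀)).of_eq ?_
        rw [e3']
        field_simp
    · have e3 := d3 heq
      refine Or.inl ⟨e3, ?_⟩
      refine (hg.mul_right (v x₀)).of_eq ?_
      rw [heq]
      exact inv_mul_cancel₀ ha0
    · obtain ⟨e3, s3⟩ := d2 hgt
      have e3' : v x₃ = v x₀ / v x := by rw [← e3]; field_simp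
      refine Or.inr (Or.inr (Or.inl ⟨?_, ?_, s3, ?_⟩))
      · rw [e3', lt_div_iff₀ (zero_lt_iff.mpr hx0)]
        calc v W.a₄ * v x ≤ v W.a₄ * 1 := by gcongr
          _ = v W.a₄ := mul_one _
          _ < v x₀ := H.hx₀
      · rw [e3', div_lt_one₀ (zero_lt_iff.mpr hx0)]
        exact hgt
      · refine (hg.mul_right (v x₀)).of_eq ?_
        rw [e3']
        field_simp

/-- For an `n`-torsion point reducing to the node with `v C < v x < 1`,
`v(x)^n` is an even power of `v(C)`. -/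
theorem comp_torsion (hW : Shape W) (hB : v W.a₂ = 1) (hC : v W.a₄ < 1) (hC0 : W.a₄ ≠ 0)
    (h2 : v (2 : K) = 1) {β : K} (hβ : β ^ 2 = W.a₂) {x y : K}
    (h : W.toAffine.Nonsingular x y) (hx : v W.a₄ < v x) (hx1 : v x < 1)
    (hsign : v (y / x - β) < 1) {n : ℕ} (hP : n • Point.some x y h = 0) :
    ∃ k : ℤ, v x ^ n = v W.a₄ ^ (2 * k) := by
  have H : CompHyp v W.a₂ W.a₄ β x y :=
    ⟨hB, hC, hC0, h2, hβ, (hW.equation_iff x y).mp h.1, hx, hx1, hsign⟩
  have key : ∀ m : ℕ, Comp v β (m • Point.some x y h) (v x ^ m) := by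
    intro m
    induction m with
    | zero =>
      rw [zero_smul, pow_zero]
      exact ⟨0, by simp⟩
    | succ m ih =>
      rw [succ_nsmul, pow_succ]
      exact comp_step v hW H h _ _ ih
  have := key n
  rw [hP] at this
  obtain ⟨k, hk⟩ := (this : CompRel (v W.a₄) (v x ^ n) 1)
  exact ⟨k, by rw [hk, one_mul]⟩

end Fermat.Agent.S05lib
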