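import Fermat.Agent.S05_CompDefs

/-!
# S05 helper library: component computation, case (a): `1 ≤ v x`
See NOTES/triage/S05_comp_plan.md.  Use `comp_rel` for the relations (R1)–(R4).
-/

set_option autoImplicit false
set_option linter.unusedSectionVars false
set_option linter.unusedVariables false

namespace Fermat.Agent.S05lib

variable {K : Type*} [Field K]
  {Γ₀ : Type*} [LinearOrderedCommGroupWithZero Γ₀] (v : Valuation K Γ₀)
  {B C β x y x₀ y₀ x₃ y₃ ℓ n : K}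

/-- If `v (2 t₀) = 1` and `v (t - t₀) * v (t + t₀) ≥ 1` then `v (t - t₀) = v (t + t₀) ≥ 1`. -/
theorem compA_pm {t t₀ : K} (h2 : v (2 * t₀) = 1)
    (hprod : 1 ≤ v (t - t₀) * v (t + t₀)) :
    v (t - t₀) = v (t + t₀) ∧ 1 ≤ v (t - t₀) := by
  have hsum : t + t₀ = (t - t₀) + 2 * t₀ := by ring
  rcases lt_or_ge 1 (v (t - t₀)) with h | h
  · have h' : v (t + t₀) = v (t - t₀) := by
      rw [hsum]; exact v.map_add_eq_of_lt_left (by rw [h2]; exact h)
    exact ⟨h'.symm, h.le⟩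
  · have hs' : v (t + t₀) ≤ 1 := by
      rw [hsum]; exact v.map_add_le h (le_of_eq h2)
    have h1 : v (t - t₀) * v (t + t₀) ≤ v (t - t₀) := mul_le_of_le_one_right' hs'
    have h2' : v (t - t₀) * v (t + t₀) ≤ v (t + t₀) := mul_le_of_le_one_left' h
    have e1 : v (t - t₀) = 1 := le_antisymm h (hprod.trans h1)
    have e2 : v (t + t₀) = 1 := le_antisymm hs' (hprod.trans h2')
    exact ⟨e1.trans e2.symm, e1.ge⟩

theorem compA_alg {t t₀ X w : K} (hd : t - t₀ ≠ 0) :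
    X / (t - t₀) - t - w - t₀ = (X - (t - t₀) * (t + t₀)) / (t - t₀) - w := by
  field_simp
  ring

/-- Basic consequences of the standing hypotheses. -/
theorem CompHyp.basic (H : CompHyp v B C β x₀ y₀) :
    x₀ ≠ 0 ∧ v β = 1 ∧ v (y₀ / x₀) = 1 ∧ v (2 * (y₀ / x₀)) = 1 ∧ v (C / x₀) < 1 ∧
      (y₀ / x₀) ^ 2 = x₀ + B + C / x₀ := by
  have hvx₀pos : 0 < v x₀ := lt_of_le_of_lt zero_le H.hx₀
  have hx₀0 : x₀ ≠ 0 := (v.ne_zero_iff).mp hvx₀pos.ne'
  have hvβ : v β = 1 := by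
    have h1 : v β ^ 2 = 1 := by rw [← map_pow, H.hβ, H.hB]
    rcases (pow_eq_one_iff (M := Γ₀)).mp h1 with h | h
    · exact h
    · exact absurd h (by norm_num)
  have hvt₀ : v (y₀ / x₀) = 1 := by
    have : y₀ / x₀ = β + (y₀ / x₀ - β) := by ring
    rw [this, v.map_add_eq_of_lt_left (by rw [hvβ]; exact H.hs₀), hvβ]
  refine ⟨hx₀0, hvβ, hvt₀, by rw [map_mul, H.h2, hvt₀, one_mul], ?_, ?_⟩
  · rw [map_div₀]
    exact (div_lt_one₀ hvx₀pos).mpr H.hx₀
  · field_simp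
    linear_combination H.e₀

/-- Case (a): `Q ∈ E₀` (`1 ≤ v x`): the sum has type `+` with `v x₃ = v x₀`. -/
theorem comp_case_a (H : CompHyp v B C β x₀ y₀) (D : ChordData B C x y x₀ y₀ x₃ y₃ ℓ n)
    (hx : 1 ≤ v x) : v x₃ = v x₀ ∧ v (y₃ / x₃ - β) < 1 := by
  obtain ⟨hx₀0, hvβ, hvt₀, hv2t₀, hCx₀, et₀⟩ := H.basic v
  have hvx₀pos : 0 < v x₀ := lt_of_le_of_lt zero_le H.hx₀
  have hvxpos : 0 < v x := lt_of_lt_of_le zero_lt_one hx
  have hx0 : x ≠ 0 := (v.ne_zero_iff).mp hvxpos.ne'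
  obtain ⟨R1, R2, R3, R4, R4'⟩ := comp_rel hx0 hx₀0 D.e D.e₀ D.l₁ D.l₂ D.l₃ D.v₁ D.v₂ D.v₃
  have et : (y / x) ^ 2 = x + B + C / x := by
    field_simp
    linear_combination D.e
  have hkey : (y / x - y₀ / x₀) * (y / x + y₀ / x₀) = (x - x₀) * (1 - C / (x * x₀)) := by
    have h1 : (y / x - y₀ / x₀) * (y / x + y₀ / x₀) = (y / x) ^ 2 - (y₀ / x₀) ^ 2 := by ring
    rw [h1, et, et₀]
    field_simp
    ring
  have hx₀x : v x₀ < v x := lt_of_lt_of_le H.hx₀1 hx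
  have hvsub : v (x - x₀) = v x := v.map_sub_eq_of_lt_left hx₀x
  have hCxx₀ : v (C / (x * x₀)) < 1 := by
    rw [map_div₀, map_mul]
    rw [div_lt_one₀ (mul_pos hvxpos hvx₀pos)]
    calc v C < v x₀ := H.hx₀
      _ = 1 * v x₀ := (one_mul _).symm
      _ ≤ v x * v x₀ := by gcongr
  have hu : v (1 - C / (x * x₀)) = 1 := v.map_one_sub_of_lt hCxx₀
  have hprod : v (y / x - y₀ / x₀) * v (y / x + y₀ / x₀) = v x := by
    rw [← map_mul, hkey, map_mul, hvsub, hu, mul_one]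
  obtain ⟨hss, hs1⟩ := compA_pm v hv2t₀ (by rw [hprod]; exact hx)
  set s := v (y / x - y₀ / x₀) with hs
  have hspos : 0 < s := lt_of_lt_of_le zero_lt_one hs1
  have hs2 : s * s = v x := by rw [← hprod, ← hss]
  have ht_ne : y / x - y₀ / x₀ ≠ 0 := (v.ne_zero_iff).mp hspos.ne'
  -- valuation of δ
  have hδs : v (-n / (x * x₀)) * s = 1 := by
    have h1 : v (-n / (x * x₀)) * v x = s := by
      rw [← hvsub, ← map_mul, R3]
    have h2 : v (-n / (x * x₀)) * s * s = 1 * s := by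
      rw [mul_assoc, hs2, h1, one_mul]
    exact mul_right_cancel₀ hspos.ne' h2
  have hδpos : 0 < v (-n / (x * x₀)) := by
    rcases eq_or_lt_of_le (zero_le (a := v (-n / (x * x₀)))) with h | h
    · rw [← h, zero_mul] at hδs; exact absurd hδs zero_ne_one
    · exact h
  have hδ0 : -n / (x * x₀) ≠ 0 := (v.ne_zero_iff).mp hδpos.ne'
  have hδle : v (-n / (x * x₀)) ≤ 1 := by
    by_contra hcon
    rw [not_le] at hcon
    have : 1 < v (-n / (x * x₀)) * s := by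
      calc 1 < v (-n / (x * x₀)) := hcon
        _ = v (-n / (x * x₀)) * 1 := (mul_one _).symm
        _ ≤ v (-n / (x * x₀)) * s := by gcongr
    rw [hδs] at this
    exact lt_irrefl _ this
  have hvx₃ : v x₃ = v x₀ := by
    rw [R1, map_mul, map_mul, map_pow, ← hs2]
    calc s * s * v x₀ * v (-n / (x * x₀)) ^ 2
        = v x₀ * ((v (-n / (x * x₀)) * s) * (v (-n / (x * x₀)) * s)) := by
          rw [pow_two]; simp only [mul_comm, mul_left_comm]
      _ = v x₀ := by rw [hδs, mul_one, mul_one]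
  refine ⟨hvx₃, ?_⟩
  have hx₃0 : x₃ ≠ 0 := (v.ne_zero_iff).mp (by rw [hvx₃]; exact hvx₀pos.ne')
  have ht₃ := R4 hx₃0
  -- t₃ - t₀ = (C/x₀ - C/x)/(t - t₀) - x₀ δ
  have hform : y₃ / x₃ - y₀ / x₀ =
      (C / x₀ - C / x) / (y / x - y₀ / x₀) - x₀ * (-n / (x * x₀)) := by
    rw [ht₃]
    have hinv : 1 / (-n / (x * x₀)) = (x - x₀) / (y / x - y₀ / x₀) := by
      rw [div_eq_div_iff hδ0 ht_ne, one_mul, ← R3, mul_comm]
    rw [hinv]
    rw [compA_alg ht_ne, hkey]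
    congr 1
    congr 1
    field_simp
    ring
  have hCx : v (C / x) < 1 := by
    rw [map_div₀, div_lt_one₀ hvxpos]
    exact lt_of_lt_of_le H.hC hx
  have hnum : v (C / x₀ - C / x) < 1 := v.map_sub_lt hCx₀ hCx
  have hfirst : v ((C / x₀ - C / x) / (y / x - y₀ / x₀)) < 1 := by
    rw [map_div₀, ← hs, div_lt_one₀ hspos]
    exact lt_of_lt_of_le hnum hs1
  have hsecond : v (x₀ * (-n / (x * x₀))) < 1 := by
    rw [map_mul]
    exact mul_lt_one_of_lt_of_le H.hx₀1 hδle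
  have hdiff : v (y₃ / x₃ - y₀ / x₀) < 1 := by
    rw [hform]; exact v.map_sub_lt hfirst hsecond
  have : y₃ / x₃ - β = (y₃ / x₃ - y₀ / x₀) + (y₀ / x₀ - β) := by ring
  rw [this]
  exact v.map_add_lt hdiff H.hs₀

end Fermat.Agent.S05lib
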