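import Fermat.Agent.S05_Defs

/-!
# S05 helper library: multiplicative reduction — relations for the chord through two points
and the four point types.

Curve `y² = x³ + B x² + C x` (`B = W.a₂`, `C = W.a₄`), `t = y / x`.
For `(x₃, y₃) = (x, y) + (x₀, y₀)` with line `y = ℓ x + n`, put `δ = -n / (x x₀)`. Then
`x₃ = x x₀ δ²`, `δ (t + t₀) = 1 - C / (x x₀)`, `δ (x - x₀) = t - t₀`,
`t₃ = 1/δ - t - x₀ δ = 1/δ - t₀ - x δ`.
-/

set_option autoImplicit false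
set_option linter.unusedSectionVars false
set_option linter.unusedVariables false

namespace Fermat.Agent.S05lib

variable {K : Type*} [Field K]
  {Γ₀ : Type*} [LinearOrderedCommGroupWithZero Γ₀] (v : Valuation K Γ₀)

/-- The relations (R1)–(R4) for the chord through `(x, y)` and `(x₀, y₀)`. -/
theorem comp_rel {B C x y x₀ y₀ x₃ y₃ ℓ n : K} (hx : x ≠ 0) (hx₀ : x₀ ≠ 0)
    (e : y ^ 2 = x ^ 3 + B * x ^ 2 + C * x) (e₀ : y₀ ^ 2 = x₀ ^ 3 + B * x₀ ^ 2 + C * x₀)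
    (l₁ : y = ℓ * x + n) (l₂ : y₀ = ℓ * x₀ + n) (l₃ : -y₃ = ℓ * x₃ + n)
    (v₁ : x + x₀ + x₃ = ℓ ^ 2 - B) (v₂ : x * x₀ + x * x₃ + x₀ * x₃ = C - 2 * ℓ * n)
    (v₃ : x * x₀ * x₃ = n ^ 2) :
    x₃ = x * x₀ * (-n / (x * x₀)) ^ 2 ∧
    (-n / (x * x₀)) * (y / x + y₀ / x₀) = 1 - C / (x * x₀) ∧
    (-n / (x * x₀)) * (x - x₀) = y / x - y₀ / x₀ ∧
    (x₃ ≠ 0 → y₃ / x₃ = 1 / (-n / (x * x₀)) - y / x - x₀ * (-n / (x * x₀))) ∧
    (x₃ ≠ 0 → y₃ / x₃ = 1 / (-n / (x * x₀)) - y₀ / x₀ - x * (-n / (x * x₀))) := by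
  have hn2 : x₃ ≠ 0 → n ≠ 0 := by
    intro h3 hn
    rw [hn] at v₃
    have : x * x₀ * x₃ ≠ 0 := mul_ne_zero (mul_ne_zero hx hx₀) h3
    exact this (by rw [v₃]; ring)
  have hG2 : -n * (y * x₀ + y₀ * x) = x * x₀ * (x * x₀ - C) := by
    linear_combination (-n * x₀) * l₁ - n * x * l₂ + (x + x₀) * v₃ - x * x₀ * v₂
  have hG3 : -n * (x - x₀) = y * x₀ - y₀ * x := by
    linear_combination (-x₀) * l₁ + x * l₂
  refine ⟨?_, ?_, ?_, ?_, ?_⟩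
  · field_simp
    linear_combination v₃
  · field_simp
    linear_combination hG2
  · field_simp
    linear_combination hG3
  · intro h3
    have hn := hn2 h3
    field_simp
    linear_combination (-(n * x)) * l₃ + n * x₃ * l₁ + x * v₃
  · intro h3
    have hn := hn2 h3
    field_simp
    linear_combination (-(n * x₀)) * l₃ + n * x₃ * l₂ + x₀ * v₃

/-- The chord data for `(x₃, y₃) = (x, y) + (x₀, y₀)` on `y² = x³ + B x² + C x`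
(as produced by `Shape.add_collinear`). -/
structure ChordData (B C x y x₀ y₀ x₃ y₃ ℓ n : K) : Prop where
  e : y ^ 2 = x ^ 3 + B * x ^ 2 + C * x
  e₀ : y₀ ^ 2 = x₀ ^ 3 + B * x₀ ^ 2 + C * x₀
  e₃ : y₃ ^ 2 = x₃ ^ 3 + B * x₃ ^ 2 + C * x₃
  l₁ : y = ℓ * x + n
  l₂ : y₀ = ℓ * x₀ + n
  l₃ : -y₃ = ℓ * x₃ + n
  v₁ : x + x₀ + x₃ = ℓ ^ 2 - B
  v₂ : x * x₀ + x * x₃ + x₀ * x₃ = C - 2 * ℓ * n
  v₃ : x * x₀ * x₃ = n ^ 2

/-- Standing hypotheses for the component computation: multiplicative reduction with node at the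
origin, `β² = B`, and a base point `(x₀, y₀)` of type `+` (`v C < v x₀ < 1`, `y₀/x₀ ≡ β`). -/
structure CompHyp (v : Valuation K Γ₀) (B C β x₀ y₀ : K) : Prop where
  hB : v B = 1
  hC : v C < 1
  hC0 : C ≠ 0
  h2 : v (2 : K) = 1
  hβ : β ^ 2 = B
  e₀ : y₀ ^ 2 = x₀ ^ 3 + B * x₀ ^ 2 + C * x₀
  hx₀ : v C < v x₀
  hx₀1 : v x₀ < 1
  hs₀ : v (y₀ / x₀ - β) < 1

end Fermat.Agent.S05lib
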