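import Mathlib.AlgebraicGeometry.EllipticCurve.Affine.Point
import Mathlib.RingTheory.Valuation.ValuationSubring

/-!
# S05 helper library: curves of the shape `y² = x³ + B x² + C x`

Chord–tangent description of the group law on such curves.
-/

set_option autoImplicit false
set_option linter.unusedSectionVars false

namespace Fermat.Agent.S05lib

open WeierstrassCurve WeierstrassCurve.Affine

variable {K : Type*} [Field K] [DecidableEq K]

/-- The curve has the shape `y² = x³ + B x² + C x`. -/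
structure Shape (W : WeierstrassCurve K) : Prop where
  a₁ : W.a₁ = 0
  a₃ : W.a₃ = 0
  a₆ : W.a₆ = 0

variable {W : WeierstrassCurve K}

theorem Shape.equation_iff (hW : Shape W) (x y : K) :
    W.toAffine.Equation x y ↔ y ^ 2 = x ^ 3 + W.a₂ * x ^ 2 + W.a₄ * x := by
  rw [Affine.equation_iff, hW.a₁, hW.a₃, hW.a₆]; simp

theorem Shape.negY (hW : Shape W) (x y : K) : W.toAffine.negY x y = -y := by
  simp [Affine.negY, hW.a₁, hW.a₃]

theorem Shape.neg_some (hW : Shape W) {x y : K} (h : W.toAffine.Nonsingular x y) :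
    ∃ h' : W.toAffine.Nonsingular x (-y), -Point.some x y h = Point.some x (-y) h' := by
  have h' : W.toAffine.Nonsingular x (W.toAffine.negY x y) := (nonsingular_neg ..).mpr h
  rw [hW.negY] at h'
  refine ⟨h', ?_⟩
  rw [Point.neg_some]
  congr 1
  exact hW.negY x y

/-- Characterisation of the slope used by Mathlib's addition law. -/
theorem Shape.slope_spec (hW : Shape W) {x₁ y₁ x₂ y₂ : K}
    (h₁ : W.toAffine.Nonsingular x₁ y₁) (h₂ : W.toAffine.Nonsingular x₂ y₂)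
    (hne : ¬(x₁ = x₂ ∧ y₁ = -y₂)) :
    W.toAffine.slope x₁ x₂ y₁ y₂ * (x₁ - x₂) = y₁ - y₂ ∧
    W.toAffine.slope x₁ x₂ y₁ y₂ * (2 * y₁ - W.toAffine.slope x₁ x₂ y₁ y₂ * (x₁ - x₂)) =
      x₁ ^ 2 + x₁ * x₂ + x₂ ^ 2 + W.a₂ * (x₁ + x₂) + W.a₄ := by
  have hne' : ¬(x₁ = x₂ ∧ y₁ = W.toAffine.negY x₂ y₂) := by rwa [hW.negY]
  have e₁ := (hW.equation_iff x₁ y₁).mp h₁.1
  have e₂ := (hW.equation_iff x₂ y₂).mp h₂.1
  by_cases hx : x₁ = x₂
  · have hy : y₁ ≠ W.toAffine.negY x₂ y₂ := fun h => hne' ⟨hx, h⟩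
    have hy' : y₁ = y₂ := Y_eq_of_Y_ne h₁.1 h₂.1 hx hy
    subst hx hy'
    rw [hW.negY] at hy
    have hy0 : y₁ ≠ 0 := fun h => hy (by rw [h]; simp)
    have h2 : (2 : K) ≠ 0 := fun h => hy (by linear_combination y₁ * h)
    rw [slope_of_Y_ne rfl (by rwa [hW.negY]), hW.negY, hW.a₁]
    constructor
    · simp
    · have h2y : y₁ - -y₁ = 2 * y₁ := by ring
      rw [h2y]
      field_simp
      ring
  · rw [slope_of_X_ne hx]
    have hx' : x₁ - x₂ ≠ 0 := sub_ne_zero.mpr hx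
    have hℓ : (y₁ - y₂) / (x₁ - x₂) * (x₁ - x₂) = y₁ - y₂ := by field_simp
    refine ⟨hℓ, ?_⟩
    apply mul_left_cancel₀ hx'
    linear_combination (y₁ + y₂ - (y₁ - y₂) / (x₁ - x₂) * (x₁ - x₂)) * hℓ + e₁ - e₂

/-- The chord-tangent description of the sum of two affine points whose sum is affine. -/
theorem Shape.add_collinear (hW : Shape W) {x₁ y₁ x₂ y₂ : K}
    (h₁ : W.toAffine.Nonsingular x₁ y₁) (h₂ : W.toAffine.Nonsingular x₂ y₂)
    (hne : ¬(x₁ = x₂ ∧ y₁ = -y₂)) :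
    ∃ (ℓ n x₃ y₃ : K) (h₃ : W.toAffine.Nonsingular x₃ y₃),
      Point.some x₁ y₁ h₁ + Point.some x₂ y₂ h₂ = Point.some x₃ y₃ h₃ ∧
      y₁ = ℓ * x₁ + n ∧ y₂ = ℓ * x₂ + n ∧ -y₃ = ℓ * x₃ + n ∧
      x₁ + x₂ + x₃ = ℓ ^ 2 - W.a₂ ∧
      x₁ * x₂ + x₁ * x₃ + x₂ * x₃ = W.a₄ - 2 * ℓ * n ∧
      x₁ * x₂ * x₃ = n ^ 2 := by
  have hne' : ¬(x₁ = x₂ ∧ y₁ = W.toAffine.negY x₂ y₂) := by rwa [hW.negY]
  have e₁ := (hW.equation_iff x₁ y₁).mp h₁.1
  obtain ⟨hℓ, hQ⟩ := hW.slope_spec h₁ h₂ hne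
  set ℓ := W.toAffine.slope x₁ x₂ y₁ y₂ with hℓdef
  refine ⟨ℓ, y₁ - ℓ * x₁, W.toAffine.addX x₁ x₂ ℓ, W.toAffine.addY x₁ x₂ y₁ ℓ,
    nonsingular_add h₁ h₂ hne', Point.add_some hne', by ring, ?_, ?_, ?_, ?_, ?_⟩
  · linear_combination hℓ
  · simp only [addY, negAddY, addX, hW.negY, hW.a₁]; ring
  · simp only [addX, hW.a₁]; ring
  · simp only [addX, hW.a₁]; linear_combination hQ
  · simp only [addX, hW.a₁]; linear_combination x₁ * hQ - e₁

end Fermat.Agent.S05lib
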