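import Fermat.Agent.S05_Curve

/-!
# S05 helper library: shared definitions (E₁, E₀, nonsingular reduction, inertial maps)
-/

set_option autoImplicit false
set_option linter.unusedSectionVars false

namespace Fermat.Agent.S05lib

open WeierstrassCurve WeierstrassCurve.Affine

variable {K : Type*} [Field K] [DecidableEq K]
  {Γ₀ : Type*} [LinearOrderedCommGroupWithZero Γ₀]

/-- `σ` behaves like an element of the inertia group of the valuation `v`:
it preserves the valuation ring and its complement, and acts trivially on the residue field. -/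
structure IsInertial (v : Valuation K Γ₀) (σ : K →+* K) : Prop where
  le_one : ∀ a, v a ≤ 1 → v (σ a) ≤ 1
  one_lt : ∀ a, 1 < v a → 1 < v (σ a)
  sub_lt : ∀ a, v a ≤ 1 → v (σ a - a) < 1

/-- `E₁`, the kernel of reduction: the point at infinity and the points with `1 < v x`. -/
def InE1 (v : Valuation K Γ₀) {W : WeierstrassCurve K} : W.toAffine.Point → Prop
  | .zero => True
  | .some x _ _ => 1 < v x

/-- `E₀` when the only possible singular point of the reduction is `(0,0)`:
the point at infinity and the points with `1 ≤ v x`. -/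
def InE0 (v : Valuation K Γ₀) {W : WeierstrassCurve K} : W.toAffine.Point → Prop
  | .zero => True
  | .some x _ _ => 1 ≤ v x

/-- Points whose reduction is a nonsingular point (for an integral model of shape
`y² = x³ + B x² + C x`). -/
def NonsingRed (v : Valuation K Γ₀) {W : WeierstrassCurve K} : W.toAffine.Point → Prop
  | .zero => True
  | .some x y _ => 1 < v x ∨
      (v x ≤ 1 ∧ (v (2 * y) = 1 ∨ v (3 * x ^ 2 + 2 * W.a₂ * x + W.a₄) = 1))

/-- The function `z = x / y` (and `z(O) = 0`). -/
noncomputable def zfun {W : WeierstrassCurve K} : W.toAffine.Point → K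
  | .zero => 0
  | .some x y _ => x / y

@[simp] theorem InE1_zero (v : Valuation K Γ₀) {W : WeierstrassCurve K} :
    InE1 v (0 : W.toAffine.Point) := trivial

@[simp] theorem InE1_some (v : Valuation K Γ₀) {W : WeierstrassCurve K} {x y : K}
    (h : W.toAffine.Nonsingular x y) : InE1 v (Point.some x y h) ↔ 1 < v x := Iff.rfl

@[simp] theorem InE0_zero (v : Valuation K Γ₀) {W : WeierstrassCurve K} :
    InE0 v (0 : W.toAffine.Point) := trivial

@[simp] theorem InE0_some (v : Valuation K Γ₀) {W : WeierstrassCurve K} {x y : K}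
    (h : W.toAffine.Nonsingular x y) : InE0 v (Point.some x y h) ↔ 1 ≤ v x := Iff.rfl

@[simp] theorem NonsingRed_zero (v : Valuation K Γ₀) {W : WeierstrassCurve K} :
    NonsingRed v (0 : W.toAffine.Point) := trivial

@[simp] theorem NonsingRed_some (v : Valuation K Γ₀) {W : WeierstrassCurve K} {x y : K}
    (h : W.toAffine.Nonsingular x y) : NonsingRed v (Point.some x y h) ↔ (1 < v x ∨
      (v x ≤ 1 ∧ (v (2 * y) = 1 ∨ v (3 * x ^ 2 + 2 * W.a₂ * x + W.a₄) = 1))) := Iff.rfl

@[simp] theorem zfun_zero {W : WeierstrassCurve K} : zfun (0 : W.toAffine.Point) = 0 := rfl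

@[simp] theorem zfun_some {W : WeierstrassCurve K} {x y : K}
    (h : W.toAffine.Nonsingular x y) : zfun (Point.some x y h) = x / y := rfl

end Fermat.Agent.S05lib
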