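import Fermat.Agent.S05_E1

/-!
# S05 helper library: points with the same nonsingular reduction differ by an element of `E₁`
(owner: helper5)
-/

set_option autoImplicit false
set_option linter.unusedSectionVars false
set_option linter.unusedVariables false

namespace Fermat.Agent.S05lib

open WeierstrassCurve WeierstrassCurve.Affine

variable {K : Type*} [Field K] [DecidableEq K]
  {Γ₀ : Type*} [LinearOrderedCommGroupWithZero Γ₀] (v : Valuation K Γ₀)
  {W : WeierstrassCurve K}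

section aux

variable {v}
variable {B C : K}

theorem e0_two_ne_zero (h2 : v (2 : K) = 1) : (2 : K) ≠ 0 := by
  intro h; rw [h, map_zero] at h2; exact zero_ne_one h2

theorem e0_val_three_le : v (3 : K) ≤ 1 := by
  have : (3 : K) = 1 + 1 + 1 := by norm_num
  rw [this]
  exact Valuation.map_add_le v (Valuation.map_add_le v (by simp) (by simp)) (by simp)

theorem e0_val_two_le : v (2 : K) ≤ 1 := by
  have : (2 : K) = 1 + 1 := by norm_num
  rw [this]
  exact Valuation.map_add_le v (by simp) (by simp)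

theorem e0_val_natCast_le (k : ℕ) : v (k : K) ≤ 1 := by
  induction k with
  | zero => simp
  | succ k ih =>
    rw [Nat.cast_succ]
    exact Valuation.map_add_le v ih (by simp)

/-- An integral `x` gives an integral `y` on `y² = x³ + B x² + C x`. -/
theorem e0_val_y_le (hB : v B ≤ 1) (hC : v C ≤ 1) {x y : K} (hx : v x ≤ 1)
    (e : y ^ 2 = x ^ 3 + B * x ^ 2 + C * x) : v y ≤ 1 := by
  by_contra h
  rw [not_le] at h
  have h2 : 1 < v y ^ 2 := one_lt_pow₀ h (by norm_num)
  rw [← map_pow, e] at h2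
  have h3 : v (x ^ 3 + B * x ^ 2 + C * x) ≤ 1 := by
    refine Valuation.map_add_le v (Valuation.map_add_le v ?_ ?_) ?_
    · rw [map_pow]; exact pow_le_one₀ zero_le hx
    · rw [map_mul, map_pow]
      calc v B * v x ^ 2 ≤ 1 * 1 := mul_le_mul' hB (pow_le_one₀ zero_le hx)
        _ = 1 := one_mul _
    · rw [map_mul]
      calc v C * v x ≤ 1 * 1 := mul_le_mul' hC hx
        _ = 1 := one_mul _
  exact absurd h2 (not_lt.mpr h3)

/-- If `a * b = c` with `v c = 1` and `v b < 1`, then `1 < v a`. -/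
theorem e0_one_lt_of_mul {a b c : K} (h : a * b = c) (hc : v c = 1) (hb : v b < 1) :
    1 < v a := by
  have h1 : v a * v b = 1 := by rw [← map_mul, h, hc]
  by_contra ha
  rw [not_lt] at ha
  have : v a * v b < 1 := by
    calc v a * v b ≤ 1 * v b := mul_le_mul_left ha _
      _ = v b := one_mul _
      _ < 1 := hb
  rw [h1] at this
  exact lt_irrefl _ this

/-- Core of `inertial_sub_mem_E1`: two integral points with the same nonsingular reduction,
in terms of the chord through `(x', y')` and `(x, -y)`. -/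
theorem e0_core (hB : v B ≤ 1) (hC : v C ≤ 1) (h2 : v (2 : K) = 1)
    {x y x' y' x₃ ℓ n : K} (hx : v x ≤ 1) (hy : v y ≤ 1)
    (hxx : v (x' - x) < 1) (hyy : v (y' - y) < 1)
    (hns : v (2 * y) = 1 ∨ v (3 * x ^ 2 + 2 * B * x + C) = 1)
    (l₁ : y' = ℓ * x' + n) (l₂ : -y = ℓ * x + n)
    (v₁ : x' + x + x₃ = ℓ ^ 2 - B) (v₂ : x' * x + x' * x₃ + x * x₃ = C - 2 * ℓ * n) :
    1 < v x₃ := by
  have hx' : v x' ≤ 1 := by
    have : x' = (x' - x) + x := by ring
    rw [this]; exact Valuation.map_add_le v hxx.le hx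
  have hℓ : 1 < v ℓ := by
    rcases hns with h | h
    · -- `y' + y` is a unit and `ℓ (x' - x) = y' + y`
      have e : ℓ * (x' - x) = y' + y := by linear_combination l₂ - l₁
      have hu : v (y' + y) = 1 := by
        have : y' + y = 2 * y + (y' - y) := by ring
        rw [this, Valuation.map_add_eq_of_lt_left (v := v) (by rw [h]; exact hyy), h]
      exact e0_one_lt_of_mul e hu hxx
    · -- `G` is a unit and `ℓ (y' - y) = G`
      have e : ℓ * (y' - y) = x' ^ 2 + x' * x + x ^ 2 + B * (x' + x) + C := by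
        linear_combination ℓ * l₁ + ℓ * l₂ - (x' + x) * v₁ + v₂
      have hu : v (x' ^ 2 + x' * x + x ^ 2 + B * (x' + x) + C) = 1 := by
        have : x' ^ 2 + x' * x + x ^ 2 + B * (x' + x) + C
            = (3 * x ^ 2 + 2 * B * x + C) + (x' - x) * (x' + 2 * x + B) := by ring
        rw [this, Valuation.map_add_eq_of_lt_left (v := v), h]
        rw [h, map_mul]
        have hb : v (x' + 2 * x + B) ≤ 1 := by
          refine Valuation.map_add_le v (Valuation.map_add_le v hx' ?_) hB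
          rw [map_mul]
          calc v (2 : K) * v x ≤ 1 * 1 := mul_le_mul' e0_val_two_le hx
            _ = 1 := one_mul _
        calc v (x' - x) * v (x' + 2 * x + B) ≤ v (x' - x) * 1 := mul_le_mul_right hb _
          _ = v (x' - x) := mul_one _
          _ < 1 := hxx
      exact e0_one_lt_of_mul e hu hyy
  have hℓ2 : 1 < v (ℓ ^ 2) := by rw [map_pow]; exact one_lt_pow₀ hℓ (by norm_num)
  have e₃ : x₃ = ℓ ^ 2 + (-(B + x' + x)) := by linear_combination v₁
  have hr : v (-(B + x' + x)) ≤ 1 := by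
    rw [Valuation.map_neg]
    exact Valuation.map_add_le v (Valuation.map_add_le v hB hx') hx
  rw [e₃, Valuation.map_add_eq_of_lt_left (v := v) (lt_of_le_of_lt hr hℓ2)]
  exact hℓ2

end aux

/-- If `Q` has nonsingular reduction and `φ` is induced by an inertial `σ`, then `φ Q - Q ∈ E₁`. -/
theorem inertial_sub_mem_E1 (hW : Shape W) (hB : v W.a₂ ≤ 1) (hC : v W.a₄ ≤ 1)
    (h2 : v (2 : K) = 1)
    (σ : K →+* K) (hσ : IsInertial v σ) (hσB : σ W.a₂ = W.a₂) (hσC : σ W.a₄ = W.a₄)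
    (φ : W.toAffine.Point →+ W.toAffine.Point)
    (hφ : ∀ (x y : K) (h : W.toAffine.Nonsingular x y),
      ∃ h' : W.toAffine.Nonsingular (σ x) (σ y), φ (Point.some x y h) = Point.some (σ x) (σ y) h')
    (Q : W.toAffine.Point) (hQ : NonsingRed v Q) : InE1 v (φ Q - Q) := by
  have h20 : (2 : K) ≠ 0 := e0_two_ne_zero h2
  rcases Q with _ | ⟨x, y, h⟩
  · change InE1 v (φ 0 - 0)
    rw [map_zero, sub_zero]
    exact trivial
  obtain ⟨h', hφQ⟩ := hφ x y h
  rw [hφQ]
  rcases hQ with hQ | ⟨hx, hns⟩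
  · -- both points lie in `E₁`
    exact InE1_sub v hW hB hC h20 (P := Point.some (σ x) (σ y) h') (Q := Point.some x y h)
      (hσ.one_lt x hQ) hQ
  · have e := (hW.equation_iff x y).mp h.1
    have hy : v y ≤ 1 := e0_val_y_le hB hC hx e
    have hxx : v (σ x - x) < 1 := hσ.sub_lt x hx
    have hyy : v (σ y - y) < 1 := hσ.sub_lt y hy
    obtain ⟨hn, hneg⟩ := hW.neg_some h
    rw [sub_eq_add_neg, hneg]
    by_cases hne : σ x = x ∧ σ y = -(-y)
    · have hsum : Point.some (σ x) (σ y) h' + Point.some x (-y) hn = 0 :=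
        Point.add_of_Y_eq hne.1 (by rw [hW.negY]; exact hne.2)
      rw [hsum]
      exact trivial
    · obtain ⟨ℓ, n, x₃, y₃, h₃, hsum, l₁, l₂, l₃, v₁, v₂, v₃⟩ := hW.add_collinear h' hn hne
      rw [hsum]
      exact e0_core hB hC h2 hx hy hxx hyy hns l₁ l₂ v₁ v₂

/-- Good reduction: every point has nonsingular reduction. -/
theorem nonsingRed_of_good (hW : Shape W) (hB : v W.a₂ ≤ 1) (hC : v W.a₄ = 1)
    (hD : v (W.a₂ ^ 2 - 4 * W.a₄) = 1) (h2 : v (2 : K) = 1) (P : W.toAffine.Point) :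
    NonsingRed v P := by
  rcases P with _ | ⟨x, y, h⟩
  · exact trivial
  rw [NonsingRed_some]
  by_cases hx : 1 < v x
  · exact Or.inl hx
  rw [not_lt] at hx
  refine Or.inr ⟨hx, ?_⟩
  have e := (hW.equation_iff x y).mp h.1
  have hy : v y ≤ 1 := e0_val_y_le hB hC.le hx e
  by_cases hy1 : v y = 1
  · left
    rw [map_mul, h2, hy1, one_mul]
  right
  have hylt : v y < 1 := lt_of_le_of_ne hy hy1
  set B := W.a₂ with hBdef
  set C := W.a₄ with hCdef
  -- Bezout identity between `f` and `f'`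
  have hbez : ((-6 * B ^ 2 + 18 * C) * x + (-4 * B ^ 3 + 15 * B * C)) * y ^ 2
      + ((2 * B ^ 2 - 6 * C) * x ^ 2 + B * (2 * B ^ 2 - 7 * C) * x + C * (B ^ 2 - 4 * C))
        * (3 * x ^ 2 + 2 * B * x + C) = C ^ 2 * (B ^ 2 - 4 * C) := by
    rw [e]; ring
  have hR : v (C ^ 2 * (B ^ 2 - 4 * C)) = 1 := by
    rw [map_mul, map_pow, hC, hD]; simp
  have hnum : ∀ (k : ℕ), v ((k : ℕ) : K) ≤ 1 := fun k => e0_val_natCast_le k
  have hB' : v B ≤ 1 := hB
  have hC' : v C ≤ 1 := hC.le
  have hmul : ∀ {a b : K}, v a ≤ 1 → v b ≤ 1 → v (a * b) ≤ 1 := fun ha hb => by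
    rw [map_mul]
    calc _ ≤ (1 : Γ₀) * 1 := mul_le_mul' ha hb
      _ = 1 := one_mul _
  have hpow : ∀ {a : K} (k : ℕ), v a ≤ 1 → v (a ^ k) ≤ 1 := fun k ha => by
    rw [map_pow]; exact pow_le_one₀ zero_le ha
  have hadd : ∀ {a b : K}, v a ≤ 1 → v b ≤ 1 → v (a + b) ≤ 1 := fun ha hb =>
    Valuation.map_add_le v ha hb
  have hsub : ∀ {a b : K}, v a ≤ 1 → v b ≤ 1 → v (a - b) ≤ 1 := fun ha hb =>
    Valuation.map_sub_le v ha hb
  have hneg : ∀ {a : K}, v a ≤ 1 → v (-a) ≤ 1 := fun ha => by rwa [Valuation.map_neg]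
  have h6 : v (6 : K) ≤ 1 := by simpa using hnum 6
  have h18 : v (18 : K) ≤ 1 := by simpa using hnum 18
  have h4 : v (4 : K) ≤ 1 := by simpa using hnum 4
  have h15 : v (15 : K) ≤ 1 := by simpa using hnum 15
  have h7 : v (7 : K) ≤ 1 := by simpa using hnum 7
  have h3 : v (3 : K) ≤ 1 := by simpa using hnum 3
  have h2' : v (2 : K) ≤ 1 := h2.le
  have ha : v ((-6 * B ^ 2 + 18 * C) * x + (-4 * B ^ 3 + 15 * B * C)) ≤ 1 := by
    refine hadd (hmul (hadd (hmul (hneg h6) (hpow 2 hB')) (hmul h18 hC')) hx)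
      (hadd (hmul (hneg h4) (hpow 3 hB')) (hmul (hmul h15 hB') hC'))
  have hb : v ((2 * B ^ 2 - 6 * C) * x ^ 2 + B * (2 * B ^ 2 - 7 * C) * x + C * (B ^ 2 - 4 * C))
      ≤ 1 := by
    refine hadd (hadd (hmul (hsub (hmul h2' (hpow 2 hB')) (hmul h6 hC')) (hpow 2 hx))
      (hmul (hmul hB' (hsub (hmul h2' (hpow 2 hB')) (hmul h7 hC'))) hx))
      (hmul hC' (hsub (hpow 2 hB') (hmul h4 hC')))
  have hf' : v (3 * x ^ 2 + 2 * B * x + C) ≤ 1 :=
    hadd (hadd (hmul h3 (hpow 2 hx)) (hmul (hmul h2' hB') hx)) hC'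
  have hfirst : v (((-6 * B ^ 2 + 18 * C) * x + (-4 * B ^ 3 + 15 * B * C)) * y ^ 2) < 1 := by
    rw [map_mul, map_pow]
    calc _ ≤ 1 * v y ^ 2 := mul_le_mul_left ha _
      _ = v y ^ 2 := one_mul _
      _ < 1 := pow_lt_one₀ zero_le hylt (by norm_num)
  by_contra hcon
  have hlt : v (3 * x ^ 2 + 2 * B * x + C) < 1 := lt_of_le_of_ne hf' hcon
  have hsecond : v (((2 * B ^ 2 - 6 * C) * x ^ 2 + B * (2 * B ^ 2 - 7 * C) * x
      + C * (B ^ 2 - 4 * C)) * (3 * x ^ 2 + 2 * B * x + C)) < 1 := by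
    rw [map_mul]
    calc _ ≤ 1 * v (3 * x ^ 2 + 2 * B * x + C) := mul_le_mul_left hb _
      _ = v (3 * x ^ 2 + 2 * B * x + C) := one_mul _
      _ < 1 := hlt
  have := Valuation.map_add_lt v hfirst hsecond
  rw [hbez, hR] at this
  exact lt_irrefl _ this

/-- Multiplicative reduction with node at the origin: points of `E₀` have nonsingular reduction. -/
theorem nonsingRed_of_mult (hW : Shape W) (hB : v W.a₂ = 1) (hC : v W.a₄ < 1)
    (h2 : v (2 : K) = 1) (P : W.toAffine.Point) (hP : InE0 v P) :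
    NonsingRed v P := by
  rcases P with _ | ⟨x, y, h⟩
  · exact trivial
  rw [NonsingRed_some]
  have hP' : 1 ≤ v x := hP
  by_cases hx : 1 < v x
  · exact Or.inl hx
  rw [not_lt] at hx
  have hx1 : v x = 1 := le_antisymm hx hP'
  refine Or.inr ⟨hx, ?_⟩
  have e := (hW.equation_iff x y).mp h.1
  have hy : v y ≤ 1 := e0_val_y_le hB.le hC.le hx e
  by_cases hy1 : v y = 1
  · left
    rw [map_mul, h2, hy1, one_mul]
  right
  have hylt : v y < 1 := lt_of_le_of_ne hy hy1
  set B := W.a₂ with hBdef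
  set C := W.a₄ with hCdef
  -- `x + B` is small
  have h1 : x * (x + B) = y ^ 2 * x⁻¹ - C := by
    have hx0 : x ≠ 0 := by
      intro h0; rw [h0, map_zero] at hx1; exact zero_ne_one hx1
    rw [e]; field_simp; ring
  have h1v : v (x * (x + B)) < 1 := by
    rw [h1]
    apply Valuation.map_sub_lt v _ hC
    rw [map_mul, map_pow, map_inv₀, hx1, inv_one, mul_one]
    exact pow_lt_one₀ zero_le hylt (by norm_num)
  have hxB : v (x + B) < 1 := by
    rw [map_mul, hx1, one_mul] at h1v; exact h1v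
  have e' : 3 * x ^ 2 + 2 * B * x + C = -(B * x) + (3 * x * (x + B) + C) := by ring
  have hBx : v (-(B * x)) = 1 := by rw [Valuation.map_neg, map_mul, hB, hx1, one_mul]
  have hsmall : v (3 * x * (x + B) + C) < 1 := by
    apply Valuation.map_add_lt v _ hC
    rw [map_mul, map_mul, hx1, mul_one]
    calc v (3 : K) * v (x + B) ≤ 1 * v (x + B) := mul_le_mul_left e0_val_three_le _
      _ = v (x + B) := one_mul _
      _ < 1 := hxB
  rw [e', Valuation.map_add_eq_of_lt_left (v := v) (by rw [hBx]; exact hsmall), hBx]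

end Fermat.Agent.S05lib
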