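import Fermat.Agent.S05_Defs

/-!
# S05 helper library: the kernel of reduction `E₁`

For `y² = x³ + B x² + C x` with `v B, v C ≤ 1`:
`E₁ = {O} ∪ {(x, y) : 1 < v x}` is closed under addition and `z = x / y` is additive
up to higher order.  Consequently `E₁` has no `n`-torsion for `v n = 1`.
-/

set_option autoImplicit false
set_option linter.unusedSectionVars false
set_option linter.unusedVariables false

namespace Fermat.Agent.S05lib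

open WeierstrassCurve WeierstrassCurve.Affine

variable {K : Type*} [Field K]
  {Γ₀ : Type*} [LinearOrderedCommGroupWithZero Γ₀] (v : Valuation K Γ₀)

section core

variable {B C : K}

/-- Basic facts about an affine point with `1 < v x`. -/
theorem e1_pt (hB : v B ≤ 1) (hC : v C ≤ 1) {x y : K}
    (e : y ^ 2 = x ^ 3 + B * x ^ 2 + C * x) (hx : 1 < v x) :
    y ≠ 0 ∧ v (x / y) < 1 ∧ v (1 / y) = v (x / y) ^ 3 ∧ v x * v (x / y) ^ 2 = 1 ∧ x / y ≠ 0 := by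
  have hx0 : x ≠ 0 := by
    rintro rfl; simp at hx
  have hvx0 : v x ≠ 0 := (v.ne_zero_iff).mpr hx0
  have hinv : v x⁻¹ < 1 := (v.one_lt_val_iff hx0).mp hx
  have h1 : v (B / x) < 1 := by
    rw [div_eq_mul_inv, map_mul, mul_comm]
    exact mul_lt_one_of_lt_of_le hinv hB
  have h2 : v (C / x ^ 2) < 1 := by
    rw [div_eq_mul_inv, map_mul, map_inv₀, map_pow, ← inv_pow, ← map_inv₀, mul_comm]
    exact mul_lt_one_of_lt_of_le (pow_lt_one₀ zero_le hinv (by norm_num)) hC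
  have hη : v (1 + (B / x + C / x ^ 2)) = 1 := v.map_one_add_of_lt (v.map_add_lt h1 h2)
  have hy2 : y ^ 2 = x ^ 3 * (1 + (B / x + C / x ^ 2)) := by
    rw [e]; field_simp; ring
  have hvy2 : v y ^ 2 = v x ^ 3 := by
    rw [← map_pow, hy2, map_mul, hη, mul_one, map_pow]
  have hy0 : y ≠ 0 := by
    rintro rfl
    rw [map_zero, zero_pow (by norm_num)] at hvy2
    exact hvx0 (pow_eq_zero_iff (by norm_num) |>.mp hvy2.symm)
  have hvy0 : v y ≠ 0 := (v.ne_zero_iff).mpr hy0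
  have hz2 : v x * v (x / y) ^ 2 = 1 := by
    rw [map_div₀, div_pow, hvy2]
    field_simp
  have hz : v (x / y) < 1 := by
    by_contra hcon
    rw [not_lt] at hcon
    have : 1 ≤ v (x / y) ^ 2 := one_le_pow₀ hcon
    have h3 : v x ≤ v x * v (x / y) ^ 2 := le_mul_of_one_le_right' this
    rw [hz2] at h3
    exact absurd hx (not_lt.mpr h3)
  refine ⟨hy0, hz, ?_, hz2, div_ne_zero hx0 hy0⟩
  rw [map_div₀, map_div₀, map_one, div_pow, ← hvy2]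
  field_simp

/-- The curve equation in the chart `z = x / y`, `w = 1 / y`. -/
theorem zchart_eq {x y : K} (e : y ^ 2 = x ^ 3 + B * x ^ 2 + C * x) (hy : y ≠ 0) :
    1 / y = (x / y) ^ 3 + B * (x / y) ^ 2 * (1 / y) + C * (x / y) * (1 / y) ^ 2 := by
  field_simp
  linear_combination e

/-- Divided-difference identity in the `z`-chart. -/
theorem zchart_dd {z₁ w₁ z₂ w₂ : K}
    (e₁ : w₁ = z₁ ^ 3 + B * z₁ ^ 2 * w₁ + C * z₁ * w₁ ^ 2)
    (e₂ : w₂ = z₂ ^ 3 + B * z₂ ^ 2 * w₂ + C * z₂ * w₂ ^ 2) :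
    (w₁ - w₂) * (1 - B * z₁ ^ 2 - C * z₁ * (w₁ + w₂)) =
      (z₁ - z₂) * (z₁ ^ 2 + z₁ * z₂ + z₂ ^ 2 + B * (z₁ + z₂) * w₂ + C * w₂ ^ 2) := by
  linear_combination e₁ - e₂

/-- Consequences of Vieta's relations for the three points of a line. -/
theorem vieta_prod {x₁ x₂ x₃ ℓ n : K}
    (v₁ : x₁ + x₂ + x₃ = ℓ ^ 2 - B) (v₂ : x₁ * x₂ + x₁ * x₃ + x₂ * x₃ = C - 2 * ℓ * n)
    (v₃ : x₁ * x₂ * x₃ = n ^ 2) :
    (ℓ * x₁ + n) * (ℓ * x₂ + n) * (ℓ * x₃ + n) = n * (n ^ 2 - B * ℓ * n + C * ℓ ^ 2) ∧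
    x₁ * (ℓ * x₂ + n) * (ℓ * x₃ + n) + (ℓ * x₁ + n) * x₂ * (ℓ * x₃ + n)
      + (ℓ * x₁ + n) * (ℓ * x₂ + n) * x₃ = n * (2 * C * ℓ - B * n) := by
  constructor
  · linear_combination ℓ ^ 3 * v₃ + ℓ ^ 2 * n * v₂ + ℓ * n ^ 2 * v₁
  · linear_combination 3 * ℓ ^ 2 * v₃ + 2 * ℓ * n * v₂ + n ^ 2 * v₁

/-- Bounds for the line `1 = n w + ℓ z` through two `z`-chart points. -/
theorem zchart_line (hB : v B ≤ 1) (hC : v C ≤ 1) {z₁ w₁ z₂ w₂ ℓ n : K}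
    (hz₁ : v z₁ < 1) (hz₂ : v z₂ < 1) (hw₁ : v w₁ = v z₁ ^ 3) (hw₂ : v w₂ = v z₂ ^ 3)
    (hz₂0 : z₂ ≠ 0)
    (L₂ : 1 = n * w₂ + ℓ * z₂)
    (hD : ℓ * (1 - B * z₁ ^ 2 - C * z₁ * (w₁ + w₂)) +
      n * (z₁ ^ 2 + z₁ * z₂ + z₂ ^ 2 + B * (z₁ + z₂) * w₂ + C * w₂ ^ 2) = 0) :
    n ≠ 0 ∧ v (1 / n) < v z₂ ∧ v (ℓ / n) < 1 := by
  have hvz₂0 : v z₂ ≠ 0 := (v.ne_zero_iff).mpr hz₂0
  have hw₁' : v w₁ < 1 := by rw [hw₁]; exact pow_lt_one₀ zero_le hz₁ (by norm_num)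
  have hw₂' : v w₂ < 1 := by rw [hw₂]; exact pow_lt_one₀ zero_le hz₂ (by norm_num)
  have hw₂'' : v w₂ < v z₂ := by
    rw [hw₂]
    calc v z₂ ^ 3 = v z₂ ^ 2 * v z₂ := pow_succ _ 2
      _ < 1 * v z₂ := by
        have : v z₂ ^ 2 < 1 := pow_lt_one₀ zero_le hz₂ (by norm_num)
        exact mul_lt_mul_of_pos_right this (zero_lt_iff.mpr hvz₂0)
      _ = v z₂ := one_mul _
  set U := 1 - B * z₁ ^ 2 - C * z₁ * (w₁ + w₂) with hUdef
  set V := z₁ ^ 2 + z₁ * z₂ + z₂ ^ 2 + B * (z₁ + z₂) * w₂ + C * w₂ ^ 2 with hVdef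
  have hU : v U = 1 := by
    have : U = 1 - (B * z₁ ^ 2 + C * z₁ * (w₁ + w₂)) := by rw [hUdef]; ring
    rw [this]
    apply v.map_one_sub_of_lt
    apply v.map_add_lt
    · rw [map_mul, map_pow, mul_comm]
      exact mul_lt_one_of_lt_of_le (pow_lt_one₀ zero_le hz₁ (by norm_num)) hB
    · rw [map_mul, map_mul, mul_comm]
      refine mul_lt_one_of_lt_of_le (v.map_add_lt hw₁' hw₂') ?_
      exact mul_le_one' hC hz₁.le
  have hV : v V < 1 := by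
    rw [hVdef]
    refine v.map_add_lt (v.map_add_lt (v.map_add_lt (v.map_add_lt ?_ ?_) ?_) ?_) ?_
    · rw [map_pow]; exact pow_lt_one₀ zero_le hz₁ (by norm_num)
    · rw [map_mul]; exact mul_lt_one_of_lt_of_le hz₁ hz₂.le
    · rw [map_pow]; exact pow_lt_one₀ zero_le hz₂ (by norm_num)
    · rw [map_mul, map_mul, mul_comm]
      exact mul_lt_one_of_lt_of_le hw₂' (mul_le_one' hB (v.map_add_lt hz₁ hz₂).le)
    · rw [map_mul, map_pow, mul_comm]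
      exact mul_lt_one_of_lt_of_le (pow_lt_one₀ zero_le hw₂' (by norm_num)) hC
  have hU0 : U ≠ 0 := by
    intro h; rw [h, map_zero] at hU; exact zero_ne_one hU
  have key : U = n * (U * w₂ - z₂ * V) := by linear_combination U * L₂ + z₂ * hD
  have hn : n ≠ 0 := by
    rintro rfl; rw [zero_mul] at key; exact hU0 key
  have h1n : 1 / n = (U * w₂ - z₂ * V) / U := by
    field_simp
    linear_combination key
  refine ⟨hn, ?_, ?_⟩
  · rw [h1n, map_div₀, hU, div_one]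
    apply v.map_sub_lt
    · rw [map_mul, hU, one_mul]; exact hw₂''
    · rw [map_mul]
      calc v z₂ * v V < v z₂ * 1 := mul_lt_mul_of_pos_left hV (zero_lt_iff.mpr hvz₂0)
        _ = v z₂ := mul_one _
  · have : ℓ / n = -V / U := by
      field_simp
      linear_combination hD
    rw [this, map_div₀, hU, div_one, Valuation.map_neg]
    exact hV

/-- The relation `ℓ U + n V = 0` between the affine line `y = ℓ x + n` and the `z`-chart. -/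
theorem zchart_hD (hB : v B ≤ 1) (hC : v C ≤ 1) (h2 : (2 : K) ≠ 0)
    {x₁ y₁ x₂ y₂ x₃ ℓ n : K}
    (e₁ : y₁ ^ 2 = x₁ ^ 3 + B * x₁ ^ 2 + C * x₁) (e₂ : y₂ ^ 2 = x₂ ^ 3 + B * x₂ ^ 2 + C * x₂)
    (l₁ : y₁ = ℓ * x₁ + n) (l₂ : y₂ = ℓ * x₂ + n)
    (v₁ : x₁ + x₂ + x₃ = ℓ ^ 2 - B) (v₂ : x₁ * x₂ + x₁ * x₃ + x₂ * x₃ = C - 2 * ℓ * n)
    (h₁ : 1 < v x₁) (h₂ : 1 < v x₂) :
    ℓ * (1 - B * (x₁ / y₁) ^ 2 - C * (x₁ / y₁) * (1 / y₁ + 1 / y₂)) +
      n * ((x₁ / y₁) ^ 2 + (x₁ / y₁) * (x₂ / y₂) + (x₂ / y₂) ^ 2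
        + B * (x₁ / y₁ + x₂ / y₂) * (1 / y₂) + C * (1 / y₂) ^ 2) = 0 := by
  obtain ⟨hy₁, hz₁, hw₁, -, hz₁0⟩ := e1_pt v hB hC e₁ h₁
  obtain ⟨hy₂, hz₂, hw₂, -, hz₂0⟩ := e1_pt v hB hC e₂ h₂
  have Z₁ := zchart_eq e₁ hy₁
  have Z₂ := zchart_eq e₂ hy₂
  have dd := zchart_dd Z₁ Z₂
  have L₁ : 1 = n * (1 / y₁) + ℓ * (x₁ / y₁) := by
    field_simp; linear_combination l₁
  have L₂ : 1 = n * (1 / y₂) + ℓ * (x₂ / y₂) := by
    field_simp; linear_combination l₂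
  by_cases hx : x₁ = x₂
  · subst hx
    have hy : y₁ = y₂ := by rw [l₁, l₂]
    subst hy
    have ht : 2 * ℓ * y₁ = 3 * x₁ ^ 2 + 2 * B * x₁ + C := by
      linear_combination (-2 * x₁) * v₁ + v₂ + 2 * ℓ * l₁
    have h2y : 2 * y₁ ≠ 0 := mul_ne_zero h2 hy₁
    have hn : 2 * y₁ * n = 2 * y₁ ^ 2 - (3 * x₁ ^ 2 + 2 * B * x₁ + C) * x₁ := by
      linear_combination (-2 * y₁) * l₁ - x₁ * ht
    have key : ℓ * (y₁ ^ 2 - B * x₁ ^ 2 - 2 * C * x₁) + n * (3 * x₁ ^ 2 + 2 * B * x₁ + C) = 0 := by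
      apply mul_left_cancel₀ h2y
      linear_combination (2 * y₁ * ℓ + 2 * (3 * x₁ ^ 2 + 2 * B * x₁ + C)) * e₁
        + (x₁ ^ 3 - C * x₁) * ht + (3 * x₁ ^ 2 + 2 * B * x₁ + C) * hn
    have : ℓ * (1 - B * (x₁ / y₁) ^ 2 - C * (x₁ / y₁) * (1 / y₁ + 1 / y₁)) +
        n * ((x₁ / y₁) ^ 2 + (x₁ / y₁) * (x₁ / y₁) + (x₁ / y₁) ^ 2
          + B * (x₁ / y₁ + x₁ / y₁) * (1 / y₁) + C * (1 / y₁) ^ 2)
        = (ℓ * (y₁ ^ 2 - B * x₁ ^ 2 - 2 * C * x₁) + n * (3 * x₁ ^ 2 + 2 * B * x₁ + C)) / y₁ ^ 2 := by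
      field_simp
      ring
    rw [this, key, zero_div]
  · have hU : v (1 - B * (x₁ / y₁) ^ 2 - C * (x₁ / y₁) * (1 / y₁ + 1 / y₂)) = 1 := by
      have hw₁' : v (1 / y₁) < 1 := by rw [hw₁]; exact pow_lt_one₀ zero_le hz₁ (by norm_num)
      have hw₂' : v (1 / y₂) < 1 := by rw [hw₂]; exact pow_lt_one₀ zero_le hz₂ (by norm_num)
      have : 1 - B * (x₁ / y₁) ^ 2 - C * (x₁ / y₁) * (1 / y₁ + 1 / y₂)
          = 1 - (B * (x₁ / y₁) ^ 2 + C * (x₁ / y₁) * (1 / y₁ + 1 / y₂)) := by ring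
      rw [this]
      apply v.map_one_sub_of_lt
      apply v.map_add_lt
      · rw [map_mul, map_pow, mul_comm]
        exact mul_lt_one_of_lt_of_le (pow_lt_one₀ zero_le hz₁ (by norm_num)) hB
      · rw [map_mul, map_mul, mul_comm]
        refine mul_lt_one_of_lt_of_le (v.map_add_lt hw₁' hw₂') ?_
        exact mul_le_one' hC hz₁.le
    have hU0 : (1 - B * (x₁ / y₁) ^ 2 - C * (x₁ / y₁) * (1 / y₁ + 1 / y₂)) ≠ 0 := by
      intro h; rw [h, map_zero] at hU; exact zero_ne_one hU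
    have hz : x₁ / y₁ - x₂ / y₂ ≠ 0 := by
      intro hz
      rw [hz, zero_mul] at dd
      have hw : 1 / y₁ - 1 / y₂ = 0 := by
        rcases mul_eq_zero.mp dd with h | h
        · exact h
        · exact absurd h hU0
      have hyy : y₁ = y₂ := by
        have := sub_eq_zero.mp hw
        field_simp at this
        exact this.symm
      apply hx
      have := sub_eq_zero.mp hz
      rw [hyy] at this
      field_simp at this
      exact this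
    apply mul_left_cancel₀ hz
    linear_combination
      (1 - B * (x₁ / y₁) ^ 2 - C * (x₁ / y₁) * (1 / y₁ + 1 / y₂)) * (L₂ - L₁) - n * dd

/-- Core of the `E₁` theory: the sum of two points of `E₁` (when affine) lies in `E₁`, and
`z = x / y` is additive up to an error smaller than `z₂`. -/
theorem e1_core (hB : v B ≤ 1) (hC : v C ≤ 1) (h2 : (2 : K) ≠ 0)
    {x₁ y₁ x₂ y₂ x₃ y₃ ℓ n : K}
    (e₁ : y₁ ^ 2 = x₁ ^ 3 + B * x₁ ^ 2 + C * x₁) (e₂ : y₂ ^ 2 = x₂ ^ 3 + B * x₂ ^ 2 + C * x₂)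
    (e₃ : y₃ ^ 2 = x₃ ^ 3 + B * x₃ ^ 2 + C * x₃)
    (l₁ : y₁ = ℓ * x₁ + n) (l₂ : y₂ = ℓ * x₂ + n) (l₃ : -y₃ = ℓ * x₃ + n)
    (v₁ : x₁ + x₂ + x₃ = ℓ ^ 2 - B) (v₂ : x₁ * x₂ + x₁ * x₃ + x₂ * x₃ = C - 2 * ℓ * n)
    (v₃ : x₁ * x₂ * x₃ = n ^ 2)
    (h₁ : 1 < v x₁) (h₂ : 1 < v x₂) :
    1 < v x₃ ∧ v (x₃ / y₃ - x₁ / y₁ - x₂ / y₂) < v (x₂ / y₂) := by
  obtain ⟨hy₁, hz₁, hw₁, -, hz₁0⟩ := e1_pt v hB hC e₁ h₁
  obtain ⟨hy₂, hz₂, hw₂, -, hz₂0⟩ := e1_pt v hB hC e₂ h₂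
  have hD := zchart_hD v hB hC h2 e₁ e₂ l₁ l₂ v₁ v₂ h₁ h₂
  have L₂ : 1 = n * (1 / y₂) + ℓ * (x₂ / y₂) := by
    field_simp; linear_combination l₂
  obtain ⟨hn, hnu, hlam⟩ := zchart_line v hB hC hz₁ hz₂ hw₁ hw₂ hz₂0 L₂ hD
  obtain ⟨I₁, I₂⟩ := vieta_prod v₁ v₂ v₃
  rw [← l₁, ← l₂, ← l₃] at I₁ I₂
  -- the unit `1 - B λ + C λ²`
  have hu : v (1 - (B * (ℓ / n) - C * (ℓ / n) ^ 2)) = 1 := by
    apply v.map_one_sub_of_lt
    apply v.map_sub_lt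
    · rw [map_mul, mul_comm]; exact mul_lt_one_of_lt_of_le hlam hB
    · rw [map_mul, map_pow, mul_comm]
      exact mul_lt_one_of_lt_of_le (pow_lt_one₀ zero_le hlam (by norm_num)) hC
  have hu0 : (1 - (B * (ℓ / n) - C * (ℓ / n) ^ 2)) ≠ 0 := by
    intro h; rw [h, map_zero] at hu; exact zero_ne_one hu
  have hq : n ^ 2 - B * ℓ * n + C * ℓ ^ 2 = n ^ 2 * (1 - (B * (ℓ / n) - C * (ℓ / n) ^ 2)) := by
    field_simp
    ring
  have hq0 : n ^ 2 - B * ℓ * n + C * ℓ ^ 2 ≠ 0 := by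
    rw [hq]; exact mul_ne_zero (pow_ne_zero 2 hn) hu0
  have hy₃ : y₃ ≠ 0 := by
    rintro rfl
    rw [neg_zero, mul_zero] at I₁
    exact (mul_ne_zero hn hq0) I₁.symm
  -- the sum of the `z`'s
  have hsum : x₃ / y₃ - x₁ / y₁ - x₂ / y₂ =
      (1 / n) * ((B - 2 * C * (ℓ / n)) / (1 - (B * (ℓ / n) - C * (ℓ / n) ^ 2))) := by
    have e : x₃ / y₃ - x₁ / y₁ - x₂ / y₂ =
        -(x₁ * y₂ * -y₃ + y₁ * x₂ * -y₃ + y₁ * y₂ * x₃) / (y₁ * y₂ * -y₃) := by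
      field_simp
      ring
    rw [e, I₁, I₂, hq]
    field_simp
    ring
  have hv2 : v (2 : K) ≤ 1 := by
    have : (2 : K) = 1 + 1 := by norm_num
    rw [this]; exact v.map_add_le (by simp) (by simp)
  have hnum : v (B - 2 * C * (ℓ / n)) ≤ 1 := by
    apply v.map_sub_le hB
    rw [map_mul, map_mul]
    exact mul_le_one' (mul_le_one' hv2 hC) hlam.le
  have hbound : v (x₃ / y₃ - x₁ / y₁ - x₂ / y₂) < v (x₂ / y₂) := by
    have hq' : v ((B - 2 * C * (ℓ / n)) / (1 - (B * (ℓ / n) - C * (ℓ / n) ^ 2)))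
        = v (B - 2 * C * (ℓ / n)) := by rw [map_div₀, hu, div_one]
    rw [hsum, map_mul, hq']
    calc v (1 / n) * v (B - 2 * C * (ℓ / n)) ≤ v (1 / n) * 1 := by gcongr
      _ = v (1 / n) := mul_one _
      _ < v (x₂ / y₂) := hnu
  refine ⟨?_, hbound⟩
  -- `z₃` and `w₃` are small
  have hz₃ : v (x₃ / y₃) < 1 := by
    have : x₃ / y₃ = (x₃ / y₃ - x₁ / y₁ - x₂ / y₂) + (x₁ / y₁ + x₂ / y₂) := by ring
    rw [this]
    exact v.map_add_lt (hbound.trans hz₂) (v.map_add_lt hz₁ hz₂)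
  have hw₃eq : 1 / y₃ = -(1 / n) - (ℓ / n) * (x₃ / y₃) := by
    field_simp
    linear_combination -l₃
  have hw₃ : v (1 / y₃) < 1 := by
    rw [hw₃eq]
    apply v.map_sub_lt
    · rw [Valuation.map_neg]; exact hnu.trans hz₂
    · rw [map_mul]; exact mul_lt_one_of_lt_of_le hlam hz₃.le
  have Z₃ := zchart_eq e₃ hy₃
  have hu₃ : v (1 - (B * (x₃ / y₃) ^ 2 + C * (x₃ / y₃) * (1 / y₃))) = 1 := by
    apply v.map_one_sub_of_lt
    apply v.map_add_lt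
    · rw [map_mul, map_pow, mul_comm]
      exact mul_lt_one_of_lt_of_le (pow_lt_one₀ zero_le hz₃ (by norm_num)) hB
    · rw [map_mul, map_mul, mul_comm]
      exact mul_lt_one_of_lt_of_le hw₃ (mul_le_one' hC hz₃.le)
  have hw₃' : v (1 / y₃) = v (x₃ / y₃) ^ 3 := by
    have : (1 / y₃) * (1 - (B * (x₃ / y₃) ^ 2 + C * (x₃ / y₃) * (1 / y₃))) = (x₃ / y₃) ^ 3 := by
      linear_combination Z₃
    rw [← map_pow, ← this, map_mul, hu₃, mul_one]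
  have hvy₃ : v y₃ ≠ 0 := (v.ne_zero_iff).mpr hy₃
  have hz₃0 : v (x₃ / y₃) ≠ 0 := by
    intro h
    rw [h, zero_pow (by norm_num), map_div₀, map_one] at hw₃'
    exact (div_ne_zero one_ne_zero hvy₃) hw₃'
  have hx₃ : x₃ = (x₃ / y₃) / (1 / y₃) := by field_simp
  rw [hx₃, map_div₀, hw₃']
  have hz₃pos : 0 < v (x₃ / y₃) := zero_lt_iff.mpr hz₃0
  rw [lt_div_iff₀ (pow_pos hz₃pos 3), one_mul]
  calc v (x₃ / y₃) ^ 3 = v (x₃ / y₃) ^ 2 * v (x₃ / y₃) := pow_succ _ 2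
    _ < 1 * v (x₃ / y₃) :=
        mul_lt_mul_of_pos_right (pow_lt_one₀ zero_le hz₃ (by norm_num)) hz₃pos
    _ = v (x₃ / y₃) := one_mul _

end core

/-! ## Point-level statements (API used by the other S05 files) -/

section points

variable [DecidableEq K] {W : WeierstrassCurve K}

theorem InE1_neg (hW : Shape W) (P : W.toAffine.Point) : InE1 v (-P) ↔ InE1 v P := by
  rcases P with _ | ⟨x, y, h⟩
  · exact Iff.rfl
  · obtain ⟨h', e⟩ := hW.neg_some h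
    rw [e]; exact Iff.rfl

theorem zfun_neg (hW : Shape W) (P : W.toAffine.Point) : zfun (-P) = -zfun P := by
  rcases P with _ | ⟨x, y, h⟩
  · show zfun (-(0 : W.toAffine.Point)) = -zfun (0 : W.toAffine.Point)
    rw [Point.neg_zero]; simp
  · obtain ⟨h', e⟩ := hW.neg_some h
    rw [e]; simp [zfun, div_neg]

/-- `E₁` is closed under addition, and `z` is additive up to an error smaller than `z Q`. -/
theorem InE1_add_aux (hW : Shape W) (hB : v W.a₂ ≤ 1) (hC : v W.a₄ ≤ 1) (h2 : (2 : K) ≠ 0)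
    {P Q : W.toAffine.Point} (hP : InE1 v P) (hQ : InE1 v Q) :
    InE1 v (P + Q) ∧ (Q ≠ 0 → v (zfun (P + Q) - zfun P - zfun Q) < v (zfun Q)) := by
  rcases P with _ | ⟨x₁, y₁, h₁⟩
  · change InE1 v ((0 : W.toAffine.Point) + Q) ∧
      (Q ≠ 0 → v (zfun ((0 : W.toAffine.Point) + Q) - zfun (0 : W.toAffine.Point) - zfun Q)
        < v (zfun Q))
    rw [zero_add]
    refine ⟨hQ, fun hQ0 => ?_⟩
    rcases Q with _ | ⟨x₂, y₂, h₂⟩
    · exact absurd rfl hQ0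
    · have e₂ := (hW.equation_iff x₂ y₂).mp h₂.1
      obtain ⟨-, -, -, -, hz0⟩ := e1_pt v hB hC e₂ hQ
      simp only [zfun_zero, zfun_some, sub_zero, sub_self, map_zero]
      exact zero_lt_iff.mpr ((v.ne_zero_iff).mpr hz0)
  rcases Q with _ | ⟨x₂, y₂, h₂⟩
  · change InE1 v (Point.some x₁ y₁ h₁ + (0 : W.toAffine.Point)) ∧ _
    rw [add_zero]
    exact ⟨hP, fun h => absurd rfl h⟩
  have e₁ := (hW.equation_iff x₁ y₁).mp h₁.1
  have e₂ := (hW.equation_iff x₂ y₂).mp h₂.1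
  have hP' : 1 < v x₁ := hP
  have hQ' : 1 < v x₂ := hQ
  obtain ⟨hy₂, -, -, -, hz0⟩ := e1_pt v hB hC e₂ hQ'
  by_cases hne : x₁ = x₂ ∧ y₁ = -y₂
  · have hsum : Point.some x₁ y₁ h₁ + Point.some x₂ y₂ h₂ = 0 :=
      Point.add_of_Y_eq hne.1 (by rw [hW.negY]; exact hne.2)
    rw [hsum]
    refine ⟨trivial, fun _ => ?_⟩
    have : zfun (0 : W.toAffine.Point) - zfun (Point.some x₁ y₁ h₁) - zfun (Point.some x₂ y₂ h₂)
        = 0 := by
      simp only [zfun_zero, zfun_some]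
      rw [hne.1, hne.2]
      field_simp
      ring
    rw [this, map_zero]
    exact zero_lt_iff.mpr ((v.ne_zero_iff).mpr hz0)
  · obtain ⟨ℓ, n, x₃, y₃, h₃, hsum, l₁, l₂, l₃, v₁, v₂, v₃⟩ := hW.add_collinear h₁ h₂ hne
    have e₃ := (hW.equation_iff x₃ y₃).mp h₃.1
    obtain ⟨hx₃, hb⟩ := e1_core v hB hC h2 e₁ e₂ e₃ l₁ l₂ l₃ v₁ v₂ v₃ hP' hQ'
    rw [hsum]
    exact ⟨hx₃, fun _ => hb⟩

theorem InE1_add (hW : Shape W) (hB : v W.a₂ ≤ 1) (hC : v W.a₄ ≤ 1) (h2 : (2 : K) ≠ 0)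
    {P Q : W.toAffine.Point} (hP : InE1 v P) (hQ : InE1 v Q) : InE1 v (P + Q) :=
  (InE1_add_aux v hW hB hC h2 hP hQ).1

theorem InE1_sub (hW : Shape W) (hB : v W.a₂ ≤ 1) (hC : v W.a₄ ≤ 1) (h2 : (2 : K) ≠ 0)
    {P Q : W.toAffine.Point} (hP : InE1 v P) (hQ : InE1 v Q) : InE1 v (P - Q) := by
  rw [sub_eq_add_neg]
  exact InE1_add v hW hB hC h2 hP ((InE1_neg v hW Q).mpr hQ)

/-- `E₁` has no `n`-torsion when `n` is a unit for `v`. -/
theorem E1_torsion_free (hW : Shape W) (hB : v W.a₂ ≤ 1) (hC : v W.a₄ ≤ 1) (h2 : (2 : K) ≠ 0)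
    {n : ℕ} (hn : v (n : K) = 1) {P : W.toAffine.Point} (hP : InE1 v P) (h : n • P = 0) :
    P = 0 := by
  by_contra hP0
  have hz0 : zfun P ≠ 0 := by
    rcases P with _ | ⟨x, y, hxy⟩
    · exact absurd rfl hP0
    · have e := (hW.equation_iff x y).mp hxy.1
      obtain ⟨-, -, -, -, hz0⟩ := e1_pt v hB hC e hP
      exact hz0
  have hvz0 : 0 < v (zfun P) := zero_lt_iff.mpr ((v.ne_zero_iff).mpr hz0)
  have key : ∀ m : ℕ, InE1 v (m • P) ∧ v (zfun (m • P) - m * zfun P) < v (zfun P) := by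
    intro m
    induction m with
    | zero =>
      rw [zero_smul]
      refine ⟨trivial, ?_⟩
      simp only [zfun_zero, Nat.cast_zero, zero_mul, sub_self, map_zero]
      exact hvz0
    | succ m ih =>
      obtain ⟨ih₁, ih₂⟩ := ih
      rw [succ_nsmul]
      obtain ⟨h₁, h₂⟩ := InE1_add_aux v hW hB hC h2 ih₁ hP
      refine ⟨h₁, ?_⟩
      have : zfun (m • P + P) - ((m + 1 : ℕ) : K) * zfun P
          = (zfun (m • P + P) - zfun (m • P) - zfun P) + (zfun (m • P) - m * zfun P) := by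
        push_cast; ring
      rw [this]
      exact v.map_add_lt (h₂ hP0) ih₂
  have := (key n).2
  rw [h] at this
  simp only [zfun_zero, zero_sub, Valuation.map_neg, map_mul, hn, one_mul] at this
  exact lt_irrefl _ this

end points

end Fermat.Agent.S05lib
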