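import Fermat.Agent.S05_Defs
import Mathlib.FieldTheory.IsAlgClosed.Basic

/-!
# S05 helper library: inertia-fixed points in a given component (multiplicative reduction)
(owner: helper17)
-/

set_option autoImplicit false
set_option linter.unusedSectionVars false
set_option linter.unusedVariables false

namespace Fermat.Agent.S05lib

open WeierstrassCurve WeierstrassCurve.Affine

variable {K : Type*} [Field K] [DecidableEq K]
  {Γ₀ : Type*} [LinearOrderedCommGroupWithZero Γ₀] (v : Valuation K Γ₀)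
  {W : WeierstrassCurve K}

/-- `(0, 0)` is a nonsingular point when `C ≠ 0`. -/
theorem fixed_nonsingular_zero (hW : Shape W) (hC0 : W.a₄ ≠ 0) :
    W.toAffine.Nonsingular 0 0 := by
  rw [Affine.nonsingular_zero]
  exact ⟨hW.a₆, Or.inr hC0⟩

/-- In a linearly ordered commutative group with zero: `c * a ^ 2 = b ^ 2`, `a ≤ b`, `a ≠ 0`
give `1 ≤ c`. -/
theorem fixed_one_le_of_mul_sq {a b c : Γ₀} (h : c * a ^ 2 = b ^ 2) (hab : a ≤ b)
    (ha : a ≠ 0) : 1 ≤ c := by
  by_contra hc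
  rw [not_le] at hc
  have ha2 : 0 < a ^ 2 := by
    have : a ^ 2 ≠ 0 := pow_ne_zero 2 ha
    exact zero_lt_iff.mpr this
  have h1 : c * a ^ 2 < 1 * a ^ 2 := by
    exact mul_lt_mul_of_pos_right hc ha2
  rw [one_mul, h] at h1
  have h2 : a ^ 2 ≤ b ^ 2 := pow_le_pow_left' hab 2
  exact absurd h1 (not_lt.mpr h2)

/-- Points with `v x ≤ v C` lie in `T₀ + E₀`, `T₀ = (0, 0)`. -/
theorem sub_T0_mem_E0 (hW : Shape W) (hC0 : W.a₄ ≠ 0) {x y : K}
    (h : W.toAffine.Nonsingular x y) (hx : v x ≤ v W.a₄) :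
    ∃ h0 : W.toAffine.Nonsingular 0 0, InE0 v (Point.some x y h - Point.some 0 0 h0) := by
  have h0 : W.toAffine.Nonsingular 0 0 := fixed_nonsingular_zero hW hC0
  refine ⟨h0, ?_⟩
  have e := (hW.equation_iff x y).mp h.1
  by_cases hx0 : x = 0
  · subst hx0
    have hy : y = 0 := by
      have : y ^ 2 = 0 := by rw [e]; ring
      exact pow_eq_zero_iff (two_ne_zero) |>.mp this
    subst hy
    rw [sub_self]
    exact InE0_zero v
  · obtain ⟨h0', hneg⟩ := hW.neg_some h0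
    rw [sub_eq_add_neg, hneg]
    have hne : ¬(x = 0 ∧ y = -(-0 : K)) := fun hh => hx0 hh.1
    obtain ⟨ℓ, n, x₃, y₃, h₃, hadd, hy1, hy2, -, -, hs2, -⟩ := hW.add_collinear h h0' hne
    rw [hadd, InE0_some]
    have hn : n = 0 := by
      have := hy2
      simp only [mul_zero, zero_add, neg_zero] at this
      exact this.symm
    have hxx3 : x * x₃ = W.a₄ := by
      rw [hn] at hs2
      linear_combination hs2
    have hv : v x * v x₃ = v W.a₄ := by rw [← map_mul, hxx3]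
    have hvx : v x ≠ 0 := (Valuation.ne_zero_iff v).mpr hx0
    by_contra hc
    rw [not_le] at hc
    have : v x * v x₃ < v x * 1 := by
      exact mul_lt_mul_of_pos_left hc (zero_lt_iff.mpr hvx)
    rw [mul_one, hv] at this
    exact absurd this (not_lt.mpr hx)

/-- An element whose square has valuation `1` has valuation `1`. -/
theorem fixed_val_eq_one_of_sq {t : K} (h : v (t ^ 2) = 1) : v t = 1 := by
  rw [map_pow] at h
  rcases lt_trichotomy (v t) 1 with h1 | h1 | h1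
  · exfalso
    have : v t ^ 2 < 1 := pow_lt_one₀ zero_le h1 two_ne_zero
    rw [h] at this
    exact lt_irrefl _ this
  · exact h1
  · exfalso
    have : 1 < v t ^ 2 := one_lt_pow₀ h1 two_ne_zero
    rw [h] at this
    exact lt_irrefl _ this

/-- If `v C < v x < 1` and `ρ` is a `σ`-fixed element with `v ρ = v x`, there is a `σ`-fixed point
`R = (ρ, y')` with `P - R ∈ E₀`.  (`y' = ρ τ`, `τ² = ρ + B + C / ρ`, sign of `τ` matching `y / x`.) -/
theorem exists_fixed_same_comp [IsAlgClosed K] (hW : Shape W) (hB : v W.a₂ = 1)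
    (hC : v W.a₄ < 1) (hC0 : W.a₄ ≠ 0) (h2 : v (2 : K) = 1)
    (σ : K →+* K) (hσ : IsInertial v σ) (hσB : σ W.a₂ = W.a₂) (hσC : σ W.a₄ = W.a₄)
    {x y : K} (h : W.toAffine.Nonsingular x y) (hx : v W.a₄ < v x) (hx1 : v x < 1)
    {ρ : K} (hρ : v ρ = v x) (hσρ : σ ρ = ρ) :
    ∃ (y' : K) (h' : W.toAffine.Nonsingular ρ y'), σ y' = y' ∧
      InE0 v (Point.some x y h - Point.some ρ y' h') := by
  have e := (hW.equation_iff x y).mp h.1
  have hvx0 : v x ≠ 0 := fun h0 => by rw [h0] at hx; exact not_lt_zero hx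
  have hx0 : x ≠ 0 := (Valuation.ne_zero_iff v).mp hvx0
  have hρ0 : ρ ≠ 0 := (Valuation.ne_zero_iff v).mp (hρ ▸ hvx0)
  -- key valuation computation
  have key : ∀ z : K, v z = v x → v (z + W.a₂ + W.a₄ / z) = 1 := by
    intro z hz
    have h1 : v (W.a₄ / z) < 1 := by
      rw [map_div₀, hz]
      exact (div_lt_one₀ (zero_lt_iff.mpr hvx0)).mpr hx
    have h3 : v (z + W.a₄ / z) < 1 :=
      lt_of_le_of_lt (v.map_add _ _) (max_lt (hz ▸ hx1) h1)
    have e1 : z + W.a₂ + W.a₄ / z = W.a₂ + (z + W.a₄ / z) := by ring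
    rw [e1, Valuation.map_add_eq_of_lt_left v (by rw [hB]; exact h3)]
    exact hB
  set t := y / x with ht
  have hyxt : y = x * t := by rw [ht]; field_simp
  have ht2 : t ^ 2 = x + W.a₂ + W.a₄ / x := by
    rw [ht]
    field_simp
    linear_combination e
  have hvt : v t = 1 := fixed_val_eq_one_of_sq v (by rw [ht2]; exact key x rfl)
  obtain ⟨τ₀, hτ₀⟩ := IsAlgClosed.exists_pow_nat_eq (ρ + W.a₂ + W.a₄ / ρ) zero_lt_two
  have hvτ₀ : v τ₀ = 1 := fixed_val_eq_one_of_sq v (by rw [hτ₀]; exact key ρ hρ)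
  -- choose the sign of the square root
  obtain ⟨τ, hτ, hvtτ⟩ : ∃ τ, τ ^ 2 = ρ + W.a₂ + W.a₄ / ρ ∧ v (t + τ) = 1 := by
    by_cases hc : v (t + τ₀) = 1
    · exact ⟨τ₀, hτ₀, hc⟩
    · refine ⟨-τ₀, by rw [neg_sq]; exact hτ₀, ?_⟩
      have hle : v (t + τ₀) ≤ 1 := by
        refine le_trans (v.map_add _ _) ?_
        rw [hvt, hvτ₀, max_self]
      have hlt : v (t + τ₀) < 1 := lt_of_le_of_ne hle hc
      have e1 : t + -τ₀ = 2 * t + -(t + τ₀) := by ring
      have hv2t : v (2 * t) = 1 := by rw [map_mul, h2, hvt, one_mul]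
      rw [e1, Valuation.map_add_eq_of_lt_left v (by rw [Valuation.map_neg, hv2t]; exact hlt)]
      exact hv2t
  have hvτ : v τ = 1 := fixed_val_eq_one_of_sq v (by rw [hτ]; exact key ρ hρ)
  have hστ : σ τ = τ := by
    have hsq : (σ τ) ^ 2 = τ ^ 2 := by
      rw [← map_pow, hτ, map_add, map_add, map_div₀, hσρ, hσB, hσC]
    rcases sq_eq_sq_iff_eq_or_eq_neg.mp hsq with h1 | h1
    · exact h1
    · exfalso
      have h3 := hσ.sub_lt τ (le_of_eq hvτ)
      rw [h1] at h3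
      have e2 : -τ - τ = -(2 * τ) := by ring
      rw [e2, Valuation.map_neg, map_mul, h2, hvτ, one_mul] at h3
      exact lt_irrefl _ h3
  -- the fixed point `R = (ρ, ρ τ)`
  have hy'eq : W.toAffine.Equation ρ (ρ * τ) := by
    rw [hW.equation_iff, mul_pow, hτ]
    field_simp
  have h2y' : (2 : K) * (ρ * τ) ≠ 0 := by
    apply (Valuation.ne_zero_iff v).mp
    rw [map_mul, map_mul, h2, hvτ, hρ, one_mul, mul_one]
    exact hvx0
  have h' : W.toAffine.Nonsingular ρ (ρ * τ) := by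
    rw [Affine.nonsingular_iff]
    refine ⟨hy'eq, Or.inr ?_⟩
    rw [hW.a₁, hW.a₃]
    intro hh
    apply h2y'
    linear_combination hh
  refine ⟨ρ * τ, h', by rw [map_mul, hσρ, hστ], ?_⟩
  by_cases hPR : x = ρ ∧ y = ρ * τ
  · obtain ⟨hxρ, hyρ⟩ := hPR
    have hPR' : Point.some x y h = Point.some ρ (ρ * τ) h' := by
      congr 1
    rw [hPR', sub_self]
    exact InE0_zero v
  · obtain ⟨hR', hneg⟩ := hW.neg_some h'
    rw [sub_eq_add_neg, hneg]
    have hne : ¬(x = ρ ∧ y = -(-(ρ * τ))) := by rwa [neg_neg]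
    obtain ⟨ℓ, n, x₃, y₃, h₃, hadd, hy1, hy2, -, -, -, hprod⟩ := hW.add_collinear h hR' hne
    rw [hadd, InE0_some]
    have hxρ : x ≠ ρ := by
      intro hxρ
      have h3 : t ^ 2 = τ ^ 2 := by rw [ht2, hτ, hxρ]
      rcases sq_eq_sq_iff_eq_or_eq_neg.mp h3 with h1 | h1
      · exact hPR ⟨hxρ, by rw [hyxt, h1, hxρ]⟩
      · rw [h1, neg_add_cancel, map_zero] at hvtτ
        exact zero_ne_one hvtτ
    have hn : n * (x - ρ) = -(x * ρ * (t + τ)) := by
      linear_combination (-x) * hy2 + ρ * hy1 - ρ * hyxt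
    have hx3 : x₃ * (x - ρ) ^ 2 = x * ρ * (t + τ) ^ 2 := by
      have h3 : x * ρ * (x₃ * (x - ρ) ^ 2) = x * ρ * (x * ρ * (t + τ) ^ 2) := by
        linear_combination (x - ρ) ^ 2 * hprod + (n * (x - ρ) - x * ρ * (t + τ)) * hn
      exact mul_left_cancel₀ (mul_ne_zero hx0 hρ0) h3
    have hv3 : v x₃ * v (x - ρ) ^ 2 = v x ^ 2 := by
      rw [← map_pow, ← map_mul, hx3, map_mul, map_mul, map_pow, hvtτ, hρ, one_pow, mul_one, sq]
    refine fixed_one_le_of_mul_sq hv3 ?_ ?_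
    · calc v (x - ρ) ≤ max (v x) (v ρ) := Valuation.map_sub _ _ _
        _ = v x := by rw [hρ, max_self]
    · exact (Valuation.ne_zero_iff v).mpr (sub_ne_zero.mpr hxρ)

end Fermat.Agent.S05lib
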