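import Fermat.Agent.S05_Wiring

/-!
# S05 wiring: arithmetic of the Frey curve at an odd prime `q ≠ p`
-/

set_option autoImplicit false
set_option linter.unusedSectionVars false

namespace Fermat.Agent.S05wire

open WeierstrassCurve WeierstrassCurve.Affine Fermat.Agent.S05lib

section Arith

variable (P : FreyPackage) {q : ℕ} (hq : q.Prime)

include hq

theorem frey_not_dvd_both {x y : ℤ} (hxy : gcd x y = 1) (hx : (q : ℤ) ∣ x) : ¬ (q : ℤ) ∣ y := by
  intro hy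
  have h1 : (q : ℤ) ∣ gcd x y := dvd_gcd hx hy
  rw [hxy] at h1
  exact (Nat.prime_iff_prime_int.mp hq).not_dvd_one h1

theorem frey_not_dvd_pow {x : ℤ} (n : ℕ) (hx : ¬ (q : ℤ) ∣ x) : ¬ (q : ℤ) ∣ x ^ n :=
  fun h => hx ((Nat.prime_iff_prime_int.mp hq).dvd_of_dvd_pow h)

/-- good case: `q ∤ abc`. -/
theorem frey_good_n4 (hab : ¬ (q : ℤ) ∣ P.a * P.b) :
    ¬ (q : ℤ) ∣ -(P.a ^ P.p * P.b ^ P.p) := by
  have hqi := Nat.prime_iff_prime_int.mp hq
  rw [dvd_neg]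
  intro h
  rcases hqi.dvd_or_dvd h with h | h
  · exact hab (dvd_mul_of_dvd_left (hqi.dvd_of_dvd_pow h) _)
  · exact hab (dvd_mul_of_dvd_right (hqi.dvd_of_dvd_pow h) _)

/-- case `q ∣ ab`: `q ∤ b^p - a^p`. -/
theorem frey_mult_ab_n2 (hab : (q : ℤ) ∣ P.a * P.b) : ¬ (q : ℤ) ∣ P.b ^ P.p - P.a ^ P.p := by
  have hqi := Nat.prime_iff_prime_int.mp hq
  intro h
  rcases hqi.dvd_or_dvd hab with ha | hb
  · have hb : ¬ (q : ℤ) ∣ P.b := frey_not_dvd_both hq P.hgcdab ha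
    have h1 : (q : ℤ) ∣ P.a ^ P.p := dvd_pow ha P.hp0
    have h2 : (q : ℤ) ∣ P.b ^ P.p := by
      have := dvd_add h h1
      simpa using this
    exact hb (hqi.dvd_of_dvd_pow h2)
  · have ha : ¬ (q : ℤ) ∣ P.a := by
      intro ha
      exact frey_not_dvd_both hq P.hgcdab ha hb
    have h1 : (q : ℤ) ∣ P.b ^ P.p := dvd_pow hb P.hp0
    have h2 : (q : ℤ) ∣ P.a ^ P.p := by
      have := dvd_sub h1 h
      simpa using this
    exact ha (hqi.dvd_of_dvd_pow h2)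

/-- case `q ∣ c`: `q ∤ a^p + c^p`. -/
theorem frey_mult_c_n2 (hc : (q : ℤ) ∣ P.c) : ¬ (q : ℤ) ∣ P.a ^ P.p + P.c ^ P.p := by
  have hqi := Nat.prime_iff_prime_int.mp hq
  intro h
  have ha : ¬ (q : ℤ) ∣ P.a := by
    intro ha
    exact frey_not_dvd_both hq P.hgcdac ha hc
  have h1 : (q : ℤ) ∣ P.c ^ P.p := dvd_pow hc P.hp0
  have h2 : (q : ℤ) ∣ P.a ^ P.p := by
    have := dvd_sub h h1
    simpa using this
  exact ha (hqi.dvd_of_dvd_pow h2)

end Arith

section Val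

variable {L : Type*} [Field L]

theorem val_eq_of_mul_eq (A : ValuationSubring L) {x : L} {d n : ℤ}
    (hd : A.valuation (d : L) = 1) (h : x * (d : L) = (n : L)) :
    A.valuation x = A.valuation (n : L) := by
  rw [← h, map_mul, hd, mul_one]

end Val

end Fermat.Agent.S05wire
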