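import Fermat.Agent.S05_Defs
import Fermat.Prelude.Def_FLTPrelim_Ramification

/-!
# S05 wiring: elements of the inertia group are inertial for the valuation
-/

set_option autoImplicit false
set_option linter.unusedSectionVars false

namespace Fermat.Agent.S05wire

open Fermat.Agent.S05lib

variable {L : Type*} [Field L] [DecidableEq L]

open scoped Pointwise in
theorem mem_of_mem_decomposition {K : Type*} [Field K] [Algebra K L] (A : ValuationSubring L)
    {σ : L ≃ₐ[K] L} (hσ : σ ∈ A.decompositionSubgroup K) {a : L} (ha : a ∈ A) : σ a ∈ A := by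
  have h1 : σ • A = A := hσ
  have h2 : σ • a ∈ σ • A := ValuationSubring.smul_mem_pointwise_smul σ a A ha
  rw [h1] at h2
  exact h2

theorem isInertial_of_mem_inertiaSubgroupIn {K : Type*} [Field K] [Algebra K L]
    (A : ValuationSubring L) {σ : L ≃ₐ[K] L} (hσ : σ ∈ A.inertiaSubgroupIn K) :
    IsInertial A.valuation (σ : L →+* L) := by
  obtain ⟨g, hg, rfl⟩ := hσ
  have hgd : (g : L ≃ₐ[K] L) ∈ A.decompositionSubgroup K := g.2
  have hgd' : ((g : L ≃ₐ[K] L))⁻¹ ∈ A.decompositionSubgroup K := inv_mem hgd
  refine ⟨?_, ?_, ?_⟩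
  · intro a ha
    rw [ValuationSubring.valuation_le_one_iff] at ha ⊢
    exact mem_of_mem_decomposition A hgd ha
  · intro a ha
    rw [← not_le, ValuationSubring.valuation_le_one_iff] at ha ⊢
    intro h
    apply ha
    have := mem_of_mem_decomposition A hgd' h
    simpa using this
  · intro a ha
    rw [ValuationSubring.valuation_le_one_iff] at ha
    have hga : (g : L ≃ₐ[K] L) a ∈ A := mem_of_mem_decomposition A hgd ha
    have key : g • (⟨a, ha⟩ : A) - ⟨a, ha⟩ ∈ IsLocalRing.maximalIdeal A := by
      rw [← IsLocalRing.residue_eq_zero_iff, map_sub, IsLocalRing.ResidueField.residue_smul,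
        sub_eq_zero]
      have h1 : MulSemiringAction.toRingAut (A.decompositionSubgroup K)
          (IsLocalRing.ResidueField A) g = 1 := hg
      have h2 := congrArg (fun f : RingAut (IsLocalRing.ResidueField A) =>
        f (IsLocalRing.residue A ⟨a, ha⟩)) h1
      simpa using h2
    rw [ValuationSubring.valuation_lt_one_iff] at key
    exact key

end Fermat.Agent.S05wire
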