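import Mathlib.AlgebraicGeometry.EllipticCurve.Affine.Point

/-!
# S05 wiring: the point map induced by a change of variables `x = X + r`, `y = Y + s X + t`

For Weierstrass curves `W`, `W'` over a field related by such a substitution we construct the
additive, injective map `W'.Point →+ W.Point`, `(X, Y) ↦ (X + r, Y + s X + t)`.
-/

set_option autoImplicit false
set_option linter.unusedSectionVars false

namespace Fermat.Agent.S05wire

open WeierstrassCurve WeierstrassCurve.Affine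

variable {F : Type*} [Field F]

/-- `W'` is obtained from `W` by the substitution `x = X + r`, `y = Y + s X + t`. -/
structure IsShear (W W' : WeierstrassCurve F) (r s t : F) : Prop where
  a₁ : W'.a₁ = W.a₁ + 2 * s
  a₂ : W'.a₂ = W.a₂ - s * W.a₁ + 3 * r - s ^ 2
  a₃ : W'.a₃ = W.a₃ + r * W.a₁ + 2 * t
  a₄ : W'.a₄ = W.a₄ - s * W.a₃ + 2 * r * W.a₂ - (t + r * s) * W.a₁ + 3 * r ^ 2 - 2 * s * t
  a₆ : W'.a₆ = W.a₆ + r * W.a₄ + r ^ 2 * W.a₂ + r ^ 3 - t * W.a₃ - t ^ 2 - r * t * W.a₁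

variable {W W' : WeierstrassCurve F} {r s t : F}

theorem IsShear.equation_iff (h : IsShear W W' r s t) (X Y : F) :
    W.toAffine.Equation (X + r) (Y + s * X + t) ↔ W'.toAffine.Equation X Y := by
  rw [Affine.equation_iff', Affine.equation_iff', h.a₁, h.a₂, h.a₃, h.a₄, h.a₆]
  constructor <;> intro e <;> linear_combination e

theorem IsShear.nonsingular_iff (h : IsShear W W' r s t) (X Y : F) :
    W.toAffine.Nonsingular (X + r) (Y + s * X + t) ↔ W'.toAffine.Nonsingular X Y := by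
  rw [Affine.nonsingular_iff', Affine.nonsingular_iff', h.equation_iff]
  refine and_congr_right fun _ => ?_
  have hY : 2 * (Y + s * X + t) + W.a₁ * (X + r) + W.a₃ = 2 * Y + W'.a₁ * X + W'.a₃ := by
    rw [h.a₁, h.a₃]; ring
  have hX : W.a₁ * (Y + s * X + t) - (3 * (X + r) ^ 2 + 2 * W.a₂ * (X + r) + W.a₄) =
      (W'.a₁ * Y - (3 * X ^ 2 + 2 * W'.a₂ * X + W'.a₄)) - s * (2 * Y + W'.a₁ * X + W'.a₃) := by
    rw [h.a₁, h.a₂, h.a₃, h.a₄]; ring
  rw [hY, hX]
  constructor
  · rintro (h1 | h1)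
    · by_cases h2 : 2 * Y + W'.a₁ * X + W'.a₃ = 0
      · left; rwa [h2, mul_zero, sub_zero] at h1
      · right; exact h2
    · right; exact h1
  · rintro (h1 | h1)
    · by_cases h2 : 2 * Y + W'.a₁ * X + W'.a₃ = 0
      · left; rwa [h2, mul_zero, sub_zero]
      · right; exact h2
    · right; exact h1

theorem IsShear.negY (h : IsShear W W' r s t) (X Y : F) :
    W.toAffine.negY (X + r) (Y + s * X + t) = W'.toAffine.negY X Y + s * X + t := by
  simp only [Affine.negY, h.a₁, h.a₃]; ring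

variable [DecidableEq F]

theorem IsShear.slope (h : IsShear W W' r s t) {X₁ X₂ Y₁ Y₂ : F}
    (h₁ : W'.toAffine.Equation X₁ Y₁) (h₂ : W'.toAffine.Equation X₂ Y₂)
    (hne : ¬(X₁ = X₂ ∧ Y₁ = W'.toAffine.negY X₂ Y₂)) :
    W.toAffine.slope (X₁ + r) (X₂ + r) (Y₁ + s * X₁ + t) (Y₂ + s * X₂ + t) =
      W'.toAffine.slope X₁ X₂ Y₁ Y₂ + s := by
  by_cases hx : X₁ = X₂
  · have hy : Y₁ ≠ W'.toAffine.negY X₂ Y₂ := fun hy => hne ⟨hx, hy⟩
    have hYY : Y₁ = Y₂ := Affine.Y_eq_of_Y_ne h₁ h₂ hx hy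
    subst hx hYY
    have hy' : Y₁ + s * X₁ + t ≠ W.toAffine.negY (X₁ + r) (Y₁ + s * X₁ + t) := by
      rw [h.negY]; intro e; exact hy (by linear_combination e)
    rw [Affine.slope_of_Y_ne rfl hy, Affine.slope_of_Y_ne rfl hy', h.negY]
    have hd : Y₁ - W'.toAffine.negY X₁ Y₁ ≠ 0 := sub_ne_zero.mpr hy
    have hd' : Y₁ + s * X₁ + t - (W'.toAffine.negY X₁ Y₁ + s * X₁ + t) ≠ 0 := by
      intro e; exact hd (by linear_combination e)
    rw [div_add' _ _ _ hd, div_eq_div_iff hd' hd]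
    simp only [Affine.negY, h.a₁, h.a₂, h.a₃, h.a₄]
    ring
  · have hx' : X₁ + r ≠ X₂ + r := fun e => hx (add_right_cancel e)
    rw [Affine.slope_of_X_ne hx, Affine.slope_of_X_ne hx']
    have hd : X₁ - X₂ ≠ 0 := sub_ne_zero.mpr hx
    have hd' : X₁ + r - (X₂ + r) ≠ 0 := by rwa [add_sub_add_right_eq_sub]
    rw [div_add' _ _ _ hd, div_eq_div_iff hd' hd]
    ring

theorem IsShear.addX (h : IsShear W W' r s t) (X₁ X₂ ℓ : F) :
    W.toAffine.addX (X₁ + r) (X₂ + r) (ℓ + s) = W'.toAffine.addX X₁ X₂ ℓ + r := by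
  simp only [Affine.addX, h.a₁, h.a₂]; ring

theorem IsShear.addY (h : IsShear W W' r s t) (X₁ X₂ Y₁ ℓ : F) :
    W.toAffine.addY (X₁ + r) (X₂ + r) (Y₁ + s * X₁ + t) (ℓ + s) =
      W'.toAffine.addY X₁ X₂ Y₁ ℓ + s * W'.toAffine.addX X₁ X₂ ℓ + t := by
  simp only [Affine.addY, Affine.negAddY, Affine.negY, Affine.addX, h.a₁, h.a₂, h.a₃]; ring

/-- The underlying function of the shear map. -/
def shearFun (h : IsShear W W' r s t) : W'.toAffine.Point → W.toAffine.Point
  | .zero => .zero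
  | .some X Y hXY => .some (X + r) (Y + s * X + t) ((h.nonsingular_iff X Y).mpr hXY)

theorem shearFun_zero (h : IsShear W W' r s t) : shearFun h 0 = 0 := rfl

theorem shearFun_some (h : IsShear W W' r s t) {X Y : F} (hXY : W'.toAffine.Nonsingular X Y) :
    shearFun h (.some X Y hXY) =
      .some (X + r) (Y + s * X + t) ((h.nonsingular_iff X Y).mpr hXY) := rfl

theorem shearFun_add (h : IsShear W W' r s t) (P Q : W'.toAffine.Point) :
    shearFun h (P + Q) = shearFun h P + shearFun h Q := by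
  rcases P with _ | ⟨X₁, Y₁, h₁⟩
  · change shearFun h (0 + Q) = 0 + shearFun h Q
    rw [zero_add, zero_add]
  rcases Q with _ | ⟨X₂, Y₂, h₂⟩
  · change shearFun h (Point.some X₁ Y₁ h₁ + 0) = shearFun h (Point.some X₁ Y₁ h₁) + 0
    rw [add_zero, add_zero]
  by_cases hxy : X₁ = X₂ ∧ Y₁ = W'.toAffine.negY X₂ Y₂
  · rw [Point.add_of_Y_eq hxy.1 hxy.2, shearFun_some, shearFun_some,
      Point.add_of_Y_eq (by rw [hxy.1]) (by rw [h.negY, hxy.2, hxy.1])]
    rfl
  · have hxy' : ¬(X₁ + r = X₂ + r ∧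
        Y₁ + s * X₁ + t = W.toAffine.negY (X₂ + r) (Y₂ + s * X₂ + t)) := by
      rintro ⟨e₁, e₂⟩
      have e₁' : X₁ = X₂ := add_right_cancel e₁
      refine hxy ⟨e₁', ?_⟩
      rw [h.negY] at e₂
      subst e₁'
      linear_combination e₂
    rw [Point.add_some hxy, shearFun_some, shearFun_some, shearFun_some, Point.add_some hxy']
    have hs := h.slope h₁.1 h₂.1 hxy
    congr 1
    · rw [hs, h.addX]
    · rw [hs, h.addY]

/-- The additive map on points `(X, Y) ↦ (X + r, Y + s X + t)`. -/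
def shearMap (h : IsShear W W' r s t) : W'.toAffine.Point →+ W.toAffine.Point where
  toFun := shearFun h
  map_zero' := rfl
  map_add' := shearFun_add h

theorem shearMap_some (h : IsShear W W' r s t) {X Y : F} (hXY : W'.toAffine.Nonsingular X Y) :
    shearMap h (.some X Y hXY) =
      .some (X + r) (Y + s * X + t) ((h.nonsingular_iff X Y).mpr hXY) := rfl

theorem shearMap_zero (h : IsShear W W' r s t) : shearMap h (.zero) = .zero := rfl

theorem shearMap_injective (h : IsShear W W' r s t) : Function.Injective (shearMap h) := by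
  rintro (_ | ⟨X₁, Y₁, h₁⟩) (_ | ⟨X₂, Y₂, h₂⟩) e
  · rfl
  · exact absurd e (by rw [shearMap_zero, shearMap_some]; exact fun e => by cases e)
  · exact absurd e (by rw [shearMap_zero, shearMap_some]; exact fun e => by cases e)
  · rw [shearMap_some, shearMap_some, Point.some.injEq] at e
    obtain ⟨e₁, e₂⟩ := e
    have e₁' : X₁ = X₂ := add_right_cancel e₁
    subst e₁'
    have e₂' : Y₁ = Y₂ := by linear_combination e₂
    subst e₂'
    rfl

end Fermat.Agent.S05wire
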