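import Mathlib.RingTheory.Valuation.ValuationSubring
import Mathlib.RingTheory.Int.Basic
import Mathlib.Data.Nat.Prime.Int

/-!
# S05 wiring: valuations of integers at a valuation subring lying over a prime `q`
-/

set_option autoImplicit false

namespace Fermat.Agent.S05wire

variable {L : Type*} [Field L]

theorem val_intCast_le_one (A : ValuationSubring L) (n : ℤ) : A.valuation (n : L) ≤ 1 := by
  rw [ValuationSubring.valuation_le_one_iff]
  exact intCast_mem A n

theorem val_intCast_lt_one (A : ValuationSubring L) {q : ℕ} (hq : (q : L) ∈ A.nonunits)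
    {n : ℤ} (h : (q : ℤ) ∣ n) : A.valuation (n : L) < 1 := by
  obtain ⟨m, rfl⟩ := h
  rw [ValuationSubring.mem_nonunits_iff] at hq
  push_cast
  rw [map_mul]
  calc A.valuation (q : L) * A.valuation (m : L)
      ≤ A.valuation (q : L) * 1 := by
        gcongr
        exact val_intCast_le_one A m
    _ = A.valuation (q : L) := mul_one _
    _ < 1 := hq

theorem val_intCast_eq_one (A : ValuationSubring L) {q : ℕ} (hqp : q.Prime)
    (hq : (q : L) ∈ A.nonunits) {n : ℤ} (h : ¬ (q : ℤ) ∣ n) : A.valuation (n : L) = 1 := by
  have hcop : IsCoprime (q : ℤ) n :=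
    (Nat.prime_iff_prime_int.mp hqp).coprime_iff_not_dvd.mpr h
  obtain ⟨u, w, huw⟩ := hcop
  refine le_antisymm (val_intCast_le_one A n) ?_
  by_contra hlt
  rw [not_le] at hlt
  have h1 : A.valuation ((u * q + w * n : ℤ) : L) < 1 := by
    push_cast
    refine lt_of_le_of_lt (A.valuation.map_add _ _) (max_lt ?_ ?_)
    · rw [map_mul]
      rw [ValuationSubring.mem_nonunits_iff] at hq
      calc A.valuation (u : L) * A.valuation (q : L)
          ≤ 1 * A.valuation (q : L) := by
            gcongr
            exact val_intCast_le_one A u
        _ = A.valuation (q : L) := one_mul _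
        _ < 1 := hq
    · rw [map_mul]
      calc A.valuation (w : L) * A.valuation (n : L)
          ≤ 1 * A.valuation (n : L) := by
            gcongr
            exact val_intCast_le_one A w
        _ = A.valuation (n : L) := one_mul _
        _ < 1 := hlt
  rw [huw] at h1
  simp at h1

end Fermat.Agent.S05wire
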