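import Fermat.Agent.S05_Main
import Fermat.Agent.S05_Shear
import Fermat.Agent.S05_Inertia
import Fermat.Agent.S05_Val
import Fermat.Prelude.Def_FLTPrelim_Ramification

/-!
# S05 wiring: from the Frey curve to the abstract theorem `unramified_of_shape`
-/

set_option autoImplicit false
set_option linter.unusedSectionVars false

namespace Fermat.Agent.S05wire

open WeierstrassCurve WeierstrassCurve.Affine Fermat.Agent.S05lib

/-- The curve `Y² = X³ + B₀ X² + C₀ X` obtained from `E : y² + xy = x³ + a₂ x² + a₄ x`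
by `X = x - e`, `Y = y + x/2`, when `e` is a root of `x³ + (a₂ + 1/4) x² + a₄ x`. -/
def shapeOf (E : WeierstrassCurve ℚ) (e : ℚ) : WeierstrassCurve ℚ :=
  ⟨0, E.a₂ + 1 / 4 + 3 * e, 0, E.a₄ + 2 * e * E.a₂ + 3 * e ^ 2 + e / 2, 0⟩

theorem isShear_shapeOf (E : WeierstrassCurve ℚ) (e : ℚ) (h₁ : E.a₁ = 1) (h₃ : E.a₃ = 0)
    (h₆ : E.a₆ = 0) (he : e ^ 3 + (E.a₂ + 1 / 4) * e ^ 2 + E.a₄ * e = 0) :
    IsShear (shapeOf E e) E (-e) (1 / 2) 0 where
  a₁ := by simp only [shapeOf, h₁]; norm_num
  a₂ := by simp only [shapeOf]; ring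
  a₃ := by simp only [shapeOf, h₃]; ring
  a₄ := by simp only [shapeOf]; ring
  a₆ := by simp only [shapeOf, h₆]; linear_combination he

theorem IsShear.map {F K : Type*} [Field F] [Field K] (f : F →+* K) {W W' : WeierstrassCurve F}
    {r s t : F} (h : IsShear W W' r s t) : IsShear (W.map f) (W'.map f) (f r) (f s) (f t) where
  a₁ := by simp only [WeierstrassCurve.map_a₁, h.a₁, map_add, map_mul, map_ofNat]
  a₂ := by
    simp only [WeierstrassCurve.map_a₁, WeierstrassCurve.map_a₂, h.a₂, map_add, map_sub, map_mul,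
      map_pow, map_ofNat]
  a₃ := by
    simp only [WeierstrassCurve.map_a₁, WeierstrassCurve.map_a₃, h.a₃, map_add, map_mul,
      map_ofNat]
  a₄ := by
    simp only [WeierstrassCurve.map_a₁, WeierstrassCurve.map_a₂, WeierstrassCurve.map_a₃,
      WeierstrassCurve.map_a₄, h.a₄, map_add, map_sub, map_mul, map_pow, map_ofNat]
  a₆ := by
    simp only [WeierstrassCurve.map_a₁, WeierstrassCurve.map_a₂, WeierstrassCurve.map_a₃,
      WeierstrassCurve.map_a₄, WeierstrassCurve.map_a₆, h.a₆, map_add, map_sub, map_mul, map_pow]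

theorem IsShear.baseChange {F : Type*} [Field F] (K : Type*) [Field K] [Algebra F K]
    {W W' : WeierstrassCurve F} {r s t : F} (h : IsShear W W' r s t) :
    IsShear (W.baseChange K) (W'.baseChange K) (algebraMap F K r) (algebraMap F K s)
      (algebraMap F K t) :=
  h.map (algebraMap F K)

theorem shape_shapeOf_baseChange (K : Type*) [Field K] [Algebra ℚ K] (E : WeierstrassCurve ℚ)
    (e : ℚ) : Shape ((shapeOf E e).baseChange K) where
  a₁ := by simp [shapeOf, WeierstrassCurve.baseChange]
  a₃ := by simp [shapeOf, WeierstrassCurve.baseChange]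
  a₆ := by simp [shapeOf, WeierstrassCurve.baseChange]

section Abstract

variable {K : Type*} [Field K] [DecidableEq K] [Algebra ℚ K]

/-- Equivariance of the shear map with respect to a `ℚ`-algebra automorphism. -/
theorem shearMap_equivariant (E S : WeierstrassCurve ℚ) (r s t : ℚ)
    (h : IsShear (S.baseChange K) (E.baseChange K)
      (algebraMap ℚ K r) (algebraMap ℚ K s) (algebraMap ℚ K t))
    (σ : K ≃ₐ[ℚ] K) (P : (E.toAffine⁄K).Point) :
    shearMap h (Point.map (W' := E.toAffine) σ.toAlgHom P) =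
      Point.map (W' := S.toAffine) σ.toAlgHom (shearMap h P) := by
  rcases P with _ | ⟨x, y, hxy⟩
  · rfl
  · rw [Point.map_some, shearMap_some, shearMap_some, Point.map_some]
    congr 1
    · simp
    · simp

end Abstract

end Fermat.Agent.S05wire
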