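-- S10: the mod-p representation of a Frey curve has no Galois-stable cofixed line, p = 5, 7, 13.
-- Proof: a Frey package with exponent p contains a nontrivial coprime solution of
-- a^p + b^p = c^p, which contradicts Fermat's Last Theorem for the regular primes 5, 7, 13
-- (Kummer: Z[zeta_p] is a PID, Kummer's lemma on units, Case I by Sophie Germain, Case II by
-- descent).
import Fermat.Statements.S10
import Fermat.Agent.Kummer.Wiring
import Fermat.Agent.Kummer.CaseI
import Fermat.Agent.Kummer.PID
import Fermat.Agent.Kummer.PID13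
import Fermat.Agent.Kummer.KummerLemma5
import Fermat.Agent.Kummer.KummerLemma7
import Fermat.Agent.Kummer.KummerLemma13

set_option autoImplicit false
open WeierstrassCurve WeierstrassCurve.Affine WeierstrassCurve.Affine.Point
open CuspForm ModularFormClass UpperHalfPlane
open FreyPackage

namespace Fermat.Agent.S10

/-- Fermat's Last Theorem for exponent `5` (coprime integer solutions). -/
theorem flt_five (a b c : ℤ) (h0 : a * b * c ≠ 0) (hcop : IsCoprime a b) :
    a ^ 5 + b ^ 5 ≠ c ^ 5 := by
  have hcyc : IsCyclotomicExtension {5} ℚ (CyclotomicField 5 ℚ) :=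
    CyclotomicField.isCyclotomicExtension 5 ℚ
  have hpid : IsPrincipalIdealRing (NumberField.RingOfIntegers (CyclotomicField 5 ℚ)) :=
    IsCyclotomicExtension.Rat.five_pid (CyclotomicField 5 ℚ)
  exact Kummer.flt_of_caseI_of_pid_of_kummer (p := 5) (K := CyclotomicField 5 ℚ) (by norm_num)
    Kummer.KL.kummer_five Kummer.caseI_5 a b c h0 hcop

/-- Fermat's Last Theorem for exponent `7` (coprime integer solutions). -/
theorem flt_seven (a b c : ℤ) (h0 : a * b * c ≠ 0) (hcop : IsCoprime a b) :
    a ^ 7 + b ^ 7 ≠ c ^ 7 := by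
  have hcyc : IsCyclotomicExtension {7} ℚ (CyclotomicField 7 ℚ) :=
    CyclotomicField.isCyclotomicExtension 7 ℚ
  have hpid : IsPrincipalIdealRing (NumberField.RingOfIntegers (CyclotomicField 7 ℚ)) :=
    Kummer.pid7 (CyclotomicField 7 ℚ)
  exact Kummer.flt_of_caseI_of_pid_of_kummer (p := 7) (K := CyclotomicField 7 ℚ) (by norm_num)
    Kummer.KL.kummer_seven Kummer.caseI_7 a b c h0 hcop

/-- Fermat's Last Theorem for exponent `13` (coprime integer solutions). -/
theorem flt_thirteen (a b c : ℤ) (h0 : a * b * c ≠ 0) (hcop : IsCoprime a b) :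
    a ^ 13 + b ^ 13 ≠ c ^ 13 := by
  have hcyc : IsCyclotomicExtension {13} ℚ (CyclotomicField 13 ℚ) :=
    CyclotomicField.isCyclotomicExtension 13 ℚ
  have hpid : IsPrincipalIdealRing (NumberField.RingOfIntegers (CyclotomicField 13 ℚ)) :=
    Kummer.pid13 (CyclotomicField 13 ℚ)
  exact Kummer.flt_of_caseI_of_pid_of_kummer (p := 13) (K := CyclotomicField 13 ℚ) (by norm_num)
    Kummer.KL.kummer_thirteen Kummer.caseI_13 a b c h0 hcop

theorem result (P : FreyPackage) (hp : P.p = 5 ∨ P.p = 7 ∨ P.p = 13) : ¬ HasGaloisStableCofixedLine (K := AlgebraicClosure ℚ) ℚ P.freyCurve P.p := by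
  exfalso
  rcases hp with h | h | h
  · exact Kummer.freyPackage_false_of_flt flt_five P h
  · exact Kummer.freyPackage_false_of_flt flt_seven P h
  · exact Kummer.freyPackage_false_of_flt flt_thirteen P h

end Fermat.Agent.S10
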