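-- S11: the mod-11 representation of a Frey curve has no Galois-stable cofixed line.
-- Proof: a Frey package with exponent 11 contains a nontrivial coprime solution of
-- a^11 + b^11 = c^11, which contradicts Fermat's Last Theorem for the regular prime 11
-- (Kummer: Z[ζ_11] is a PID, Kummer's lemma on units, Case I by Sophie Germain, Case II by descent).
import Fermat.Statements.S11
import Fermat.Agent.Kummer.CaseI
import Fermat.Agent.Kummer.CaseII
import Fermat.Agent.Kummer.Wiring
import Fermat.Agent.Kummer.PID11
import Fermat.Agent.Kummer.KummerLemma11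

set_option autoImplicit false
open WeierstrassCurve WeierstrassCurve.Affine WeierstrassCurve.Affine.Point
open CuspForm ModularFormClass UpperHalfPlane
open FreyPackage

namespace Fermat.Agent.S11

/-- Fermat's Last Theorem for exponent `11` (coprime integer solutions). -/
theorem flt_eleven (a b c : ℤ) (h0 : a * b * c ≠ 0) (hcop : IsCoprime a b) :
    a ^ 11 + b ^ 11 ≠ c ^ 11 := by
  haveI : Fact (Nat.Prime 11) := ⟨by norm_num⟩
  haveI : IsCyclotomicExtension {11} ℚ (CyclotomicField 11 ℚ) :=
    CyclotomicField.isCyclotomicExtension 11 ℚ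
  haveI := Fermat.Agent.Kummer.pid11 (CyclotomicField 11 ℚ)
  exact Fermat.Agent.Kummer.flt_of_caseI_of_pid_of_kummer (p := 11) (K := CyclotomicField 11 ℚ)
    (by norm_num) (fun u a h => Fermat.Agent.Kummer.KL.kummer_eleven u a h)
    Fermat.Agent.Kummer.caseI_11 a b c h0 hcop

theorem result (P : FreyPackage) (hp : P.p = 11) : ¬ HasGaloisStableCofixedLine (K := AlgebraicClosure ℚ) ℚ P.freyCurve P.p := by
  exact (Fermat.Agent.Kummer.freyPackage_false_of_flt (p := 11) flt_eleven P hp).elim

end Fermat.Agent.S11
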