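import Fermat.Statements.S13
import Fermat.Agent.S05
import Fermat.Agent.S13lib.Assemble
import Fermat.Agent.S13lib.Dichotomy
import Fermat.Agent.S13lib.DivPolyLadder
import Fermat.Agent.S13lib.LocalP
import Fermat.Agent.S13lib.UnipTwo
import Fermat.Agent.S13lib.Minkowski
import Fermat.Agent.S13lib.NoRatTorsion

/-!
# S13: a reducible mod-`p` representation of the Frey curve has a Galois-stable cofixed line

Assembly (`S13lib/Assemble.lean`) of the interface statements of `NOTES/S13_blueprint.md`:
(D1), (D2) torsion polynomial (ladder), (I2) global Gauss dichotomy, (I3) local at `p`,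
(I4) unipotent inertia at `2`, (I5) = S05, (I6) Minkowski, (I7) no rational point of order `p`.
-/

set_option autoImplicit false
open WeierstrassCurve WeierstrassCurve.Affine WeierstrassCurve.Affine.Point
open CuspForm ModularFormClass UpperHalfPlane
open FreyPackage

namespace Fermat.Agent.S13

open Fermat.Agent.S13lib in
theorem result (P : FreyPackage) (hred : ¬ GaloisRepIsIrreducible (K := AlgebraicClosure ℚ) ℚ P.freyCurve P.p) : HasGaloisStableCofixedLine (K := AlgebraicClosure ℚ) ℚ P.freyCurve P.p := by
  obtain ⟨Ψ, hdeg, hlc, hΨ⟩ := exists_divPoly P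
  have h0 : Ψ ≠ 0 := by
    rintro rfl
    exact hlc (by simp)
  exact cofixed_of_interfaces P (nontrivial_FT P)
    (fun N hN0 hN1 => card_FT_eq P Ψ hdeg h0 hΨ N hN0 hN1)
    (fun N hN hN0 hN1 => gauss_dichotomy P Ψ hdeg hlc hΨ N hN hN0 hN1)
    (fun A hA σ hσ x => sub_inKer_of_inertia_p P A hA σ hσ x)
    (fun A hA σ hσ x => unipotent_two P A hA σ hσ x)
    (fun q hq hq2 hqp => Fermat.Agent.S05.result P hq hq2 hqp)
    (fun H hH hopen hI => minkowski H hH hopen hI)
    (fun x hx => no_rational_torsion P x hx)
    hred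

end Fermat.Agent.S13
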