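import Fermat.Statements.S14
import Fermat.Agent.S14lib.Wiring
import Fermat.Agent.S14lib.Three
import Fermat.Agent.S14lib.ClassAlg
import Fermat.Agent.S14lib.Thaine
import Fermat.Agent.S14lib.Local
import Fermat.Agent.S14lib.UnitsFinal
import Fermat.Agent.S14lib.DensD1
import Fermat.Agent.S14lib.DensD2
import Fermat.Agent.S14lib.DensFinal
import Fermat.Agent.S14lib.Core

/-!
# S14: `ExtVanishingCts p` for every prime `p ≥ 3`, without class field theory

Item 77, blueprint `NOTES/S14_blueprint.md` (architect helper26).  A non-split admissible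
extension `V` gives a Kummer generator `α ∈ K = ℚ(ζ_p)` in the `ω²`-eigenspace of `K^×/K^{×p}`
with `(α)` a `p`-th power ideal, locally a `p`-th power at `π = ζ - 1`, and not a `p`-th power
(`exists_kummer_datum`).  For `p = 3` this is impossible by `core_three`; for `p ≥ 5` by `core_of`:
class group (`exists_unit_or_classFun`), Thaine's relation (`thaine`), the local computation
(`dlog_eta_pow`, `dlog_of_isLocalPthPower`), units (`unit_eq_eta_pow`) and the density comparison
(`exists_prime_not_pth_power_of`, `sum_pthPower_primes_le`, `sum_primes_ne_zero_ge`).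
-/

set_option autoImplicit false
open ExtCitation

namespace Fermat.Agent.S14

open NumberField Fermat.Agent.S14lib Fermat.Agent.Kummer.KL

/-- The arithmetic core of S14 for `p ≥ 5`. -/
theorem s14_core {p : ℕ} [hp : Fact p.Prime]
    {K : Type} [Field K] [NumberField K] [IsCyclotomicExtension {p} ℚ K]
    {ζ : K} (hζ : IsPrimitiveRoot ζ p) (hp5 : 5 ≤ p) (α : K) (hα : α ≠ 0) (h1 : IsOmegaSq hζ α)
    (h2 : IsPthPowerIdeal p α) (h3 : IsLocalPthPower hζ α) : ∃ β : K, α = β ^ p := by
  refine core_of hζ hp5
    (fun α hα h1 h2 => exists_unit_or_classFun hζ hp5 α hα h1 h2)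
    (fun φ ℓ hℓ hℓp lam hlam hmem hφ => by
      have := hlam
      exact thaine hζ hp5 φ ℓ hℓ hℓp lam hmem hφ)
    (fun k hk => dlog_eta_pow hζ hp5 k hk)
    (fun u γ α hα h => dlog_of_isLocalPthPower hζ hp5 u γ α hα h)
    (fun u hu => unit_eq_eta_pow hζ hp5 u hu)
    (fun φ hφ u hu => ?_) α hα h1 h2 h3
  exact exists_prime_not_pth_power_of hζ (by omega) φ u (sum_pthPower_primes_le u hu)
    (sum_primes_ne_zero_ge K p φ.toFun φ.map_mul φ.map_span hφ)

theorem result {p : ℕ} [Fact p.Prime] (h3 : 3 ≤ p) :
    ExtCitation.ExtVanishingCts p := by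
  intro V _ _ _ _ C hadm
  by_contra hns
  obtain ⟨K, _, _, _, ζ, hζ, α, hα, h1, h2, h4, hnot⟩ :=
    exists_kummer_datum h3 V C hadm hns
  apply hnot
  by_cases hp3 : p = 3
  · exact core_three hζ hp3 α hα h1 h2
  · have hp5 : 5 ≤ p := by
      have hpp : p.Prime := Fact.out
      rcases Nat.lt_or_ge p 5 with h | h
      · exfalso
        interval_cases p
        · exact hp3 rfl
        · exact absurd hpp (by decide)
      · exact h
    exact s14_core hζ hp5 α hα h1 h2 h4

end Fermat.Agent.S14
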