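/-
S23 library, piece (C): a cusp form on `Γ₀(N)` with rational q-expansion coefficients has
bounded denominators (`bddRat_of_rational`).

Route: with `t = E₄(N z)` (integral q-expansion, separating the cosets of `Γ₀(N)`), `exists_data`
gives `det(P) * f = ∑ i, cramer(P, s) i * t ^ i` and a monic equation for `f`, all of whose
coefficients are level-one forms.  Taking q-expansions and using that level-one forms have
q-expansions in the `ℂ`-algebra generated by bounded-denominator series, the purely algebraic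
statement `bddRat_of_integral` finishes the proof.
-/
import Fermat.Agent.S23_AlgData
import Fermat.Agent.S23_BddDenom
import Fermat.Agent.S23_LevelOne
import Fermat.Agent.TForm_Main

set_option autoImplicit false

open UpperHalfPlane Function ModularForm Matrix CongruenceSubgroup
open scoped MatrixGroups ModularForm Manifold

noncomputable section

namespace Fermat.Agent.S23lib

/-- The determinant of a matrix with entries in a subalgebra lies in the subalgebra. -/
lemma rat_det_mem_subalgebra {R A : Type*} [CommRing R] [CommRing A] [Algebra R A]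
    (S : Subalgebra R A) {n : Type*} [Fintype n] [DecidableEq n] (M : Matrix n n A)
    (hM : ∀ i j, M i j ∈ S) : M.det ∈ S := by
  rw [Matrix.det_apply']
  refine Subalgebra.sum_mem _ fun σ _ => ?_
  refine Subalgebra.mul_mem _ ?_ ?_
  · exact intCast_mem S _
  · exact Subalgebra.prod_mem _ fun i _ => hM _ _

/-- Cramer's vector of a matrix and a vector with entries in a subalgebra lies in the
subalgebra. -/
lemma rat_cramer_mem_subalgebra {R A : Type*} [CommRing R] [CommRing A] [Algebra R A]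
    (S : Subalgebra R A) {n : Type*} [Fintype n] [DecidableEq n] (M : Matrix n n A)
    (b : n → A) (hM : ∀ i j, M i j ∈ S) (hb : ∀ i, b i ∈ S) (i : n) :
    Matrix.cramer M b i ∈ S := by
  rw [Matrix.cramer_apply]
  refine rat_det_mem_subalgebra S _ fun a c => ?_
  rw [Matrix.updateCol_apply]
  split_ifs
  · exact hb _
  · exact hM _ _

/-- The subalgebra of nice functions whose q-expansion lies in `Algebra.adjoin ℂ BddRat`. -/
def ratGoodAlg : Subalgebra ℂ (ℍ → ℂ) :=
  ((Algebra.adjoin ℂ BddRat).comap qExpHom).map niceAlg.val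

lemma mem_ratGoodAlg {F : ℍ → ℂ} :
    F ∈ ratGoodAlg ↔ ∃ _ : IsNice F, qExpansion 1 F ∈ Algebra.adjoin ℂ BddRat := by
  constructor
  · rintro ⟨x, hx, rfl⟩
    exact ⟨x.2, hx⟩
  · rintro ⟨hF, h⟩
    exact ⟨⟨F, hF⟩, h, rfl⟩

lemma ratGoodAlg_isNice {F : ℍ → ℂ} (h : F ∈ ratGoodAlg) : IsNice F :=
  (mem_ratGoodAlg.1 h).1

lemma ratGoodAlg_qExp {F : ℍ → ℂ} (h : F ∈ ratGoodAlg) :
    qExpansion 1 F ∈ Algebra.adjoin ℂ BddRat :=
  (mem_ratGoodAlg.1 h).2

/-- q-expansions of level-one forms lie in the algebra generated by bounded-denominator series. -/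
lemma rat_levelOne_qExp_mem (k : ℤ) (G : ModularForm 𝒮ℒ k) :
    qExpansion 1 G ∈ Algebra.adjoin ℂ BddRat := by
  have hG := levelOne_mem_span_bddRat k G
  induction hG using Submodule.span_induction with
  | mem H hH => exact Algebra.subset_adjoin hH
  | zero => simp [qExpansion_zero]
  | add G₁ G₂ _ _ h₁ h₂ =>
    rw [FunLike.coe_add,
      qExpansion_add (isNice_levelOne G₁).analyticAt (isNice_levelOne G₂).analyticAt]
    exact Subalgebra.add_mem _ h₁ h₂
  | smul c G₁ _ h₁ =>
    rw [FunLike.coe_smul, qExpansion_smul (isNice_levelOne G₁).analyticAt]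
    exact Subalgebra.smul_mem _ h₁ c

lemma rat_levelOne_mem_goodAlg {k : ℤ} (G : ModularForm 𝒮ℒ k) : ⇑G ∈ ratGoodAlg :=
  mem_ratGoodAlg.2 ⟨isNice_levelOne G, rat_levelOne_qExp_mem k G⟩

/-- A level-one cusp form, seen as a modular form. -/
def ratCuspToModular {k : ℤ} (G : CuspForm 𝒮ℒ k) : ModularForm 𝒮ℒ k where
  toSlashInvariantForm := G.toSlashInvariantForm
  holo' := G.holo'
  bdd_at_cusps' := fun hc g hg => (G.zero_at_cusps' hc g hg).boundedAtFilter

lemma ratCuspToModular_coe {k : ℤ} (G : CuspForm 𝒮ℒ k) : ⇑(ratCuspToModular G) = ⇑G := rfl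

lemma rat_levelOne_cusp_mem_goodAlg {k : ℤ} (G : CuspForm 𝒮ℒ k) : ⇑G ∈ ratGoodAlg := by
  rw [← ratCuspToModular_coe]
  exact rat_levelOne_mem_goodAlg _

/-- A form with integral q-expansion is in the good algebra. -/
lemma rat_integral_mem_goodAlg {N : ℕ} [NeZero N] {k : ℤ} (t : ModularForm (Gamma0 N) k)
    (ht : ∀ n : ℕ, ∃ m : ℤ, PowerSeries.coeff n (qExpansion 1 t) = (m : ℂ)) :
    ⇑t ∈ ratGoodAlg := by
  refine mem_ratGoodAlg.2 ⟨isNice_Gamma0 t, Algebra.subset_adjoin ⟨1, one_pos, fun n => ?_⟩⟩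
  obtain ⟨m, hm⟩ := ht n
  exact ⟨m, by rw [hm]; simp⟩

/-- Core of (C): bounded denominators from a separating form with integral q-expansion. -/
theorem bddRat_of_rational_of_tForm (N : ℕ) [NeZero N] (k : ℤ)
    (t : ModularForm (Gamma0 N) 4)
    (ht_int : ∀ n : ℕ, ∃ m : ℤ, PowerSeries.coeff n (qExpansion 1 t) = (m : ℂ))
    (ht_sep : ∀ γ : SL(2, ℤ), γ ∉ Gamma0 N → (⇑t) ∣[(4 : ℤ)] γ ≠ ⇑t)
    (f : CuspForm (Gamma0 N) k)
    (hf : ∀ n : ℕ, ∃ r : ℚ, PowerSeries.coeff n (qExpansion 1 f) = (r : ℂ)) :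
    qExpansion 1 f ∈ BddRat := by
  classical
  obtain ⟨n, P, s, c, hP, hs, hc, hdet0, hdet, hvieta⟩ := exists_data t ht_sep f
  have hfN : IsNice (⇑f) := isNice_Gamma0_cusp f
  have htG : ⇑t ∈ ratGoodAlg := rat_integral_mem_goodAlg t ht_int
  have hPG : ∀ a b, P a b ∈ ratGoodAlg := fun a b => by
    obtain ⟨G, hG⟩ := hP a b
    rw [← hG]; exact rat_levelOne_mem_goodAlg G
  have hsG : ∀ a, s a ∈ ratGoodAlg := fun a => by
    obtain ⟨G, hG⟩ := hs a
    rw [← hG]; exact rat_levelOne_mem_goodAlg G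
  have hcG : ∀ i, c i ∈ ratGoodAlg := fun i => by
    obtain ⟨G, hG⟩ := hc i
    rw [← hG]; exact rat_levelOne_cusp_mem_goodAlg G
  have hDG : P.det ∈ ratGoodAlg := rat_det_mem_subalgebra _ _ hPG
  have hEG : (∑ i, cramer P s i * (⇑t) ^ (i : ℕ)) ∈ ratGoodAlg :=
    Subalgebra.sum_mem _ fun i _ =>
      Subalgebra.mul_mem _ (rat_cramer_mem_subalgebra _ _ _ hPG hsG i) (Subalgebra.pow_mem _ htG _)
  have hDN : IsNice P.det := ratGoodAlg_isNice hDG
  -- the relation `φ * D = E`
  have hDE : qExpansion 1 f * qExpansion 1 P.det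
      = qExpansion 1 (∑ i, cramer P s i * (⇑t) ^ (i : ℕ)) := by
    rw [← hdet, mul_comm, qExpansion_mul hDN.analyticAt hfN.analyticAt]
  have hD0 : qExpansion 1 P.det ≠ 0 := fun h => hdet0 (qExpansion_eq_zero_of_nice hDN h)
  -- the monic equation
  have hint : qExpansion 1 f ^ n + ∑ j : Fin n, qExpansion 1 (c j) * qExpansion 1 f ^ (j : ℕ)
      = 0 := by
    set fN : niceAlg := ⟨⇑f, hfN⟩ with hfNdef
    set cN : Fin n → niceAlg := fun j => ⟨c j, ratGoodAlg_isNice (hcG j)⟩ with hcNdef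
    have h0 : fN ^ n + ∑ j : Fin n, cN j * fN ^ (j : ℕ) = 0 := by
      apply Subtype.ext
      simp only [Subalgebra.coe_add, Subalgebra.coe_pow, Subalgebra.coe_mul,
        AddSubmonoidClass.coe_finsetSum, Subalgebra.coe_zero, hfNdef, hcNdef]
      exact hvieta
    have := congrArg qExpHom h0
    simpa [map_add, map_pow, map_sum, map_mul, hfNdef, hcNdef, qExpansion_zero] using this
  exact bddRat_of_integral _ hf _ _ (ratGoodAlg_qExp hDG) (ratGoodAlg_qExp hEG) hD0 hDE n
    (fun j => qExpansion 1 (c j)) (fun j => ratGoodAlg_qExp (hcG j)) hint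

/-- (C) A cusp form on `Γ₀(N)` with rational q-expansion has bounded denominators. -/
theorem bddRat_of_rational (N : ℕ) [NeZero N] (k : ℤ) (f : CuspForm (Gamma0 N) k)
    (hf : ∀ n : ℕ, ∃ r : ℚ, PowerSeries.coeff n (qExpansion 1 f) = (r : ℂ)) :
    qExpansion 1 f ∈ BddRat := by
  obtain ⟨t, ht_int, ht_sep⟩ := Fermat.Agent.TForm.exists_tForm N
  exact bddRat_of_rational_of_tForm N k t ht_int ht_sep f hf

end Fermat.Agent.S23lib
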