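import Fermat.Statements.S23
import Fermat.Agent.S23_Final
import Fermat.Agent.S23_Conj
import Fermat.Agent.S23_Rational

set_option autoImplicit false
open CuspForm

namespace Fermat.Agent.S23

theorem result (N : ℕ) [NeZero N] : CuspForm.HasIntegralStructure N 2 := by
  exact Fermat.Agent.S23lib.hasIntegralStructure_of N 2
    (fun σ f => Fermat.Agent.S23lib.exists_conj N 2 σ f)
    (fun f hf => Fermat.Agent.S23lib.bddRat_of_rational N 2 f hf)

end Fermat.Agent.S23
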