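import Mathlib

/-!
# S21 (II)(a): the orbit-sum map and the dimension of its kernel

For a finite set `X` with three surjections `π₁ π₂ π₃` onto finite sets such that every function on
`X` factoring through both `π₁` and `π₂` is constant, the kernel of
`(a, b) ↦ (π₁_* a, π₂_* b, π₃_* (b - a))` has dimension at most `2 |X| + 1 - |Q₁| - |Q₂| - |Q₃|`.
-/

set_option autoImplicit false

namespace Fermat.Agent.S21lib

open Module

section pushSum

variable {X Q : Type*} [Fintype X] [DecidableEq Q]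

/-- Summation along the fibres of `π`. -/
noncomputable def pushSum (π : X → Q) : (X → ℂ) →ₗ[ℂ] (Q → ℂ) where
  toFun a q := ∑ x, if π x = q then a x else 0
  map_add' a b := by
    funext q
    simp only [Pi.add_apply, ← Finset.sum_add_distrib]
    refine Finset.sum_congr rfl fun x _ => ?_
    split_ifs <;> simp
  map_smul' c a := by
    funext q
    simp only [Pi.smul_apply, smul_eq_mul, RingHom.id_apply, Finset.mul_sum]
    refine Finset.sum_congr rfl fun x _ => ?_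
    split_ifs <;> simp

theorem pushSum_apply (π : X → Q) (a : X → ℂ) (q : Q) :
    pushSum π a q = ∑ x, if π x = q then a x else 0 := rfl

theorem pushSum_single [DecidableEq X] (π : X → Q) (x : X) (c : ℂ) :
    pushSum π (Pi.single x c) = Pi.single (π x) c := by
  funext q
  rw [pushSum_apply]
  rw [Finset.sum_eq_single x]
  · by_cases h : π x = q
    · subst h; simp
    · rw [if_neg h, Pi.single_eq_of_ne (Ne.symm h)]
  · intro y _ hy
    rw [Pi.single_eq_of_ne hy]; simp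
  · intro h; exact absurd (Finset.mem_univ x) h

end pushSum

section orbitRank

variable {X Q₁ Q₂ Q₃ : Type*} [Fintype X] [Fintype Q₁] [Fintype Q₂] [Fintype Q₃]
  [DecidableEq Q₁] [DecidableEq Q₂] [DecidableEq Q₃]

/-- The orbit-sum map `(a, b) ↦ (π₁_* a, π₂_* b, π₃_* (b - a))`. -/
noncomputable def orbitSumMap (π₁ : X → Q₁) (π₂ : X → Q₂) (π₃ : X → Q₃) :
    ((X → ℂ) × (X → ℂ)) →ₗ[ℂ] ((Q₁ → ℂ) × (Q₂ → ℂ) × (Q₃ → ℂ)) :=
  ((pushSum π₁).comp (LinearMap.fst ℂ _ _)).prod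
    (((pushSum π₂).comp (LinearMap.snd ℂ _ _)).prod
      ((pushSum π₃).comp (LinearMap.snd ℂ _ _ - LinearMap.fst ℂ _ _)))

theorem orbitSumMap_apply (π₁ : X → Q₁) (π₂ : X → Q₂) (π₃ : X → Q₃) (a b : X → ℂ) :
    orbitSumMap π₁ π₂ π₃ (a, b) = (pushSum π₁ a, pushSum π₂ b, pushSum π₃ (b - a)) := rfl

theorem mem_ker_orbitSumMap (π₁ : X → Q₁) (π₂ : X → Q₂) (π₃ : X → Q₃) (a b : X → ℂ) :
    (a, b) ∈ LinearMap.ker (orbitSumMap π₁ π₂ π₃) ↔
      (∀ q, ∑ x, (if π₁ x = q then a x else 0) = 0) ∧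
      (∀ q, ∑ x, (if π₂ x = q then b x else 0) = 0) ∧
      (∀ q, ∑ x, (if π₃ x = q then b x - a x else 0) = 0) := by
  rw [LinearMap.mem_ker, orbitSumMap_apply, Prod.mk_eq_zero, Prod.mk_eq_zero]
  simp only [funext_iff, pushSum_apply, Pi.zero_apply, Pi.sub_apply]

/-- A functional vanishing on the range of the orbit-sum map is determined by one value. -/
theorem dual_eq_zero_of_comp_orbitSumMap [DecidableEq X] (π₁ : X → Q₁) (π₂ : X → Q₂) (π₃ : X → Q₃)
    (h₁ : Function.Surjective π₁) (h₂ : Function.Surjective π₂) (h₃ : Function.Surjective π₃)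
    (hconn : ∀ (s : Q₁ → ℂ) (u : Q₂ → ℂ), (∀ x, s (π₁ x) = u (π₂ x)) → ∀ x y, s (π₁ x) = s (π₁ y))
    (x₀ : X) (ℓ : Module.Dual ℂ ((Q₁ → ℂ) × (Q₂ → ℂ) × (Q₃ → ℂ)))
    (hℓ : ℓ ∘ₗ orbitSumMap π₁ π₂ π₃ = 0)
    (h0 : ℓ (Pi.single (π₁ x₀) 1, 0, 0) = 0) : ℓ = 0 := by
  set s : Q₁ → ℂ := fun q => ℓ (Pi.single q 1, 0, 0) with hs
  set u : Q₂ → ℂ := fun q => ℓ (0, Pi.single q 1, 0) with hu
  set t : Q₃ → ℂ := fun q => ℓ (0, 0, Pi.single q 1) with ht
  have e1 : ∀ x, s (π₁ x) - t (π₃ x) = 0 := by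
    intro x
    have := LinearMap.congr_fun hℓ (Pi.single x 1, 0)
    rw [LinearMap.comp_apply, orbitSumMap_apply, pushSum_single, map_zero, zero_sub,
      ← Pi.single_neg, pushSum_single, LinearMap.zero_apply] at this
    rw [← this, hs, ht, ← map_sub]
    congr 1
    simp only [Prod.mk_sub_mk, sub_zero, zero_sub, ← Pi.single_neg]
  have e2 : ∀ x, u (π₂ x) + t (π₃ x) = 0 := by
    intro x
    have := LinearMap.congr_fun hℓ (0, Pi.single x 1)
    rw [LinearMap.comp_apply, orbitSumMap_apply, pushSum_single, map_zero, sub_zero,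
      pushSum_single, LinearMap.zero_apply] at this
    rw [← this, hu, ht, ← map_add]
    congr 1
    simp only [Prod.mk_add_mk, add_zero, zero_add]
  have hsu : ∀ x, s (π₁ x) = (fun q => - u q) (π₂ x) := fun x => by
    have := e1 x; have := e2 x
    simp only
    linear_combination e1 x + e2 x
  have hconst := hconn s (fun q => - u q) hsu
  have hs0 : ∀ q, s q = 0 := by
    intro q
    obtain ⟨x, rfl⟩ := h₁ q
    rw [hconst x x₀]
    exact h0
  have ht0 : ∀ q, t q = 0 := by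
    intro q
    obtain ⟨x, rfl⟩ := h₃ q
    have := e1 x
    rw [hs0] at this
    linear_combination -this
  have hu0 : ∀ q, u q = 0 := by
    intro q
    obtain ⟨x, rfl⟩ := h₂ q
    have := e2 x
    rw [ht0] at this
    linear_combination this
  apply LinearMap.ext
  rintro ⟨a, b, c⟩
  have ha : ℓ (a, 0, 0) = 0 := by
    have : (a, (0 : Q₂ → ℂ), (0 : Q₃ → ℂ)) = ∑ q, a q • (Pi.single q (1 : ℂ), (0 : Q₂ → ℂ), (0 : Q₃ → ℂ)) := by
      simp only [Prod.smul_mk, smul_zero, Prod.ext_iff, Prod.fst_sum, Prod.snd_sum,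
        Finset.sum_const_zero, and_true]
      funext q'
      simp [Finset.sum_apply, Pi.single_apply]
    rw [this, map_sum]
    refine Finset.sum_eq_zero fun q _ => ?_
    rw [map_smul, show ℓ (Pi.single q 1, 0, 0) = s q from rfl, hs0, smul_zero]
  have hb : ℓ (0, b, 0) = 0 := by
    have : ((0 : Q₁ → ℂ), b, (0 : Q₃ → ℂ)) = ∑ q, b q • ((0 : Q₁ → ℂ), Pi.single q (1 : ℂ), (0 : Q₃ → ℂ)) := by
      simp only [Prod.smul_mk, smul_zero, Prod.ext_iff, Prod.fst_sum, Prod.snd_sum,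
        Finset.sum_const_zero, and_true, true_and]
      funext q'
      simp [Finset.sum_apply, Pi.single_apply]
    rw [this, map_sum]
    refine Finset.sum_eq_zero fun q _ => ?_
    rw [map_smul, show ℓ (0, Pi.single q 1, 0) = u q from rfl, hu0, smul_zero]
  have hc : ℓ (0, 0, c) = 0 := by
    have : ((0 : Q₁ → ℂ), (0 : Q₂ → ℂ), c) = ∑ q, c q • ((0 : Q₁ → ℂ), (0 : Q₂ → ℂ), Pi.single q (1 : ℂ)) := by
      simp only [Prod.smul_mk, smul_zero, Prod.ext_iff, Prod.fst_sum, Prod.snd_sum,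
        Finset.sum_const_zero, true_and]
      funext q'
      simp [Finset.sum_apply, Pi.single_apply]
    rw [this, map_sum]
    refine Finset.sum_eq_zero fun q _ => ?_
    rw [map_smul, show ℓ (0, 0, Pi.single q 1) = t q from rfl, ht0, smul_zero]
  have : (a, b, c) = (a, (0 : Q₂ → ℂ), (0 : Q₃ → ℂ)) + ((0 : Q₁ → ℂ), b, (0 : Q₃ → ℂ))
      + ((0 : Q₁ → ℂ), (0 : Q₂ → ℂ), c) := by
    simp
  rw [this, map_add, map_add, ha, hb, hc]
  simp

/-- **Orbit rank bound**: the kernel of the orbit-sum map has dimension at most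
`2 |X| + 1 - |Q₁| - |Q₂| - |Q₃|`. -/
theorem finrank_ker_orbitSumMap_le (π₁ : X → Q₁) (π₂ : X → Q₂) (π₃ : X → Q₃)
    (h₁ : Function.Surjective π₁) (h₂ : Function.Surjective π₂) (h₃ : Function.Surjective π₃)
    (hconn : ∀ (s : Q₁ → ℂ) (u : Q₂ → ℂ), (∀ x, s (π₁ x) = u (π₂ x)) → ∀ x y, s (π₁ x) = s (π₁ y))
    (x₀ : X) :
    finrank ℂ (LinearMap.ker (orbitSumMap π₁ π₂ π₃))
        + Fintype.card Q₁ + Fintype.card Q₂ + Fintype.card Q₃
      ≤ 2 * Fintype.card X + 1 := by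
  classical
  set Ξ := orbitSumMap π₁ π₂ π₃ with hΞ
  have hA : finrank ℂ ((X → ℂ) × (X → ℂ)) = 2 * Fintype.card X := by
    rw [Module.finrank_prod, Module.finrank_fintype_fun_eq_card]; ring
  have hB : finrank ℂ ((Q₁ → ℂ) × (Q₂ → ℂ) × (Q₃ → ℂ))
      = Fintype.card Q₁ + Fintype.card Q₂ + Fintype.card Q₃ := by
    rw [Module.finrank_prod, Module.finrank_prod, Module.finrank_fintype_fun_eq_card,
      Module.finrank_fintype_fun_eq_card, Module.finrank_fintype_fun_eq_card]; ring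
  have hrn := LinearMap.finrank_range_add_finrank_ker Ξ
  have hann := Subspace.finrank_add_finrank_dualAnnihilator_eq (LinearMap.range Ξ)
  rw [← LinearMap.ker_dualMap_eq_dualAnnihilator_range] at hann
  -- the kernel of the dual map is at most one-dimensional
  have hker : finrank ℂ (LinearMap.ker Ξ.dualMap) ≤ 1 := by
    let ev : LinearMap.ker Ξ.dualMap →ₗ[ℂ] ℂ :=
      (LinearMap.applyₗ ((Pi.single (π₁ x₀) (1 : ℂ), (0 : Q₂ → ℂ), (0 : Q₃ → ℂ)) :
        (Q₁ → ℂ) × (Q₂ → ℂ) × (Q₃ → ℂ))).comp (LinearMap.ker Ξ.dualMap).subtype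
    have hinj : Function.Injective ev := by
      rw [← LinearMap.ker_eq_bot, LinearMap.ker_eq_bot']
      rintro ⟨ℓ, hℓ⟩ h0
      apply Subtype.ext
      rw [LinearMap.mem_ker, LinearMap.dualMap_apply'] at hℓ
      exact dual_eq_zero_of_comp_orbitSumMap π₁ π₂ π₃ h₁ h₂ h₃ hconn x₀ ℓ hℓ h0
    have := LinearMap.finrank_le_finrank_of_injective hinj
    rwa [Module.finrank_self] at this
  rw [hA] at hrn
  rw [hB] at hann
  omega

end orbitRank

end Fermat.Agent.S21lib
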