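-- Statement S31 (row 30): in a Hecke–Galois datum of level `N` away from `S`, the Galois
-- representation is unramified at every prime outside `S`.
-- Proof: Fermat/Agent/S31lib (algebra: faithfulness of the Tate-module lattice, trace/determinant
-- argument, weak Chebotarev), with the Eichler–Shimura congruence relation S37.
import Fermat.Statements.S31
import Fermat.Agent.S31lib.Wiring
import Fermat.Agent.S37

set_option autoImplicit false
variable {p : ℕ} {N : ℕ} [NeZero N] {S : Finset ℕ}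
  {𝒪 : Type} [CommRing 𝒪] [IsDomain 𝒪] [IsDiscreteValuationRing 𝒪]
  [IsAdicComplete (IsLocalRing.maximalIdeal 𝒪) 𝒪]
  {θ : CuspForm.heckeAlgebra N 2 (↑S : Set ℕ) →+* IsLocalRing.ResidueField 𝒪}
  {T : Type} [CommRing T] [IsLocalRing T] [IsNoetherianRing T]
  [IsAdicComplete (IsLocalRing.maximalIdeal T) T] [Algebra 𝒪 T] [IsLocalHom (algebraMap 𝒪 T)]
  [Module.Finite 𝒪 T] [Module.Free 𝒪 T]
open CuspForm CuspForm.HeckeGaloisRepDatum

namespace Fermat.Agent.S31

theorem result (hp : p.Prime)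
    (hp𝒪 : (p : 𝒪) ∈ IsLocalRing.maximalIdeal 𝒪) (hpS : p ∈ S)
    (hNS : ∀ q : ℕ, q.Prime → q ∣ N → q ∈ S)
    (H : CuspForm.HeckeGaloisRepDatum N (↑S : Set ℕ) 𝒪 θ T)
    (q : ℕ) (hq : q.Prime) (hqS : q ∉ S) :
    H.ρ.IsUnramifiedAt q :=
  Fermat.Agent.S31lib.s31_of_s37
    (fun N' p' _ hcomm => Fermat.Agent.S37.result N' p' hcomm)
    hp hp𝒪 hpS hNS H q hq hqS

end Fermat.Agent.S31
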