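-- Statement S58 (row 52): conductor-level matching for a semistable integral Weierstrass curve that is modular
-- of a cube-free level N divisible by all its bad primes, with irreducible mod-p representation, p odd, p^2 not
-- dividing N.
-- Proof: Fermat/Agent/S58lib (item 84, architect helper6): Cond.lean s58_of_S36 = the statement from the statement
-- of S36 (Carayol, Fermat/Agent/S36.lean) + S35 + the Hasse package (frm_hasseQ, fkb_hss_KB) + the links to the
-- Galois representations + MinLevel + stabilisation.
import Fermat.Statements.S58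
import Fermat.Agent.S36
import Fermat.Agent.S58lib.Cond

set_option autoImplicit false
set_option autoImplicit false
open WeierstrassCurve

namespace Fermat.Agent.S58

theorem result
    (W : WeierstrassCurve ℤ) (hss : W.IsSemistableModel) (N : ℕ)
    (p : ℕ) [Fact p.Prime] (hp2 : p ≠ 2) (hirr : W.ModRepIsIrreducible p)
    (hp2N : ¬ p ^ 2 ∣ N)
    (hN : W.IsModularModelOfLevel N) (hbad : ∀ ℓ : ℕ, ℓ.Prime → (ℓ : ℤ) ∣ W.Δ → ℓ ∣ N)
    (hN3 : ∀ q : ℕ, q.Prime → ¬ q ^ 3 ∣ N) :
    W.IsModularModelOfLevel W.conductorLevel := by
  exact Fermat.Agent.S58lib.s58_of_S36 (@Fermat.Agent.S36.result)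
    W hss N p hp2 hirr hp2N hN hbad hN3

end Fermat.Agent.S58
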