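import Fermat.Statements.S33
import Fermat.Agent.S58
import Fermat.Agent.S33lib.RankFinal
import Fermat.Agent.S33lib.LevFinal
import Fermat.Agent.S33lib.TorConc

/-!
# S33: in a Hecke–Galois datum of level `N` away from `S`, with `p` odd and `p ∥ N`, the Galois
representation is ordinary at `p` provided its residual representation is.

Wiring only (item 86; architect helper6):
* `S33lib.rnkf_main` (helper25): the statement from the two geometric inputs (G1) and (TOR_p)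
  (rank trick `rnk_main`, residual side `s33w_fixJ`, algebra `s33_of_O1` / `thp_O1`);
* `S33lib.lva_hGood` (helper21; G1 = good level: KSAT, RAYJ, REG2, TPINJ, LEV);
* `S33lib.s33_torp` (helper13; (TOR_p): the `p`-new part at the levels `M' p`).
-/

set_option autoImplicit false
variable {p : ℕ} {N : ℕ} [NeZero N] {S : Finset ℕ}
  {𝒪 : Type} [CommRing 𝒪] [IsDomain 𝒪] [IsDiscreteValuationRing 𝒪]
  [IsAdicComplete (IsLocalRing.maximalIdeal 𝒪) 𝒪]
  {θ : CuspForm.heckeAlgebra N 2 (↑S : Set ℕ) →+* IsLocalRing.ResidueField 𝒪}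
  {T : Type} [CommRing T] [IsLocalRing T] [IsNoetherianRing T]
  [IsAdicComplete (IsLocalRing.maximalIdeal T) T] [Algebra 𝒪 T] [IsLocalHom (algebraMap 𝒪 T)]
  [Module.Finite 𝒪 T] [Module.Free 𝒪 T]
open CuspForm CuspForm.HeckeGaloisRepDatum

namespace Fermat.Agent.S33

theorem result
    [Finite (IsLocalRing.ResidueField 𝒪)] [CharZero 𝒪]
    (hp : p.Prime) (hp2 : p ≠ 2) (hp𝒪 : (p : 𝒪) ∈ IsLocalRing.maximalIdeal 𝒪) (hN : p ∣ N ∧ ¬ p ^ 2 ∣ N)
    (hNS : ∀ q : ℕ, q.Prime → q ∣ N → q ∈ S)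
    (H : CuspForm.HeckeGaloisRepDatum N (↑S : Set ℕ) 𝒪 θ T)
    (hres : (GaloisRepAdic.ofResidualGaloisRep H.ρ.residual).IsOrdinaryAt p) :
    H.ρ.IsOrdinaryAt p := by
  haveI : Fact p.Prime := ⟨hp⟩
  haveI : NeZero p := ⟨hp.ne_zero⟩
  exact Fermat.Agent.S33lib.rnkf_main hp hp2 hp𝒪 hN hNS H hres
    (Fermat.Agent.S33lib.lva_hGood p S)
    (fun M' _ _ _ hpM => Fermat.Agent.S33lib.s33_torp p hp hp2 M' hpM)

end Fermat.Agent.S33
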