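-- S41 (row 39): level raising (Ribet, Diamond–Taylor).
-- Assembly (item 78): block D `s41_of_ihara_duality` (Final.lean), block B `duality_statement`
-- (DualOf.lean), block A = Ihara's lemma: `a2_hinv` (amalgam) + `a3_core` (the mod-p congruence
-- subgroup property of Γ₀(N)[1/q], helper10's proof) + `ihara_of_core` (Eisenstein property).
import Fermat.Statements.S41
import Fermat.Agent.S41lib.Final
import Fermat.Agent.S41lib.DualOf
import Fermat.Agent.S41lib.A2Glue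
import Fermat.Agent.S41lib.A3Fin
import Fermat.Agent.S41lib.A5Eis

set_option autoImplicit false
open WeierstrassCurve WeierstrassCurve.Affine WeierstrassCurve.Affine.Point
open scoped CongruenceSubgroup
open WeierstrassCurve

namespace Fermat.Agent.S41

theorem result
    (E : WeierstrassCurve ℚ) [E.IsElliptic] {W : WeierstrassCurve ℤ} (hW : W.IsIntegralModelOf E)
    {p N q' : ℕ} (hp : p.Prime) (hp2 : p ≠ 2) (hN : 0 < N) (hq' : q'.Prime) (hq'N : ¬ q' ∣ N) (hq'p : q' ≠ p)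
    (hirr : GaloisRepIsIrreducible (K := AlgebraicClosure ℚ) ℚ E p)
    (f : CuspForm (CongruenceSubgroup.Gamma0 N) 2) (𝔪 : Ideal (integralClosure ℤ ℂ))
    (hf : f.IsNormalizedEigenform) (hmax : 𝔪.IsMaximal) (hpm : (p : integralClosure ℤ ℂ) ∈ 𝔪)
    (hcong : ∀ ℓ : ℕ, ℓ.Prime → W.IsGoodPrimeFor ℓ → ¬ ℓ ∣ N → ℓ ≠ p →
      ∃ a : integralClosure ℤ ℂ, (a : ℂ) = ModularFormClass.qCoeff f ℓ ∧
        a - ((W.apOfModel ℓ : ℤ) : integralClosure ℤ ℂ) ∈ 𝔪)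
    (hLR : ∃ a : integralClosure ℤ ℂ, (a : ℂ) = ModularFormClass.qCoeff f q' ∧
      a ^ 2 - ((q' : integralClosure ℤ ℂ) + 1) ^ 2 ∈ 𝔪) :
    ∃ (g : CuspForm (CongruenceSubgroup.Gamma0 (N * q')) 2) (𝔪' : Ideal (integralClosure ℤ ℂ)),
      g.IsNormalizedEigenform ∧ 𝔪'.IsMaximal ∧ (p : integralClosure ℤ ℂ) ∈ 𝔪' ∧
      (∀ ℓ : ℕ, ℓ.Prime → W.IsGoodPrimeFor ℓ → ¬ ℓ ∣ N * q' → ℓ ≠ p →
        ∃ a : integralClosure ℤ ℂ, (a : ℂ) = ModularFormClass.qCoeff g ℓ ∧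
          a - ((W.apOfModel ℓ : ℤ) : integralClosure ℤ ℂ) ∈ 𝔪') ∧
      g.IsNewAt q' := by
  have hIhara : Fermat.Agent.S41lib.IharaStatement := by
    refine Fermat.Agent.S41lib.ihara_of_core ?_
    intro N q p _ _ hq hqN hp hp2 hqp φ₁ φ₂ h₁ h₂ hker
    obtain ⟨hH₁, hH₂⟩ := Fermat.Agent.S41lib.a2_hinv N q hq hqN φ₁ φ₂ hker
    exact ⟨Fermat.Agent.S41lib.a3_core N q p hq hqN hp hp2 hqp φ₁ h₁ hH₁,
      Fermat.Agent.S41lib.a3_core N q p hq hqN hp hp2 hqp φ₂ h₂ hH₂⟩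
  exact Fermat.Agent.S41lib.s41_of_ihara_duality hIhara Fermat.Agent.S41lib.duality_statement
    E hW hp hp2 hN hq' hq'N hq'p hirr f 𝔪 hf hmax hpm hcong hLR

end Fermat.Agent.S41
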