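-- Statement S42 (row 40): EigenformResidualAttachmentAt M for the prime of a Frey package.
-- Proof: Fermat/Agent/GalRep (item 72), from the representations of S29.
import Fermat.Statements.S42
import Fermat.Agent.GalRep.S37Input

set_option autoImplicit false
open FreyPackage

namespace Fermat.Agent.S42

theorem result (P : FreyPackage) :
    ∀ M : ℕ, 0 < M → P.EigenformResidualAttachmentAt M := by
  exact Fermat.Agent.GalRep.s42Statement P

end Fermat.Agent.S42
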