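-- Statement S49 (row 44): Deligne–Serre lifting lemma.
import Fermat.Statements.S49
import Fermat.Agent.S49_Modular
import Fermat.Agent.S49_DeligneSerre

set_option autoImplicit false
open CuspForm EisensteinWeightOne CongruenceSubgroup ModularFormClass
open FLT FLT.AbstractIntegralStructure

namespace Fermat.Agent.S49

open Fermat.Agent.S49lib in
theorem result
    {N : ℕ} [NeZero N] (h : CuspForm.HasIntegralBasis N) {a : ℕ → ℤ}
    (heig : FormalHecke.IsEigensystem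
      (fun ℓ => if ℓ ∣ N then 0 else ((chiNegThree ℓ : ℤ) : ℤ)) a)
    (hreal : CuspForm.IsLatticeRealized N a) :
    ∃ (f : CuspForm (Gamma0 N) 2) (_ : f.IsNormalizedEigenform)
      (𝔪' : Ideal (integralClosure ℤ ℂ)), 𝔪'.IsMaximal ∧
      ((3 : ℕ) : integralClosure ℤ ℂ) ∈ 𝔪' ∧
      ∀ (ℓ : ℕ) (_ : ℓ.Prime) (_ : ¬ ℓ ∣ N),
        ∃ c : integralClosure ℤ ℂ, (c : ℂ) = ModularFormClass.qCoeff f ℓ ∧
          c - (a ℓ : integralClosure ℤ ℂ) ∈ 𝔪' := by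
  obtain ⟨f₀, af, hf₀, haf⟩ := exists_form_of_isLatticeRealized hreal
  have : FiniteDimensional ℂ (CuspForm (Gamma0 N) 2) := finiteDimensional_of_hasIntegralBasis h
  have hf₀M : f₀ ∈ CuspForm.intLattice N 2 :=
    (mem_intLattice_iff' f₀).mpr fun n => ⟨af n, hf₀ n⟩
  obtain ⟨g, c, 𝔪', hg, hmax, h3, hgc⟩ :=
    deligneSerre_family (heckeOp N) (heckeOp_commute N) (CuspForm.intLattice N 2)
      (CuspForm.intLattice_fg N 2) (span_intLattice_eq_top h)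
      (fun ℓ m hm => heckeOp_mem_intLattice N ℓ hm) f₀ hf₀M
      (not_three_smul_of_realized heig.1 hf₀ haf)
      (fun ℓ => a ℓ) (fun ℓ => heckeOp_sub_mem_three_smul heig hf₀ haf ℓ)
  obtain ⟨f, hf, hfc⟩ := exists_normalizedEigenform_of_eigenvector g hg (fun ℓ => (c ℓ : ℂ))
    (fun ℓ => (hgc ℓ).1)
  refine ⟨f, hf, 𝔪', hmax, h3, fun ℓ hℓ _ => ⟨c ⟨ℓ, hℓ⟩, (hfc ⟨ℓ, hℓ⟩).symm, (hgc ⟨ℓ, hℓ⟩).2⟩⟩

end Fermat.Agent.S49
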