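import Mathlib

/-!
# Helper lemmas for S49 (Deligne–Serre lifting lemma)

* `Fermat.Agent.S49eig.exists_common_eigenvector`: a commuting set of endomorphisms of a
  finite-dimensional complex vector space has a common eigenvector in every nonzero stable subspace.
* `Fermat.Agent.S49eig.isIntegral_of_mapsTo_lattice`: an endomorphism stabilising a finitely
  generated `ℤ`-lattice that spans the space is integral over `ℤ`.
* `Fermat.Agent.S49eig.isIntegral_eigenvalue_of_mapsTo_lattice`: the eigenvalue version.
-/

namespace Fermat.Agent.S49eig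

open Module

/-- A commuting set `A` of endomorphisms of a finite-dimensional `ℂ`-vector space has a common
eigenvector inside every nonzero `A`-stable subspace `W`. -/
theorem exists_common_eigenvector {V : Type*} [AddCommGroup V] [Module ℂ V]
    [FiniteDimensional ℂ V] (A : Set (Module.End ℂ V)) (hA : ∀ s ∈ A, ∀ t ∈ A, Commute s t)
    (W : Submodule ℂ V) (hW : W ≠ ⊥) (hWA : ∀ t ∈ A, ∀ w ∈ W, t w ∈ W) :
    ∃ g ∈ W, g ≠ 0 ∧ ∀ t ∈ A, ∃ c : ℂ, t g = c • g := by
  -- strong induction on the dimension of `W`
  induction hn : finrank ℂ W using Nat.strong_induction_on generalizing W with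
  | _ n ih =>
    by_cases hscal : ∀ t ∈ A, ∃ c : ℂ, ∀ w ∈ W, t w = c • w
    · -- every `t ∈ A` is a scalar on `W`
      obtain ⟨g, hgW, hg0⟩ := (Submodule.ne_bot_iff W).1 hW
      refine ⟨g, hgW, hg0, fun t ht => ?_⟩
      obtain ⟨c, hc⟩ := hscal t ht
      exact ⟨c, hc g hgW⟩
    · -- some `t ∈ A` is not a scalar on `W`: pass to an eigenspace of `t` in `W`
      simp only [not_forall, not_exists] at hscal
      obtain ⟨t, htA, ht⟩ := hscal
      have : Nontrivial W := Submodule.nontrivial_iff_ne_bot.2 hW
      obtain ⟨μ, hμ⟩ := Module.End.exists_eigenvalue (LinearMap.restrict t (hWA t htA))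
      obtain ⟨v, hv⟩ := hμ.exists_hasEigenvector
      -- the new subspace
      set W' : Submodule ℂ V := W ⊓ LinearMap.ker (t - μ • (1 : Module.End ℂ V)) with hW'
      have hmemW' : ∀ w, w ∈ W' ↔ w ∈ W ∧ t w = μ • w := by
        intro w
        simp only [hW', Submodule.mem_inf, LinearMap.mem_ker, LinearMap.sub_apply,
          LinearMap.smul_apply, Module.End.one_apply, sub_eq_zero]
      have hvW' : (v : V) ∈ W' := by
        rw [hmemW']
        refine ⟨v.2, ?_⟩
        have h1 := hv.apply_eq_smul
        have h2 := congrArg (Subtype.val) h1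
        simpa using h2
      have hW'ne : W' ≠ ⊥ := by
        intro h
        have : (v : V) = 0 := by
          have := hvW'
          rw [h, Submodule.mem_bot] at this
          exact this
        exact hv.2 (Subtype.ext this)
      have hW'le : W' ≤ W := inf_le_left
      have hW'lt : W' < W := by
        refine lt_of_le_of_ne hW'le ?_
        intro h
        obtain ⟨w, hwW, hw⟩ := ht μ
        have : w ∈ W' := h ▸ hwW
        exact hw ((hmemW' w).1 this).2
      have hW'A : ∀ s ∈ A, ∀ w ∈ W', s w ∈ W' := by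
        intro s hs w hw
        rw [hmemW'] at hw ⊢
        refine ⟨hWA s hs w hw.1, ?_⟩
        have hc : t (s w) = s (t w) := by
          have := (hA t htA s hs).eq
          exact congrArg (fun φ : Module.End ℂ V => φ w) this
        rw [hc, hw.2, map_smul]
      have hlt : finrank ℂ W' < n := hn ▸ Submodule.finrank_lt_finrank_of_lt hW'lt
      obtain ⟨g, hgW', hg0, hg⟩ := ih (finrank ℂ W') hlt W' hW'ne hW'A rfl
      exact ⟨g, hW'le hgW', hg0, hg⟩


/-- Restriction to a stable `ℤ`-lattice is compatible with polynomial evaluation. -/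
theorem aeval_apply_eq_aeval_restrict {V : Type*} [AddCommGroup V] [Module ℂ V]
    (M : Submodule ℤ V) (t : Module.End ℂ V) (ht : ∀ m ∈ M, t m ∈ M) (q : Polynomial ℤ) :
    ∀ (m : V) (hm : m ∈ M), (Polynomial.aeval t q) m =
      ((Polynomial.aeval (LinearMap.restrict (t.restrictScalars ℤ) ht) q) ⟨m, hm⟩ : V) := by
  induction q using Polynomial.induction_on with
  | C a =>
    intro m hm
    simp
  | add p q hp hq =>
    intro m hm
    simp [hp m hm, hq m hm]
  | monomial n a h =>
    intro m hm
    have h1 := h (t m) (ht m hm)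
    have hL : Polynomial.aeval t (Polynomial.C a * Polynomial.X ^ (n + 1)) =
        Polynomial.aeval t (Polynomial.C a * Polynomial.X ^ n) * t := by
      rw [pow_succ, ← mul_assoc, map_mul (Polynomial.aeval t) _ Polynomial.X, Polynomial.aeval_X]
    have hR : Polynomial.aeval (LinearMap.restrict (t.restrictScalars ℤ) ht)
          (Polynomial.C a * Polynomial.X ^ (n + 1)) =
        Polynomial.aeval (LinearMap.restrict (t.restrictScalars ℤ) ht)
          (Polynomial.C a * Polynomial.X ^ n) * (LinearMap.restrict (t.restrictScalars ℤ) ht) := by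
      rw [pow_succ, ← mul_assoc, map_mul (Polynomial.aeval _) _ Polynomial.X, Polynomial.aeval_X]
    rw [hL, hR, Module.End.mul_apply, Module.End.mul_apply, h1]
    rfl

/-- An endomorphism stabilising a finitely generated `ℤ`-lattice which spans the space satisfies
a monic integer polynomial. -/
theorem exists_monic_aeval_eq_zero_of_mapsTo_lattice {V : Type*} [AddCommGroup V] [Module ℂ V]
    (M : Submodule ℤ V) (hfg : M.FG) (hspan : Submodule.span ℂ (M : Set V) = ⊤)
    (t : Module.End ℂ V) (ht : ∀ m ∈ M, t m ∈ M) :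
    ∃ p : Polynomial ℤ, p.Monic ∧ Polynomial.aeval t p = 0 := by
  have : Module.Finite ℤ M := Module.Finite.iff_fg.2 hfg
  obtain ⟨p, hp, hp0⟩ :=
    LinearMap.exists_monic_and_aeval_eq_zero ℤ (LinearMap.restrict (t.restrictScalars ℤ) ht)
  refine ⟨p, hp, ?_⟩
  have hker : (M : Set V) ⊆ LinearMap.ker (Polynomial.aeval t p) := by
    intro m hm
    rw [SetLike.mem_coe, LinearMap.mem_ker, aeval_apply_eq_aeval_restrict M t ht p m hm, hp0]
    rfl
  have hle : Submodule.span ℂ (M : Set V) ≤ LinearMap.ker (Polynomial.aeval t p) :=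
    Submodule.span_le.2 hker
  rw [hspan] at hle
  exact LinearMap.ker_eq_top.1 (top_le_iff.1 hle)

/-- An endomorphism stabilising a finitely generated `ℤ`-lattice which spans the space is
integral over `ℤ`. -/
theorem isIntegral_of_mapsTo_lattice {V : Type*} [AddCommGroup V] [Module ℂ V]
    (M : Submodule ℤ V) (hfg : M.FG) (hspan : Submodule.span ℂ (M : Set V) = ⊤)
    (t : Module.End ℂ V) (ht : ∀ m ∈ M, t m ∈ M) : IsIntegral ℤ t := by
  obtain ⟨p, hp, hp0⟩ := exists_monic_aeval_eq_zero_of_mapsTo_lattice M hfg hspan t ht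
  exact ⟨p, hp, by rw [← Polynomial.aeval_def]; exact hp0⟩

/-- Eigenvalues of an endomorphism stabilising a finitely generated spanning `ℤ`-lattice are
algebraic integers. -/
theorem isIntegral_eigenvalue_of_mapsTo_lattice {V : Type*} [AddCommGroup V] [Module ℂ V]
    (M : Submodule ℤ V) (hfg : M.FG) (hspan : Submodule.span ℂ (M : Set V) = ⊤)
    (t : Module.End ℂ V) (ht : ∀ m ∈ M, t m ∈ M) {g : V} (hg : g ≠ 0) {c : ℂ}
    (hc : t g = c • g) : IsIntegral ℤ c := by
  obtain ⟨p, hp, hp0⟩ := exists_monic_aeval_eq_zero_of_mapsTo_lattice M hfg hspan t ht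
  refine ⟨p, hp, ?_⟩
  have h1 : Polynomial.aeval t (p.map (algebraMap ℤ ℂ)) g =
      (p.map (algebraMap ℤ ℂ)).eval c • g :=
    Module.End.aeval_apply_of_mem_apply_eq_smul hc
  rw [Polynomial.aeval_map_algebraMap, hp0, LinearMap.zero_apply] at h1
  have h2 : (p.map (algebraMap ℤ ℂ)).eval c = 0 := by
    rcases smul_eq_zero.1 h1.symm with h | h
    · exact h
    · exact absurd h hg
  rwa [Polynomial.eval_map] at h2

end Fermat.Agent.S49eig
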