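import Fermat.Statements.S53
import Fermat.Agent.S53lib.Final
import Fermat.Agent.S53lib.ChainExists
import Fermat.Agent.S53lib.ChainRep
import Fermat.Agent.S53lib.Bound
import Fermat.Agent.S53lib.CompleteUniv
import Fermat.Agent.S53lib.AdmInf

set_option autoImplicit false
set_option autoImplicit false
open GaloisRep

namespace Fermat.Agent.S53

open Fermat.Agent.S53lib IsLocalRing in
theorem result
    (𝒪 : Type) [CommRing 𝒪] [IsDomain 𝒪] [IsDiscreteValuationRing 𝒪]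
    [IsAdicComplete (IsLocalRing.maximalIdeal 𝒪) 𝒪] [Finite (IsLocalRing.ResidueField 𝒪)]
    (ρbar : ResidualGaloisRep (IsLocalRing.ResidueField 𝒪))
    (𝒟 : ∀ ⦃A : Type⦄ [CommRing A] [IsLocalRing A] [Algebra 𝒪 A], GaloisRepAdic A → Prop)
    (habs : ρbar.IsAbsolutelyIrreducible)
    (h𝒟 : GaloisRep.IsDeformationCondition 𝒪 𝒟)
    (hbar : 𝒟 (GaloisRepAdic.ofResidualGaloisRep ρbar))
    (hfin : GaloisRep.TangentFinite 𝒪 ρbar 𝒟) :
    Nonempty (GaloisRep.DeformationRingData 𝒪 ρbar 𝒟) := by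
  classical
  -- Burnside: the image of `ρbar` spans `M₂(k)`
  have hspan : Submodule.span (ResidueField 𝒪) (Set.range (rbarMat ρbar)) = ⊤ :=
    burnside_two (rbarMat ρbar) (absIrr_matrix ρbar habs)
  have hprinc : ∃ ϖ : 𝒪, maximalIdeal 𝒪 = Ideal.span {ϖ} := by
    obtain ⟨ϖ, hϖ⟩ := IsDiscreteValuationRing.exists_irreducible 𝒪
    exact ⟨ϖ, hϖ.maximalIdeal_eq⟩
  -- G0: a level-zero admissible ideal
  have hne : ∃ I, AdmN 𝒪 𝒟 (rbarMat ρbar) 0 I := exists_admN_zero h𝒟 ρbar hspan hbar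
  -- G1: admissible ideals are closed under intersection
  have hinf : ∀ n I₁ I₂, AdmN 𝒪 𝒟 (rbarMat ρbar) n I₁ → AdmN 𝒪 𝒟 (rbarMat ρbar) n I₂ →
      AdmN 𝒪 𝒟 (rbarMat ρbar) n (I₁ ⊓ I₂) := fun n I₁ I₂ h₁ h₂ => AdmN.inf h𝒟 hspan h₁ h₂
  -- F2: the quotients by admissible ideals of level `n` have bounded cardinality
  have hcard : ∀ n, ∃ C, ∀ I, AdmN 𝒪 𝒟 (rbarMat ρbar) n I → Nat.card (Pol 𝒪 ⧸ I) ≤ C := by
    obtain ⟨C, hC⟩ := card_bound (ρbar := ρbar) h𝒟 hfin hprinc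
    intro n
    refine ⟨C n, ?_⟩
    rintro I ⟨hloc, r, hdefo, htr, hpow⟩
    exact (hC n (Pol 𝒪 ⧸ I) r hdefo (adjoin_trace_eq_top I r htr) hpow).2
  -- G2: the chain of minimal admissible ideals
  obtain ⟨c⟩ := chain_exists hne hinf hcard
  -- G3/G4: compatible deformations along the chain
  obtain ⟨r, hdefo, htr, hcompat⟩ := c.exists_compatible h𝒟 hspan
  -- F1: generators of the cotangent space
  obtain ⟨s, hsm, hs⟩ := cotangent_bound_mem h𝒟 hfin (Pol 𝒪 ⧸ c.I 1) (r 1) (hdefo 1)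
    (adjoin_trace_eq_top (c.I 1) (r 1) (htr 1))
  refine nonempty_of_chain h𝒟 habs c c.π c.π_surjective (c.ker_π h𝒟) r hdefo htr hcompat _
    ⟨s, hsm, hs⟩ ?_
  -- H: from Artinian test algebras to complete Noetherian local algebras
  intro R _ _ _ _ _ _ _ ρR _ hr hArt
  exact universal_of_artinian 𝒪 ρbar 𝒟 habs h𝒟 R ρR hr hArt

end Fermat.Agent.S53
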