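import Mathlib

set_option autoImplicit false

namespace Fermat.Agent.S57lib

open IsLocalRing RingTheory.Sequence CategoryTheory Abelian Pointwise

universe u

/-- If `N` has a regular sequence of length `n+1` in the maximal ideal and `y` is an
`N`-regular element of the maximal ideal, then `N/yN` has a regular sequence of length `n`. -/
lemma exists_isRegular_quotSMulTop {A : Type u} [CommRing A] [IsLocalRing A] [IsNoetherianRing A]
    (N : Type u) [AddCommGroup N] [Module A N] [Module.Finite A N] [Nontrivial N]
    (n : ℕ) (rs : List A) (hlen : rs.length = n + 1) (hmem : ∀ x ∈ rs, x ∈ maximalIdeal A)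
    (hreg : IsRegular N rs) (y : A) (hy : y ∈ maximalIdeal A) (hyreg : IsSMulRegular N y) :
    ∃ rs' : List A, rs'.length = n ∧ (∀ x ∈ rs', x ∈ maximalIdeal A) ∧
      IsRegular (QuotSMulTop y N) rs' := by
  have smul_lt : maximalIdeal A • (⊤ : Submodule A N) < ⊤ :=
    Ne.lt_top (Submodule.top_ne_ideal_smul_of_le_jacobson_annihilator
      (maximalIdeal_le_jacobson _)).symm
  let k : ModuleCat.{u} A := ModuleCat.of A (A ⧸ maximalIdeal A)
  have ksupp : Module.support A k = PrimeSpectrum.zeroLocus (maximalIdeal A) := by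
    rw [Module.support_eq_zeroLocus, Ideal.annihilator_quotient]
  have h1 : ∀ i < n + 1, Subsingleton (Ext k (ModuleCat.of A N) i) := by
    have := ModuleCat.subsingleton_ext_of_exists_isRegular (maximalIdeal A) k ksupp.subset
      (ModuleCat.of A N) smul_lt rs hmem hreg
    rw [hlen] at this
    exact this
  have h2 : ∀ i < n, Subsingleton (Ext k (ModuleCat.of A (QuotSMulTop y N)) i) := by
    intro i hi
    have zero1 := AddCommGrpCat.isZero_of_iff_subsingleton.mpr (h1 i (by omega))
    have zero2 := AddCommGrpCat.isZero_of_iff_subsingleton.mpr (h1 (i + 1) (by omega))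
    exact AddCommGrpCat.subsingleton_of_isZero <| ShortComplex.Exact.isZero_of_both_zeros
      ((Ext.covariant_sequence_exact₃' k
        (IsSMulRegular.smulShortComplex_shortExact (M := ModuleCat.of A N) hyreg)) i (i + 1) rfl)
      (zero1.eq_zero_of_src _) (zero2.eq_zero_of_tgt _)
  have : Nontrivial (QuotSMulTop y N) := nontrivial_quotSMulTop_of_mem_maximalIdeal N hy
  have smul_lt' : maximalIdeal A • (⊤ : Submodule A (QuotSMulTop y N)) < ⊤ :=
    Ne.lt_top (Submodule.top_ne_ideal_smul_of_le_jacobson_annihilator
      (maximalIdeal_le_jacobson _)).symm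
  exact ModuleCat.exists_isRegular_of_exists_subsingleton_ext (maximalIdeal A) n
    (ModuleCat.of A (QuotSMulTop y N)) smul_lt' k ksupp h2

lemma exists_regular_not_mem_sq {A : Type u} [CommRing A] [IsLocalRing A] [IsNoetherianRing A]
    (N : Type u) [AddCommGroup N] [Module A N] [Module.Finite A N] [Nontrivial N]
    (x : A) (hx : x ∈ maximalIdeal A) (hxreg : IsSMulRegular N x) :
    ∃ y ∈ maximalIdeal A, y ∉ (maximalIdeal A) ^ 2 ∧ IsSMulRegular N y := by
  classical
  by_contra hcon
  push Not at hcon
  have hfin : (associatedPrimes A N).Finite := associatedPrimes.finite A N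
  let s : Finset (Ideal A) := insert ((maximalIdeal A) ^ 2) hfin.toFinset
  have hsub : ((maximalIdeal A : Ideal A) : Set A) ⊆ ⋃ i ∈ (↑s : Set (Ideal A)), (i : Set A) := by
    intro y hy
    by_cases h2 : y ∈ (maximalIdeal A) ^ 2
    · exact Set.mem_biUnion (by simp [s]) h2
    · have hnr : ¬ IsSMulRegular N y := hcon y hy h2
      have : y ∈ ⋃ p ∈ associatedPrimes A N, (p : Set A) := by
        rw [biUnion_associatedPrimes_eq_compl_regular]
        exact hnr
      obtain ⟨p, hp, hyp⟩ := Set.mem_iUnion₂.mp this
      exact Set.mem_biUnion (by simp [s, hp]) hyp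
  have hprime : ∀ i ∈ s, i ≠ (maximalIdeal A) ^ 2 → i ≠ (maximalIdeal A) ^ 2 → i.IsPrime := by
    intro i hi hne _
    have : i ∈ associatedPrimes A N := by
      simpa [s, hne] using hi
    exact this.isPrime
  obtain ⟨i, hi, hle⟩ := (Ideal.subset_union_prime (f := fun i : Ideal A => i)
    ((maximalIdeal A) ^ 2) ((maximalIdeal A) ^ 2) hprime).mp hsub
  rcases Finset.mem_insert.mp hi with rfl | hi'
  · -- 𝔪 ≤ 𝔪^2
    have hbot : maximalIdeal A = ⊥ := by
      have h1 : maximalIdeal A ≤ maximalIdeal A • maximalIdeal A := by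
        simpa [pow_two] using hle
      exact Submodule.eq_bot_of_le_smul_of_le_jacobson_bot (maximalIdeal A) (maximalIdeal A)
        (IsNoetherian.noetherian _) h1 (maximalIdeal_le_jacobson _)
    have hx0 : x = 0 := by simpa [hbot] using hx
    subst hx0
    obtain ⟨a, b, hab⟩ := exists_pair_ne N
    exact hab (hxreg (by simp))
  · have hass : i ∈ associatedPrimes A N := by simpa using hi'
    have : x ∈ ⋃ p ∈ associatedPrimes A N, (p : Set A) :=
      Set.mem_biUnion hass (hle hx)
    rw [biUnion_associatedPrimes_eq_compl_regular] at this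
    exact this hxreg


lemma map_mk_maximalIdeal {A : Type u} [CommRing A] [IsLocalRing A] (I : Ideal A)
    [IsLocalRing (A ⧸ I)] :
    (maximalIdeal A).map (Ideal.Quotient.mk I) = maximalIdeal (A ⧸ I) := by
  have hI : I ≠ ⊤ := by
    intro h
    have : Subsingleton (A ⧸ I) := by
      rw [h]; exact Ideal.Quotient.subsingleton_iff.mpr rfl
    exact not_subsingleton _ this
  apply le_antisymm
  · rw [Ideal.map_le_iff_le_comap]
    intro x hx
    rw [Ideal.mem_comap, mem_maximalIdeal, mem_nonunits_iff]
    intro hu
    have : IsUnit x := by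
      by_contra hnu
      have hxm : x ∈ maximalIdeal A := hnu
      obtain ⟨v, hv⟩ := hu.exists_right_inv
      obtain ⟨w, rfl⟩ := Ideal.Quotient.mk_surjective v
      have h1 : x * w - 1 ∈ I := by
        rw [← Ideal.Quotient.eq_zero_iff_mem, map_sub, map_mul, map_one, hv, sub_self]
      have h2 : x * w - 1 ∈ maximalIdeal A := le_maximalIdeal hI h1
      have h3 : x * w ∈ maximalIdeal A := Ideal.mul_mem_right _ _ hxm
      have h4 : (1 : A) ∈ maximalIdeal A := by
        have h5 := Ideal.sub_mem _ h3 h2
        rwa [sub_sub_cancel] at h5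
      exact (Ideal.ne_top_iff_one _).mp (maximalIdeal.isMaximal A).ne_top h4
    exact hx this
  · intro x hx
    obtain ⟨a, rfl⟩ := Ideal.Quotient.mk_surjective x
    apply Ideal.mem_map_of_mem
    rw [mem_maximalIdeal, mem_nonunits_iff] at hx ⊢
    exact fun h => hx (h.map _)

lemma exists_generators_quotient {A : Type u} [CommRing A] [IsLocalRing A]
    (s : Finset A) (hs : Ideal.span (s : Set A) = maximalIdeal A)
    (y : A) (hy : y ∈ maximalIdeal A) (hy2 : y ∉ (maximalIdeal A) ^ 2)
    [IsLocalRing (A ⧸ Ideal.span {y})] :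
    ∃ t : Finset (A ⧸ Ideal.span {y}), t.card + 1 ≤ s.card ∧
      Ideal.span (t : Set (A ⧸ Ideal.span {y})) = maximalIdeal (A ⧸ Ideal.span {y}) := by
  classical
  have hyspan : y ∈ Ideal.span (s : Set A) := hs ▸ hy
  obtain ⟨f, hf⟩ := Submodule.mem_span_finset'.mp hyspan
  -- some coefficient is a unit
  have hex : ∃ g : s, IsUnit (f g) := by
    by_contra hno
    push Not at hno
    apply hy2
    rw [← hf, pow_two]
    refine Ideal.sum_mem _ fun g _ => ?_
    rw [smul_eq_mul]
    exact Ideal.mul_mem_mul (hno g) (hs ▸ Ideal.subset_span g.2)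
  obtain ⟨g₀, hg₀⟩ := hex
  let mk := Ideal.Quotient.mk (Ideal.span {y})
  refine ⟨(s.erase g₀.1).image mk, ?_, ?_⟩
  · calc ((s.erase g₀.1).image mk).card + 1 ≤ (s.erase g₀.1).card + 1 :=
        Nat.add_le_add_right Finset.card_image_le 1
      _ = s.card := Finset.card_erase_add_one g₀.2
  · rw [← map_mk_maximalIdeal, ← hs, Ideal.map_span]
    apply le_antisymm
    · apply Ideal.span_mono
      intro z hz
      simp only [Finset.coe_image, Finset.coe_erase, Set.mem_image] at hz ⊢
      obtain ⟨a, ha, rfl⟩ := hz
      exact ⟨a, ha.1, rfl⟩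
    · rw [Ideal.span_le]
      rintro z ⟨a, ha, rfl⟩
      by_cases hag : a = g₀.1
      · subst hag
        -- mk g₀ is in the span of the others
        have h0 : mk (∑ g : s, f g • (g : A)) = 0 := by
          rw [hf]
          exact Ideal.Quotient.eq_zero_iff_mem.mpr (Ideal.mem_span_singleton_self y)
        rw [map_sum, ← Finset.add_sum_erase _ _ (Finset.mem_univ g₀)] at h0
        have h1 : mk (f g₀) * mk g₀.1 =
            - ∑ g ∈ Finset.univ.erase g₀, mk (f g • (g : A)) := by
          rw [smul_eq_mul, map_mul] at h0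
          exact eq_neg_of_add_eq_zero_left h0
        have hu : IsUnit (mk (f g₀)) := hg₀.map mk
        obtain ⟨u, hu'⟩ := hu
        have h2 : mk g₀.1 = ↑u⁻¹ * (- ∑ g ∈ Finset.univ.erase g₀, mk (f g • (g : A))) := by
          rw [← h1, ← hu', ← mul_assoc, Units.inv_mul, one_mul]
        rw [SetLike.mem_coe, h2]
        apply Ideal.mul_mem_left
        refine neg_mem (Ideal.sum_mem _ fun g hg => ?_)
        rw [smul_eq_mul, map_mul]
        apply Ideal.mul_mem_left
        apply Ideal.subset_span
        simp only [Finset.coe_image, Finset.coe_erase, Set.mem_image]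
        refine ⟨g.1, ⟨g.2, ?_⟩, rfl⟩
        intro h
        exact (Finset.mem_erase.mp hg).1 (Subtype.ext h)
      · apply Ideal.subset_span
        simp only [Finset.coe_image, Finset.coe_erase, Set.mem_image]
        exact ⟨a, ⟨ha, hag⟩, rfl⟩


/-- Auslander–Buchsbaum in the only case we need: a finitely generated module over a Noetherian
local ring whose maximal ideal is generated by `n` elements, admitting a regular sequence of
length `n` inside the maximal ideal, is free. -/
theorem free_of_isWeaklyRegular (n : ℕ) :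
    ∀ (A : Type u) [CommRing A] [IsLocalRing A] [IsNoetherianRing A]
      (N : Type u) [AddCommGroup N] [Module A N] [Module.Finite A N]
      (s : Finset A) (_ : Ideal.span (s : Set A) = maximalIdeal A) (_ : s.card ≤ n)
      (rs : List A) (_ : rs.length = n) (_ : ∀ x ∈ rs, x ∈ maximalIdeal A)
      (_ : IsWeaklyRegular N rs), Module.Free A N := by
  induction n with
  | zero =>
    intro A _ _ _ N _ _ _ s hs hcard rs hlen hmem hreg
    have hs0 : s = ∅ := Finset.card_eq_zero.mp (Nat.le_zero.mp hcard)
    have hbot : maximalIdeal A = ⊥ := by rw [← hs, hs0]; simp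
    have hfield : IsField A := isField_iff_maximalIdeal_eq.mpr hbot
    let _ := hfield.toField
    exact Module.Free.of_divisionRing A N
  | succ n ih =>
    intro A _ _ _ N _ _ _ s hs hcard rs hlen hmem hreg
    by_cases hN : Subsingleton N
    · exact Module.Free.of_subsingleton A N
    rw [not_subsingleton_iff_nontrivial] at hN
    have hreg' : IsRegular N rs := IsRegular.of_isWeaklyRegular_of_mem_maximalIdeal N hmem hreg
    obtain ⟨x, rs', rfl⟩ : ∃ x rs', rs = x :: rs' := by
      cases rs with
      | nil => simp at hlen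
      | cons x rs' => exact ⟨x, rs', rfl⟩
    have hx : x ∈ maximalIdeal A := hmem x List.mem_cons_self
    have hxreg : IsSMulRegular N x := ((isWeaklyRegular_cons_iff N x rs').mp hreg).1
    obtain ⟨y, hy, hy2, hyreg⟩ := exists_regular_not_mem_sq N x hx hxreg
    obtain ⟨rs'', hlen'', hmem'', hreg''⟩ :=
      exists_isRegular_quotSMulTop N n (x :: rs') hlen hmem hreg' y hy hyreg
    have hne : Ideal.span {y} ≠ ⊤ := by
      intro h
      have : (1 : A) ∈ Ideal.span {y} := h ▸ Submodule.mem_top
      have h1 : (1 : A) ∈ maximalIdeal A :=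
        (Ideal.span_le.mpr (Set.singleton_subset_iff.mpr hy)) this
      exact (Ideal.ne_top_iff_one _).mp (maximalIdeal.isMaximal A).ne_top h1
    have : Nontrivial (A ⧸ Ideal.span {y}) := Ideal.Quotient.nontrivial_iff.mpr hne
    have : IsLocalRing (A ⧸ Ideal.span {y}) :=
      IsLocalRing.of_surjective' (Ideal.Quotient.mk (Ideal.span {y})) Ideal.Quotient.mk_surjective
    obtain ⟨t, ht, hts⟩ := exists_generators_quotient s hs y hy hy2
    have : Module.Finite (A ⧸ Ideal.span {y}) (QuotSMulTop y N) :=
      Module.Finite.of_restrictScalars_finite A _ _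
    have hfree : Module.Free (A ⧸ Ideal.span {y}) (QuotSMulTop y N) := by
      refine ih (A ⧸ Ideal.span {y}) (QuotSMulTop y N) t hts (by omega)
        (rs''.map (Ideal.Quotient.mk (Ideal.span {y}))) (by simp [hlen'']) ?_ ?_
      · intro z hz
        obtain ⟨a, ha, rfl⟩ := List.mem_map.mp hz
        rw [← map_mk_maximalIdeal]
        exact Ideal.mem_map_of_mem _ (hmem'' a ha)
      · exact (isWeaklyRegular_map_algebraMap_iff (A ⧸ Ideal.span {y}) _ rs'').mpr
          hreg''.toIsWeaklyRegular
    have hfp : Module.FinitePresentation A N := Module.finitePresentation_of_finite A N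
    exact (Module.free_quotSMulTop_iff_free A N (maximalIdeal_le_jacobson _ hy) hyreg).mp hfree

end Fermat.Agent.S57lib
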