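import Mathlib

set_option autoImplicit false

namespace Fermat.Agent.S57lib

open MvPowerSeries RingTheory.Sequence

variable {σ : Type*} {R : Type*} [CommRing R]

/-- Power series all of whose monomials involve a variable from `T`. -/
def varsIdeal (T : Set σ) : Ideal (MvPowerSeries σ R) where
  carrier := {f | ∀ m : σ →₀ ℕ, (∀ i ∈ T, m i = 0) → MvPowerSeries.coeff m f = 0}
  zero_mem' := by
    intro m _
    simp
  add_mem' := by
    intro f g hf hg m hm
    simp [hf m hm, hg m hm]
  smul_mem' := by
    classical
    intro c f hf m hm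
    rw [smul_eq_mul, MvPowerSeries.coeff_mul]
    apply Finset.sum_eq_zero
    rintro ⟨a, b⟩ hab
    have hab' : a + b = m := Finset.HasAntidiagonal.mem_antidiagonal.mp hab
    have hb : ∀ i ∈ T, b i = 0 := by
      intro i hi
      have h1 : (a + b) i = 0 := by rw [hab']; exact hm i hi
      rw [Finsupp.add_apply] at h1
      omega
    rw [hf b hb, mul_zero]

lemma mem_varsIdeal_iff (T : Set σ) (f : MvPowerSeries σ R) :
    f ∈ varsIdeal T ↔ ∀ m : σ →₀ ℕ, (∀ i ∈ T, m i = 0) → MvPowerSeries.coeff m f = 0 :=
  Iff.rfl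

lemma X_mem_varsIdeal {T : Set σ} {i : σ} (hi : i ∈ T) :
    (X i : MvPowerSeries σ R) ∈ varsIdeal T := by
  classical
  intro m hm
  rw [MvPowerSeries.coeff_X, if_neg]
  intro h
  have := hm i hi
  rw [h, Finsupp.single_eq_same] at this
  exact one_ne_zero this

lemma varsIdeal_mono {T T' : Set σ} (h : T ⊆ T') :
    (varsIdeal T : Ideal (MvPowerSeries σ R)) ≤ varsIdeal T' :=
  fun _ hf m hm => hf m fun i hi => hm i (h hi)

lemma varsIdeal_eq_span (T : Finset σ) :
    (varsIdeal (T : Set σ) : Ideal (MvPowerSeries σ R)) =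
      Ideal.span ((fun i => (X i : MvPowerSeries σ R)) '' (T : Set σ)) := by
  classical
  apply le_antisymm
  · induction T using Finset.induction_on with
    | empty =>
      intro f hf
      have : f = 0 := by
        ext m
        simpa using hf m (by simp)
      rw [this]
      exact Ideal.zero_mem _
    | insert i T' hi ih =>
      intro f hf
      let h : MvPowerSeries σ R := fun m => if m i = 0 then MvPowerSeries.coeff m f else 0
      have hcoeff : ∀ m, MvPowerSeries.coeff m h = if m i = 0 then MvPowerSeries.coeff m f else 0 :=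
        fun m => rfl
      have hh : h ∈ (varsIdeal (T' : Set σ) : Ideal (MvPowerSeries σ R)) := by
        intro m hm
        rw [hcoeff]
        split_ifs with hmi
        · apply hf m
          intro j hj
          rcases Finset.mem_insert.mp (Finset.mem_coe.mp hj) with rfl | hj'
          · exact hmi
          · exact hm j (Finset.mem_coe.mpr hj')
        · rfl
      have hdvd : (X i : MvPowerSeries σ R) ∣ f - h := by
        rw [MvPowerSeries.X_dvd_iff]
        intro m hmi
        rw [map_sub, hcoeff, if_pos hmi, sub_self]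
      obtain ⟨g, hg⟩ := hdvd
      have hf' : f = X i * g + h := by rw [← hg]; ring
      rw [hf']
      apply Ideal.add_mem
      · apply Ideal.mul_mem_right
        apply Ideal.subset_span
        exact ⟨i, by simp, rfl⟩
      · have := ih hh
        refine Ideal.span_mono ?_ this
        apply Set.image_mono
        simp
  · rw [Ideal.span_le]
    rintro _ ⟨i, hi, rfl⟩
    exact X_mem_varsIdeal hi

lemma mem_varsIdeal_of_X_mul_mem {T : Set σ} {i : σ} (hi : i ∉ T) {f : MvPowerSeries σ R}
    (h : X i * f ∈ varsIdeal T) : f ∈ varsIdeal T := by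
  classical
  intro m hm
  have h1 := h (Finsupp.single i 1 + m) (by
    intro j hj
    have hji : j ≠ i := fun e => hi (e ▸ hj)
    rw [Finsupp.add_apply, hm j hj, Finsupp.single_eq_of_ne hji])
  rw [MvPowerSeries.X_def, MvPowerSeries.coeff_add_monomial_mul, one_mul] at h1
  exact h1

lemma mem_varsIdeal_of_C_mul_mem {T : Set σ} {c : R} (hc : c ∈ nonZeroDivisors R)
    {f : MvPowerSeries σ R} (h : C c * f ∈ varsIdeal T) : f ∈ varsIdeal T := by
  intro m hm
  have h1 := h m hm
  rw [MvPowerSeries.coeff_C_mul] at h1
  exact (mul_left_mem_nonZeroDivisors_eq_zero_iff hc).mp h1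


lemma ofList_map_X_smul_top (l : List σ) :
    (Ideal.ofList (l.map fun i => (X i : MvPowerSeries σ R)) •
        (⊤ : Submodule (MvPowerSeries σ R) (MvPowerSeries σ R)))
      = varsIdeal {i | i ∈ l} := by
  classical
  rw [smul_eq_mul, Ideal.mul_top]
  have : {i | i ∈ l} = ((l.toFinset : Finset σ) : Set σ) := by ext; simp
  rw [this, varsIdeal_eq_span]
  unfold Ideal.ofList
  congr 1
  ext x
  simp

lemma isWeaklyRegular_map_X (l : List σ) (hl : l.Nodup) :
    IsWeaklyRegular (MvPowerSeries σ R) (l.map fun i => (X i : MvPowerSeries σ R)) := by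
  rw [isWeaklyRegular_iff]
  intro i hi
  rw [isSMulRegular_quotient_iff_mem_of_smul_mem]
  intro f hf
  rw [← List.map_take, ofList_map_X_smul_top] at hf ⊢
  rw [List.getElem_map, smul_eq_mul] at hf
  have hi' : i < l.length := by simpa using hi
  refine mem_varsIdeal_of_X_mul_mem ?_ hf
  intro hmem
  change l[i] ∈ l.take i at hmem
  obtain ⟨j, hj, hje⟩ := List.mem_take_iff_getElem.mp hmem
  have hji : j < i := lt_of_lt_of_le hj (min_le_left _ _)
  have hjl : j < l.length := lt_trans hji hi'
  have := (List.Nodup.getElem_inj_iff hl (hi := hjl) (hj := hi')).mp hje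
  omega

lemma isWeaklyRegular_map_X_append_C (l : List σ) (hl : l.Nodup) {c : R}
    (hc : c ∈ nonZeroDivisors R) :
    IsWeaklyRegular (MvPowerSeries σ R)
      ((l.map fun i => (X i : MvPowerSeries σ R)) ++ [C c]) := by
  rw [isWeaklyRegular_append_iff]
  refine ⟨isWeaklyRegular_map_X l hl, ?_⟩
  rw [isWeaklyRegular_singleton_iff, isSMulRegular_quotient_iff_mem_of_smul_mem]
  intro f hf
  rw [ofList_map_X_smul_top] at hf ⊢
  rw [smul_eq_mul] at hf
  exact mem_varsIdeal_of_C_mul_mem hc hf

end Fermat.Agent.S57lib
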