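import Fermat.Prelude.Def_Algebra_PatchingDatum
import Fermat.Agent.S57_AB
import Fermat.Agent.S57_Vars

set_option autoImplicit false

namespace Fermat.Agent.S57lib

open MvPowerSeries RingTheory.Sequence IsLocalRing

variable {𝒪 : Type} [CommRing 𝒪] {r : ℕ} {R : Type} [CommRing R] [Algebra 𝒪 R]
  {M : Type} [AddCommGroup M] [Module R M]

/-- The coordinate map `c ↦ ∑ φ(c i) • b i`. -/
noncomputable def coordHom (L : Algebra.PatchingLevel 𝒪 r R M ⊥) :
    (Fin L.d → MvPowerSeries (Fin r) 𝒪) →+ L.N where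
  toFun c := ∑ i, L.φ (c i) • L.b i
  map_zero' := by simp
  map_add' c c' := by
    simp only [Pi.add_apply, map_add, add_smul, Finset.sum_add_distrib]

lemma coordHom_apply (L : Algebra.PatchingLevel 𝒪 r R M ⊥)
    (c : Fin L.d → MvPowerSeries (Fin r) 𝒪) :
    coordHom L c = ∑ i, L.φ (c i) • L.b i := rfl

lemma coordHom_bijective (L : Algebra.PatchingLevel 𝒪 r R M ⊥) :
    Function.Bijective (coordHom L) := by
  constructor
  · rw [injective_iff_map_eq_zero]
    intro c hc
    have := (L.b_rel c).mp hc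
    funext i
    simpa using this i
  · intro x
    obtain ⟨c, hc⟩ := L.b_span x
    exact ⟨c, hc.symm⟩

/-- The coordinate equivalence. -/
noncomputable def coordEquiv (L : Algebra.PatchingLevel 𝒪 r R M ⊥) :
    (Fin L.d → MvPowerSeries (Fin r) 𝒪) ≃+ L.N :=
  AddEquiv.ofBijective (coordHom L) (coordHom_bijective L)

lemma coordEquiv_smul (L : Algebra.PatchingLevel 𝒪 r R M ⊥)
    (f : MvPowerSeries (Fin r) 𝒪) (c : Fin L.d → MvPowerSeries (Fin r) 𝒪) :
    coordEquiv L (f • c) = L.φ f • coordEquiv L c := by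
  change coordHom L (f • c) = L.φ f • coordHom L c
  simp only [coordHom_apply, Pi.smul_apply, smul_eq_mul, map_mul, mul_smul, Finset.smul_sum]

lemma module_finite (L : Algebra.PatchingLevel 𝒪 r R M ⊥) :
    Module.Finite (MvPowerSeries (Fin r) 𝒪) L.N := by
  classical
  refine ⟨⟨Finset.univ.image L.b, ?_⟩⟩
  rw [eq_top_iff]
  intro x _
  obtain ⟨c, rfl⟩ := L.b_span x
  exact Submodule.sum_mem _ fun i _ =>
    Submodule.smul_mem _ _ (Submodule.subset_span (by simp))

/-- The regular sequence on `N`. -/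
lemma isWeaklyRegular_N [IsDomain 𝒪] (L : Algebra.PatchingLevel 𝒪 r R M ⊥) {ϖ : 𝒪} (hϖ : ϖ ≠ 0) :
    IsWeaklyRegular L.N
      ((((List.finRange r).map fun i => (X i : MvPowerSeries (Fin r) 𝒪)) ++ [C ϖ]).map L.φ) := by
  have h1 : IsWeaklyRegular (MvPowerSeries (Fin r) 𝒪)
      (((List.finRange r).map fun i => (X i : MvPowerSeries (Fin r) 𝒪)) ++ [C ϖ]) :=
    isWeaklyRegular_map_X_append_C _ (List.nodup_finRange r) (mem_nonZeroDivisors_of_ne_zero hϖ)
  have h2 : IsWeaklyRegular (Fin L.d → MvPowerSeries (Fin r) 𝒪)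
      (((List.finRange r).map fun i => (X i : MvPowerSeries (Fin r) 𝒪)) ++ [C ϖ]) := by
    have := h1.isWeaklyRegular_lTensor (M₂ := Fin L.d → MvPowerSeries (Fin r) 𝒪)
    exact (LinearEquiv.isWeaklyRegular_congr (TensorProduct.rid _ _) _).mp this
  refine (AddEquiv.isWeaklyRegular_congr (e := coordEquiv L) ?_).mp h2
  exact List.forall₂_map_right_iff.mpr (List.forall₂_same.mpr fun f _ c => coordEquiv_smul L f c)


lemma C_mem_maximalIdeal [IsLocalRing 𝒪] {ϖ : 𝒪} (hϖ : ¬ IsUnit ϖ) :
    (C ϖ : MvPowerSeries (Fin r) 𝒪) ∈ maximalIdeal (MvPowerSeries (Fin r) 𝒪) := by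
  rw [mem_maximalIdeal, mem_nonunits_iff, MvPowerSeries.isUnit_iff_constantCoeff,
    constantCoeff_C]
  exact hϖ

lemma X_mem_maximalIdeal [IsLocalRing 𝒪] (i : Fin r) :
    (X i : MvPowerSeries (Fin r) 𝒪) ∈ maximalIdeal (MvPowerSeries (Fin r) 𝒪) := by
  rw [mem_maximalIdeal, mem_nonunits_iff, MvPowerSeries.isUnit_iff_constantCoeff,
    constantCoeff_X]
  exact not_isUnit_zero

lemma exists_generators_maximalIdeal [IsDomain 𝒪] [IsDiscreteValuationRing 𝒪] {ϖ : 𝒪}
    (hϖ : Irreducible ϖ) :
    ∃ s : Finset (MvPowerSeries (Fin r) 𝒪),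
      Ideal.span (s : Set (MvPowerSeries (Fin r) 𝒪)) = maximalIdeal (MvPowerSeries (Fin r) 𝒪) ∧
        s.card ≤ r + 1 := by
  classical
  refine ⟨insert (C ϖ) (Finset.univ.image fun i : Fin r => X i), ?_, ?_⟩
  · apply le_antisymm
    · rw [Ideal.span_le]
      intro x hx
      simp only [Finset.coe_insert, Finset.coe_image, Finset.coe_univ, Set.image_univ,
        Set.mem_insert_iff, Set.mem_range] at hx
      rcases hx with rfl | ⟨i, rfl⟩
      · exact C_mem_maximalIdeal hϖ.not_isUnit
      · exact X_mem_maximalIdeal i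
    · intro f hf
      rw [mem_maximalIdeal, mem_nonunits_iff, MvPowerSeries.isUnit_iff_constantCoeff] at hf
      have h0 : constantCoeff f ∈ maximalIdeal 𝒪 := hf
      rw [hϖ.maximalIdeal_eq, Ideal.mem_span_singleton'] at h0
      obtain ⟨c, hc⟩ := h0
      have hg : f - C (constantCoeff f) ∈
          (varsIdeal ((Finset.univ : Finset (Fin r)) : Set (Fin r)) :
            Ideal (MvPowerSeries (Fin r) 𝒪)) := by
        intro m hm
        have : m = 0 := by
          ext i
          exact hm i (by simp)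
        subst this
        simp
      rw [varsIdeal_eq_span] at hg
      have hf' : f = C c * C ϖ + (f - C (constantCoeff f)) := by
        rw [← map_mul, hc]; ring
      rw [hf']
      apply Ideal.add_mem
      · apply Ideal.mul_mem_left
        apply Ideal.subset_span
        simp
      · refine Ideal.span_mono ?_ hg
        rintro _ ⟨i, _, rfl⟩
        simp
  · refine (Finset.card_insert_le _ _).trans ?_
    have : (Finset.univ.image fun i : Fin r => (X i : MvPowerSeries (Fin r) 𝒪)).card ≤ r := by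
      simpa using Finset.card_image_le (s := (Finset.univ : Finset (Fin r)))
        (f := fun i : Fin r => (X i : MvPowerSeries (Fin r) 𝒪))
    omega

lemma repr_mem_of_mem_smul_top {A : Type*} [CommRing A] {N : Type*} [AddCommGroup N]
    [Module A N] {ι : Type*} (B : Module.Basis ι A N) (𝔞 : Ideal A) {x : N}
    (hx : x ∈ 𝔞 • (⊤ : Submodule A N)) (j : ι) : B.repr x j ∈ 𝔞 := by
  refine Submodule.smul_induction_on hx ?_ ?_
  · intro a ha n _
    rw [map_smul, Finsupp.smul_apply, smul_eq_mul]
    exact Ideal.mul_mem_right _ _ ha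
  · intro x y hx hy
    rw [map_add, Finsupp.add_apply]
    exact Ideal.add_mem _ hx hy

theorem patching_conclusion [IsDomain 𝒪] [IsDiscreteValuationRing 𝒪] [Nontrivial M]
    (L : Algebra.PatchingLevel 𝒪 r R M ⊥) :
    Module.Free R M ∧ Module.annihilator R M = ⊥ ∧
      RingHom.ker L.ψ = Ideal.span (Set.range fun i : Fin r => L.φ (MvPowerSeries.X i)) := by
  classical
  obtain ⟨ϖ, hϖ⟩ := IsDiscreteValuationRing.exists_irreducible 𝒪
  have hRnt : Nontrivial R := Module.nontrivial R M
  have hNnt : Nontrivial L.N := L.π_surjective.nontrivial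
  have hNfin : Module.Finite (MvPowerSeries (Fin r) 𝒪) L.N := module_finite L
  have h𝔞ker : Ideal.span (Set.range fun i : Fin r => L.φ (MvPowerSeries.X i)) ≤
      RingHom.ker L.ψ := by
    rw [Ideal.span_le]
    rintro _ ⟨i, rfl⟩
    exact L.ψ_φ_X i
  have hker_ne : RingHom.ker (L.ψ : MvPowerSeries (Fin r) 𝒪 →+* R) ≠ ⊤ := RingHom.ker_ne_top _
  have hker_le : RingHom.ker (L.ψ : MvPowerSeries (Fin r) 𝒪 →+* R) ≤
      maximalIdeal (MvPowerSeries (Fin r) 𝒪) := le_maximalIdeal hker_ne
  obtain ⟨s, hs, hcard⟩ := exists_generators_maximalIdeal (r := r) hϖ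
  have hfree : Module.Free (MvPowerSeries (Fin r) 𝒪) L.N := by
    refine free_of_isWeaklyRegular (r + 1) _ L.N s hs hcard _ ?_ ?_
      (isWeaklyRegular_N L hϖ.ne_zero)
    · simp
    · intro x hx
      simp only [List.map_append, List.map_map, List.mem_append, List.mem_map,
        List.mem_finRange, true_and, Function.comp_apply, List.map_cons, List.map_nil,
        List.mem_singleton] at hx
      rcases hx with ⟨i, rfl⟩ | rfl
      · exact hker_le (L.ψ_φ_X i)
      · have : L.φ (C ϖ) = C ϖ := by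
          have h1 : (C ϖ : MvPowerSeries (Fin r) 𝒪) = algebraMap 𝒪 _ ϖ := by
            rw [MvPowerSeries.algebraMap_apply]; rfl
          rw [h1, L.φ.commutes]
        rw [this]
        exact C_mem_maximalIdeal hϖ.not_isUnit
  let B := Module.Free.chooseBasis (MvPowerSeries (Fin r) 𝒪) L.N
  have hιne : Nonempty (Module.Free.ChooseBasisIndex (MvPowerSeries (Fin r) 𝒪) L.N) :=
    B.index_nonempty
  -- key: a finite combination mapping to zero has coefficients in the ideal
  have key : ∀ (t : Finset (Module.Free.ChooseBasisIndex (MvPowerSeries (Fin r) 𝒪) L.N))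
      (a : Module.Free.ChooseBasisIndex (MvPowerSeries (Fin r) 𝒪) L.N → MvPowerSeries (Fin r) 𝒪),
      L.π (∑ i ∈ t, a i • B i) = 0 → ∀ i ∈ t, a i ∈
        Ideal.span (Set.range fun i : Fin r => L.φ (MvPowerSeries.X i)) := by
    intro t a h0 i hi
    have hmem := (L.ker_π _).mp h0
    have := repr_mem_of_mem_smul_top B _ hmem i
    simpa [Finsupp.single_apply, hi] using this
  have hπsum : ∀ (t : Finset (Module.Free.ChooseBasisIndex (MvPowerSeries (Fin r) 𝒪) L.N))
      (a : Module.Free.ChooseBasisIndex (MvPowerSeries (Fin r) 𝒪) L.N → MvPowerSeries (Fin r) 𝒪),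
      L.π (∑ i ∈ t, a i • B i) = ∑ i ∈ t, L.ψ (a i) • L.π (B i) := by
    intro t a
    rw [map_sum]
    exact Finset.sum_congr rfl fun i _ => L.π_smul _ _
  have hli : LinearIndependent R (fun i => L.π (B i)) := by
    rw [linearIndependent_iff']
    intro t g hg i hi
    choose a ha using fun i => L.ψ_surjective (g i)
    have h0 : L.π (∑ i ∈ t, a i • B i) = 0 := by
      rw [hπsum, ← hg]
      exact Finset.sum_congr rfl fun i _ => by rw [ha]
    have := h𝔞ker (key t a h0 i hi)
    rw [RingHom.mem_ker] at this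
    rw [← ha i]
    exact this
  have hspan : ⊤ ≤ Submodule.span R (Set.range fun i => L.π (B i)) := by
    intro m _
    obtain ⟨x, rfl⟩ := L.π_surjective m
    have hx : x = ∑ i ∈ (B.repr x).support, (B.repr x) i • B i := by
      conv_lhs => rw [← B.linearCombination_repr x]
      rw [Finsupp.linearCombination_apply, Finsupp.sum]
    rw [hx, hπsum]
    exact Submodule.sum_mem _ fun i _ =>
      Submodule.smul_mem _ _ (Submodule.subset_span ⟨i, rfl⟩)
  refine ⟨Module.Free.of_basis (Module.Basis.mk hli hspan), ?_, ?_⟩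
  · rw [eq_bot_iff]
    intro c hc
    rw [Module.mem_annihilator] at hc
    obtain ⟨i⟩ := hιne
    have h1 := hc (L.π (B i))
    have := linearIndependent_iff'.mp hli {i} (fun _ => c) (by simpa using h1) i (by simp)
    simpa using this
  · apply le_antisymm _ h𝔞ker
    intro a ha
    rw [RingHom.mem_ker] at ha
    obtain ⟨i⟩ := hιne
    have h0 : L.π (∑ j ∈ ({i} : Finset _), (fun _ => a) j • B j) = 0 := by
      rw [hπsum]
      simp [ha]
    exact key {i} (fun _ => a) h0 i (by simp)

end Fermat.Agent.S57lib
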