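import Mathlib
import Fermat.Prelude.Def_ModularForm_HeckeOperator
import Fermat.Prelude.Sol.S_UpperHalfPlane_qCoeff_heckeT

/-!
# The form `t(z) = E₄(N z)` on `Γ₀(N)`

`tForm N : ModularForm (Gamma0 N) 4` with `tForm N τ = E₄ (N τ)`.
-/

set_option autoImplicit false

open UpperHalfPlane ModularForm CongruenceSubgroup Matrix.SpecialLinearGroup
open scoped MatrixGroups ModularForm Manifold Pointwise

namespace Fermat.Agent.TForm

noncomputable section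

/-- Restriction of a modular form to a smaller group. -/
def restrictLE {Γ Γ' : Subgroup (GL (Fin 2) ℝ)} {k : ℤ} (h : Γ' ≤ Γ) (f : ModularForm Γ k) :
    ModularForm Γ' k where
  toFun := f
  slash_action_eq' γ hγ := f.slash_action_eq' γ (h hγ)
  holo' := f.holo'
  bdd_at_cusps' hc := f.bdd_at_cusps' (hc.mono h)

@[simp] lemma coe_restrictLE {Γ Γ' : Subgroup (GL (Fin 2) ℝ)} {k : ℤ} (h : Γ' ≤ Γ)
    (f : ModularForm Γ k) : ⇑(restrictLE h f) = ⇑f := rfl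

variable (N : ℕ) [NeZero N]

lemma mapGL_apply_entry (A : SL(2, ℤ)) (i j : Fin 2) :
    ((mapGL ℝ A : GL (Fin 2) ℝ) : Matrix (Fin 2) (Fin 2) ℝ) i j = (A i j : ℝ) := by
  simp [mapGL_coe_matrix]

/-- For `γ ∈ Γ₀(N)` with `γ 1 0 = N c`, the conjugate `diag(N,1) γ diag(N,1)⁻¹` is the integral
matrix `[[a, N b], [c, d]]`. -/
def conjSL (γ : SL(2, ℤ)) (c : ℤ) (hc : γ 1 0 = N * c) : SL(2, ℤ) :=
  ⟨!![γ 0 0, N * γ 0 1; c, γ 1 1], by
    have hdet := γ.det_coe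
    rw [Matrix.det_fin_two] at hdet
    rw [Matrix.det_fin_two_of]
    rw [hc] at hdet
    linear_combination hdet⟩

lemma heckeDiag_mul_eq (γ : SL(2, ℤ)) (c : ℤ) (hc : γ 1 0 = N * c) :
    heckeDiagMatrix N * (mapGL ℝ γ) = (mapGL ℝ (conjSL N γ c hc)) * heckeDiagMatrix N := by
  have hN : N ≠ 0 := NeZero.ne N
  apply Units.ext
  rw [Units.val_mul, Units.val_mul, val_heckeDiagMatrix hN]
  have e00 : (conjSL N γ c hc) 0 0 = γ 0 0 := rfl
  have e01 : (conjSL N γ c hc) 0 1 = N * γ 0 1 := rfl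
  have e10 : (conjSL N γ c hc) 1 0 = c := rfl
  have e11 : (conjSL N γ c hc) 1 1 = γ 1 1 := rfl
  ext i j
  fin_cases i <;> fin_cases j <;>
    simp only [Matrix.mul_apply, Fin.sum_univ_two, mapGL_apply_entry, e00, e01, e10, e11, hc,
      Fin.zero_eta, Fin.mk_one, Fin.isValue, Matrix.of_apply, Matrix.cons_val', Matrix.cons_val_zero,
      Matrix.cons_val_one, Matrix.cons_val_fin_one, Matrix.empty_val', Matrix.cons_val_fin_one] <;>
    push_cast <;> ring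

lemma gamma0_le_conj :
    ((Gamma0 N : Subgroup SL(2, ℤ)) : Subgroup (GL (Fin 2) ℝ)) ≤
      ConjAct.toConjAct (heckeDiagMatrix N)⁻¹ • (𝒮ℒ : Subgroup (GL (Fin 2) ℝ)) := by
  intro g hg
  obtain ⟨γ, hγ, rfl⟩ := Subgroup.mem_map.mp hg
  rw [Subgroup.mem_pointwise_smul_iff_inv_smul_mem, ← map_inv, inv_inv, ConjAct.toConjAct_smul]
  have hdvd : (N : ℤ) ∣ γ 1 0 := by
    rw [Gamma0_mem] at hγ
    exact (ZMod.intCast_zmod_eq_zero_iff_dvd _ _).mp hγ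
  obtain ⟨c, hc⟩ := hdvd
  rw [heckeDiag_mul_eq N γ c hc, mul_inv_cancel_right]
  exact ⟨conjSL N γ c hc, rfl⟩

/-- `N³ E₄(N z)` as a modular form on `Γ₀(N)`. -/
def tForm₀ : ModularForm (Gamma0 N) 4 :=
  restrictLE (gamma0_le_conj N) (ModularForm.translate E₄ (heckeDiagMatrix N))

lemma tForm₀_apply (τ : ℍ) :
    tForm₀ N τ = (N : ℂ) ^ (3 : ℤ) * E₄ (heckeDiagMatrix N • τ) := by
  have hN : N ≠ 0 := NeZero.ne N
  show (⇑E₄ ∣[(4 : ℤ)] heckeDiagMatrix N) τ = _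
  rw [slash_heckeDiagMatrix_apply 4 hN]
  norm_num

/-- `t(z) = E₄(N z)` as a modular form on `Γ₀(N)`. -/
def tForm : ModularForm (Gamma0 N) 4 :=
  (((N : ℂ) ^ (3 : ℤ))⁻¹ : ℂ) • tForm₀ N

lemma tForm_apply (τ : ℍ) : tForm N τ = E₄ (heckeDiagMatrix N • τ) := by
  have hN : (N : ℂ) ≠ 0 := by exact_mod_cast NeZero.ne N
  show (((N : ℂ) ^ (3 : ℤ))⁻¹ : ℂ) • tForm₀ N τ = _
  rw [tForm₀_apply, smul_eq_mul, ← mul_assoc, inv_mul_cancel₀ (zpow_ne_zero _ hN), one_mul]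

end

end Fermat.Agent.TForm
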