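import Mathlib

/-!
# Decomposition `diag(N,1) · γ = δ · [[A, B], [0, D]]` for `γ ∈ SL(2,ℤ)`.
-/

set_option autoImplicit false

open Matrix.SpecialLinearGroup
open scoped MatrixGroups

namespace Fermat.Agent.TForm

lemma exists_decomp_aux (N a b c d : ℤ) (hNpos : 0 < N) (hdet : a * d - b * c = 1) :
    ∃ (δ : SL(2, ℤ)) (A B D : ℤ), 0 < A ∧ 0 < D ∧ A * D = N ∧ (D = 1 → N ∣ c) ∧
      N * a = δ 0 0 * A ∧ c = δ 1 0 * A ∧
      N * b = δ 0 0 * B + δ 0 1 * D ∧ d = δ 1 0 * B + δ 1 1 * D := by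
  have hN0 : N ≠ 0 := hNpos.ne'
  obtain ⟨g, hg⟩ : ∃ g : ℤ, g = (Int.gcd N c : ℤ) := ⟨_, rfl⟩
  have hgpos : 0 < g := by
    have : 0 < Int.gcd N c := Int.gcd_pos_of_ne_zero_left _ hN0
    rw [hg]
    exact_mod_cast this
  have hgN : g ∣ N := hg ▸ Int.gcd_dvd_left _ _
  have hgc : g ∣ c := hg ▸ Int.gcd_dvd_right _ _
  have hbez : g = N * Int.gcdA N c + c * Int.gcdB N c := hg ▸ Int.gcd_eq_gcd_ab N c
  obtain ⟨D, hD⟩ := hgN
  obtain ⟨c', hc'⟩ := hgc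
  have hDpos : 0 < D := by
    by_contra hneg
    have hneg' : D ≤ 0 := not_lt.mp hneg
    have : g * D ≤ 0 := mul_nonpos_of_nonneg_of_nonpos hgpos.le hneg'
    omega
  -- `D` and `c'` are coprime
  have hcop1 : IsCoprime D c' := by
    refine ⟨Int.gcdA N c, Int.gcdB N c, ?_⟩
    have h2 : g * (Int.gcdA N c * D + Int.gcdB N c * c') = g * 1 := by
      rw [mul_one]
      calc g * (Int.gcdA N c * D + Int.gcdB N c * c')
          = (g * D) * Int.gcdA N c + (g * c') * Int.gcdB N c := by ring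
        _ = N * Int.gcdA N c + c * Int.gcdB N c := by rw [← hD, ← hc']
        _ = g := hbez.symm
    exact mul_left_cancel₀ hgpos.ne' h2
  have hcop2 : IsCoprime a c' := ⟨d, -(b * g), by rw [hc'] at hdet; linear_combination hdet⟩
  have hcop : IsCoprime (D * a) c' := hcop1.mul_left hcop2
  obtain ⟨δ, hδ0, hδ1⟩ := hcop.exists_SL2_col 0
  have hδdet : δ 0 0 * δ 1 1 - δ 0 1 * δ 1 0 = 1 := by
    have := δ.det_coe
    rw [Matrix.det_fin_two] at this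
    exact this
  rw [hδ0, hδ1] at hδdet
  subst hD hc'
  refine ⟨δ, g, δ 1 1 * (g * D * b) - δ 0 1 * d, D, hgpos, hDpos, rfl, ?_, ?_, ?_, ?_, ?_⟩
  · intro hD1
    rw [hD1, mul_one]
    exact dvd_mul_right _ _
  · rw [hδ0]; ring
  · rw [hδ1]; ring
  · rw [hδ0]
    linear_combination (-(D * b * g)) * hδdet + (D * δ 0 1) * hdet
  · rw [hδ1]
    linear_combination (-d) * hδdet + (D * δ 1 1) * hdet

lemma exists_decomp (N : ℕ) [NeZero N] (γ : SL(2, ℤ)) :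
    ∃ (δ : SL(2, ℤ)) (A B D : ℤ), 0 < A ∧ 0 < D ∧ A * D = N ∧ (D = 1 → (N : ℤ) ∣ γ 1 0) ∧
      (N : ℤ) * γ 0 0 = δ 0 0 * A ∧ γ 1 0 = δ 1 0 * A ∧
      (N : ℤ) * γ 0 1 = δ 0 0 * B + δ 0 1 * D ∧ γ 1 1 = δ 1 0 * B + δ 1 1 * D := by
  have hNpos : (0 : ℤ) < N := by exact_mod_cast Nat.pos_of_ne_zero (NeZero.ne N)
  have hdet : γ 0 0 * γ 1 1 - γ 0 1 * γ 1 0 = 1 := by
    have := γ.det_coe
    rw [Matrix.det_fin_two] at this
    exact this
  exact exists_decomp_aux N _ _ _ _ hNpos hdet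

end Fermat.Agent.TForm
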