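import Fermat.Agent.TForm_Basic
import Fermat.Prelude.Thm_CongruenceSubgroup_one_mem_strictPeriods_Gamma0

/-!
# q-expansion of `t(z) = E₄(N z)`: coefficients are integers.
-/

set_option autoImplicit false

open UpperHalfPlane ModularForm CongruenceSubgroup Matrix.SpecialLinearGroup
open scoped MatrixGroups ModularForm Manifold Pointwise

namespace Fermat.Agent.TForm

noncomputable section

open P2MW.S_UpperHalfPlane_qCoeff_heckeT.M4cP1W2 in
lemma hasSum_tForm (N : ℕ) [NeZero N] (τ : ℍ) :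
    HasSum (fun n : ℕ => (if N ∣ n then (qExpansion 1 E₄).coeff (n / N) else 0) •
      Function.Periodic.qParam 1 τ ^ n) (tForm N τ) := by
  have hN : N ≠ 0 := NeZero.ne N
  have hNC : ((N : ℂ) ^ ((4 : ℤ) - 1)) ≠ 0 := zpow_ne_zero _ (by exact_mod_cast hN)
  have hper : Function.Periodic (⇑E₄ ∘ ofComplex) 1 := by
    have := SlashInvariantFormClass.periodic_comp_ofComplex E₄ one_mem_strictPeriods_SL
    simpa using this
  have h := hasSum_diag hN hper (ModularFormClass.holo E₄) (ModularFormClass.bdd_at_infty E₄) 4 τ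
  have h2 := h.mul_left (((N : ℂ) ^ ((4 : ℤ) - 1))⁻¹)
  rw [← mul_assoc, inv_mul_cancel₀ hNC, one_mul, ← tForm_apply] at h2
  have hfun : (fun n : ℕ => (if N ∣ n then (qExpansion 1 E₄).coeff (n / N) else 0) •
      Function.Periodic.qParam 1 τ ^ n) = (fun i =>
      (((N : ℂ) ^ ((4 : ℤ) - 1))⁻¹ *
        if N ∣ i then (N : ℂ) ^ ((4 : ℤ) - 1) * ModularFormClass.qCoeff (⇑E₄) (i / N) *
          Function.Periodic.qParam 1 ↑τ ^ i else 0)) := by
    funext n
    by_cases hn : N ∣ n
    · simp only [if_pos hn, smul_eq_mul, ModularFormClass.qCoeff]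
      field_simp
    · simp [if_neg hn]
  rw [hfun]
  exact h2

lemma qExpansion_tForm_coeff (N : ℕ) [NeZero N] (n : ℕ) :
    (qExpansion 1 (tForm N)).coeff n =
      if N ∣ n then (qExpansion 1 E₄).coeff (n / N) else 0 :=
  (ModularFormClass.qExpansion_coeff_unique (f := tForm N) one_pos
    (one_mem_strictPeriods_Gamma0 N) (hasSum_tForm N) n).symm

lemma E₄_coeff_int (m : ℕ) : ∃ z : ℤ, (qExpansion 1 E₄).coeff m = (z : ℂ) := by
  have h := EisensteinSeries.E_qExpansion_coeff (k := 4) (by norm_num) ⟨2, rfl⟩ m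
  by_cases hm : m = 0
  · refine ⟨1, ?_⟩
    rw [h, if_pos hm]; simp
  · refine ⟨240 * (ArithmeticFunction.sigma 3 m : ℤ), ?_⟩
    rw [h, if_neg hm]
    have hb : bernoulli 4 = -1 / 30 := by decide +kernel
    rw [hb]
    push_cast
    norm_num

lemma qExpansion_tForm_coeff_int (N : ℕ) [NeZero N] (n : ℕ) :
    ∃ m : ℤ, (qExpansion 1 (tForm N)).coeff n = (m : ℂ) := by
  rw [qExpansion_tForm_coeff]
  by_cases hn : N ∣ n
  · rw [if_pos hn]; exact E₄_coeff_int _
  · rw [if_neg hn]; exact ⟨0, by simp⟩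

end

end Fermat.Agent.TForm
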