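import Fermat.Agent.TForm_QExp
import Fermat.Agent.TForm_Decomp

/-!
# `t(z) = E₄(N z)` separates the cosets of `Γ₀(N)` in `SL(2,ℤ)`.
-/

set_option autoImplicit false

open UpperHalfPlane ModularForm CongruenceSubgroup Matrix.SpecialLinearGroup Filter Topology
open scoped MatrixGroups ModularForm Manifold Pointwise

namespace Fermat.Agent.TForm

noncomputable section

lemma tendsto_of_qExpansion {f : ℍ → ℂ} (hper : Function.Periodic (f ∘ ofComplex) 1)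
    (hhol : MDiff f) (hbdd : IsBoundedAtImInfty f) :
    Tendsto f atImInfty (𝓝 ((qExpansion 1 f).coeff 0)) := by
  have han := analyticAt_cuspFunction_zero one_pos hper hhol hbdd
  have h0 : (qExpansion 1 f).coeff 0 = cuspFunction 1 f 0 := by simp [qExpansion_coeff]
  rw [h0]
  have hcomp : (cuspFunction 1 f ∘ fun τ : ℍ ↦ Function.Periodic.qParam 1 τ) = f := by
    funext τ
    simpa using eq_cuspFunction τ one_ne_zero hper
  have ht := han.continuousAt.tendsto.comp (qParam_tendsto_atImInfty one_pos)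
  rwa [hcomp] at ht

lemma tendsto_E₄ : Tendsto (⇑E₄) atImInfty (𝓝 1) := by
  have hper : Function.Periodic (⇑E₄ ∘ ofComplex) 1 := by
    have := SlashInvariantFormClass.periodic_comp_ofComplex E₄ one_mem_strictPeriods_SL
    simpa using this
  have h := tendsto_of_qExpansion hper (ModularFormClass.holo E₄) (ModularFormClass.bdd_at_infty E₄)
  rwa [EisensteinSeries.E_qExpansion_coeff_zero (by norm_num) ⟨2, rfl⟩] at h

section UpperTriangular

lemma ut_ne_zero {a d : ℝ} (ha : 0 < a) (hd : 0 < d) : a * d ≠ 0 := (mul_pos ha hd).ne'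

lemma ut_one_zero (a b d : ℝ) (ha : 0 < a) (hd : 0 < d) :
    ((upperTriangularGL a b d (ut_ne_zero ha hd) : GL (Fin 2) ℝ) :
      Matrix (Fin 2) (Fin 2) ℝ) 1 0 = 0 := by
  simp [val_upperTriangularGL]

lemma ut_det (a b d : ℝ) (ha : 0 < a) (hd : 0 < d) :
    ((upperTriangularGL a b d (ut_ne_zero ha hd)).det : ℝ) = a * d := by
  rw [Matrix.GeneralLinearGroup.val_det_apply, val_upperTriangularGL, Matrix.det_fin_two_of]
  ring

lemma ut_denom (a b d : ℝ) (ha : 0 < a) (hd : 0 < d) (τ : ℍ) :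
    UpperHalfPlane.denom (upperTriangularGL a b d (ut_ne_zero ha hd)) τ = d := by
  simp [UpperHalfPlane.denom, val_upperTriangularGL]

lemma ut_σ (a b d : ℝ) (ha : 0 < a) (hd : 0 < d) :
    UpperHalfPlane.σ (upperTriangularGL a b d (ut_ne_zero ha hd)) = .refl ℝ ℂ := by
  rw [UpperHalfPlane.σ, if_pos]
  rw [ut_det a b d ha hd]
  exact mul_pos ha hd

lemma ut_slash_apply (a b d : ℝ) (ha : 0 < a) (hd : 0 < d) (k : ℤ) (f : ℍ → ℂ) (τ : ℍ) :
    (f ∣[k] upperTriangularGL a b d (ut_ne_zero ha hd)) τ =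
      f (upperTriangularGL a b d (ut_ne_zero ha hd) • τ) * ((a * d : ℝ) : ℂ) ^ (k - 1) *
        ((d : ℝ) : ℂ) ^ (-k) := by
  rw [ModularForm.slash_apply, ut_σ a b d ha hd, ut_det a b d ha hd, ut_denom a b d ha hd]
  simp only [ContinuousAlgEquiv.refl_apply]
  rw [abs_of_pos (mul_pos ha hd)]

end UpperTriangular

/-- The key computation: `t ∣ γ = D⁻⁴ · E₄ ∘ β` for a suitable upper triangular `β`. -/
lemma exists_slash_eq (N : ℕ) [NeZero N] (γ : SL(2, ℤ)) :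
    ∃ (D : ℤ) (β : GL (Fin 2) ℝ), 0 < D ∧ (D = 1 → (N : ℤ) ∣ γ 1 0) ∧
      (β : Matrix (Fin 2) (Fin 2) ℝ) 1 0 = 0 ∧
      ∀ τ : ℍ, ((⇑(tForm N)) ∣[(4 : ℤ)] γ) τ = ((D : ℂ) ^ 4)⁻¹ * E₄ (β • τ) := by
  obtain ⟨δ, A, B, D, hA, hD, hAD, hD1, h00, h10, h01, h11⟩ := exists_decomp N γ
  have hA' : (0 : ℝ) < A := by exact_mod_cast hA
  have hD' : (0 : ℝ) < D := by exact_mod_cast hD
  have hN : N ≠ 0 := NeZero.ne N
  have hNC : (N : ℂ) ≠ 0 := by exact_mod_cast hN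
  set β : GL (Fin 2) ℝ := upperTriangularGL (A : ℝ) (B : ℝ) (D : ℝ) (ut_ne_zero hA' hD')
    with hβ
  refine ⟨D, β, hD, hD1, ut_one_zero _ _ _ hA' hD', fun τ => ?_⟩
  -- the matrix identity
  have hmat : heckeDiagMatrix N * (mapGL ℝ γ) = (mapGL ℝ δ) * β := by
    apply Units.ext
    rw [Units.val_mul, Units.val_mul, val_heckeDiagMatrix hN, hβ, val_upperTriangularGL]
    have e00 : ((N : ℝ)) * (γ 0 0 : ℝ) = (δ 0 0 : ℝ) * A := by exact_mod_cast h00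
    have e10 : ((γ 1 0 : ℤ) : ℝ) = (δ 1 0 : ℝ) * A := by exact_mod_cast h10
    have e01 : ((N : ℝ)) * (γ 0 1 : ℝ) = (δ 0 0 : ℝ) * B + (δ 0 1 : ℝ) * D := by
      exact_mod_cast h01
    have e11 : ((γ 1 1 : ℤ) : ℝ) = (δ 1 0 : ℝ) * B + (δ 1 1 : ℝ) * D := by exact_mod_cast h11
    ext i j
    fin_cases i <;> fin_cases j
    · simp only [Matrix.mul_apply, Fin.sum_univ_two, mapGL_apply_entry,
        Fin.zero_eta, Fin.mk_one, Fin.isValue, Matrix.of_apply, Matrix.cons_val',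
        Matrix.cons_val_zero, Matrix.cons_val_one, Matrix.cons_val_fin_one, Matrix.empty_val']
      linear_combination e00
    · simp only [Matrix.mul_apply, Fin.sum_univ_two, mapGL_apply_entry,
        Fin.zero_eta, Fin.mk_one, Fin.isValue, Matrix.of_apply, Matrix.cons_val',
        Matrix.cons_val_zero, Matrix.cons_val_one, Matrix.cons_val_fin_one, Matrix.empty_val']
      linear_combination e01
    · simp only [Matrix.mul_apply, Fin.sum_univ_two, mapGL_apply_entry,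
        Fin.zero_eta, Fin.mk_one, Fin.isValue, Matrix.of_apply, Matrix.cons_val',
        Matrix.cons_val_zero, Matrix.cons_val_one, Matrix.cons_val_fin_one, Matrix.empty_val']
      linear_combination e10
    · simp only [Matrix.mul_apply, Fin.sum_univ_two, mapGL_apply_entry,
        Fin.zero_eta, Fin.mk_one, Fin.isValue, Matrix.of_apply, Matrix.cons_val',
        Matrix.cons_val_zero, Matrix.cons_val_one, Matrix.cons_val_fin_one, Matrix.empty_val']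
      linear_combination e11
  -- rewrite the slash action
  have hfun : (⇑(tForm N) : ℍ → ℂ) = (((N : ℂ) ^ (3 : ℤ))⁻¹ : ℂ) • (⇑E₄ ∣[(4 : ℤ)] heckeDiagMatrix N) :=
    rfl
  have hinv : (⇑E₄ : ℍ → ℂ) ∣[(4 : ℤ)] (mapGL ℝ δ : GL (Fin 2) ℝ) = ⇑E₄ :=
    SlashInvariantFormClass.slash_action_eq E₄ _ ⟨δ, rfl⟩
  have hsl : (⇑E₄ ∣[(4 : ℤ)] heckeDiagMatrix N) ∣[(4 : ℤ)] γ = ⇑E₄ ∣[(4 : ℤ)] β := by
    have h1 : (⇑E₄ ∣[(4 : ℤ)] heckeDiagMatrix N) ∣[(4 : ℤ)] γ =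
        (⇑E₄ ∣[(4 : ℤ)] heckeDiagMatrix N) ∣[(4 : ℤ)] (mapGL ℝ γ : GL (Fin 2) ℝ) := rfl
    rw [h1, ← SlashAction.slash_mul, hmat, SlashAction.slash_mul, hinv]
  rw [hfun, SL_smul_slash, hsl]
  rw [Pi.smul_apply, smul_eq_mul, hβ, ut_slash_apply _ _ _ hA' hD']
  have hADC : ((A : ℝ) * (D : ℝ) : ℝ) = (N : ℝ) := by exact_mod_cast hAD
  have hDC : ((D : ℝ) : ℂ) ≠ 0 := by exact_mod_cast hD.ne'
  rw [hADC]
  push_cast
  have hDC' : ((D : ℤ) : ℂ) ≠ 0 := by exact_mod_cast hD.ne'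
  have hN3 : ((N : ℂ)) ^ (3 : ℤ) ≠ 0 := zpow_ne_zero _ hNC
  have e2 : ((D : ℂ)) ^ (-4 : ℤ) = ((D : ℂ) ^ 4)⁻¹ := by
    rw [zpow_neg]; norm_cast
  rw [e2]
  field_simp

theorem tForm_slash_ne (N : ℕ) [NeZero N] (γ : SL(2, ℤ)) (hγ : γ ∉ Gamma0 N) :
    (⇑(tForm N)) ∣[(4 : ℤ)] γ ≠ ⇑(tForm N) := by
  intro heq
  obtain ⟨D, β, hD, hD1, hβ, hslash⟩ := exists_slash_eq N γ
  -- limit of the right-hand side
  have h1 : Tendsto (⇑(tForm N)) atImInfty (𝓝 1) := by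
    have : (⇑(tForm N) : ℍ → ℂ) = (⇑E₄) ∘ (fun τ => heckeDiagMatrix N • τ) := by
      funext τ; exact tForm_apply N τ
    rw [this]
    exact tendsto_E₄.comp (tendsto_smul_atImInfty
      (P2MW.S_UpperHalfPlane_qCoeff_heckeT.M4cP1W2.heckeDiagMatrix_one_zero N))
  -- limit of the left-hand side
  have h2 : Tendsto ((⇑(tForm N)) ∣[(4 : ℤ)] γ) atImInfty (𝓝 (((D : ℂ) ^ 4)⁻¹ * 1)) := by
    have : ((⇑(tForm N)) ∣[(4 : ℤ)] γ) = fun τ => ((D : ℂ) ^ 4)⁻¹ * ((⇑E₄) ∘ (fun τ => β • τ)) τ := by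
      funext τ; exact hslash τ
    rw [this]
    exact (tendsto_E₄.comp (tendsto_smul_atImInfty hβ)).const_mul _
  rw [heq, mul_one] at h2
  have h3 : (1 : ℂ) = ((D : ℂ) ^ 4)⁻¹ := tendsto_nhds_unique h1 h2
  have hDne : (D : ℂ) ^ 4 ≠ 0 := pow_ne_zero _ (by exact_mod_cast hD.ne')
  have h4 : (D : ℂ) ^ 4 = 1 := inv_eq_one.mp h3.symm
  have h5 : D ^ 4 = 1 := by exact_mod_cast h4
  have h6 : D = 1 := by
    rcases (pow_eq_one_iff_of_ne_zero (by norm_num : (4 : ℕ) ≠ 0)).mp h5 with h | ⟨h, -⟩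
    · exact h
    · omega
  apply hγ
  rw [Gamma0_mem]
  exact (ZMod.intCast_zmod_eq_zero_iff_dvd _ _).mpr (hD1 h6)

end

end Fermat.Agent.TForm
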